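import Fermat.Agent.ML.Low.Blocks

/-!
# ML / Low / Lower : the theorem `lower` of the section LOWER, on two `Prop` contracts

* `SqStmt p T θ`   (contract (A) = [SQ], owner helper53) : `W(L') = 0`, `W(L' q) = 0`  ⟹  `W(L' q²) = 0`   (`L'` rigid, `q ∤ L'`, `q ≠ p`);
* `GenStmtB p T θ rbar0` (contract (GEN) for LOWER-B) : for a minimal squarefree `M` and `Rs` = the primes `q ∣ M`, `q ≠ p`, at which `rbar0` is
  unramified: `∃ t C₀, ∀ n, ∃ qv`, Taylor-Wiles primes (`MTW`) with `GenOutB` at the top level;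
* `lowerB` : (B) : `M` odd, squarefree, minimal  ⟹  `rbar0` is ramified at every `q ∣ M`, `q ≠ p`;
* `lower`  : `W(M₁ * 4) ≠ 0`, `M₁` odd, cube free, `p² ∤ M₁`  ⟹  there is `M ∣ M₁` squarefree, MINIMAL for divisibility with `W(M * 4) ≠ 0`, and
  `rbar0` is ramified at every `q ∣ M`, `q ≠ p`.
All the `W`'s are `WS _ p ↑T θ`; `MCtx.WS_eq` (`ML/Low/Blocks.lean`) replaces `T` by any finite `S ⊇ T`.
-/

set_option autoImplicit false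

noncomputable section

open AlgebraicCurve ModularCurve Module

namespace Fermat.Agent.ML.Low

open Fermat.Agent.RIB

local notation "Qbar" => AlgebraicClosure ℚ
local notation "GQ" => (AlgebraicClosure ℚ ≃ₐ[ℚ] AlgebraicClosure ℚ)
local notation "M₂" => Matrix (Fin 2) (Fin 2)

/-- transport along an equality of levels. -/
theorem WS_eq_bot_congr {L L' : ℕ} [NeZero L] [NeZero L'] (h : L = L') (p : ℕ) (S : Set ℕ)
    (θ : ℕ → ℤ) : WS L p S θ = ⊥ ↔ WS L' p S θ = ⊥ := by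
  subst h
  exact Iff.rfl

/-- **contract (A) = [SQ]**. -/
def SqStmt (p : ℕ) (T : Finset ℕ) (θ : ℕ → ℤ) : Prop :=
  ∀ (L' q : ℕ) [NeZero L'] [NeZero q], q.Prime → q ≠ p → 4 ∣ L' → ¬ q ∣ L' →
    (∀ r : ℕ, r.Prime → r ∣ L' * q * p → r ∈ T) →
    WS L' p (↑T : Set ℕ) θ = ⊥ → WS (L' * q) p (↑T : Set ℕ) θ = ⊥ →
    WS (L' * q * q) p (↑T : Set ℕ) θ = ⊥

/-- **contract (GEN) for LOWER-B**. -/
def GenStmtB (p : ℕ) [Fact p.Prime] (T : Finset ℕ) (θ : ℕ → ℤ) (rbar0 : GQ →* M₂ (ZMod p)) : Prop :=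
  ∀ (M : ℕ) [NeZero M], Odd M → Squarefree M → (∀ r : ℕ, r.Prime → r ∣ M * 4 * p → r ∈ T) →
    WS (M * 4) p (↑T : Set ℕ) θ ≠ ⊥ →
    (∀ (M' : ℕ) [NeZero M'], M' ∣ M → M' ≠ M → WS (M' * 4) p (↑T : Set ℕ) θ = ⊥) →
    ∀ Rs : Finset Nat.Primes,
      (∀ q : Nat.Primes, q ∈ Rs ↔ (q : ℕ) ∣ M ∧ (q : ℕ) ≠ p ∧ ¬ Ram rbar0 (q : ℕ)) →
    ∃ t C₀ : ℕ, ∀ n : ℕ, ∃ qv : Fin t → Nat.Primes, MTW p T θ (M * 4) t n qv ∧
      GenOutB (lvl (M * 4) (extP qv) t) p (↑(cutS T qv) : Set ℕ) θ rbar0 t Rs C₀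

variable {p : ℕ} [Fact p.Prime] {T : Finset ℕ} {θ : ℕ → ℤ} {rbar0 : GQ →* M₂ (ZMod p)}

/-- **LOWER (B)** -/
theorem lowerB (EC : MCtx p T θ rbar0) (hB : GenStmtB p T θ rbar0) {M : ℕ} [NeZero M]
    (hodd : Odd M) (hsq : Squarefree M) (hlev : ∀ r : ℕ, r.Prime → r ∣ M * 4 * p → r ∈ T)
    (hM : WS (M * 4) p (↑T : Set ℕ) θ ≠ ⊥)
    (hmin : ∀ (M' : ℕ) [NeZero M'], M' ∣ M → M' ≠ M → WS (M' * 4) p (↑T : Set ℕ) θ = ⊥) :
    ∀ q : ℕ, q.Prime → q ∣ M → q ≠ p → Ram rbar0 q := by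
  classical
  have hM0 : M ≠ 0 := NeZero.ne M
  set Rs : Finset Nat.Primes :=
    (M.primeFactors.filter (fun q => q ≠ p ∧ ¬ Ram rbar0 q)).subtype Nat.Prime with hRs
  have hmem : ∀ q : Nat.Primes, q ∈ Rs ↔ (q : ℕ) ∣ M ∧ (q : ℕ) ≠ p ∧ ¬ Ram rbar0 (q : ℕ) := by
    intro q
    have h0 : q ∈ Rs ↔ (q : ℕ) ∈ M.primeFactors.filter (fun q => q ≠ p ∧ ¬ Ram rbar0 q) :=
      Finset.mem_subtype
    rw [h0, Finset.mem_filter, Nat.mem_primeFactors]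
    exact ⟨fun h => ⟨h.1.2.1, h.2⟩, fun h => ⟨⟨q.2, h.1, hM0⟩, h.2⟩⟩
  intro q hq hqM hqp
  by_contra hnr
  have hne : Rs.Nonempty := ⟨⟨q, hq⟩, (hmem _).2 ⟨hqM, hqp, hnr⟩⟩
  obtain ⟨t, C₀, h⟩ := hB M hodd hsq hlev hM hmin Rs hmem
  obtain ⟨qv, TC, hgen⟩ := h (nBoundB p t M C₀)
  refine midB EC TC ?_ hne ?_ hgen le_rfl
  · rw [EC.WS_eq (subset_cutS T qv) hlev]
    exact hM
  · intro q' hq'
    obtain ⟨h1, h2, h3⟩ := (hmem q').1 hq'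
    obtain ⟨M', hM'⟩ := h1
    have hM'0 : M' ≠ 0 := by rintro rfl; exact hM0 (by rw [hM', mul_zero])
    have : NeZero M' := ⟨hM'0⟩
    have hM'd : M' ∣ M := ⟨q', by rw [hM', mul_comm]⟩
    have hM'ne : M' ≠ M := by
      intro h
      have h1 : (q' : ℕ) * M' = 1 * M' := by rw [one_mul, ← hM', h]
      exact q'.2.one_lt.ne' (Nat.eq_of_mul_eq_mul_right (Nat.pos_of_ne_zero hM'0) h1)
    refine ⟨?_, h2, h3, M', inferInstance, by rw [hM', mul_comm], ?_, ?_⟩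
    · intro h
      have h5 : 2 ∣ M := h ▸ (⟨M', hM'⟩ : (q' : ℕ) ∣ M)
      exact (Nat.not_even_iff_odd.2 hodd) (even_iff_two_dvd.2 h5)
    · intro hd
      have : (q' : ℕ) * (q' : ℕ) ∣ M := by rw [hM']; exact Nat.mul_dvd_mul_left _ hd
      exact q'.2.one_lt.ne' (Nat.isUnit_iff.1 (hsq _ this))
    · rw [EC.WS_eq (subset_cutS T qv) (fun r hr hd => hlev r hr
        (hd.trans (Nat.mul_dvd_mul_right (Nat.mul_dvd_mul_right hM'd 4) p)))]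
      exact hmin M' hM'd hM'ne

/-- **LOWER** -/
theorem lower (EC : MCtx p T θ rbar0) (hA : SqStmt p T θ) (hB : GenStmtB p T θ rbar0)
    {M₁ : ℕ} [NeZero M₁] (hodd : Odd M₁) (hp2 : ¬ p ^ 2 ∣ M₁)
    (h3 : ∀ q : ℕ, q.Prime → q ≠ p → ¬ q ^ 3 ∣ M₁)
    (hlev : ∀ r : ℕ, r.Prime → r ∣ M₁ * 4 * p → r ∈ T)
    (h : WS (M₁ * 4) p (↑T : Set ℕ) θ ≠ ⊥) :
    ∃ (M : ℕ) (_ : NeZero M), M ∣ M₁ ∧ Squarefree M ∧ WS (M * 4) p (↑T : Set ℕ) θ ≠ ⊥ ∧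
      (∀ (M' : ℕ) [NeZero M'], M' ∣ M → M' ≠ M → WS (M' * 4) p (↑T : Set ℕ) θ = ⊥) ∧
      ∀ q : ℕ, q.Prime → q ∣ M → q ≠ p → Ram rbar0 q := by
  classical
  have hex : ∃ M : ℕ, M ∣ M₁ ∧ ∃ _ : NeZero M, WS (M * 4) p (↑T : Set ℕ) θ ≠ ⊥ :=
    ⟨M₁, dvd_rfl, inferInstance, h⟩
  obtain ⟨M, ⟨hMd, hM0, hM⟩, hmin'⟩ : ∃ M : ℕ,
      (M ∣ M₁ ∧ ∃ _ : NeZero M, WS (M * 4) p (↑T : Set ℕ) θ ≠ ⊥) ∧
      ∀ M' : ℕ, M' < M → ¬ (M' ∣ M₁ ∧ ∃ _ : NeZero M', WS (M' * 4) p (↑T : Set ℕ) θ ≠ ⊥) :=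
    ⟨Nat.find hex, Nat.find_spec hex, fun M' h => Nat.find_min hex h⟩
  have hmin : ∀ (M' : ℕ) [NeZero M'], M' ∣ M → M' ≠ M → WS (M' * 4) p (↑T : Set ℕ) θ = ⊥ := by
    intro M' _ hd hne
    by_contra hc
    have hlt : M' < M := lt_of_le_of_ne (Nat.le_of_dvd (Nat.pos_of_ne_zero (NeZero.ne M)) hd) hne
    exact hmin' M' hlt ⟨hd.trans hMd, inferInstance, hc⟩
  have hoddM : Odd M := by
    rcases Nat.even_or_odd M with he | ho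
    · exact absurd ((even_iff_two_dvd.1 he).trans hMd)
        (fun h2 => (Nat.not_even_iff_odd.2 hodd) (even_iff_two_dvd.2 h2))
    · exact ho
  have hlevM : ∀ r : ℕ, r.Prime → r ∣ M * 4 * p → r ∈ T := fun r hr hd =>
    hlev r hr (hd.trans (Nat.mul_dvd_mul_right (Nat.mul_dvd_mul_right hMd 4) p))
  have hsq : Squarefree M := by
    rw [Nat.squarefree_iff_prime_squarefree]
    intro q hq hqq
    obtain ⟨M'', hM''⟩ := hqq
    have hM''0 : M'' ≠ 0 := by rintro rfl; exact (NeZero.ne M) (by rw [hM'', mul_zero])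
    have : NeZero M'' := ⟨hM''0⟩
    have : NeZero q := ⟨hq.ne_zero⟩
    have hqp : q ≠ p := by
      rintro rfl
      exact hp2 (Dvd.dvd.trans (⟨M'', by rw [hM'', pow_two]⟩ : q ^ 2 ∣ M) hMd)
    have hq2 : q ≠ 2 := by
      rintro rfl
      exact (Nat.not_even_iff_odd.2 hoddM)
        (even_iff_two_dvd.2 ⟨2 * M'', by rw [hM'']; ring⟩)
    have hqM'' : ¬ q ∣ M'' := by
      rintro ⟨c, hc⟩
      exact h3 q hq hqp (Dvd.dvd.trans (⟨c, by rw [hM'', hc]; ring⟩ : q ^ 3 ∣ M) hMd)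
    have hq1 : 1 < q := hq.one_lt
    have e0 : WS (M'' * 4) p (↑T : Set ℕ) θ = ⊥ := by
      refine hmin M'' ⟨q * q, by rw [hM'', mul_comm]⟩ ?_
      intro he
      have h5 : q * q * M'' = 1 * M'' := by rw [one_mul, ← hM'', he]
      have h6 := Nat.eq_of_mul_eq_mul_right (Nat.pos_of_ne_zero hM''0) h5
      nlinarith
    have e1 : WS (M'' * 4 * q) p (↑T : Set ℕ) θ = ⊥ := by
      rw [WS_eq_bot_congr (show M'' * 4 * q = (M'' * q) * 4 by ring)]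
      refine hmin (M'' * q) ⟨q, by rw [hM'']; ring⟩ ?_
      intro he
      have h4 : M'' * q = q * q * M'' := he.trans hM''
      have h5 : q * (M'' * q) = 1 * (M'' * q) := by
        rw [one_mul]
        conv_rhs => rw [h4]
        ring
      have h6 := Nat.eq_of_mul_eq_mul_right
        (Nat.pos_of_ne_zero (mul_ne_zero hM''0 hq.ne_zero)) h5
      omega
    have e2 := hA (M'' * 4) q hq hqp (Dvd.intro_left _ rfl) (fun hd => by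
      rcases (Nat.Prime.dvd_mul hq).1 hd with hd | hd
      · exact hqM'' hd
      · have h5 : q ∣ 2 ^ 2 := by norm_num; exact hd
        exact hq2 ((Nat.prime_dvd_prime_iff_eq hq Nat.prime_two).1 (hq.dvd_of_dvd_pow h5)))
      (fun r hr hd => hlevM r hr (hd.trans (Nat.mul_dvd_mul_right
        ⟨q, by rw [hM'']; ring⟩ p))) e0 e1
    rw [WS_eq_bot_congr (show M'' * 4 * q * q = M * 4 by rw [hM'']; ring)] at e2
    exact hM e2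
  exact ⟨M, hM0, hMd, hsq, hM, hmin, lowerB EC hB hoddM hsq hlevM hM hmin⟩

end Fermat.Agent.ML.Low
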