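import Fermat.Agent.ML.Main.Ctx

/-!
# ML / Low / Step : `MTW.mem_cutS`, `MStep.hS'`, `MTW.step`   (port of `RIB/Main/{Ctx,Step}.lean` to `MTW`, `MStep`: no `hpL`)
-/

set_option autoImplicit false

noncomputable section

open AlgebraicCurve ModularCurve

namespace Fermat.Agent.ML

open Fermat.Agent.RIB

local notation "Qbar" => AlgebraicClosure ℚ
local notation "GQ" => (AlgebraicClosure ℚ ≃ₐ[ℚ] AlgebraicClosure ℚ)
local notation "M₂" => Matrix (Fin 2) (Fin 2)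

/-- every prime of the level `lvl L₀ (extP qv) i` (and `p`) is in `cutS T qv`. -/
theorem MTW.mem_cutS {p : ℕ} {T : Finset ℕ} {θ : ℕ → ℤ} {L₀ t n : ℕ}
    {qv : Fin t → Nat.Primes} (h : MTW p T θ L₀ t n qv) (i : ℕ) {r : ℕ} (hr : r.Prime)
    (hd : r ∣ lvl L₀ (extP qv) i * p) : r ∈ cutS T qv := by
  induction i with
  | zero => exact subset_cutS T qv (h.lev r hr hd)
  | succ i ih =>
    rw [lvl_succ] at hd
    have h3 : r ∣ (lvl L₀ (extP qv) i * p) * (extP qv i * extP qv i) := by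
      have : lvl L₀ (extP qv) i * extP qv i * extP qv i * p
          = (lvl L₀ (extP qv) i * p) * (extP qv i * extP qv i) := by ring
      rwa [this] at hd
    rcases (Nat.Prime.dvd_mul hr).1 h3 with h4 | h4
    · exact ih h4
    · have h5 : r ∣ extP qv i := by
        rcases (Nat.Prime.dvd_mul hr).1 h4 with h | h <;> exact h
      unfold extP at h5
      split_ifs at h5 with hi
      · rw [(Nat.prime_dvd_prime_iff_eq hr (qv ⟨i, hi⟩).2).1 h5]
        exact mem_cutS_qv T qv _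
      · exact absurd (Nat.dvd_one.1 h5) hr.one_lt.ne'

theorem MStep.hS' {p : ℕ} {T : Finset ℕ} {θ : ℕ → ℤ} {S : Finset ℕ} {L l ν : ℕ}
    (h : MStep p T θ S L l ν) :
    ∀ r : ℕ, r.Prime → r ∉ (↑S : Set ℕ) → ¬ r ∣ L * l * l * p :=
  fun r hr hrS hd => hrS (Finset.mem_coe.2 (h.hS r hr hd))

/-- the `i`-th step of the tower. -/
theorem MTW.step {p : ℕ} [Fact p.Prime] {T : Finset ℕ} {θ : ℕ → ℤ} {L₀ t n : ℕ}
    {qv : Fin t → Nat.Primes} (h : MTW p T θ L₀ t n qv) {i : ℕ} (hi : i < t) :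
    MStep p T θ (cutS T qv) (lvl L₀ (extP qv) i) (extP qv i) (nuP p qv ⟨i, hi⟩) := by
  have he : extP qv i = ((qv ⟨i, hi⟩ : Nat.Primes) : ℕ) := extP_of_lt qv ⟨i, hi⟩
  have h1 : ((qv ⟨i, hi⟩ : Nat.Primes) : ℕ) - 1 ≠ 0 := by
    have := (qv ⟨i, hi⟩).2.two_le
    omega
  have hndvd : ∀ {r : ℕ}, r.Prime → r ∉ T → (∀ j : Fin t, (j : ℕ) < i → r ≠ ((qv j : Nat.Primes) : ℕ)) →
      ¬ r ∣ lvl L₀ (extP qv) i := by
    intro r hr hrT hrj hd
    rcases dvd_lvl_cases_lt i hr hd with h' | ⟨j, hj, hrj'⟩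
    · exact hrT (h.lev r hr (Dvd.dvd.mul_right h' p))
    · exact hrj j hj hrj'
  refine
    { hl := he ▸ (qv ⟨i, hi⟩).2
      hlT := he ▸ h.notT ⟨i, hi⟩
      hTS := subset_cutS T qv
      hlL := ?_
      rigid := h.rigid.trans (dvd_lvl _ _ _)
      hS := fun r hr hd => h.mem_cutS (i + 1) hr hd
      hν := ?_
      hdvd := ?_
      hex := ?_
      disc := he ▸ h.disc ⟨i, hi⟩ }
  · rw [he]
    refine hndvd (qv ⟨i, hi⟩).2 (h.notT _) fun j hj hjj => ?_
    have : (⟨i, hi⟩ : Fin t) = j := h.inj (Subtype.ext hjj)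
    rw [← this] at hj
    exact lt_irrefl _ hj
  · have h2 := (padicValNat_dvd_iff_le h1).1 (h.pow ⟨i, hi⟩)
    unfold nuP
    omega
  · rw [he]; exact pow_padicValNat_dvd
  · rw [he]; exact pow_succ_padicValNat_not_dvd h1

end Fermat.Agent.ML
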