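import Fermat.Agent.RIB.End

/-!
# ML / Low / End : the abstract contradiction of RIB (`end_false`) for an arbitrary family of LOCAL BLOCKS

`k` a field, `R` a local commutative `k`-algebra, `V` a finite dimensional `k`-space which is an `R`-module.

* `Slice k V J C d` : "the block `J` costs `C K^d`" : for every `R`-submodule `U` of `V` on which every `t ∈ m` satisfies `t^K = 0`,
  `dim U ≤ C K^d dim U[J]`.
* `Slice.sup` : blocks multiply;   `slice_range` : `g` free variables cost `K^g`;   `slice_pow` : bounded nilpotents cost a constant;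
  `slice_hard` : the hard block of RIB (`N, S, ε`, (KEY)) costs `2 K^2` (instead of `K^3`);
* `end_blocks` : `m ≤ J ⊔ m²`, `Slice k V J C d`, `d < r`, (GROW), (CTRL-ii), (CTRL-iii), `n > C (e1 r p)^d e2`  ⟹  `False`.
-/

set_option autoImplicit false

namespace Fermat.Agent.ML

open Module IsLocalRing Fermat.Agent.RIB

section

variable (k : Type*) [Field k] {R : Type*} [CommRing R] [Algebra k R] [IsLocalRing R]
  (V : Type*) [AddCommGroup V] [Module k V] [Module R V] [IsScalarTower k R V]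

/-- the block `J` costs `C K^d`. -/
def Slice (J : Ideal R) (C d : ℕ) : Prop :=
  ∀ (U : Submodule R V) (K : ℕ), (∀ t ∈ maximalIdeal R, ∀ u ∈ U, t ^ K • u = 0) →
    finrank k ↥(U.restrictScalars k) ≤ C * K ^ d * finrank k ↥((U ⊓ tors V J).restrictScalars k)

variable {k V}

theorem Slice.sup {J J' : Ideal R} {C C' d d' : ℕ} (h : Slice k V J C d) (h' : Slice k V J' C' d') :
    Slice k V (J ⊔ J') (C * C') (d + d') := by
  intro U K hK
  have h1 := h U K hK
  have h2 := h' (U ⊓ tors V J) K (fun t ht u hu => hK t ht u hu.1)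
  rw [tors_sup, ← inf_assoc]
  calc finrank k ↥(U.restrictScalars k)
      ≤ C * K ^ d * (C' * K ^ d' * finrank k ↥((U ⊓ tors V J ⊓ tors V J').restrictScalars k)) :=
        h1.trans (Nat.mul_le_mul_left _ h2)
    _ = _ := by rw [pow_add]; ring

theorem slice_bot : Slice k V (⊥ : Ideal R) 1 0 := by
  intro U K _
  have : U ⊓ tors V (⊥ : Ideal R) = U := by
    refine inf_eq_left.2 fun u _ => mem_tors.2 fun t ht => ?_
    rw [(Submodule.mem_bot R).1 ht, zero_smul]
  rw [this]
  simp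

theorem Slice.mono {J : Ideal R} {C C' d d' : ℕ} (h : Slice k V J C d) (hC : C ≤ C') (hd : d ≤ d') :
    Slice k V J C' d' := by
  intro U K hK
  rcases Nat.eq_zero_or_pos K with rfl | hK0
  · -- `t ^ 0 • u = 0` : `U = ⊥` as soon as `m` is non empty
    have hU : ∀ u ∈ U, u = 0 := fun u hu => by
      have := hK 0 (Ideal.zero_mem _) u hu
      rwa [pow_zero, one_smul] at this
    have : Subsingleton ↥(U.restrictScalars k) :=
      ⟨fun a b => Subtype.ext ((hU a.1 a.2).trans (hU b.1 b.2).symm)⟩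
    rw [Module.finrank_zero_of_subsingleton]
    exact Nat.zero_le _
  · exact (h U K hK).trans (Nat.mul_le_mul_right _
      (Nat.mul_le_mul hC (Nat.pow_le_pow_right hK0 hd)))

variable [FiniteDimensional k V]

/-- `g` free variables. -/
theorem slice_range {ι : Type*} [Fintype ι] (x : ι → R) (hx : ∀ i, x i ∈ maximalIdeal R) :
    Slice k V (Ideal.span (Set.range x)) 1 (Fintype.card ι) := by
  intro U K hK
  rw [one_mul]
  exact finrank_le_pow_mul_tors (k := k) x K U fun i => hK _ (hx i)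

/-- variables which are nilpotent of bounded order `Q` on `V`. -/
theorem slice_pow {ι : Type*} [Fintype ι] (x : ι → R) (Q : ℕ) (hx : ∀ i (v : V), x i ^ Q • v = 0) :
    Slice k V (Ideal.span (Set.range x)) (Q ^ Fintype.card ι) 0 := by
  intro U K _
  rw [pow_zero, mul_one]
  exact finrank_le_pow_mul_tors (k := k) x Q U fun i u _ => hx i u

/-- the hard block of RIB. -/
theorem slice_hard (Φ : Matrix (Fin 2) (Fin 2) R →ₐ[R] Module.End R V) (h2 : IsUnit (2 : R))
    (N S : Matrix (Fin 2) (Fin 2) R) (ε : R) (hε : ε * ε = 1)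
    (hS : ∀ a b, (S - ε • (1 : Matrix (Fin 2) (Fin 2) R)) a b ∈ maximalIdeal R)
    (hNm : ∀ a b, N a b ∈ maximalIdeal R) (hNN : N * N = 0) (hdet : (1 + N).det = 1)
    (key : ∀ x : V, Φ N x = 0 → Φ (S * S) x = x) :
    Slice k V (entryIdeal N ⊔ entryIdeal (S - ε • (1 : Matrix (Fin 2) (Fin 2) R))) 2 2 := by
  intro U K hK
  have h := cnt (k := k) (s := 1) (g := 0) (fun _ => N 0 0) (fun _ => N 0 1) (fun _ => N 1 0)
    (fun i => i.elim0) (fun _ => (trace_det_eq_zero_of_sq N hNN hdet).2) U K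
    (fun _ => hK _ (hNm 0 1)) (fun _ => hK _ (hNm 1 0)) (fun i => i.elim0)
  have e : K ^ (2 * 1 + 0) * 2 ^ 1 = 2 * K ^ 2 := by ring
  rw [e] at h
  refine h.trans (Nat.mul_le_mul_left _ (Submodule.finrank_mono ?_))
  intro u hu
  obtain ⟨⟨⟨⟨hU, hb⟩, hc⟩, ha⟩, _⟩ := hu
  have hNu : ∀ a b, N a b • u = 0 := by
    intro a b
    have h00 := mem_tors_span_range.1 ha 0
    have h01 := mem_tors_span_range.1 hb 0
    have h10 := mem_tors_span_range.1 hc 0
    fin_cases a <;> fin_cases b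
    · exact h00
    · exact h01
    · exact h10
    · show N 1 1 • u = 0
      rw [(trace_det_eq_zero_of_sq N hNN hdet).1, neg_smul]
      simpa using h00
  refine ⟨hU, ?_⟩
  rw [tors_sup]
  exact ⟨mem_tors_entryIdeal.2 hNu,
    mem_tors_entryIdeal.2 fun a b => star Φ h2 N S ε hε hS key hNu a b⟩

/-- the numerical contradiction. -/
theorem end_num_blocks (p n e0 e1 e2 r C d : ℕ) (hp : 2 ≤ p) (he0 : 1 ≤ e0) (hd : d < r)
    (hn : C * (e1 * r * p) ^ d * e2 < n)
    (h : e0 * ((p - 1) * p ^ (n - 1)) ^ r ≤ C * (e1 * (r * p ^ n)) ^ d * e2) : False := by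
  set P := p ^ (n - 1) with hP
  have hP0 : 0 < P := Nat.pow_pos (by omega)
  have hpn : p ^ n = p * P := by
    rw [hP, ← pow_succ']
    congr 1
    omega
  have h1 : P ^ r ≤ e0 * ((p - 1) * P) ^ r := by
    calc P ^ r ≤ ((p - 1) * P) ^ r :=
          Nat.pow_le_pow_left (Nat.le_mul_of_pos_left _ (by omega)) _
      _ ≤ e0 * ((p - 1) * P) ^ r := Nat.le_mul_of_pos_left _ he0
  have h2 : C * (e1 * (r * p ^ n)) ^ d * e2 = P ^ d * (C * (e1 * r * p) ^ d * e2) := by
    rw [hpn, show e1 * (r * (p * P)) = (e1 * r * p) * P by ring, mul_pow]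
    ring
  obtain ⟨s, hs⟩ : ∃ s, r = d + (s + 1) := ⟨r - d - 1, by omega⟩
  have h3 : P ^ d * P ^ (s + 1) ≤ P ^ d * (C * (e1 * r * p) ^ d * e2) := by
    rw [← h2, ← pow_add, ← hs]
    exact h1.trans h
  have h4 : P ^ (s + 1) ≤ C * (e1 * r * p) ^ d * e2 :=
    Nat.le_of_mul_le_mul_left h3 (Nat.pow_pos hP0)
  have h5 : n ≤ P ^ (s + 1) := by
    have a1 : n - 1 < 2 ^ (n - 1) := Nat.lt_two_pow_self
    have a2 : 2 ^ (n - 1) ≤ P := Nat.pow_le_pow_left hp _
    have a3 : P ≤ P ^ (s + 1) := Nat.le_self_pow (by omega) P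
    omega
  omega

/-- **(END) for blocks.** -/
theorem end_blocks {J : Ideal R} {C d r : ℕ} (hJ : Slice k V J C d)
    (gen : maximalIdeal R ≤ J ⊔ maximalIdeal R ^ 2) (hd : d < r)
    (p n e0 e1 e2 : ℕ) (hp : 2 ≤ p) (he0 : 1 ≤ e0)
    (y : Fin r → R) (ν : Fin r → ℕ) (hν : ∀ i, n ≤ ν i) (hy : ∀ i (v : V), y i ^ (p ^ ν i) • v = 0)
    (grow : e0 * ∏ i, ((p - 1) * p ^ (ν i - 1)) ≤ finrank k V)
    (ctrl2 : ∀ t ∈ maximalIdeal R, ∀ w : V, (∀ i, y i • w = 0) → t ^ e1 • w = 0)
    (ctrl3 : finrank k ↥((tors V (maximalIdeal R)).restrictScalars k) ≤ e2)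
    (hn : C * (e1 * r * p) ^ d * e2 < n) : False := by
  have hn1 : 1 ≤ n := by omega
  have : Nonempty (Fin r) := ⟨⟨0, by omega⟩⟩
  have hlow := conc_lower (k := k) (V := V) (fun i => Algebra.lsmul k k V (y i))
    (fun i j => (Commute.all (y i) (y j)).map (Algebra.lsmul k k V)) p n e0 (by omega) hn1 ν hν
    (fun i => by
      rw [← map_pow]
      ext v
      exact hy i v) grow
  set Y : Submodule R V := tors V (Ideal.span (Set.range fun i => y i ^ (p ^ n))) with hY
  have e : (⨅ i, LinearMap.ker (Algebra.lsmul k k V (y i) ^ (p ^ n)) : Submodule k V)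
      = Y.restrictScalars k := by
    ext v
    simp only [Submodule.mem_iInf, LinearMap.mem_ker, Submodule.restrictScalars_mem, hY,
      mem_tors_span_range, ← map_pow]
    rfl
  rw [e, Fintype.card_fin] at hlow
  have hup := hJ Y (e1 * (r * p ^ n)) (fun t ht u hu => by
      have := nil_bound' (y := y) (t := t) (e := e1) (P := p ^ n) (Nat.pow_pos (by omega))
        (ctrl2 t ht) u (mem_tors_span_range.1 hu)
      rwa [Fintype.card_fin] at this)
  have h4 : (Y ⊓ tors V J).restrictScalars k ≤ (tors V (maximalIdeal R)).restrictScalars k :=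
    fun u (hu : u ∈ Y ⊓ tors V J) => tors_le_tors_maximalIdeal (k := k) J gen hu.2
  have h3 : finrank k ↥((Y ⊓ tors V J).restrictScalars k) ≤ e2 :=
    (Submodule.finrank_mono h4).trans ctrl3
  exact end_num_blocks p n e0 e1 e2 r C d hp he0 hd hn
    (hlow.trans (hup.trans (Nat.mul_le_mul_left _ h3)))

end

end Fermat.Agent.ML
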