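import Fermat.Agent.RIB.Rho.Diag
import Fermat.Agent.ML.Low.End

/-!
# ML / Low / Loc2Abs : the local block at the prime `2` (unrestricted deformations), abstract algebra

`R` a local ring, `F = ρ(φ)`, `g = ρ(τ)` (`φ` a Frobenius lift, `τ` a generator of the image of inertia at `2`):
`F g = g² F`, `det g = 1`, `det F = 2`, `tr g ≡ 2`.

* `loc2_zz`   : `z = tr g - 2` satisfies `z (z + 3) = 0`, hence `z² = 0` if `3 = 0` or `3` is a unit;
* `loc2_good` : `9 - (tr F)²` a unit  ⟹  `g = 1`;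
* `slice_three_lines` : `w = b c`, `w² = 0`, `b v, c v ∈ (w)`  ⟹  the ideal `(b, c, v)` costs `6 K`;
* `loc2_special` : `tr F ≡ 3 ε`, `g ≡ 1` : after a conjugation `F ≡ diag(2ε, ε)`, `g ≡ 1` modulo an ideal `(b, c, v)` which costs `6 K`.
-/

set_option autoImplicit false

namespace Fermat.Agent.ML.Low

open Module IsLocalRing Matrix Fermat.Agent.RIB

local notation "M₂" => Matrix (Fin 2) (Fin 2)

section CH

variable {R : Type*} [CommRing R]

theorem ch_two (X : M₂ R) : X * X = X.trace • X - X.det • (1 : M₂ R) := by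
  ext i j
  fin_cases i <;> fin_cases j <;>
    simp [Matrix.mul_apply, Fin.sum_univ_two, Matrix.trace_fin_two, Matrix.det_fin_two] <;> ring

theorem det_smul_sub_smul_one (X : M₂ R) (a b : R) :
    (a • X - b • (1 : M₂ R)).det = a ^ 2 * X.det - a * b * X.trace + b ^ 2 := by
  simp [Matrix.det_fin_two, Matrix.trace_fin_two]
  ring

theorem trace_sq_two (X : M₂ R) : (X * X).trace = X.trace ^ 2 - 2 * X.det := by
  simp [Matrix.mul_apply, Fin.sum_univ_two, Matrix.trace_fin_two, Matrix.det_fin_two]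
  ring

end CH

section Z

variable {R : Type*} [CommRing R]

/-- `z (z + 3) = 0`. -/
theorem loc2_z (h2 : IsUnit (2 : R)) (F g : M₂ R) (hdetg : g.det = 1) (hdetF : F.det = 2)
    (hrel : F * g = g ^ 2 * F) : (g.trace - 2) * (g.trace - 2 + 3) = 0 := by
  have h1 : F * g * F.adjugate = (2 : R) • (g * g) := by
    rw [hrel, mul_assoc, Matrix.mul_adjugate, hdetF, pow_two, mul_smul_comm, mul_one]
  have h3 : (F * g * F.adjugate).trace = 2 * g.trace := by
    rw [Matrix.trace_mul_comm, ← mul_assoc, Matrix.adjugate_mul, hdetF, smul_mul_assoc, one_mul,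
      Matrix.trace_smul, smul_eq_mul]
  rw [h1, Matrix.trace_smul, smul_eq_mul, trace_sq_two, hdetg] at h3
  have h4 := h2.mul_left_cancel h3
  linear_combination h4

variable [IsLocalRing R]

theorem isUnit_of_sub_mem_max {a b : R} (hb : IsUnit b) (h : a - b ∈ maximalIdeal R) : IsUnit a := by
  by_contra hnu
  have hum : a ∈ maximalIdeal R := (mem_maximalIdeal _).mpr hnu
  have h' := (maximalIdeal R).sub_mem hum h
  rw [sub_sub_cancel] at h'
  exact (mem_maximalIdeal _).mp h' hb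

/-- `z² = 0`. -/
theorem loc2_zz (h2 : IsUnit (2 : R)) (h3 : (3 : R) = 0 ∨ IsUnit (3 : R)) (F g : M₂ R)
    (hdetg : g.det = 1) (hdetF : F.det = 2) (hrel : F * g = g ^ 2 * F)
    (hz : g.trace - 2 ∈ maximalIdeal R) : (g.trace - 2) * (g.trace - 2) = 0 := by
  have h := loc2_z h2 F g hdetg hdetF hrel
  rcases h3 with h3 | h3
  · rw [h3, add_zero] at h
    exact h
  · have hu : IsUnit (g.trace - 2 + 3) := isUnit_of_sub_mem_max h3 (by simpa using hz)
    have h0 : g.trace - 2 = 0 := by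
      obtain ⟨u, hu'⟩ := hu
      rw [← hu'] at h
      exact (Units.mul_left_eq_zero u).1 h
    rw [h0, mul_zero]

/-- the good case : `g = 1`. -/
theorem loc2_good (h2 : IsUnit (2 : R)) (F g : M₂ R) (hdetg : g.det = 1) (hdetF : F.det = 2)
    (hrel : F * g = g ^ 2 * F) (hz : g.trace - 2 ∈ maximalIdeal R)
    (hgood : IsUnit (9 - F.trace ^ 2)) : g = 1 := by
  set t := g.trace with ht
  set s := F.trace with hs
  have hg2 : g ^ 2 = t • g - (1 : M₂ R) := by rw [pow_two, ch_two, hdetg, one_smul]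
  have hF2 : F * F = s • F - (2 : R) • (1 : M₂ R) := by rw [ch_two, hdetF]
  have hFg : F * g = t • (g * F) - F := by rw [hrel, hg2, sub_mul, one_mul, smul_mul_assoc]
  obtain ⟨X, hX⟩ : ∃ X : M₂ R, X = (t - 1) • g - 1 := ⟨_, rfl⟩
  have hFX : F * X = t • (X * F) := by
    rw [hX, mul_sub, mul_one, mul_smul_comm, hFg, sub_mul, one_mul, smul_mul_assoc]
    module
  have hFFX : F * F * X = (t * t) • (X * (F * F)) := by
    rw [mul_assoc, hFX, mul_smul_comm, ← mul_assoc, hFX, smul_mul_assoc, smul_smul, mul_assoc]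
  rw [hF2, sub_mul, mul_sub, smul_mul_assoc, smul_mul_assoc, one_mul, mul_smul_comm,
    mul_smul_comm, mul_one, hFX] at hFFX
  have hu1 : IsUnit (1 - t) := by
    have : IsUnit (-(1 : R)) := isUnit_one.neg
    refine isUnit_of_sub_mem_max this ?_
    have : 1 - t - -1 = -(t - 2) := by ring
    rw [this]
    exact neg_mem hz
  have h5 : (1 - t) • ((s * t) • (X * F) - (2 * (1 + t)) • X) = 0 := by
    have : (1 - t) • ((s * t) • (X * F) - (2 * (1 + t)) • X)
        = (s • t • (X * F) - (2 : R) • X) - (t * t) • (s • (X * F) - (2 : R) • X) := by module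
    rw [this, hFFX, sub_self]
  have h6 : (s * t) • (X * F) - (2 * (1 + t)) • X = 0 := by
    obtain ⟨u, hu⟩ := hu1
    have := congrArg (fun Y => ((u⁻¹ : Rˣ) : R) • Y) h5
    simp only [smul_zero, ← hu, smul_smul, Units.inv_mul, one_smul] at this
    exact this
  obtain ⟨G, hG⟩ : ∃ G : M₂ R, G = (s * t) • F - (2 * (1 + t)) • (1 : M₂ R) := ⟨_, rfl⟩
  have hXG : X * G = 0 := by
    rw [hG, mul_sub, mul_smul_comm, mul_smul_comm, mul_one]
    exact h6
  have hdG : G.det • X = 0 := by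
    have := congrArg (fun Y => Y * G.adjugate) hXG
    simp only [zero_mul, mul_assoc, Matrix.mul_adjugate, mul_smul_comm, mul_one] at this
    exact this
  have hGu : IsUnit G.det := by
    have h4 : IsUnit ((2 : R) * 2 * (9 - s ^ 2)) := (h2.mul h2).mul hgood
    refine isUnit_of_sub_mem_max h4 ?_
    rw [hG, det_smul_sub_smul_one, hdetF]
    have : (s * t) ^ 2 * 2 - s * t * (2 * (1 + t)) * s + (2 * (1 + t)) ^ 2 - 2 * 2 * (9 - s ^ 2)
        = (t - 2) * (4 * t + 16 - 2 * s ^ 2) := by ring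
    rw [this]
    exact Ideal.mul_mem_right _ _ hz
  have hX0 : X = 0 := by
    obtain ⟨u, hu⟩ := hGu
    have := congrArg (fun Y => ((u⁻¹ : Rˣ) : R) • Y) hdG
    simp only [smul_zero, ← hu, smul_smul, Units.inv_mul, one_smul] at this
    exact this
  have h7 : (t - 1) • g = 1 := sub_eq_zero.1 (hX ▸ hX0)
  have h8 : (t - 1) ^ 2 = 1 := by
    have := congrArg Matrix.det h7
    rw [Matrix.det_smul, hdetg, Matrix.det_one, mul_one, Fintype.card_fin] at this
    exact this
  have htu : IsUnit t := isUnit_of_sub_mem_max h2 hz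
  have h9 : t - 2 = 0 := by
    have : (t - 2) * t = 0 := by linear_combination h8
    obtain ⟨u, hu⟩ := htu
    rw [← hu] at this
    have h10 := (Units.mul_left_eq_zero u).1 this
    rw [hu] at h10
    exact h10
  have h10 : t - 1 = 1 := by linear_combination h9
  rw [h10, one_smul] at h7
  exact h7

end Z

section SliceLemmas

variable {k : Type*} [Field k] {R : Type*} [CommRing R] [Algebra k R] [IsLocalRing R]
  {V : Type*} [AddCommGroup V] [Module k V] [Module R V] [IsScalarTower k R V]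

theorem mem_tors_singleton {a : R} {x : V} : x ∈ tors V (Ideal.span {a}) ↔ a • x = 0 := by
  rw [mem_tors]
  constructor
  · intro h
    exact h a (Ideal.subset_span (Set.mem_singleton a))
  · intro h t ht
    obtain ⟨r, rfl⟩ := Ideal.mem_span_singleton'.1 ht
    rw [mul_smul, h, smul_zero]

variable [FiniteDimensional k V]

/-- rank-nullity for the multiplication by `a`. -/
theorem dim_le_add (a : R) (U U' : Submodule R V) (h : ∀ u ∈ U, a • u ∈ U') :
    finrank k ↥(U.restrictScalars k) ≤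
      finrank k ↥((U ⊓ tors V (Ideal.span {a})).restrictScalars k) +
        finrank k ↥(U'.restrictScalars k) := by
  let f : ↥(U.restrictScalars k) →ₗ[k] ↥(U'.restrictScalars k) :=
    { toFun := fun u => ⟨a • u.1, h u.1 u.2⟩
      map_add' := fun u u' => Subtype.ext (smul_add a u.1 u'.1)
      map_smul' := fun c u => Subtype.ext (smul_comm a c u.1) }
  have h1 := LinearMap.finrank_range_add_finrank_ker f
  have h2 : finrank k ↥(LinearMap.range f) ≤ finrank k ↥(U'.restrictScalars k) :=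
    Submodule.finrank_le _
  have h3 : finrank k ↥(LinearMap.ker f) ≤
      finrank k ↥((U ⊓ tors V (Ideal.span {a})).restrictScalars k) := by
    let j : ↥(LinearMap.ker f) →ₗ[k] ↥((U ⊓ tors V (Ideal.span {a})).restrictScalars k) :=
      { toFun := fun u => ⟨u.1.1, u.1.2, mem_tors_singleton.2 (congrArg Subtype.val u.2)⟩
        map_add' := fun _ _ => rfl
        map_smul' := fun _ _ => rfl }
    refine LinearMap.finrank_le_finrank_of_injective (f := j) fun u u' huu => ?_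
    have h5 : (j u).1 = (j u').1 := congrArg Subtype.val huu
    exact Subtype.ext (Subtype.ext h5)
  omega

theorem slice_single {a : R} (ha : a ∈ maximalIdeal R) : Slice k V (Ideal.span {a}) 1 1 := by
  have := slice_range (k := k) (V := V) (fun _ : Unit => a) (fun _ => ha)
  rwa [Set.range_const, Fintype.card_unit] at this

theorem slice_single_pow (a : R) (Q : ℕ) (ha : ∀ v : V, a ^ Q • v = 0) :
    Slice k V (Ideal.span {a}) Q 0 := by
  have := slice_pow (k := k) (V := V) (fun _ : Unit => a) Q (fun _ => ha)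
  rwa [Set.range_const, Fintype.card_unit, pow_one] at this

/-- **three lines** : `w = b c`, `w² = 0`, `b v, c v ∈ (w)`. -/
theorem slice_three_lines {b c v : R} (hb : b ∈ maximalIdeal R) (hc : c ∈ maximalIdeal R)
    (hv : v ∈ maximalIdeal R) (hww : (b * c) * (b * c) = 0) (hbv : ∃ r, b * v = r * (b * c))
    (hcv : ∃ r, c * v = r * (b * c)) :
    Slice k V (Ideal.span {b} ⊔ Ideal.span {c} ⊔ Ideal.span {v}) 6 1 := by
  intro U K hK
  obtain ⟨r, hr⟩ := hbv
  obtain ⟨r', hr'⟩ := hcv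
  set Tb := tors V (Ideal.span {b}) with hTb
  set Tc := tors V (Ideal.span {c}) with hTc
  set Tv := tors V (Ideal.span {v}) with hTv
  set Tw := tors V (Ideal.span {b * c}) with hTw
  have hJ : tors V (Ideal.span {b} ⊔ Ideal.span {c} ⊔ Ideal.span {v}) = Tb ⊓ Tc ⊓ Tv := by
    rw [tors_sup, tors_sup]
  rw [hJ]
  set Z := U ⊓ (Tb ⊓ Tc ⊓ Tv) with hZ
  set U₁ := U ⊓ Tw with hU₁
  have hK₁ : ∀ (U' : Submodule R V), U' ≤ U → ∀ t ∈ maximalIdeal R, ∀ u ∈ U', t ^ K • u = 0 :=
    fun U' hU' t ht u hu => hK t ht u (hU' hu)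
  have hU₁U : U₁ ≤ U := inf_le_left
  -- (i)
  have h1 := slice_single_pow (k := k) (V := V) (b * c) 2 (fun x => by
    rw [pow_two, hww, zero_smul]) U K hK
  rw [pow_zero, mul_one] at h1
  -- (ii)
  have h2 := dim_le_add (k := k) b U₁ (U₁ ⊓ Tc ⊓ Tv) (fun u hu => by
    have hw : (b * c) • u = 0 := mem_tors_singleton.1 hu.2
    refine ⟨⟨⟨U.smul_mem b hu.1, mem_tors_singleton.2 ?_⟩, mem_tors_singleton.2 ?_⟩,
      mem_tors_singleton.2 ?_⟩
    · rw [smul_comm, hw, smul_zero]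
    · rw [← mul_smul, mul_comm, hw]
    · rw [← mul_smul, mul_comm, hr, mul_smul, hw, smul_zero])
  -- (iii)
  have h3 := slice_single (k := k) (V := V) hb (U₁ ⊓ Tc ⊓ Tv) K
    (hK₁ _ ((inf_le_left.trans inf_le_left).trans hU₁U))
  have h3' : finrank k ↥((U₁ ⊓ Tc ⊓ Tv ⊓ Tb).restrictScalars k) ≤ finrank k ↥(Z.restrictScalars k) :=
    Submodule.finrank_mono fun u hu => ⟨hu.1.1.1.1, ⟨hu.2, hu.1.1.2⟩, hu.1.2⟩
  -- (iv)
  have h4 := dim_le_add (k := k) c (U₁ ⊓ Tb) (U₁ ⊓ Tb ⊓ Tv) (fun u hu => by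
    have hw : (b * c) • u = 0 := mem_tors_singleton.1 hu.1.2
    have hbu : b • u = 0 := mem_tors_singleton.1 hu.2
    refine ⟨⟨⟨U.smul_mem c hu.1.1, mem_tors_singleton.2 ?_⟩, mem_tors_singleton.2 ?_⟩,
      mem_tors_singleton.2 ?_⟩
    · rw [smul_comm, hw, smul_zero]
    · rw [smul_comm, hbu, smul_zero]
    · rw [← mul_smul, mul_comm, hr', mul_smul, hw, smul_zero])
  -- (v)
  have h5 := slice_single (k := k) (V := V) hv (U₁ ⊓ Tb ⊓ Tc) K
    (hK₁ _ ((inf_le_left.trans inf_le_left).trans hU₁U))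
  have h5' : finrank k ↥((U₁ ⊓ Tb ⊓ Tc ⊓ Tv).restrictScalars k) ≤ finrank k ↥(Z.restrictScalars k) :=
    Submodule.finrank_mono fun u hu => ⟨hu.1.1.1.1, ⟨hu.1.1.2, hu.1.2⟩, hu.2⟩
  -- (vi)
  have h6 := slice_single (k := k) (V := V) hc (U₁ ⊓ Tb ⊓ Tv) K
    (hK₁ _ ((inf_le_left.trans inf_le_left).trans hU₁U))
  have h6' : finrank k ↥((U₁ ⊓ Tb ⊓ Tv ⊓ Tc).restrictScalars k) ≤ finrank k ↥(Z.restrictScalars k) :=
    Submodule.finrank_mono fun u hu => ⟨hu.1.1.1.1, ⟨hu.1.1.2, hu.2⟩, hu.1.2⟩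
  rw [one_mul, pow_one] at h3 h5 h6
  have a3 := h3.trans (Nat.mul_le_mul_left K h3')
  have a5 := h5.trans (Nat.mul_le_mul_left K h5')
  have a6 := h6.trans (Nat.mul_le_mul_left K h6')
  rw [pow_one]
  nlinarith

/-- the commutative algebra of the special case, in an eigenbasis of `F`. -/
theorem loc2_special_alg (h2 : IsUnit (2 : R)) (h3 : (3 : R) = 0 ∨ IsUnit (3 : R))
    {A B x y b c ε : R} (hε : ε * ε = 1) (hAB : A * B = 2) (hB : B - ε ∈ maximalIdeal R)
    (hx : x - 1 ∈ maximalIdeal R) (hy : y - 1 ∈ maximalIdeal R)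
    (E11 : A * x = (x * x + b * c) * A) (E12 : A * b = (x * b + b * y) * B)
    (E21 : B * c = (c * x + y * c) * A) (E22 : B * y = (c * b + y * y) * B)
    (hdet : x * y - b * c = 1) :
    (b * c) * (b * c) = 0 ∧ (∃ r, b * (B - ε) = r * (b * c)) ∧ (∃ r, c * (B - ε) = r * (b * c)) ∧
      (∃ r, x - 1 = r * b) ∧ (∃ r, y - 1 = r * b) ∧ ∃ r, A - 2 * ε = r * (B - ε) := by
  have hAu : IsUnit A := isUnit_of_mul_isUnit_left (hAB ▸ h2)
  have hBu : IsUnit B := isUnit_of_mul_isUnit_right (hAB ▸ h2)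
  have hεu : IsUnit ε := IsUnit.of_mul_eq_one ε hε
  have hxu : IsUnit x := isUnit_of_sub_mem_max isUnit_one hx
  have e11 : x = x * x + b * c := hAu.mul_left_cancel (by linear_combination E11)
  have e22 : y = y * y + b * c := hBu.mul_left_cancel (by linear_combination E22)
  have hxy : x = y := by
    have h1 : (1 - x - y) * (x - y) = 0 := by linear_combination e11 - e22
    have hu : IsUnit (1 - x - y) := by
      refine isUnit_of_sub_mem_max isUnit_one.neg ?_
      have : 1 - x - y - -1 = -(x - 1) - (y - 1) := by ring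
      rw [this]
      exact sub_mem (neg_mem hx) hy
    have := hu.mul_left_cancel (h1.trans (mul_zero _).symm)
    exact sub_eq_zero.1 this
  subst hxy
  obtain ⟨xi, hxi⟩ := hxu.exists_right_inv
  obtain ⟨Bi, hBi⟩ := hBu.exists_right_inv
  obtain ⟨ti, hti⟩ := h2.exists_right_inv
  have hn : (2 * (x - 1) + 3) * (x - 1) = 0 := by linear_combination (-1 : R) * e11 + hdet
  have hw : b * c = -(x * (x - 1)) := by linear_combination (-1 : R) * e11
  have hnn : (x - 1) * (x - 1) = 0 := by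
    rcases h3 with h3 | h3
    · have h5 : (2 : R) * ((x - 1) * (x - 1)) = 2 * 0 := by linear_combination hn - (x - 1) * h3
      exact h2.mul_left_cancel h5
    · have hu : IsUnit (2 * (x - 1) + 3) :=
        isUnit_of_sub_mem_max h3 (by simpa using Ideal.mul_mem_left _ 2 hx)
      have h5 := hu.mul_left_cancel (hn.trans (mul_zero _).symm)
      rw [h5, mul_zero]
  have hn' : x - 1 = -xi * (b * c) := by linear_combination xi * hw - (x - 1) * hxi
  have hBε : IsUnit (B + ε) := by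
    refine isUnit_of_sub_mem_max (h2.mul hεu) ?_
    have : B + ε - 2 * ε = B - ε := by ring
    rw [this]
    exact hB
  obtain ⟨u1, hu1⟩ := hBε.exists_right_inv
  have hvε : IsUnit (B - ε - ε) := by
    refine isUnit_of_sub_mem_max hεu.neg ?_
    have : B - ε - ε - -ε = B - ε := by ring
    rw [this]
    exact hB
  obtain ⟨u2, hu2⟩ := hvε.exists_right_inv
  refine ⟨by rw [hw]; linear_combination (x * x) * hnn, ?_, ?_, ⟨-xi * c, by
    linear_combination hn'⟩, ⟨-xi * c, by linear_combination hn'⟩, ⟨-2 * ε * Bi, by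
    linear_combination Bi * hAB - (A - 2 * ε) * hBi - 2 * Bi * hε⟩⟩
  · -- `b (1 - x B²) = 0`
    have h5 : b * (1 - x * (B * B)) = 0 := by
      have : (2 : R) * (b * (1 - x * (B * B))) = 2 * 0 := by
        linear_combination B * E12 - b * hAB
      exact h2.mul_left_cancel this
    -- `b v (B + ε) = - b n B²`
    refine ⟨u1 * xi * B * B * b, ?_⟩
    linear_combination (-u1) * h5 - b * (B - ε) * hu1 + (-u1 * b * B * B) * hn' - (u1 * b) * hε
  · -- `c (B² - 4 x) = 0`
    have h5 : c * (B * B - 4 * x) = 0 := by linear_combination B * E21 + 2 * c * x * hAB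
    -- `c (v - ε) (v + 3 ε) = 4 c n`
    have h6 : c * ((B - ε - ε) * (B - ε + 3 * ε)) = -4 * c * xi * (b * c) := by
      linear_combination h5 + 4 * c * hn' - 4 * c * hε
    rcases h3 with h3 | h3
    · refine ⟨u2 * (-4 * c * xi), ?_⟩
      linear_combination u2 * h6 - c * (B - ε) * hu2 - u2 * c * (B - ε - ε) * ε * h3
    · have hu : IsUnit (B - ε + 3 * ε) :=
        isUnit_of_sub_mem_max (h3.mul hεu) (by simpa using hB)
      obtain ⟨u3, hu3⟩ := hu.exists_right_inv
      refine ⟨(B - ε) * u2 * u3 * (-4 * c * xi), ?_⟩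
      linear_combination (B - ε) * u2 * u3 * h6 - c * (B - ε) * hu2 * ((B - ε + 3 * ε) * u3)
        - c * (B - ε) * hu3

/-- **the special case** : `tr F ≡ 3 ε`, `g ≡ 1`. -/
theorem loc2_special (hnil : ∀ z ∈ maximalIdeal R, IsNilpotent z) (h2 : IsUnit (2 : R))
    (h3 : (3 : R) = 0 ∨ IsUnit (3 : R)) (F g : M₂ R) (hdetg : g.det = 1) (hdetF : F.det = 2)
    (hrel : F * g = g ^ 2 * F) (hg : ∀ i j, (g - 1) i j ∈ maximalIdeal R) (ε : R) (hε : ε * ε = 1)
    (htr : F.trace - 3 * ε ∈ maximalIdeal R) :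
    ∃ (Q Q' : M₂ R) (J : Ideal R), Q * Q' = 1 ∧ Q' * Q = 1 ∧ J ≤ maximalIdeal R ∧
      Slice k V J 6 1 ∧ (∀ i j, (Q' * F * Q - !![2 * ε, 0; 0, ε]) i j ∈ J) ∧
      ∀ i j, (Q' * g * Q - 1) i j ∈ J := by
  have hεu : IsUnit ε := IsUnit.of_mul_eq_one ε hε
  obtain ⟨A, B, -, hB, hAB, hABd, huAB⟩ := exists_roots_quadratic hnil F.trace F.det (2 * ε) ε
    (by
      have : 2 * ε - ε = ε := by ring
      rw [this]; exact hεu)
    (by
      have : F.trace - (2 * ε + ε) = F.trace - 3 * ε := by ring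
      rw [this]; exact htr)
    (by
      have : F.det - 2 * ε * ε = 0 := by rw [hdetF]; linear_combination (-2 : R) * hε
      rw [this]; exact zero_mem _)
  obtain ⟨Q, hQ, hFQ⟩ := exists_diag F A B hAB hABd huAB
  have hQQ' : Q * Q⁻¹ = 1 := Matrix.mul_nonsing_inv Q hQ
  have hQ'Q : Q⁻¹ * Q = 1 := Matrix.nonsing_inv_mul Q hQ
  obtain ⟨Q', hQ'def⟩ : ∃ Q' : M₂ R, Q' = Q⁻¹ := ⟨_, rfl⟩
  rw [← hQ'def] at hQQ' hQ'Q
  obtain ⟨g₁, hg₁⟩ : ∃ g₁ : M₂ R, g₁ = Q' * g * Q := ⟨_, rfl⟩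
  have hF₁ : Q' * F * Q = !![A, 0; 0, B] := by rw [mul_assoc, hFQ, ← mul_assoc, hQ'Q, one_mul]
  have hrel₁ : !![A, 0; 0, B] * g₁ = g₁ * g₁ * !![A, 0; 0, B] := by
    rw [← hF₁, hg₁]
    calc Q' * F * Q * (Q' * g * Q) = Q' * (F * ((Q * Q') * g)) * Q := by noncomm_ring
      _ = Q' * (g ^ 2 * F) * Q := by rw [hQQ', one_mul, hrel]
      _ = Q' * (g * ((1 : M₂ R) * (g * ((1 : M₂ R) * F)))) * Q := by rw [pow_two]; noncomm_ring
      _ = Q' * g * Q * (Q' * g * Q) * (Q' * F * Q) := by rw [← hQQ']; noncomm_ring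
  have hdet₁ : g₁.det = 1 := by
    rw [hg₁, Matrix.det_mul, Matrix.det_mul, hdetg, mul_one, ← Matrix.det_mul, hQ'Q, Matrix.det_one]
  have hg₁m : ∀ i j, (g₁ - 1) i j ∈ maximalIdeal R := by
    have : g₁ - 1 = Q' * (g - 1) * Q := by rw [hg₁, mul_sub, sub_mul, mul_one, hQ'Q]
    rw [this]
    exact entries_mul_mul_mem _ _ _ _ hg
  have E11 := congrFun (congrFun hrel₁ 0) 0
  have E12 := congrFun (congrFun hrel₁ 0) 1
  have E21 := congrFun (congrFun hrel₁ 1) 0
  have E22 := congrFun (congrFun hrel₁ 1) 1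
  simp only [Matrix.mul_apply, Fin.sum_univ_two, Matrix.of_apply, Matrix.cons_val_zero,
    Matrix.cons_val_one, Matrix.cons_val', Matrix.cons_val_fin_one, zero_mul, mul_zero, add_zero,
    zero_add] at E11 E12 E21 E22
  rw [Matrix.det_fin_two] at hdet₁
  have hx := hg₁m 0 0
  have hy := hg₁m 1 1
  have hb := hg₁m 0 1
  have hc := hg₁m 1 0
  simp only [Matrix.sub_apply, Matrix.one_apply_eq] at hx hy
  rw [Matrix.sub_apply, Matrix.one_apply_ne (by decide), sub_zero] at hb hc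
  obtain ⟨hww, hbv, hcv, ⟨r1, hr1⟩, ⟨r2, hr2⟩, ⟨r3, hr3⟩⟩ := loc2_special_alg h2 h3 hε
    (hABd.trans hdetF) hB hx hy (by linear_combination E11) (by linear_combination E12)
    (by linear_combination E21) (by linear_combination E22) hdet₁
  refine ⟨Q, Q', Ideal.span {g₁ 0 1} ⊔ Ideal.span {g₁ 1 0} ⊔ Ideal.span {B - ε}, hQQ', hQ'Q, ?_,
    slice_three_lines hb hc hB hww hbv hcv, ?_, ?_⟩
  · refine sup_le (sup_le ?_ ?_) ?_ <;> rw [Ideal.span_singleton_le_iff_mem] <;> assumption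
  · have mb : g₁ 0 1 ∈ Ideal.span {g₁ 0 1} ⊔ Ideal.span {g₁ 1 0} ⊔ Ideal.span {B - ε} :=
      Ideal.mem_sup_left (Ideal.mem_sup_left (Ideal.mem_span_singleton_self _))
    have mv : B - ε ∈ Ideal.span {g₁ 0 1} ⊔ Ideal.span {g₁ 1 0} ⊔ Ideal.span {B - ε} :=
      Ideal.mem_sup_right (Ideal.mem_span_singleton_self _)
    rw [hF₁]
    intro i j
    fin_cases i <;> fin_cases j
    · show A - 2 * ε ∈ _
      rw [hr3]; exact Ideal.mul_mem_left _ _ mv
    · show (0 : R) - 0 ∈ _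
      rw [sub_zero]; exact zero_mem _
    · show (0 : R) - 0 ∈ _
      rw [sub_zero]; exact zero_mem _
    · exact mv
  · have mb : g₁ 0 1 ∈ Ideal.span {g₁ 0 1} ⊔ Ideal.span {g₁ 1 0} ⊔ Ideal.span {B - ε} :=
      Ideal.mem_sup_left (Ideal.mem_sup_left (Ideal.mem_span_singleton_self _))
    have mc : g₁ 1 0 ∈ Ideal.span {g₁ 0 1} ⊔ Ideal.span {g₁ 1 0} ⊔ Ideal.span {B - ε} :=
      Ideal.mem_sup_left (Ideal.mem_sup_right (Ideal.mem_span_singleton_self _))
    rw [← hg₁]
    intro i j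
    fin_cases i <;> fin_cases j
    · show g₁ 0 0 - 1 ∈ _
      rw [hr1]; exact Ideal.mul_mem_left _ _ mb
    · show g₁ 0 1 - 0 ∈ _
      rw [sub_zero]; exact mb
    · show g₁ 1 0 - 0 ∈ _
      rw [sub_zero]; exact mc
    · show g₁ 1 1 - 1 ∈ _
      rw [hr2]; exact Ideal.mul_mem_left _ _ mb

end SliceLemmas

end Fermat.Agent.ML.Low
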