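import Fermat.Agent.RIB.Main.Spec
import Fermat.Agent.ML.Low.End

/-!
# ML / Low / Top : the core of LOWER-B  (`RIB.core` with the (GEN) contract in BLOCK form)

The `Prop`s `RhoOut`, `HardOut`, `TWLocOut`, `GrowOut` of `RIB/Main/Spec.lean` do not mention `ECtx` : they are reused verbatim.
The only new contract is

* `GenOutB L p S θ rbar0 t Rs C₀` : for every `(R, π0, ρ, Φ)` with `IsRho`, and every `J ≤ m` modulo which `ρ (D_v)` is scalar (`v ∈ Rs`) there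
  are an ideal `J'` and `d` with `Slice (ZMod p) V J' C₀ d` (`J'` costs `C₀ K^d`), `d + 3 #Rs ≤ t` and `m ≤ J ⊔ J' ⊔ m²`.
  (`RIB.GenOut` is the case `J' = (x_1, …, x_{t - 3 #Rs})`, `C₀ = 1` : `GenOut.toB`.   In ML `J'` also contains the local block at `2`.)

* `Slice.finset_sup`, `Slice.iSup` : a finite family of blocks;
* `coreB` : `RhoOut`, `HardOut q` (`q ∈ Rs ≠ ∅`), `TWLocOut`, `GrowOut`, `GenOutB`, `n` large  ⟹  `False`.
-/

set_option autoImplicit false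

noncomputable section

open AlgebraicCurve ModularCurve Module IsLocalRing

namespace Fermat.Agent.ML

open Fermat.Agent.RIB

section abs

variable {k : Type*} [Field k] {R : Type*} [CommRing R] [Algebra k R] [IsLocalRing R]
  {V : Type*} [AddCommGroup V] [Module k V] [Module R V] [IsScalarTower k R V]

theorem Slice.finset_sup {ι : Type*} (s : Finset ι) (J : ι → Ideal R) (C d : ι → ℕ)
    (h : ∀ i ∈ s, Slice k V (J i) (C i) (d i)) :
    Slice k V (s.sup J) (∏ i ∈ s, C i) (∑ i ∈ s, d i) := by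
  classical
  induction s using Finset.induction_on with
  | empty => simpa using (slice_bot : Slice k V (⊥ : Ideal R) 1 0)
  | insert a s ha ih =>
    rw [Finset.sup_insert, Finset.prod_insert ha, Finset.sum_insert ha]
    exact (h a (Finset.mem_insert_self a s)).sup
      (ih fun i hi => h i (Finset.mem_insert_of_mem hi))

theorem Slice.iSup {ι : Type*} [Fintype ι] (J : ι → Ideal R) (C d : ι → ℕ)
    (h : ∀ i, Slice k V (J i) (C i) (d i)) :
    Slice k V (⨆ i, J i) (∏ i, C i) (∑ i, d i) := by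
  rw [← Finset.sup_univ_eq_iSup]
  exact Slice.finset_sup Finset.univ J C d fun i _ => h i

end abs

namespace Low

local notation "GQ" => (AlgebraicClosure ℚ ≃ₐ[ℚ] AlgebraicClosure ℚ)
local notation "M₂" => Matrix (Fin 2) (Fin 2)

/-- **(GEN) in block form.** -/
def GenOutB (L p : ℕ) [NeZero L] [Fact p.Prime] (S : Set ℕ) (θ : ℕ → ℤ)
    (rbar0 : GQ →* M₂ (ZMod p)) (t : ℕ) (Rs : Finset Nat.Primes) (C₀ : ℕ) : Prop :=
  ∀ (R : Type) [CommRing R] [IsLocalRing R] [Algebra (ZMod p) R]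
    [Module R ↥(WS L p S θ)] [IsScalarTower (ZMod p) R ↥(WS L p S θ)]
    (π0 : R →ₐ[ZMod p] ZMod p) (ρ : GQ →* M₂ R) (Φ : M₂ R →ₐ[R] Module.End R ↥(WS L p S θ)),
    IsRho L p S θ rbar0 π0 ρ Φ → ∀ J : Ideal R, J ≤ maximalIdeal R →
    (∀ v ∈ Rs, ∀ σ ∈ (ExtCitation.primeLocalPlace v).decompositionSubgroup ℚ, ∃ c : ZMod p,
      ∀ a b, (ρ σ - algebraMap (ZMod p) R c • (1 : M₂ R)) a b ∈ J) →
    ∃ (J' : Ideal R) (d : ℕ), Slice (ZMod p) ↥(WS L p S θ) J' C₀ d ∧ d + 3 * Rs.card ≤ t ∧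
      maximalIdeal R ≤ J ⊔ J' ⊔ maximalIdeal R ^ 2

variable {L p : ℕ} [NeZero L] [Fact p.Prime] {S : Set ℕ} {θ : ℕ → ℤ} {rbar0 : GQ →* M₂ (ZMod p)}

/-- the contract of RIB is a special case. -/
theorem GenOut.toB {t : ℕ} {Rs : Finset Nat.Primes} (h : GenOut L p S θ rbar0 t Rs) :
    GenOutB L p S θ rbar0 t Rs 1 := by
  intro R _ _ _ _ _ π0 ρ Φ H J hJ hsc
  obtain ⟨h3, x, hx, gen⟩ := h R π0 ρ Φ H J hJ hsc
  refine ⟨Ideal.span (Set.range x), t - 3 * Rs.card, ?_, by omega, gen⟩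
  have := slice_range (k := ZMod p) (V := ↥(WS L p S θ)) x hx
  rwa [Fintype.card_fin] at this

theorem GenOutB.mono {t C₀ C₁ : ℕ} {Rs : Finset Nat.Primes} (h : GenOutB L p S θ rbar0 t Rs C₀)
    (hC : C₀ ≤ C₁) : GenOutB L p S θ rbar0 t Rs C₁ := by
  intro R _ _ _ _ _ π0 ρ Φ H J hJ hsc
  obtain ⟨J', d, h1, h2, h3⟩ := h R π0 ρ Φ H J hJ hsc
  exact ⟨J', d, h1.mono hC le_rfl, h2, h3⟩

/-- the numerical bound in a form independent of `s`, `d`. -/
theorem coreB_num {e t p s d n C₀ : ℕ} (hg : d + 3 * s ≤ t)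
    (hn : C₀ * 2 ^ t * (e * t * p + 1) ^ t * e < n) :
    (2 ^ s * C₀) * (e * t * p) ^ (2 * s + d) * e < n := by
  refine lt_of_le_of_lt ?_ hn
  have h1 : (e * t * p) ^ (2 * s + d) ≤ (e * t * p + 1) ^ t :=
    (Nat.pow_le_pow_left (Nat.le_succ _) _).trans (Nat.pow_le_pow_right (Nat.succ_pos _) (by omega))
  have h2 : 2 ^ s ≤ 2 ^ t := Nat.pow_le_pow_right (by norm_num) (by omega)
  have h3 : 2 ^ s * C₀ ≤ C₀ * 2 ^ t := by
    rw [mul_comm]
    exact Nat.mul_le_mul_left _ h2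
  exact Nat.mul_le_mul_right _ (Nat.mul_le_mul h3 h1)

/-- **the core of LOWER-B** : the outputs of the blocks at the top level `L` are contradictory. -/
theorem coreB (hp2 : p ≠ 2) {Rs : Finset Nat.Primes} (hRs : Rs.Nonempty) {t n e0 e C₀ : ℕ}
    {ν : Fin t → ℕ} (hν : ∀ i, n ≤ ν i) (he0 : 1 ≤ e0)
    (hrho : RhoOut L p S θ rbar0) (hhard : ∀ q ∈ Rs, HardOut L p S θ rbar0 q)
    (htw : TWLocOut L p S θ rbar0 t ν e) (hgrow : GrowOut L p S θ t ν e0)
    (hgen : GenOutB L p S θ rbar0 t Rs C₀)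
    (hn : C₀ * 2 ^ t * (e * t * p + 1) ^ t * e < n) : False := by
  classical
  obtain ⟨R, _, _, _, _, _, π0, ρ, Φ, H⟩ := hrho
  set s := Rs.card with hs
  let eq : Fin s ≃ ↥Rs := (Rs.equivFin).symm
  choose N Sg ε hε hS hNm hNN hdet key hsc using
    fun j : Fin s => hhard (eq j).1 (eq j).2 R π0 ρ Φ H
  obtain ⟨y, hy, ctrl2, ctrl3⟩ := htw R π0 ρ Φ H
  set J : Ideal R := ⨆ j, entryIdeal (N j) ⊔ entryIdeal (Sg j - ε j • (1 : M₂ R)) with hJ
  have hJm : J ≤ maximalIdeal R := by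
    refine iSup_le fun j => sup_le ?_ ?_
    · exact entryIdeal_le.2 (hNm j)
    · exact entryIdeal_le.2 (hS j)
  obtain ⟨J', d, hJ', h3, gen⟩ := hgen R π0 ρ Φ H J hJm (fun v hv σ hσ => by
    obtain ⟨c, hc⟩ := hsc (eq.symm ⟨v, hv⟩) σ (by simpa using hσ)
    exact ⟨c, fun a b => (le_iSup (fun j => entryIdeal (N j) ⊔
      entryIdeal (Sg j - ε j • (1 : M₂ R))) (eq.symm ⟨v, hv⟩)) (hc a b)⟩)
  have h2 : IsUnit (2 : R) := by
    have h2' : IsUnit (2 : ZMod p) := by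
      have : ((2 : ℕ) : ZMod p) ≠ 0 := by
        intro h0
        rw [ZMod.natCast_eq_zero_iff] at h0
        exact hp2 ((Nat.prime_dvd_prime_iff_eq Fact.out Nat.prime_two).1 h0)
      exact (isUnit_iff_ne_zero.2 (by exact_mod_cast this))
    have := h2'.map (algebraMap (ZMod p) R)
    rwa [map_ofNat] at this
  have hs1 : 1 ≤ s := Finset.card_pos.2 hRs
  have hJs : Slice (ZMod p) ↥(WS L p S θ) J (2 ^ s) (2 * s) := by
    have := Slice.iSup (k := ZMod p) (V := ↥(WS L p S θ))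
      (fun j => entryIdeal (N j) ⊔ entryIdeal (Sg j - ε j • (1 : M₂ R))) (fun _ => 2) (fun _ => 2)
      (fun j => slice_hard Φ h2 (N j) (Sg j) (ε j) (hε j) (hS j) (hNm j) (hNN j) (hdet j) (key j))
    simpa [mul_comm] using this
  exact end_blocks (k := ZMod p) (hJs.sup hJ') gen (by omega) p n e0 e e
    (Fact.out : p.Prime).two_le he0 y ν hν hy hgrow ctrl2 ctrl3 (coreB_num h3 hn)

end Low

end Fermat.Agent.ML
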