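import Fermat.Agent.RIB.Main.Mid
import Fermat.Agent.ML.Low.Top
import Fermat.Agent.ML.Low.Hard.Out
import Fermat.Agent.ML.Low.TWLoc.Out

/-!
# ML / Low / Blocks : the blocks of LOWER-B for `MCtx`, `MTW`; independence of `S`

* `MCtx.thetaPart_eq`, `MCtx.WS_eq` : [S-INDEP] `thetaPart L p S θ = thetaPart L p T θ` for every finite `S ⊇ T` (primes of `L p` in `T`);
* `grow_out` : (B6, GROW) for `MCtx` (port of `RIB.grow_out`);
* `midB` : port of `RIB.mid` on `coreB` : `Rs ≠ ∅` a set of primes `q ‖ M`, `q ≠ 2, p`, `rbar0` unramified at `q`, `W(M/q * 4) = 0`,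
  `W(M * 4) ≠ 0`, (GEN) in block form at the top level, `n` large  ⟹  `False`.   (`p ∣ M` allowed.)
-/

set_option autoImplicit false

noncomputable section

open AlgebraicCurve ModularCurve Module

namespace Fermat.Agent.ML

open Fermat.Agent.RIB

local notation "Qbar" => AlgebraicClosure ℚ
local notation "GQ" => (AlgebraicClosure ℚ ≃ₐ[ℚ] AlgebraicClosure ℚ)
local notation "M₂" => Matrix (Fin 2) (Fin 2)

variable {p : ℕ} [Fact p.Prime] {T : Finset ℕ} {θ : ℕ → ℤ} {rbar0 : GQ →* M₂ (ZMod p)}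

/-- **[S-INDEP]** -/
theorem MCtx.thetaPart_eq (EC : MCtx p T θ rbar0) {S : Finset ℕ} (hTS : T ⊆ S) {L : ℕ} [NeZero L]
    (hL : ∀ r : ℕ, r.Prime → r ∣ L * p → r ∈ T) :
    thetaPart L p (↑S : Set ℕ) θ = thetaPart L p (↑T : Set ℕ) θ := by
  refine le_antisymm (fun x hx => ⟨hx.1, fun r hr => ?_⟩)
    (thetaPart_mono (Finset.coe_subset.2 hTS))
  have hrT : (r : ℕ) ∉ T := fun h => hr (Finset.mem_coe.2 h)
  exact EC.hecke_sub_nil hTS (fun r hr hd => hTS (hL r hr hd)) r.2 hrT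
    (fun hd => hrT (hL r r.2 (Dvd.dvd.mul_right hd p))) hx

theorem MCtx.WS_eq (EC : MCtx p T θ rbar0) {S : Finset ℕ} (hTS : T ⊆ S) {L : ℕ} [NeZero L]
    (hL : ∀ r : ℕ, r.Prime → r ∣ L * p → r ∈ T) :
    WS L p (↑S : Set ℕ) θ = WS L p (↑T : Set ℕ) θ := by
  ext x
  rw [mem_WS, mem_WS, EC.thetaPart_eq hTS hL]

namespace Low

variable {L₀ t n : ℕ} [NeZero L₀] {qv : Fin t → Nat.Primes}

/-- **(B6, GROW)** -/
theorem grow_out (EC : MCtx p T θ rbar0) (TC : MTW p T θ L₀ t n qv) :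
    GrowOut (lvl L₀ (extP qv) t) p (↑(cutS T qv) : Set ℕ) θ t (nuP p qv)
      (finrank (ZMod p) ↥(WS L₀ p (↑(cutS T qv) : Set ℕ) θ)) := by
  refine growOut_of_growIn EC.hp2 L₀ (extP qv) t (nuP p qv)
    (fun q hq hqS hd => hqS (Finset.mem_coe.2 (TC.mem_cutS t hq hd))) (fun i => ?_)
  have SC := TC.step i.2
  obtain ⟨A, hA⟩ := S54.exists_liesOverPrime SC.hl
  exact
    { hl := SC.hl
      hlL := SC.hlL
      hn := SC.hν
      hdvd := SC.hdvd
      hex := SC.hex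
      loc := ⟨A, hA, ctrl_surj EC SC hA, rho_ord EC SC hA⟩
      inj := fun v hv _ h0 j => congrFun (ctrl_inj EC SC v hv h0) j
      unit := unit_step EC SC }

/-- the bound for `n`. -/
def nBoundB (p t M C₀ : ℕ) [NeZero M] : ℕ :=
  C₀ * 2 ^ t * (6 ^ t * EB p M * t * p + 1) ^ t * (6 ^ t * EB p M) + 1

theorem numB_mono {e E t p n C₀ : ℕ} (he : e ≤ E)
    (hn : C₀ * 2 ^ t * (E * t * p + 1) ^ t * E + 1 ≤ n) :
    C₀ * 2 ^ t * (e * t * p + 1) ^ t * e < n := by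
  have h1 : (e * t * p + 1) ^ t ≤ (E * t * p + 1) ^ t :=
    Nat.pow_le_pow_left (Nat.succ_le_succ (Nat.mul_le_mul_right _ (Nat.mul_le_mul_right _ he))) _
  have h2 : C₀ * 2 ^ t * (e * t * p + 1) ^ t * e ≤ C₀ * 2 ^ t * (E * t * p + 1) ^ t * E :=
    Nat.mul_le_mul (Nat.mul_le_mul_left _ h1) he
  omega

/-- **(MID) for LOWER-B** -/
theorem midB (EC : MCtx p T θ rbar0) {M t n C₀ : ℕ} [NeZero M] {qv : Fin t → Nat.Primes}
    (TC : MTW p T θ (M * 4) t n qv)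
    (hM : WS (M * 4) p (↑(cutS T qv) : Set ℕ) θ ≠ ⊥)
    {Rs : Finset Nat.Primes} (hRs : Rs.Nonempty)
    (hhard : ∀ q ∈ Rs, (q : ℕ) ≠ 2 ∧ (q : ℕ) ≠ p ∧ ¬ Ram rbar0 (q : ℕ) ∧
      ∃ (M' : ℕ) (_ : NeZero M'), M = M' * (q : ℕ) ∧ ¬ (q : ℕ) ∣ M' ∧
        WS (M' * 4) p (↑(cutS T qv) : Set ℕ) θ = ⊥)
    (hgen : GenOutB (lvl (M * 4) (extP qv) t) p (↑(cutS T qv) : Set ℕ) θ rbar0 t Rs C₀)
    (hn : nBoundB p t M C₀ ≤ n) : False := by
  have hp : p.Prime := Fact.out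
  have hgrow := grow_out EC TC
  -- `1 ≤ dim W(M * 4)`
  have he0 : 1 ≤ finrank (ZMod p) ↥(WS (M * 4) p (↑(cutS T qv) : Set ℕ) θ) := by
    have : NeZero p := ⟨hp.ne_zero⟩
    have : Nontrivial ↥(WS (M * 4) p (↑(cutS T qv) : Set ℕ) θ) :=
      (AddSubgroup.nontrivial_iff_ne_bot _).2 hM
    exact Module.finrank_pos
  -- `W(L) ≠ 0`
  have hW : WS (lvl (M * 4) (extP qv) t) p (↑(cutS T qv) : Set ℕ) θ ≠ ⊥ := by
    intro h0
    have h1 : finrank (ZMod p) ↥(WS (lvl (M * 4) (extP qv) t) p (↑(cutS T qv) : Set ℕ) θ) = 0 := by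
      have : Subsingleton ↥(WS (lvl (M * 4) (extP qv) t) p (↑(cutS T qv) : Set ℕ) θ) :=
        ⟨fun a b => Subtype.ext (by
          have key : ∀ z : JZero (lvl (M * 4) (extP qv) t),
              z ∈ WS (lvl (M * 4) (extP qv) t) p (↑(cutS T qv) : Set ℕ) θ → z = 0 := by
            intro z hz
            rw [h0, AddSubgroup.mem_bot] at hz
            exact hz
          rw [key _ a.2, key _ b.2])⟩
      exact Module.finrank_zero_of_subsingleton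
    have h2 : 0 < ∏ i, ((p - 1) * p ^ (nuP p qv i - 1)) :=
      Finset.prod_pos fun i _ => Nat.mul_pos (by have := hp.two_le; omega) (pow_pos hp.pos _)
    have h3 := Nat.mul_pos he0 h2
    unfold GrowOut at hgrow
    omega
  have hrho := rhoOut EC (cutS T qv) (subset_cutS T qv) (lvl (M * 4) (extP qv) t)
    (fun r hr hd => TC.mem_cutS t hr hd) hW
  refine coreB EC.hp2 hRs (fun i => (Nat.le_succ n).trans (TC.le_nuP i)) he0 hrho ?_ (twloc_out' EC TC) hgrow hgen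
    (numB_mono (Nat.mul_le_mul_left _ (finrank_WS_le p M _ θ)) hn)
  -- the hard primes
  intro q' hq'
  obtain ⟨hq'2, hq'p, hnr, M', _, hM', hq'M', hbot⟩ := hhard q' hq'
  have hM'd : M' ∣ M := ⟨q', hM'⟩
  have hTC' : MTW p T θ (M' * 4) t n qv :=
    TC.of_dvd (Nat.mul_dvd_mul_right hM'd 4) (Dvd.intro_left _ rfl)
  have hvan := vanish' EC hTC' hbot
  have hq'T : (q' : ℕ) ∈ T :=
    TC.lev _ q'.2 (Dvd.dvd.mul_right (Dvd.dvd.mul_right ⟨M', by rw [hM', mul_comm]⟩ 4) p)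
  have hLq : lvl (M * 4) (extP qv) t = lvl (M' * 4) (extP qv) t * (q' : ℕ) := by
    rw [← lvl_mul_right, hM']
    congr 1
    ring
  refine hard_out' EC (cutS T qv) (subset_cutS T qv) (lvl (M * 4) (extP qv) t)
    (lvl (M' * 4) (extP qv) t) (q' : ℕ) hLq q'.2 hnr hq'p ?_ ?_
    (fun r hr hd => TC.mem_cutS t hr hd) hvan
  · intro hd
    rcases dvd_lvl_cases t q'.2 hd with h | ⟨j, hj⟩
    · rcases (Nat.Prime.dvd_mul q'.2).1 h with h | h
      · exact hq'M' h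
      · have h5 : (q' : ℕ) ∣ 2 ^ 2 := by norm_num; exact h
        exact hq'2 ((Nat.prime_dvd_prime_iff_eq q'.2 Nat.prime_two).1 (q'.2.dvd_of_dvd_pow h5))
    · exact TC.notT j (hj ▸ hq'T)
  · exact (Dvd.intro_left _ rfl : 4 ∣ M' * 4).trans (dvd_lvl _ _ _)

end Low

end Fermat.Agent.ML
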