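import Fermat.Agent.ML.AtP.Main
import Fermat.Agent.ML.Main.Ctx
import Fermat.Agent.RIB.Hard.Main
import Fermat.Agent.RIB.Up.Vanish
import Fermat.Agent.RIB.Main.GenOut

/-!
# ML / Low / AtP : [LOW-ATP]  (STRICT) at `p` for the `ρ` of `RIB.IsRho` on `W(L₁ p)`, when `W(L₁) = 0`

`L = L₁ p`, `L₁` rigid (`4 ∣ L₁`), `p ∤ L₁`, `W(L₁) = 0` : every class of `W(L)` is `p`-new, so
`ML.AtP.exists_strictOp` applies with `Y = W(L)`.   No `E`-side is needed : the residual line comes from (NEW-p) (`NP.newP`) :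
`δ = a` on `(τ - 1) W(L)`.

* `new_of_van` : `W(L₁) = 0 ⟹ pushA, pushB` kill `W(L₁ p)`;
* `newP_smul_sub` : `δ (τ x - x) = a (τ x - x)` for `x` new, `p x = 0`, `τ, δ` in the inertia group at `p`;
* `atp_strict` : the second alternative of `GenHypMZ.atp`.
-/

set_option autoImplicit false
set_option linter.unusedSectionVars false
set_option linter.style.haveILetI false
set_option linter.unusedVariables false

noncomputable section

open AlgebraicCurve ModularCurve IsLocalRing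

namespace Fermat.Agent.ML.Low

open Fermat.Agent.RIB Fermat.Agent.SS

local notation "Qbar" => AlgebraicClosure ℚ
local notation "GQ" => (AlgebraicClosure ℚ ≃ₐ[ℚ] AlgebraicClosure ℚ)
local notation "M₂" => Matrix (Fin 2) (Fin 2)

/-- `W(L₁) = 0` : every class of `W(L₁ p)` is `p`-new. -/
theorem new_of_van {p L₁ : ℕ} [NeZero L₁] [NeZero p] [NeZero (L₁ * p)] {S : Set ℕ} {θ : ℕ → ℤ}
    (hS : ∀ r : ℕ, r.Prime → r ∣ L₁ * p * p → r ∈ S) (hvan : WS L₁ p S θ = ⊥)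
    (x : JZero (L₁ * p)) (hx : x ∈ WS (L₁ * p) p S θ) :
    p ^ 1 • x = 0 ∧ pushA L₁ p x = 0 ∧ pushB L₁ p x = 0 := by
  have hbot := thetaPart_eq_bot_of_WS_eq_bot hvan
  have hS' : ∀ r : ℕ, r.Prime → r ∉ S → ¬ r ∣ L₁ * p * p ∧ ¬ r ∣ L₁ * p := fun r hr hrS =>
    ⟨fun h => hrS (hS r hr h), fun h => hrS (hS r hr (h.mul_right p))⟩
  refine ⟨by rw [pow_one]; exact hx.2, ?_, ?_⟩
  · have := map_mem_thetaPart_of_equivariant (pushA L₁ p) (pushA_smul L₁ p) hS' hx.1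
    rwa [hbot, AddSubgroup.mem_bot] at this
  · have := map_mem_thetaPart_of_equivariant (pushB L₁ p) (pushB_smul L₁ p) hS' hx.1
    rwa [hbot, AddSubgroup.mem_bot] at this

/-- (NEW-p) on `(τ - 1) x`. -/
theorem newP_smul_sub {M p : ℕ} [NeZero M] [hp : Fact p.Prime] (hpM : ¬ p ∣ M)
    (h49 : 4 ∣ M ∨ 9 ∣ M) (P : ValuationSubring Qbar) (hP : P.LiesOverPrime p)
    {δ τ : GQ} (hδ : δ ∈ P.inertiaSubgroupIn ℚ) (hτ : τ ∈ P.inertiaSubgroupIn ℚ) {a : ℕ}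
    (ha : ∀ ζ : Qbar, ζ ^ p = 1 → δ ζ = ζ ^ a) (x : JZero (M * p)) (hx : p • x = 0)
    (e1 : pushA M p x = 0) (e2 : pushB M p x = 0) : δ • (τ • x - x) = a • (τ • x - x) := by
  haveI : IsAlgClosed (ResidueField P) := RED.GalEq.isAlgClosed_residueField P
  haveI : CharP (ResidueField P) p := RED.GalEq.charP_residueField hp.out hP
  obtain ⟨𝒩, hI, -⟩ := exists_nodalData_compat hpM P h49 hP
  have ht := isToric_smul_sub 𝒩 (RED.RB.isSepParam_jF (M * p)) hp.out.ne_zero (hI τ hτ) (y := x) hx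
  refine NP.newP hpM h49 P hP δ hδ a ha (τ • x - x) ?_ ht ?_ ?_
  · exact S33.IsToric.nsmul_eq_zero ht
  · rw [map_sub, pushA_smul, e1, sub_zero]
    exact smul_zero (A := JZero M) τ
  · rw [map_sub, pushB_smul, e2, sub_zero]
    exact smul_zero (A := JZero M) τ

/-- **[LOW-ATP]** -/
theorem atp_strict {p : ℕ} [Fact p.Prime] {T : Finset ℕ} {θ : ℕ → ℤ} {rbar0 : GQ →* M₂ (ZMod p)}
    (EC : MCtx p T θ rbar0) (S : Finset ℕ) (hTS : T ⊆ S) (L L₁ : ℕ) [NeZero L] [NeZero L₁]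
    (hL : L = L₁ * p) (hpL₁ : ¬ p ∣ L₁) (h4 : 4 ∣ L₁)
    (hS : ∀ r : ℕ, r.Prime → r ∣ L * p → r ∈ S) (hvan : WS L₁ p (↑S : Set ℕ) θ = ⊥)
    {R : Type} [CommRing R] [IsLocalRing R] [Algebra (ZMod p) R]
    [Module R ↥(WS L p (↑S : Set ℕ) θ)] [IsScalarTower (ZMod p) R ↥(WS L p (↑S : Set ℕ) θ)]
    {π0 : R →ₐ[ZMod p] ZMod p} {ρ : GQ →* M₂ R}
    {Φ : M₂ R →ₐ[R] Module.End R ↥(WS L p (↑S : Set ℕ) θ)}
    (H : IsRho L p (↑S : Set ℕ) θ rbar0 π0 ρ Φ) :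
    ∃ e : GQ → R, (∀ σ ∈ S56.inert (ExtCitation.pPrime p), e σ = 1) ∧
      ∀ σ ∈ CFT.decomp (ExtCitation.pPrime p), ∀ τ ∈ CFT.decomp (ExtCitation.pPrime p),
        (ρ σ - ((ρ σ).det * e σ) • (1 : M₂ R)) * (ρ τ - e τ • (1 : M₂ R)) = 0 := by
  subst hL
  have hp : p.Prime := Fact.out
  haveI : NeZero p := ⟨hp.ne_zero⟩
  have hp2 : p ≠ 2 := EC.hp2
  have h49 : 4 ∣ L₁ ∨ 9 ∣ L₁ := Or.inl h4
  have hX := new_of_van (S := (↑S : Set ℕ)) (θ := θ) (fun r hr h => hS r hr h) hvan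
  haveI : Finite R := RIB.Hard.finite_of_isRho H
  have hcont : GaloisFactorsThroughFiniteLevel ρ := H.cont
  have hRA : RhoAct ρ Φ := ⟨H.act, H.eq_zero_of_phi⟩
  have hann : AtP.Ann ↥(WS (L₁ * p) p (↑S : Set ℕ) θ) ρ := AtP.ann_of_rhoAct hRA
  have hp0 : (p : R) = 0 := by
    rw [← map_natCast (algebraMap (ZMod p) R), ZMod.natCast_self, map_zero]
  have hpR : (p : R) ∈ maximalIdeal R := by
    rw [hp0]
    exact Ideal.zero_mem _
  have hdet : (S53.ofMat ρ (AtP.matCont_of_cont hcont)).DetIsCyclotomic p :=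
    AtP.detIsCyclotomic_ofMat (k := 1) (m := p) hp (pow_one p).symm hpR ρ _ (fun g => H.det g)
  have hdata : ∀ P : ValuationSubring Qbar, P.LiesOverPrime p →
      ∃ δ ∈ P.inertiaSubgroupIn ℚ, ∃ a : ℕ, (∀ ζ : Qbar, ζ ^ p = 1 → δ ζ = ζ ^ a) ∧
        ¬ a ≡ 1 [MOD p] := fun P hP => S33.exists_inertia_pow hp hp2 P hP
  suffices hmain : ∀ P : ValuationSubring Qbar, P.LiesOverPrime p →
      ∃ e : GQ → R, (∀ σ ∈ P.inertiaSubgroupIn ℚ, e σ = 1) ∧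
        (∀ σ ∈ P.decompositionSubgroup ℚ, e σ * e σ = 1) ∧
        ∀ σ ∈ P.decompositionSubgroup ℚ, ∀ τ ∈ P.decompositionSubgroup ℚ,
          (ρ σ - ((ρ σ).det * e σ) • (1 : M₂ R)) * (ρ τ - e τ • (1 : M₂ R)) = 0 by
    obtain ⟨e, he1, -, hs⟩ := hmain _ (S56.liesOverPrime_primeLocalPlace (ExtCitation.pPrime p))
    exact ⟨e, he1, hs⟩
  intro P₀ hP₀
  refine AtP.exists_strictOp hp hp2 ρ hcont hdet hann (fun P hP => ?_) (fun P hP => ?_) hP₀
  · obtain ⟨φ, hφ⟩ := S56.exists_isFrobeniusAt hp hP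
    obtain ⟨δ, hδ, a, ha, ha1⟩ := hdata P hP
    exact ⟨φ, hφ, δ, hδ, AtP.toric_new hpL₁ h49 1 (WS (L₁ * p) p (↑S : Set ℕ) θ)
      (fun _ _ => rfl) hX hP hφ hδ ha ha1⟩
  · obtain ⟨δ, hδ, a, ha, ha1⟩ := hdata P hP
    have hf : Function.Surjective (π0 : R →+* ZMod p) := fun c =>
      ⟨algebraMap (ZMod p) R c, π0.commutes c⟩
    have hca : ((ExtCitation.cycloChar p δ : (ZMod p)ˣ) : ZMod p) = (a : ZMod p) := by
      obtain ⟨ζ, hζ⟩ := MAZ.exists_primitiveRoot_Qb (r := p) hp.ne_zero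
      have h1 := ha ζ hζ.pow_eq_one
      have h2 := GAL.cycloChar_spec p δ hζ.pow_eq_one
      have hfin : IsOfFinOrder ζ :=
        isOfFinOrder_iff_pow_eq_one.mpr ⟨_, hp.pos, hζ.pow_eq_one⟩
      have h3 := hfin.pow_eq_pow_iff_modEq.mp (h2.symm.trans h1)
      rw [← hζ.eq_orderOf] at h3
      have h4 := (ZMod.natCast_eq_natCast_iff _ _ _).2 h3
      rw [ZMod.natCast_zmod_val] at h4
      exact h4
    refine AtP.resLine_of_res (π0 : R →+* ZMod p) hf ρ _ _ (δ := δ) (a := (a : ZMod p)) ?_ ?_ ?_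
    · intro h1
      apply ha1
      rw [← ZMod.natCast_eq_natCast_iff, h1, Nat.cast_one]
    · have e1 : ((ρ δ).map (π0 : R →+* ZMod p)).det = (π0 : R →+* ZMod p) (ρ δ).det :=
        (RingHom.map_det (π0 : R →+* ZMod p) (ρ δ)).symm
      rw [e1, H.det, ← hca]
      exact π0.commutes _
    · intro τ hτ
      have h1 : (ρ δ - ((a : ℤ) : R) • (1 : M₂ R)) * (ρ τ - 1) = 0 :=
        hann.mul_eq_zero fun y => by
          obtain ⟨e0, e1, e2⟩ := hX y.1 y.2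
          rw [pow_one] at e0
          apply Subtype.ext
          have := newP_smul_sub hpL₁ h49 P hP hδ hτ ha y.1 e0 e1 e2
          rw [natCast_zsmul]
          exact this
      have h2 := congrArg (π0 : R →+* ZMod p).mapMatrix h1
      rw [map_mul, map_sub, map_sub, map_one, map_zero] at h2
      rw [← h2]
      congr 2
      have e2 : ((a : ℤ) : R) • (1 : M₂ R) = ((a : ℕ) : M₂ R) := by
        rw [Int.cast_natCast, Nat.cast_smul_eq_nsmul, nsmul_eq_mul, mul_one]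
      have e3 : ((a : ℕ) : ZMod p) • (1 : M₂ (ZMod p)) = ((a : ℕ) : M₂ (ZMod p)) := by
        rw [Nat.cast_smul_eq_nsmul, nsmul_eq_mul, mul_one]
      rw [e2, e3, map_natCast]

end Fermat.Agent.ML.Low
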