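import Fermat.Agent.S45.Abs.Diff

/-!
# ML / LOWER : gluing data of toric functions (abstract core of `[TORIC-OLD]`)

`B` a root closed subring of a field `F` (a chart of an arithmetic surface), `V`, `V'` valuation rings containing `B` (components of the
special fibre), `𝔪` a prime of `B` containing the centres of `V` and `V'` (an intersection point), `g ≡ 1` on `V` and `V'`.

* `Triv B m g V u`  : `u ^ m * g ∈ B` and `u ≡ 1` along `V` (a trivialisation of the `m`-torsion line bundle of `g` along `V`);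
* `DatAt B m g 𝔪 V V' z` : `u' / u ≡ z` at `𝔪` for all trivialisations `u` along `V`, `u'` along `V'`.

The datum exists, is an `m`-th root of unity, is multiplicative in `g`, functorial for maps of curves, and `g` is a constant times an
`m`-th power if all the data are `1` (`trivial_of_gluedK`).
-/

set_option autoImplicit false
set_option linter.unusedSectionVars false

namespace Fermat.Agent.ML.Low.Dat

open Fermat.Agent.S36 Fermat.Agent.S36.GlueAux Fermat.Agent.S36.TrivialAux Fermat.Agent.S45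

section Loc

variable {F : Type*} [Field F] {B : Subring F} {m : ℕ}

/-- `u` trivialises `g` along `V`. -/
def Triv (B : Subring F) (m : ℕ) (g : F) (V : ValuationSubring F) (u : F) : Prop :=
  u ^ m * g ∈ B ∧ V.valuation (u - 1) < 1

/-- the gluing datum of `g` at `𝔪` between `V` and `V'` is `z`. -/
def DatAt (B : Subring F) (m : ℕ) (g : F) (𝔪 : Ideal B) (V V' : ValuationSubring F) (z : F) : Prop :=
  ∀ u u' : F, Triv B m g V u → Triv B m g V' u' → ZeroAt B 𝔪 (u' / u - z)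

theorem Triv.ne_zero {g u : F} {V : ValuationSubring F} (hu : Triv B m g V u) : u ≠ 0 := by
  rintro rfl
  have := comp_aux_val_f hu.2
  rw [map_zero] at this
  exact zero_ne_one this

theorem Triv.one (V : ValuationSubring F) : Triv B m 1 V 1 :=
  ⟨by rw [one_pow, one_mul]; exact B.one_mem, by rw [sub_self, map_zero]; exact zero_lt_one⟩

theorem Triv.mul {g g' u u' : F} {V : ValuationSubring F} (hu : Triv B m g V u)
    (hu' : Triv B m g' V u') : Triv B m (g * g') V (u * u') := by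
  refine ⟨?_, val_mul_sub_one hu.2 hu'.2⟩
  have : (u * u') ^ m * (g * g') = (u ^ m * g) * (u' ^ m * g') := by ring
  rw [this]
  exact B.mul_mem hu.1 hu'.1

variable {V V' V'' : ValuationSubring F} {𝔪 : Ideal B} [h𝔪 : 𝔪.IsPrime]

theorem Triv.zeroAt (hBV : B ≤ V.toSubring) (hV : centre B V hBV ≤ 𝔪) {g u : F}
    (hg : V.valuation (g - 1) < 1) (hu : Triv B m g V u) : ZeroAt B 𝔪 (u ^ m * g - 1) := by
  have h1 : (⟨u ^ m * g, hu.1⟩ - 1 : B) ∈ 𝔪 := by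
    apply hV
    rw [mem_centre]
    exact val_mul_sub_one (val_pow_sub_one hu.2 m) hg
  exact zeroAt_of_mem h1

/-- two trivialisations along the same component agree at `𝔪`. -/
theorem Triv.indep (hm : m ≠ 0) (hB : RootClosed B m) (hBV : B ≤ V.toSubring)
    (hV : centre B V hBV ≤ 𝔪) {g u u' : F} (hg : V.valuation (g - 1) < 1)
    (hu : Triv B m g V u) (hu' : Triv B m g V u') : ZeroAt B 𝔪 (u' / u - 1) := by
  have hg0 : g ≠ 0 := by
    rintro rfl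
    have := comp_aux_val_f hg
    rw [map_zero] at this
    exact zero_ne_one this
  have hu0 := hu.ne_zero
  have h1 := one_div' (hu'.zeroAt hBV hV hg) (hu.zeroAt hBV hV hg)
  have e : (u' / u) ^ m = (u' ^ m * g) / (u ^ m * g) := by
    rw [div_pow, mul_div_mul_right _ _ hg0]
  have h2 : MemAt B 𝔪 (u' / u) := by
    apply MemAt.of_pow hm hB
    rw [e]
    exact (unitAt_of_one h1).memAt
  have h3 : MemAt B 𝔪 (u' / u - 1) := by
    rw [sub_eq_add_neg]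
    exact h2.add memAt_one.neg
  refine zeroAt_of_valuation_lt hBV hV h3 ?_
  refine diff_val_div_sub_one (comp_aux_val_f hu.2) ?_
  have : u' - u = (u' - 1) - (u - 1) := by ring
  rw [this]
  exact Valuation.map_sub_lt _ hu'.2 hu.2

theorem zeroAt_mul_sub {a a' b b' : F} (h : ZeroAt B 𝔪 (a - b)) (h' : ZeroAt B 𝔪 (a' - b'))
    (ha' : MemAt B 𝔪 a') (hb : MemAt B 𝔪 b) : ZeroAt B 𝔪 (a * a' - b * b') := by
  have : a * a' - b * b' = (a - b) * a' + (a' - b') * b := by ring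
  rw [this]
  exact (h.mul_memAt ha').add (h'.mul_memAt hb)

theorem memAt_of_zeroAt_sub {a b : F} (h : ZeroAt B 𝔪 (a - b)) (hb : MemAt B 𝔪 b) :
    MemAt B 𝔪 a := by
  have : a = (a - b) + b := by ring
  rw [this]
  exact h.memAt.add hb

/-- the datum may be computed with one pair of trivialisations. -/
theorem datAt_of_triv (hm : m ≠ 0) (hB : RootClosed B m) (hBV : B ≤ V.toSubring)
    (hV : centre B V hBV ≤ 𝔪) (hBV' : B ≤ V'.toSubring) (hV' : centre B V' hBV' ≤ 𝔪) {g : F}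
    (hg : V.valuation (g - 1) < 1) (hg' : V'.valuation (g - 1) < 1) {u₀ u₀' z : F}
    (hu₀ : Triv B m g V u₀) (hu₀' : Triv B m g V' u₀') (hz : MemAt B 𝔪 z)
    (h : ZeroAt B 𝔪 (u₀' / u₀ - z)) : DatAt B m g 𝔪 V V' z := by
  intro u u' hu hu'
  have h1 := hu₀'.indep hm hB hBV' hV' hg' hu'
  have h2 := hu.indep hm hB hBV hV hg hu₀
  have h3 := one_mul' h1 h2
  have hu0 := hu.ne_zero
  have hu0' := hu₀'.ne_zero
  have hu00 := hu₀.ne_zero
  have e : u' / u - z = (u' / u₀' * (u₀ / u)) * (u₀' / u₀) - 1 * z := by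
    field_simp
  rw [e]
  exact zeroAt_mul_sub h3 h (memAt_of_zeroAt_sub h hz) memAt_one

theorem DatAt.refl (hm : m ≠ 0) (hB : RootClosed B m) (hBV : B ≤ V.toSubring)
    (hV : centre B V hBV ≤ 𝔪) {g : F} (hg : V.valuation (g - 1) < 1) : DatAt B m g 𝔪 V V 1 :=
  fun _ _ hu hu' => hu.indep hm hB hBV hV hg hu'

/-- multiplicativity -/
theorem DatAt.mul (hm : m ≠ 0) (hB : RootClosed B m) (hBV : B ≤ V.toSubring)
    (hV : centre B V hBV ≤ 𝔪) (hBV' : B ≤ V'.toSubring) (hV' : centre B V' hBV' ≤ 𝔪) {g₁ g₂ : F}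
    (hg₁ : V.valuation (g₁ - 1) < 1) (hg₁' : V'.valuation (g₁ - 1) < 1)
    (hg₂ : V.valuation (g₂ - 1) < 1) (hg₂' : V'.valuation (g₂ - 1) < 1)
    (ex₁ : ∃ u, Triv B m g₁ V u) (ex₁' : ∃ u, Triv B m g₁ V' u)
    (ex₂ : ∃ u, Triv B m g₂ V u) (ex₂' : ∃ u, Triv B m g₂ V' u) {z₁ z₂ : F}
    (hz₁ : MemAt B 𝔪 z₁) (hz₂ : MemAt B 𝔪 z₂)
    (h₁ : DatAt B m g₁ 𝔪 V V' z₁) (h₂ : DatAt B m g₂ 𝔪 V V' z₂) :
    DatAt B m (g₁ * g₂) 𝔪 V V' (z₁ * z₂) := by
  obtain ⟨u₁, hu₁⟩ := ex₁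
  obtain ⟨u₁', hu₁'⟩ := ex₁'
  obtain ⟨u₂, hu₂⟩ := ex₂
  obtain ⟨u₂', hu₂'⟩ := ex₂'
  refine datAt_of_triv hm hB hBV hV hBV' hV' (val_mul_sub_one hg₁ hg₂) (val_mul_sub_one hg₁' hg₂')
    (hu₁.mul hu₂) (hu₁'.mul hu₂') (hz₁.mul hz₂) ?_
  have e : u₁' * u₂' / (u₁ * u₂) = (u₁' / u₁) * (u₂' / u₂) := by
    rw [mul_div_mul_comm]
  rw [e]
  exact zeroAt_mul_sub (h₁ _ _ hu₁ hu₁') (h₂ _ _ hu₂ hu₂')
    (memAt_of_zeroAt_sub (h₂ _ _ hu₂ hu₂') hz₂) hz₁

/-- a product of elements of `B_𝔪` which lies in `𝔪 B_𝔪` has a factor in `𝔪 B_𝔪`. -/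
theorem exists_zeroAt_of_prod {κ : Type*} (s : Finset κ) (a : κ → F)
    (ha : ∀ k ∈ s, MemAt B 𝔪 (a k)) (h : ZeroAt B 𝔪 (∏ k ∈ s, a k)) :
    ∃ k ∈ s, ZeroAt B 𝔪 (a k) := by
  classical
  by_contra hcon
  push Not at hcon
  have hU : ∀ s' : Finset κ, s' ⊆ s → UnitAt B 𝔪 (∏ k ∈ s', a k) := by
    intro s'
    induction s' using Finset.induction_on with
    | empty =>
      intro _
      rw [Finset.prod_empty]
      have h1 : (1 : B) ∉ 𝔪 := fun h => h𝔪.ne_top ((Ideal.eq_top_iff_one _).2 h)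
      exact ⟨1, 1, h1, h1, by simp⟩
    | insert k s' hk ih =>
      intro hs
      rw [Finset.prod_insert hk]
      have hks : k ∈ s := hs (Finset.mem_insert_self _ _)
      exact ((ha k hks).zeroAt_or_unitAt.resolve_left (hcon k hks)).mul
        (ih fun x hx => hs (Finset.mem_insert_of_mem hx))
  exact not_zeroAt_and_unitAt h (hU s subset_rfl)

/-- **existence of the datum** -/
theorem exists_datAt (hm : m ≠ 0) (hB : RootClosed B m) (hBV : B ≤ V.toSubring)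
    (hV : centre B V hBV ≤ 𝔪) (hBV' : B ≤ V'.toSubring) (hV' : centre B V' hBV' ≤ 𝔪) {g : F}
    (hg : V.valuation (g - 1) < 1) (hg' : V'.valuation (g - 1) < 1)
    (ex : ∃ u, Triv B m g V u) (ex' : ∃ u, Triv B m g V' u) {ζ : F} (hζ : IsPrimitiveRoot ζ m) :
    ∃ k : ℕ, DatAt B m g 𝔪 V V' (ζ ^ k) := by
  obtain ⟨u, hu⟩ := ex
  obtain ⟨u', hu'⟩ := ex'
  have hg0 : g ≠ 0 := by
    rintro rfl
    have := comp_aux_val_f hg
    rw [map_zero] at this
    exact zero_ne_one this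
  have h1 := one_div' (hu'.zeroAt hBV' hV' hg') (hu.zeroAt hBV hV hg)
  have e : (u' / u) ^ m = (u' ^ m * g) / (u ^ m * g) := by
    rw [div_pow, mul_div_mul_right _ _ hg0]
  rw [← e] at h1
  have h2 : MemAt B 𝔪 (u' / u) := by
    apply MemAt.of_pow hm hB
    exact (unitAt_of_one h1).memAt
  have hmem : ∀ ξ : F, ξ ^ m = 1 → MemAt B 𝔪 ξ := fun ξ hξ =>
    memAt_of_mem (hB ξ (by rw [hξ]; exact B.one_mem)) h𝔪.ne_top
  have : NeZero m := ⟨hm⟩
  have hprod : (u' / u) ^ m - 1 = ∏ ξ ∈ Polynomial.nthRootsFinset m (1 : F), (u' / u - ξ) := by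
    have := congrArg (Polynomial.eval (u' / u)) (Polynomial.X_pow_sub_one_eq_prod hm.bot_lt hζ)
    simpa [Polynomial.eval_prod] using this
  rw [hprod] at h1
  obtain ⟨ξ, hξ, hξ0⟩ := exists_zeroAt_of_prod _ _ (fun ξ hξ => by
    rw [sub_eq_add_neg]
    exact h2.add (hmem ξ ((Polynomial.mem_nthRootsFinset hm.bot_lt _).1 hξ)).neg) h1
  have hξ1 : ξ ^ m = 1 := (Polynomial.mem_nthRootsFinset hm.bot_lt _).1 hξ
  obtain ⟨k, -, rfl⟩ := hζ.eq_pow_of_pow_eq_one hξ1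
  exact ⟨k, datAt_of_triv hm hB hBV hV hBV' hV' hg hg' hu hu' (hmem _ hξ1) hξ0⟩

end Loc

section Map

variable {F F' : Type*} [Field F] [Field F'] {B : Subring F} {B' : Subring F'} {m : ℕ}
  (φ : F' →+* F) (hφ : ∀ x ∈ B', φ x ∈ B)

theorem Triv.map {φ : F' →+* F} (hφ : ∀ x ∈ B', φ x ∈ B) {V : ValuationSubring F}
    {W : ValuationSubring F'} (hV : V.comap φ = W) {g u : F'} (h : Triv B' m g W u) :
    Triv B m (φ g) V (φ u) := by
  refine ⟨?_, ?_⟩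
  · rw [← map_pow, ← map_mul]
    exact hφ _ h.1
  · have := (NG.val_comap hV _).1 h.2
    rwa [map_sub, map_one] at this

theorem zeroAt_map {𝔪 : Ideal B} {y : F'}
    (h : ZeroAt B' (𝔪.comap (φ.restrict B' B hφ)) y) : ZeroAt B 𝔪 (φ y) := by
  obtain ⟨s, t, hs, ht, e⟩ := h
  refine ⟨φ.restrict B' B hφ s, φ.restrict B' B hφ t, hs, ht, ?_⟩
  show φ y * φ (t : F') = φ (s : F')
  rw [← map_mul, e]

theorem val_map_sub_one {φ : F' →+* F} {V : ValuationSubring F} {W : ValuationSubring F'}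
    (hV : V.comap φ = W) {g : F'} (h : W.valuation (g - 1) < 1) : V.valuation (φ g - 1) < 1 := by
  have := (NG.val_comap hV _).1 h
  rwa [map_sub, map_one] at this

/-- functoriality of the datum -/
theorem DatAt.map (hm : m ≠ 0) (hB : RootClosed B m) {V V' : ValuationSubring F}
    {W W' : ValuationSubring F'} (hVW : V.comap φ = W) (hVW' : V'.comap φ = W')
    {𝔪 : Ideal B} [𝔪.IsPrime] (hBV : B ≤ V.toSubring) (hV : centre B V hBV ≤ 𝔪)
    (hBV' : B ≤ V'.toSubring) (hV' : centre B V' hBV' ≤ 𝔪) {g z : F'}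
    (hg : W.valuation (g - 1) < 1) (hg' : W'.valuation (g - 1) < 1)
    (ex : ∃ u, Triv B' m g W u) (ex' : ∃ u, Triv B' m g W' u) (hz : MemAt B 𝔪 (φ z))
    (h : DatAt B' m g (𝔪.comap (φ.restrict B' B hφ)) W W' z) :
    DatAt B m (φ g) 𝔪 V V' (φ z) := by
  obtain ⟨u, hu⟩ := ex
  obtain ⟨u', hu'⟩ := ex'
  refine datAt_of_triv hm hB hBV hV hBV' hV' (val_map_sub_one hVW hg) (val_map_sub_one hVW' hg')
    (hu.map hφ hVW) (hu'.map hφ hVW') hz ?_
  have := zeroAt_map φ hφ (h u u' hu hu')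
  rwa [map_sub, map_div₀] at this

end Map

section Hor

variable {K F F' : Type*} [Field K] [Field F] [Field F'] [Algebra K F] [Algebra K F'] {m : ℕ}

theorem hor_mul {a b : F} (ha : Hor K m a) (hb : Hor K m b) : Hor K m (a * b) := by
  intro W hW
  obtain ⟨x, hx0, hx⟩ := ha W hW
  obtain ⟨y, hy0, hy⟩ := hb W hW
  refine ⟨x * y, mul_ne_zero hx0 hy0, ?_⟩
  have : (x * y) ^ m * (a * b) = (x ^ m * a) * (y ^ m * b) := by ring
  rw [this, map_mul, hx, hy, one_mul]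

theorem hor_map (φ : F' →ₐ[K] F) {a : F'} (ha : Hor K m a) : Hor K m (φ a) := by
  intro W hW
  obtain ⟨x, hx0, hx⟩ := ha (W.comap (φ : F' →+* F)) (fun c => by
    rw [ValuationSubring.mem_comap]
    show φ (algebraMap K F' c) ∈ W
    rw [AlgHom.commutes]
    exact hW c)
  refine ⟨φ x, (map_ne_zero φ).2 hx0, ?_⟩
  have := (diff_val_eq_one_comap (φ := (φ : F' →+* F)) (V := W) rfl _).1 hx
  rw [map_mul, map_pow] at this
  exact this

end Hor

section Sys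

variable {R : Type*} [CommRing R] [IsDomain R] [IsDiscreteValuationRing R]
  {K : Type*} [Field K] [Algebra R K] [IsFractionRing R K]
  {F : Type*} [Field F] [CharZero F] [Algebra R F] [Algebra K F] [IsScalarTower R K F]
  {π : R} {t : F} {ι : Type*} [Fintype ι] [Nonempty ι] {O : ι → ValuationSubring F} {e f : ι → ℕ}

omit [Nonempty ι] in
/-- existence of the trivialisations along the components -/
theorem exists_triv (hπ : Irreducible π) (S : GaussSys K π t O e f)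
    (hDed : ∀ i, IsDedekindDomain (intCl R t ⧸ S.p i)) {m : ℕ} (hm : m ≠ 0) {g : F}
    (hg : ∀ i, (O i).valuation (g - 1) < 1) (hLD : LD (intCl R t) m g) (i : ι) :
    ∃ u, Triv (intCl R t) m g (O i) u := by
  have hg0 : g ≠ 0 := by
    rintro rfl
    have := comp_aux_val_f (hg i)
    rw [map_zero] at this
    exact zero_ne_one this
  have hBO : intCl R t ≤ (O i).toSubring := intCl_le (S.gauss i)
  have hIC : IsIntegrallyClosed (intCl R t ⧸ centre (intCl R t) (O i) hBO) := by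
    have := hDed i
    exact inferInstanceAs (IsIntegrallyClosed (intCl R t ⧸ S.p i))
  exact comp (intCl R t) hm (rootClosed_intCl R t hm) hg0 hLD (O i) hBO
    (hroot_of_isIntegrallyClosed (intCl R t) (O i) hBO hIC
      (fun x hx => S.unitAt_centre hπ i hBO hx) hm) (hg i)

omit [IsFractionRing R K] [IsScalarTower R K F] [Nonempty ι] in
theorem gluedK_one_of_datAt (S : GaussSys K π t O e f) {m : ℕ} {g : F}
    (h : ∀ i j, i ≠ j → ∀ 𝔪 : Ideal (intCl R t), 𝔪.IsMaximal → S.p i ≤ 𝔪 → S.p j ≤ 𝔪 →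
      DatAt (intCl R t) m g 𝔪 (O i) (O j) 1) : GluedK S m g (fun _ => 1) := by
  intro i j hij 𝔪 h𝔪 hi hj u u' hu hu' hui hu'j
  simp only [map_one] at hui hu'j
  exact h i j hij 𝔪 h𝔪 hi hj u u' ⟨hu, hui⟩ ⟨hu', hu'j⟩

/-- **trivial data ⟹ trivial class** -/
theorem trivial_of_datAt_one (hπ : Irreducible π) (S : GaussSys K π t O e f)
    (hglob : ∀ x, x ∈ intCl R t → x ∈ intCl R t⁻¹ → x ∈ Set.range (algebraMap R F))
    (hDed₁ : ∀ i, IsDedekindDomain (intCl R t ⧸ S.p i))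
    (hDed₂ : ∀ i, IsDedekindDomain (intCl R t⁻¹ ⧸ (S.inv hπ).p i))
    {m : ℕ} (hm : IsUnit ((m : ℕ) : R)) (ζ : R) (hζ : IsPrimitiveRoot ζ m)
    (disj₂ : ∀ 𝔪 : Ideal (intCl R t⁻¹), 𝔪.IsMaximal → ∀ i j, i ≠ j → (S.inv hπ).p i ≤ 𝔪 →
      (S.inv hπ).p j ≤ 𝔪 → False)
    {g : F} (hg : ∀ i, (O i).valuation (g - 1) < 1)
    (hLD₁ : LD (intCl R t) m g) (hLD₂ : LD (intCl R t⁻¹) m g)
    (h : ∀ i j, i ≠ j → ∀ 𝔪 : Ideal (intCl R t), 𝔪.IsMaximal → S.p i ≤ 𝔪 → S.p j ≤ 𝔪 →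
      DatAt (intCl R t) m g 𝔪 (O i) (O j) 1) :
    ∃ (c : R) (x : F), c ≠ 0 ∧ x ≠ 0 ∧ g = algebraMap R F c * x ^ m :=
  trivial_of_gluedK hπ S hglob hDed₁ hDed₂ hm ζ hζ hg hLD₁ hLD₂ (fun _ => 1) (fun _ => one_pow m)
    (gluedK_one_of_datAt S h)
    (fun i j hij 𝔪 h𝔪 hi hj _ _ _ _ _ _ => (disj₂ 𝔪 h𝔪 i j hij hi hj).elim)

end Sys

section Old

variable {R : Type*} [CommRing R] [IsDomain R] [IsDiscreteValuationRing R]
  {K : Type*} [Field K] [Algebra R K] [IsFractionRing R K]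
  {F : Type*} [Field F] [CharZero F] [Algebra R F] [Algebra K F] [IsScalarTower R K F]
  {F' : Type*} [Field F'] [CharZero F'] [Algebra R F'] [Algebra K F'] [IsScalarTower R K F']
  {π : R} {t : F} {O : Fin 3 → ValuationSubring F} {e f : Fin 3 → ℕ}
  {t' : F'} {O' : Fin 2 → ValuationSubring F'} {e' f' : Fin 2 → ℕ}

theorem zeroAt_all_of_adjacent {B : Subring F} {𝔪 : Ideal B} (h𝔪 : 𝔪.IsPrime) (r : Fin 3 → F)
    (h01 : ZeroAt B 𝔪 (r 1 / r 0 - 1)) (h12 : ZeroAt B 𝔪 (r 2 / r 1 - 1)) (i j : Fin 3) :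
    ZeroAt B 𝔪 (r j / r i - 1) := by
  have h0 : r 0 ≠ 0 := fun h => (unitAt_of_one h01).ne_zero (by rw [h, div_zero])
  have h1 : r 1 ≠ 0 := fun h => (unitAt_of_one h01).ne_zero (by rw [h, zero_div])
  have h2 : r 2 ≠ 0 := fun h => (unitAt_of_one h12).ne_zero (by rw [h, zero_div])
  have hz : ZeroAt B 𝔪 ((1 : F) - 1) := by
    rw [sub_self]
    exact ⟨0, 1, 𝔪.zero_mem, fun h => h𝔪.ne_top ((Ideal.eq_top_iff_one _).2 h), by simp⟩
  have h02 : ZeroAt B 𝔪 (r 2 / r 0 - 1) := zeroAt_trans h𝔪 h12 h01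
  have hinv : ∀ {a b : F}, ZeroAt B 𝔪 (a / b - 1) → ZeroAt B 𝔪 (b / a - 1) := by
    intro a b h
    have := one_inv h
    rwa [inv_div] at this
  fin_cases i <;> fin_cases j
  · simpa [div_self h0] using hz
  · exact h01
  · exact h02
  · exact hinv h01
  · simpa [div_self h1] using hz
  · exact h12
  · exact hinv h02
  · exact hinv h12
  · simpa [div_self h2] using hz

/-- uniqueness of the intersection point over its image, from residue degree one along one component. -/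
theorem uni_of_approx (S : GaussSys K π t O e f) (φ : F' →+* F)
    (hφ : ∀ x ∈ intCl R t', φ x ∈ intCl R t) (i : Fin 3)
    (approx : ∀ x ∈ intCl R t, ∃ x' ∈ intCl R t', (O i).valuation (x - φ x') < 1)
    (𝔪 𝔪' : Ideal (intCl R t)) (h : S.p i ≤ 𝔪) (h' : S.p i ≤ 𝔪')
    (hc : 𝔪.comap (φ.restrict (intCl R t') (intCl R t) hφ) =
      𝔪'.comap (φ.restrict (intCl R t') (intCl R t) hφ)) : 𝔪 = 𝔪' := by
  have key : ∀ 𝔞 𝔟 : Ideal (intCl R t), S.p i ≤ 𝔞 → S.p i ≤ 𝔟 →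
      𝔞.comap (φ.restrict (intCl R t') (intCl R t) hφ) =
      𝔟.comap (φ.restrict (intCl R t') (intCl R t) hφ) → 𝔞 ≤ 𝔟 := by
    intro 𝔞 𝔟 ha hb hab x hx
    obtain ⟨x', hx', hv⟩ := approx x x.2
    have h1 : x - φ.restrict (intCl R t') (intCl R t) hφ ⟨x', hx'⟩ ∈ S.p i := (S.mem_p i).2 hv
    have h2 : (⟨x', hx'⟩ : intCl R t') ∈ 𝔞.comap (φ.restrict (intCl R t') (intCl R t) hφ) := by
      rw [Ideal.mem_comap]
      have := 𝔞.sub_mem hx (ha h1)
      simpa using this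
    rw [hab, Ideal.mem_comap] at h2
    have := 𝔟.add_mem (hb h1) h2
    simpa using this
  exact le_antisymm (key _ _ h h' hc) (key _ _ h' h hc.symm)

/-- **[TORIC-OLD]**, abstract form.  Upstairs: three components, all the intersection points are triple points; downstairs: two
components; `α` maps the components `0, 1, 2` to `0, 0, 1`, `β` maps them to `0, 1, 1`.  If downstairs every datum is realised, every
toric function upstairs is, up to a constant and an `m`-th power, a product `α g' * β g''` of toric functions. -/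
theorem toric_old_abs (hπ : Irreducible π) (S : GaussSys K π t O e f)
    (hglob : ∀ x, x ∈ intCl R t → x ∈ intCl R t⁻¹ → x ∈ Set.range (algebraMap R F))
    (hDed₁ : ∀ i, IsDedekindDomain (intCl R t ⧸ S.p i))
    (hDed₂ : ∀ i, IsDedekindDomain (intCl R t⁻¹ ⧸ (S.inv hπ).p i))
    {m : ℕ} (hm : IsUnit ((m : ℕ) : R)) (ζ : R) (hζ : IsPrimitiveRoot ζ m)
    (ld₁ : ∀ g : F, (∀ i, (O i).valuation g = 1) → Hor K m g → LD (intCl R t) m g)
    (ld₂ : ∀ g : F, (∀ i, (O i).valuation g = 1) → Hor K m g → LD (intCl R t⁻¹) m g)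
    (triple : ∀ 𝔪 : Ideal (intCl R t), 𝔪.IsMaximal → ∀ i j, i ≠ j → S.p i ≤ 𝔪 → S.p j ≤ 𝔪 →
      ∀ l, S.p l ≤ 𝔪)
    (disj₂ : ∀ 𝔪 : Ideal (intCl R t⁻¹), 𝔪.IsMaximal → ∀ i j, i ≠ j → (S.inv hπ).p i ≤ 𝔪 →
      (S.inv hπ).p j ≤ 𝔪 → False)
    (S' : GaussSys K π t' O' e' f')
    (hDed' : ∀ i, IsDedekindDomain (intCl R t' ⧸ S'.p i))
    (ld' : ∀ g : F', (∀ i, (O' i).valuation g = 1) → Hor K m g → LD (intCl R t') m g)
    (α β : F' →ₐ[K] F)
    (hα : ∀ x ∈ intCl R t', (α : F' →+* F) x ∈ intCl R t)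
    (hβ : ∀ x ∈ intCl R t', (β : F' →+* F) x ∈ intCl R t)
    (comap_α : ∀ i, (O i).comap (α : F' →+* F) = O' (idxα i))
    (comap_β : ∀ i, (O i).comap (β : F' →+* F) = O' (idxβ i))
    (uniα : ∀ 𝔪 𝔪' : Ideal (intCl R t), (∀ l, S.p l ≤ 𝔪) → (∀ l, S.p l ≤ 𝔪') →
      𝔪.comap ((α : F' →+* F).restrict (intCl R t') (intCl R t) hα) =
        𝔪'.comap ((α : F' →+* F).restrict (intCl R t') (intCl R t) hα) → 𝔪 = 𝔪')
    (uniβ : ∀ 𝔪 𝔪' : Ideal (intCl R t), (∀ l, S.p l ≤ 𝔪) → (∀ l, S.p l ≤ 𝔪') →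
      𝔪.comap ((β : F' →+* F).restrict (intCl R t') (intCl R t) hβ) =
        𝔪'.comap ((β : F' →+* F).restrict (intCl R t') (intCl R t) hβ) → 𝔪 = 𝔪')
    (surj : ∀ k : Ideal (intCl R t') → ℕ, ∃ g' : F', (∀ i, (O' i).valuation (g' - 1) < 1) ∧
      Hor K m g' ∧ ∀ 𝔫 : Ideal (intCl R t'), 𝔫.IsPrime → S'.p 0 ≤ 𝔫 → S'.p 1 ≤ 𝔫 →
        DatAt (intCl R t') m g' 𝔫 (O' 0) (O' 1) (algebraMap R F' ζ ^ k 𝔫))
    {g : F} (hg : ∀ i, (O i).valuation (g - 1) < 1) (hhor : Hor K m g) :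
    ∃ (g' g'' : F') (c : R) (x : F), (∀ i, (O' i).valuation (g' - 1) < 1) ∧ Hor K m g' ∧
      (∀ i, (O' i).valuation (g'' - 1) < 1) ∧ Hor K m g'' ∧ c ≠ 0 ∧ x ≠ 0 ∧
      g * α g' * β g'' = algebraMap R F c * x ^ m := by
  classical
  have hm0 : m ≠ 0 := by
    rintro rfl
    simp at hm
  have hinj : Function.Injective (algebraMap R F) := by
    rw [IsScalarTower.algebraMap_eq R K F]
    exact (algebraMap K F).injective.comp (IsFractionRing.injective R K)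
  have hζF : IsPrimitiveRoot (algebraMap R F ζ) m := hζ.map_of_injective hinj
  have hRC := rootClosed_intCl R t hm0
  have hRC' := rootClosed_intCl R t' hm0
  have hBO : ∀ i, intCl R t ≤ (O i).toSubring := fun i => intCl_le (S.gauss i)
  have hBO' : ∀ i, intCl R t' ≤ (O' i).toSubring := fun i => intCl_le (S'.gauss i)
  have hαζ : ∀ k : ℕ, (α : F' →+* F) (algebraMap R F' ζ ^ k) = algebraMap R F ζ ^ k := by
    intro k
    rw [map_pow, IsScalarTower.algebraMap_apply R K F', IsScalarTower.algebraMap_apply R K F]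
    congr 1
    exact α.commutes _
  have hβζ : ∀ k : ℕ, (β : F' →+* F) (algebraMap R F' ζ ^ k) = algebraMap R F ζ ^ k := by
    intro k
    rw [map_pow, IsScalarTower.algebraMap_apply R K F', IsScalarTower.algebraMap_apply R K F]
    congr 1
    exact β.commutes _
  -- trivialisations exist
  have exT : ∀ a : F, (∀ i, (O i).valuation (a - 1) < 1) → Hor K m a →
      ∀ i, ∃ u, Triv (intCl R t) m a (O i) u := fun a ha hh i =>
    exists_triv hπ S hDed₁ hm0 ha (ld₁ a (fun i => comp_aux_val_f (ha i)) hh) i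
  have exT' : ∀ a : F', (∀ i, (O' i).valuation (a - 1) < 1) → Hor K m a →
      ∀ i, ∃ u, Triv (intCl R t') m a (O' i) u := fun a ha hh i =>
    exists_triv hπ S' hDed' hm0 ha (ld' a (fun i => comp_aux_val_f (ha i)) hh) i
  have hmemζ : ∀ (𝔪 : Ideal (intCl R t)), 𝔪.IsPrime → ∀ k : ℕ,
      MemAt (intCl R t) 𝔪 (algebraMap R F ζ ^ k) := fun 𝔪 h𝔪 k =>
    memAt_of_mem ((intCl R t).pow_mem (algebraMap_mem_intCl R t ζ) k) h𝔪.ne_top
  -- the data of `g`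
  have ex01 : ∀ 𝔪 : Ideal (intCl R t), (𝔪.IsMaximal ∧ ∀ l, S.p l ≤ 𝔪) →
      ∃ k : ℕ, DatAt (intCl R t) m g 𝔪 (O 0) (O 1) (algebraMap R F ζ ^ k) := by
    rintro 𝔪 ⟨h𝔪, hall⟩
    have := h𝔪.isPrime
    exact exists_datAt hm0 hRC (hBO 0) (hall 0) (hBO 1) (hall 1) (hg 0) (hg 1) (exT g hg hhor 0)
      (exT g hg hhor 1) hζF
  have ex12 : ∀ 𝔪 : Ideal (intCl R t), (𝔪.IsMaximal ∧ ∀ l, S.p l ≤ 𝔪) →
      ∃ k : ℕ, DatAt (intCl R t) m g 𝔪 (O 1) (O 2) (algebraMap R F ζ ^ k) := by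
    rintro 𝔪 ⟨h𝔪, hall⟩
    have := h𝔪.isPrime
    exact exists_datAt hm0 hRC (hBO 1) (hall 1) (hBO 2) (hall 2) (hg 1) (hg 2) (exT g hg hhor 1)
      (exT g hg hhor 2) hζF
  choose! k01 hk01 using ex01
  choose! k12 hk12 using ex12
  set cα := (α : F' →+* F).restrict (intCl R t') (intCl R t) hα with hcα
  set cβ := (β : F' →+* F).restrict (intCl R t') (intCl R t) hβ with hcβ
  -- the data downstairs
  set zA : Ideal (intCl R t') → ℕ := fun 𝔫 =>
    if h : ∃ 𝔪 : Ideal (intCl R t), (𝔪.IsMaximal ∧ ∀ l, S.p l ≤ 𝔪) ∧ 𝔪.comap cα = 𝔫 then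
      (m - 1) * k12 h.choose else 0 with hzA
  set zB : Ideal (intCl R t') → ℕ := fun 𝔫 =>
    if h : ∃ 𝔪 : Ideal (intCl R t), (𝔪.IsMaximal ∧ ∀ l, S.p l ≤ 𝔪) ∧ 𝔪.comap cβ = 𝔫 then
      (m - 1) * k01 h.choose else 0 with hzB
  have hzA' : ∀ 𝔪 : Ideal (intCl R t), (𝔪.IsMaximal ∧ ∀ l, S.p l ≤ 𝔪) →
      zA (𝔪.comap cα) = (m - 1) * k12 𝔪 := by
    intro 𝔪 h𝔪
    have h : ∃ 𝔪' : Ideal (intCl R t), (𝔪'.IsMaximal ∧ ∀ l, S.p l ≤ 𝔪') ∧
        𝔪'.comap cα = 𝔪.comap cα := ⟨𝔪, h𝔪, rfl⟩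
    have e : h.choose = 𝔪 := uniα _ _ h.choose_spec.1.2 h𝔪.2 h.choose_spec.2
    rw [hzA]
    simp only [dif_pos h, e]
  have hzB' : ∀ 𝔪 : Ideal (intCl R t), (𝔪.IsMaximal ∧ ∀ l, S.p l ≤ 𝔪) →
      zB (𝔪.comap cβ) = (m - 1) * k01 𝔪 := by
    intro 𝔪 h𝔪
    have h : ∃ 𝔪' : Ideal (intCl R t), (𝔪'.IsMaximal ∧ ∀ l, S.p l ≤ 𝔪') ∧
        𝔪'.comap cβ = 𝔪.comap cβ := ⟨𝔪, h𝔪, rfl⟩
    have e : h.choose = 𝔪 := uniβ _ _ h.choose_spec.1.2 h𝔪.2 h.choose_spec.2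
    rw [hzB]
    simp only [dif_pos h, e]
  obtain ⟨g', hg', hhor', hd'⟩ := surj zA
  obtain ⟨g'', hg'', hhor'', hd''⟩ := surj zB
  have hαg : ∀ i, (O i).valuation (α g' - 1) < 1 := fun i =>
    val_map_sub_one (comap_α i) (hg' _)
  have hβg : ∀ i, (O i).valuation (β g'' - 1) < 1 := fun i =>
    val_map_sub_one (comap_β i) (hg'' _)
  have hhα : Hor K m (α g') := hor_map α hhor'
  have hhβ : Hor K m (β g'') := hor_map β hhor''
  have hgα : ∀ i, (O i).valuation (g * α g' - 1) < 1 := fun i => val_mul_sub_one (hg i) (hαg i)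
  have hhgα : Hor K m (g * α g') := hor_mul hhor hhα
  set G : F := g * α g' * β g'' with hG
  have hG1 : ∀ i, (O i).valuation (G - 1) < 1 := fun i => val_mul_sub_one (hgα i) (hβg i)
  have hGhor : Hor K m G := hor_mul hhgα hhβ
  have hGv : ∀ i, (O i).valuation G = 1 := fun i => comp_aux_val_f (hG1 i)
  have hpow : ∀ k : ℕ, algebraMap R F ζ ^ k * algebraMap R F ζ ^ ((m - 1) * k) = 1 := by
    intro k
    rw [← pow_add]
    have : k + (m - 1) * k = m * k := by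
      obtain ⟨n, rfl⟩ := Nat.exists_eq_succ_of_ne_zero hm0
      simp only [Nat.succ_eq_add_one, Nat.add_sub_cancel]
      ring
    rw [this, pow_mul, hζF.pow_eq_one, one_pow]
  -- centres downstairs
  have hcen : ∀ (φ : F' →+* F) (hφ : ∀ x ∈ intCl R t', φ x ∈ intCl R t) (i : Fin 3) (a : Fin 2),
      (O i).comap φ = O' a → ∀ 𝔪 : Ideal (intCl R t), S.p i ≤ 𝔪 →
      S'.p a ≤ 𝔪.comap (φ.restrict (intCl R t') (intCl R t) hφ) := by
    intro φ hφ i a hc 𝔪 hi x hx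
    rw [Ideal.mem_comap]
    apply hi
    rw [S.mem_p]
    exact (NG.val_comap hc _).1 ((S'.mem_p a).1 hx)
  refine ⟨g', g'', ?_⟩
  obtain ⟨c, x, hc, hx, hfin⟩ := trivial_of_datAt_one hπ S hglob hDed₁ hDed₂ hm ζ hζ disj₂ hG1
    (ld₁ G hGv hGhor) (ld₂ G hGv hGhor) (by
      intro i j hij 𝔪 h𝔪 hi hj
      have hall := triple 𝔪 h𝔪 i j hij hi hj
      have hpr := h𝔪.isPrime
      have hprα : (𝔪.comap cα).IsPrime := Ideal.comap_isPrime _ _
      have hprβ : (𝔪.comap cβ).IsPrime := Ideal.comap_isPrime _ _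
      have h1 : MemAt (intCl R t) 𝔪 (1 : F) := memAt_one
      -- pair (0,1)
      have a01 : DatAt (intCl R t) m (α g') 𝔪 (O 0) (O 1) 1 := by
        have := DatAt.map (α : F' →+* F) hα hm0 hRC (comap_α 0) (comap_α 1) (hBO 0) (hall 0)
          (hBO 1) (hall 1) (z := 1) (hg' _) (hg' _) (exT' g' hg' hhor' _) (exT' g' hg' hhor' _)
          (by rw [map_one]; exact h1)
          (DatAt.refl hm0 hRC' (hBO' 0) (hcen _ hα 0 0 (comap_α 0) 𝔪 (hall 0)) (hg' 0))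
        rwa [map_one] at this
      have b01 : DatAt (intCl R t) m (β g'') 𝔪 (O 0) (O 1)
          (algebraMap R F ζ ^ ((m - 1) * k01 𝔪)) := by
        have := DatAt.map (β : F' →+* F) hβ hm0 hRC (comap_β 0) (comap_β 1) (hBO 0) (hall 0)
          (hBO 1) (hall 1) (z := algebraMap R F' ζ ^ zB (𝔪.comap cβ)) (hg'' _) (hg'' _)
          (exT' g'' hg'' hhor'' _) (exT' g'' hg'' hhor'' _)
          (by rw [hβζ]; exact hmemζ 𝔪 hpr _)
          (hd'' _ hprβ (hcen _ hβ 0 0 (comap_β 0) 𝔪 (hall 0)) (hcen _ hβ 1 1 (comap_β 1) 𝔪 (hall 1)))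
        rwa [hβζ, hzB' 𝔪 ⟨h𝔪, hall⟩] at this
      have G01 : DatAt (intCl R t) m G 𝔪 (O 0) (O 1) 1 := by
        have e1 := DatAt.mul hm0 hRC (hBO 0) (hall 0) (hBO 1) (hall 1) (hg 0) (hg 1) (hαg 0) (hαg 1)
          (exT g hg hhor 0) (exT g hg hhor 1) (exT _ hαg hhα 0) (exT _ hαg hhα 1)
          (hmemζ 𝔪 hpr _) h1 (hk01 𝔪 ⟨h𝔪, hall⟩) a01
        have e2 := DatAt.mul hm0 hRC (hBO 0) (hall 0) (hBO 1) (hall 1) (hgα 0) (hgα 1) (hβg 0)
          (hβg 1) (exT _ hgα hhgα 0) (exT _ hgα hhgα 1) (exT _ hβg hhβ 0) (exT _ hβg hhβ 1)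
          ((hmemζ 𝔪 hpr _).mul h1) (hmemζ 𝔪 hpr _) e1 b01
        rwa [mul_one, hpow] at e2
      -- pair (1,2)
      have a12 : DatAt (intCl R t) m (α g') 𝔪 (O 1) (O 2)
          (algebraMap R F ζ ^ ((m - 1) * k12 𝔪)) := by
        have := DatAt.map (α : F' →+* F) hα hm0 hRC (comap_α 1) (comap_α 2) (hBO 1) (hall 1)
          (hBO 2) (hall 2) (z := algebraMap R F' ζ ^ zA (𝔪.comap cα)) (hg' _) (hg' _)
          (exT' g' hg' hhor' _) (exT' g' hg' hhor' _)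
          (by rw [hαζ]; exact hmemζ 𝔪 hpr _)
          (hd' _ hprα (hcen _ hα 1 0 (comap_α 1) 𝔪 (hall 1)) (hcen _ hα 2 1 (comap_α 2) 𝔪 (hall 2)))
        rwa [hαζ, hzA' 𝔪 ⟨h𝔪, hall⟩] at this
      have b12 : DatAt (intCl R t) m (β g'') 𝔪 (O 1) (O 2) 1 := by
        have := DatAt.map (β : F' →+* F) hβ hm0 hRC (comap_β 1) (comap_β 2) (hBO 1) (hall 1)
          (hBO 2) (hall 2) (z := 1) (hg'' _) (hg'' _) (exT' g'' hg'' hhor'' _)
          (exT' g'' hg'' hhor'' _) (by rw [map_one]; exact h1)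
          (DatAt.refl hm0 hRC' (hBO' 1) (hcen _ hβ 1 1 (comap_β 1) 𝔪 (hall 1)) (hg'' 1))
        rwa [map_one] at this
      have G12 : DatAt (intCl R t) m G 𝔪 (O 1) (O 2) 1 := by
        have e1 := DatAt.mul hm0 hRC (hBO 1) (hall 1) (hBO 2) (hall 2) (hg 1) (hg 2) (hαg 1) (hαg 2)
          (exT g hg hhor 1) (exT g hg hhor 2) (exT _ hαg hhα 1) (exT _ hαg hhα 2)
          (hmemζ 𝔪 hpr _) (hmemζ 𝔪 hpr _) (hk12 𝔪 ⟨h𝔪, hall⟩) a12
        have e2 := DatAt.mul hm0 hRC (hBO 1) (hall 1) (hBO 2) (hall 2) (hgα 1) (hgα 2) (hβg 1)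
          (hβg 2) (exT _ hgα hhgα 1) (exT _ hgα hhgα 2) (exT _ hβg hhβ 1) (exT _ hβg hhβ 2)
          ((hmemζ 𝔪 hpr _).mul (hmemζ 𝔪 hpr _)) h1 e1 b12
        rwa [mul_one, hpow] at e2
      -- all the pairs
      choose u hu using exT G hG1 hGhor
      exact datAt_of_triv hm0 hRC (hBO i) (hall i) (hBO j) (hall j) (hG1 i) (hG1 j) (hu i) (hu j) h1
        (zeroAt_all_of_adjacent hpr u (G01 _ _ (hu 0) (hu 1)) (G12 _ _ (hu 1) (hu 2)) i j))
  exact ⟨c, x, hg', hhor', hg'', hhor'', hc, hx, hfin⟩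

end Old

end Fermat.Agent.ML.Low.Dat
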