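import Fermat.Agent.S45.Abs.GeomAbs

/-!
# ML / LOWER(A) : `[LOW-DATA3]`  the gluing datum of a toric Kummer function (index-free)

`S : GaussSys K π t O e f` (`ι` any finite nonempty type: `Fin 2` for `X₀(M q)`, `Fin 3` for `X₀(M q²)`), `B = intCl R t`, `p i = S.p i`.
`g ∈ F` with `v_i (g - 1) < 1` for all `i` ("toric"), `m` invertible in `R`.

* `Triv S m g i u`        : `u ^ m * g ∈ B` and `v_i (u - 1) < 1` (a trivialisation of `g` along the component `i`);
* `Ratio S m g i j 𝔪 z`  : for some (equivalently: all, `Ratio.forall`) trivialisations `u`, `u'` along `i`, `j` : `u' / u ≡ z` at `𝔪`;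
* `exists_ratio`  : `z` exists and is a power of a primitive `m`-th root of unity `ζ ∈ R`;   `Ratio.unique`;
* `Ratio.mul`, `Ratio.pow`, `Ratio.one`, `Ratio.trans`, `Ratio.refl` ;
* `gluedK_of_ratio` : a constant datum is glued (then `trivial_of_gluedK` gives `g = c h ^ m`);
* `Ratio.map` , `Ratio.map_same` : pull-back along a morphism of curves.
-/

set_option autoImplicit false
set_option linter.unusedSectionVars false

open Polynomial

namespace Fermat.Agent.ML.Low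

open Fermat.Agent.S36 Fermat.Agent.S36.GlueAux Fermat.Agent.S36.TrivialAux Fermat.Agent.S45

section Gen

variable {F : Type*} [Field F] {B : Subring F} {𝔮 : Ideal B}

theorem unitAt_prod [h𝔮 : 𝔮.IsPrime] {κ : Type*} (s : Finset κ) (x : κ → F)
    (h : ∀ a ∈ s, UnitAt B 𝔮 (x a)) : UnitAt B 𝔮 (∏ a ∈ s, x a) := by
  classical
  induction s using Finset.induction_on with
  | empty =>
    rw [Finset.prod_empty]
    have h1 : (1 : B) ∉ 𝔮 := fun h => h𝔮.ne_top ((Ideal.eq_top_iff_one _).2 h)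
    exact ⟨1, 1, h1, h1, by simp⟩
  | insert a s ha ih =>
    rw [Finset.prod_insert ha]
    exact (h a (Finset.mem_insert_self a s)).mul
      (ih fun b hb => h b (Finset.mem_insert_of_mem hb))

theorem exists_zeroAt_of_prod [h𝔮 : 𝔮.IsPrime] {κ : Type*} (s : Finset κ) (x : κ → F)
    (hm : ∀ a ∈ s, MemAt B 𝔮 (x a)) (h0 : ZeroAt B 𝔮 (∏ a ∈ s, x a)) :
    ∃ a ∈ s, ZeroAt B 𝔮 (x a) := by
  by_contra hcon
  push Not at hcon
  exact not_zeroAt_and_unitAt h0 (unitAt_prod s x fun a ha =>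
    ((hm a ha).zeroAt_or_unitAt).resolve_left (hcon a ha))

theorem ZeroAt.sub' [𝔮.IsPrime] {x y : F} (hx : ZeroAt B 𝔮 x) (hy : ZeroAt B 𝔮 y) :
    ZeroAt B 𝔮 (x - y) := by
  have h1 : ZeroAt B 𝔮 (-y) := by
    obtain ⟨s, t, hs, ht, e⟩ := hy
    exact ⟨-s, t, 𝔮.neg_mem hs, ht, by rw [neg_mul, e]; simp⟩
  rw [sub_eq_add_neg]
  exact hx.add h1

theorem MemAt.sub' [𝔮.IsPrime] {x y : F} (hx : MemAt B 𝔮 x) (hy : MemAt B 𝔮 y) :
    MemAt B 𝔮 (x - y) := by
  rw [sub_eq_add_neg]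
  exact hx.add hy.neg

/-- distinct `m`-th roots of unity differ by a unit when `m` is a unit. -/
theorem isUnit_sub_of_pow_eq_one {R : Type*} [CommRing R] [IsDomain R] {m : ℕ}
    (hm : IsUnit ((m : ℕ) : R)) {z z' : R} (hz : z ^ m = 1) (hz' : z' ^ m = 1) (hne : z ≠ z') :
    IsUnit (z - z') := by
  have hm0 : m ≠ 0 := by
    rintro rfl
    simp at hm
  -- `ξ = z' * z ^ (m - 1)`
  obtain ⟨n, rfl⟩ : ∃ n, m = n + 1 := ⟨m - 1, by omega⟩
  set ξ : R := z' * z ^ n with hξ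
  have hzu : z * z ^ n = 1 := by rw [← pow_succ', hz]
  have hξm : ξ ^ (n + 1) = 1 := by
    rw [hξ, mul_pow, hz', one_mul, ← pow_mul, mul_comm, pow_mul, hz, one_pow]
  have hξ1 : ξ ≠ 1 := by
    intro h
    apply hne
    have : z' = z' * (z * z ^ n) := by rw [hzu, mul_one]
    calc z = z * ξ := by rw [h, mul_one]
      _ = z' * (z * z ^ n) := by rw [hξ]; ring
      _ = z' := this.symm
  have hsum : ∑ a ∈ Finset.range (n + 1), ξ ^ a = 0 := by
    have h1 : (∑ a ∈ Finset.range (n + 1), ξ ^ a) * (ξ - 1) = 0 := by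
      rw [geom_sum_mul, hξm, sub_self]
    exact (mul_eq_zero.1 h1).resolve_right (sub_ne_zero.2 hξ1)
  have hdvd : (1 - ξ) ∣ ((n + 1 : ℕ) : R) := by
    have h2 : ((n + 1 : ℕ) : R) = ∑ a ∈ Finset.range (n + 1), (1 - ξ ^ a) := by
      rw [Finset.sum_sub_distrib, hsum, sub_zero, Finset.sum_const, Finset.card_range, nsmul_one]
    rw [h2]
    refine Finset.dvd_sum fun a _ => ?_
    have := sub_dvd_pow_sub_pow (1 : R) ξ a
    rwa [one_pow] at this
  have hu : IsUnit (1 - ξ) := isUnit_of_dvd_unit hdvd hm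
  have hzunit : IsUnit z := IsUnit.of_mul_eq_one _ hzu
  have : z - z' = z * (1 - ξ) := by
    have : z * ξ = z' * (z * z ^ n) := by rw [hξ]; ring
    rw [mul_sub, mul_one, this, hzu, mul_one]
  rw [this]
  exact hzunit.mul hu

end Gen

variable {R : Type*} [CommRing R] [IsDomain R] [IsDiscreteValuationRing R]
  {K : Type*} [Field K] [Algebra R K] [IsFractionRing R K]
  {F : Type*} [Field F] [CharZero F] [Algebra R F] [Algebra K F] [IsScalarTower R K F]
  {π : R} {t : F} {ι : Type*} [Fintype ι] [Nonempty ι] {O : ι → ValuationSubring F} {e f : ι → ℕ}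

/-- `u` trivialises `g` along the component `i`. -/
def Triv (_S : GaussSys K π t O e f) (m : ℕ) (g : F) (i : ι) (u : F) : Prop :=
  u ^ m * g ∈ intCl R t ∧ (O i).valuation (u - 1) < 1

/-- the ratio at `𝔪` of the trivialisations of `g` along `j` and along `i` is `z`. -/
def Ratio (S : GaussSys K π t O e f) (m : ℕ) (g : F) (i j : ι) (𝔪 : Ideal (intCl R t)) (z : R) :
    Prop :=
  ∃ u u' : F, Triv S m g i u ∧ Triv S m g j u' ∧
    ZeroAt (intCl R t) 𝔪 (u' / u - algebraMap R F z)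

variable {S : GaussSys K π t O e f} {m : ℕ} {g g' : F} {i j l : ι} {𝔪 : Ideal (intCl R t)}

theorem memAt_const (h𝔪 : 𝔪.IsPrime) (z : R) : MemAt (intCl R t) 𝔪 (algebraMap R F z) :=
  memAt_of_mem (algebraMap_mem_intCl R t z) h𝔪.ne_top

namespace Triv

theorem ne_zero {u : F} (h : Triv S m g i u) : u ≠ 0 := by
  rintro rfl
  have := comp_aux_val_f h.2
  rw [map_zero] at this
  exact zero_ne_one this

theorem val {u : F} (h : Triv S m g i u) : (O i).valuation u = 1 := comp_aux_val_f h.2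

theorem mul {u v : F} (h : Triv S m g i u) (h' : Triv S m g' i v) : Triv S m (g * g') i (u * v) := by
  refine ⟨?_, val_mul_sub_one h.2 h'.2⟩
  have : (u * v) ^ m * (g * g') = (u ^ m * g) * (v ^ m * g') := by ring
  rw [this]
  exact mul_mem h.1 h'.1

theorem one (S : GaussSys K π t O e f) (m : ℕ) (i : ι) : Triv S m 1 i 1 :=
  ⟨by simp, by simp⟩

/-- `u ^ m g ≡ 1` at every prime containing `p i`. -/
theorem zeroAt (hg : (O i).valuation (g - 1) < 1) (h𝔪 : 𝔪.IsPrime) (hi : S.p i ≤ 𝔪) {u : F}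
    (h : Triv S m g i u) : ZeroAt (intCl R t) 𝔪 (u ^ m * g - 1) := by
  have h1 : ((⟨u ^ m * g, h.1⟩ : intCl R t) - 1) ∈ 𝔪 := by
    apply hi
    rw [S.mem_p]
    exact val_mul_sub_one (val_pow_sub_one h.2 m) hg
  exact zeroAt_of_mem h1

theorem unitAt (hg : (O i).valuation (g - 1) < 1) (h𝔪 : 𝔪.IsPrime) (hi : S.p i ≤ 𝔪) {u : F}
    (h : Triv S m g i u) : UnitAt (intCl R t) 𝔪 (u ^ m * g) :=
  unitAt_of_one (h.zeroAt hg h𝔪 hi)

/-- two trivialisations along the same component agree at every prime containing `p i`. -/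
theorem zeroAt_div (hm : m ≠ 0) (hg : (O i).valuation (g - 1) < 1) (h𝔪 : 𝔪.IsPrime)
    (hi : S.p i ≤ 𝔪) {u v : F} (h : Triv S m g i u) (h' : Triv S m g i v) :
    ZeroAt (intCl R t) 𝔪 (v / u - 1) := by
  have h1 : MemAt (intCl R t) 𝔪 (v / u) :=
    MM.div_memAt hm (rootClosed_intCl R t hm) (h.unitAt hg h𝔪 hi) h'.1
  refine zeroAt_of_valuation_lt (intCl_le (S.gauss i)) hi (MemAt.sub' h1 memAt_one) ?_
  have e1 : v / u - 1 = ((v - 1) - (u - 1)) / u := by
    have := h.ne_zero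
    field_simp
    ring
  rw [e1, map_div₀, h.val, div_one]
  exact Valuation.map_sub_lt _ h'.2 h.2

/-- the quotient of two trivialisations (along two components through `𝔪`) is regular at `𝔪`. -/
theorem memAt_div (hm : m ≠ 0) (hg : (O i).valuation (g - 1) < 1) (h𝔪 : 𝔪.IsPrime)
    (hi : S.p i ≤ 𝔪) {u v : F} (h : Triv S m g i u) (h' : Triv S m g j v) :
    MemAt (intCl R t) 𝔪 (v / u) :=
  MM.div_memAt hm (rootClosed_intCl R t hm) (h.unitAt hg h𝔪 hi) h'.1

end Triv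

namespace Ratio

/-- the ratio does not depend on the trivialisations. -/
theorem forall' (hm : m ≠ 0) (hg : ∀ i, (O i).valuation (g - 1) < 1) (h𝔪 : 𝔪.IsPrime)
    (hi : S.p i ≤ 𝔪) (hj : S.p j ≤ 𝔪) {z : R} (h : Ratio S m g i j 𝔪 z) {u u' : F}
    (hu : Triv S m g i u) (hu' : Triv S m g j u') :
    ZeroAt (intCl R t) 𝔪 (u' / u - algebraMap R F z) := by
  obtain ⟨v, v', hv, hv', hz⟩ := h
  have ha := hv'.zeroAt_div hm (hg j) h𝔪 hj hu'      -- u' / v' ≡ 1
  have hc := hu.zeroAt_div hm (hg i) h𝔪 hi hv        -- v / u ≡ 1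
  have hb : MemAt (intCl R t) 𝔪 (v' / v) := hv.memAt_div hm (hg i) h𝔪 hi hv'
  have hcm : MemAt (intCl R t) 𝔪 (v / u) := hu.memAt_div hm (hg i) h𝔪 hi hv
  have e1 : u' / u - algebraMap R F z =
      (u' / v' - 1) * ((v' / v) * (v / u)) + (v / u - 1) * (v' / v) +
        (v' / v - algebraMap R F z) := by
    have := hv.ne_zero
    have := hv'.ne_zero
    have := hu.ne_zero
    field_simp
    ring
  rw [e1]
  exact ((ha.mul_memAt (hb.mul hcm)).add (hc.mul_memAt hb)).add hz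

theorem unique (hmR : IsUnit ((m : ℕ) : R)) (hg : ∀ i, (O i).valuation (g - 1) < 1)
    (h𝔪 : 𝔪.IsPrime) (hi : S.p i ≤ 𝔪) (hj : S.p j ≤ 𝔪) {z z' : R} (hz : z ^ m = 1)
    (hz' : z' ^ m = 1) (h : Ratio S m g i j 𝔪 z) (h' : Ratio S m g i j 𝔪 z') : z = z' := by
  have hm : m ≠ 0 := by
    rintro rfl
    simp at hmR
  by_contra hne
  obtain ⟨u, u', hu, hu', h1⟩ := h
  have h2 := h'.forall' hm hg h𝔪 hi hj hu hu'
  have h3 : ZeroAt (intCl R t) 𝔪 (algebraMap R F (z - z')) := by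
    have : algebraMap R F (z - z') =
        (u' / u - algebraMap R F z') - (u' / u - algebraMap R F z) := by
      rw [map_sub]; ring
    rw [this]
    exact ZeroAt.sub' h2 h1
  obtain ⟨w, hw⟩ := (isUnit_sub_of_pow_eq_one hmR hz hz' hne).exists_right_inv
  have h4 : ZeroAt (intCl R t) 𝔪 (1 : F) := by
    have : (1 : F) = algebraMap R F (z - z') * algebraMap R F w := by
      rw [← map_mul, hw, map_one]
    rw [this]
    exact h3.mul_memAt (memAt_const h𝔪 w)
  have h5 : UnitAt (intCl R t) 𝔪 (1 : F) := by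
    have h1 : (1 : intCl R t) ∉ 𝔪 := fun h => h𝔪.ne_top ((Ideal.eq_top_iff_one _).2 h)
    exact ⟨1, 1, h1, h1, by simp⟩
  exact not_zeroAt_and_unitAt h4 h5

theorem mul (hm : m ≠ 0) (hg' : ∀ i, (O i).valuation (g' - 1) < 1) (h𝔪 : 𝔪.IsPrime)
    (hi : S.p i ≤ 𝔪) {z z' : R} (h : Ratio S m g i j 𝔪 z) (h' : Ratio S m g' i j 𝔪 z') :
    Ratio S m (g * g') i j 𝔪 (z * z') := by
  obtain ⟨u, u', hu, hu', h1⟩ := h
  obtain ⟨v, v', hv, hv', h2⟩ := h'
  refine ⟨u * v, u' * v', hu.mul hv, hu'.mul hv', ?_⟩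
  have hb : MemAt (intCl R t) 𝔪 (v' / v) := hv.memAt_div hm (hg' i) h𝔪 hi hv'
  have e1 : u' * v' / (u * v) - algebraMap R F (z * z') =
      (u' / u - algebraMap R F z) * (v' / v) + (v' / v - algebraMap R F z') * algebraMap R F z := by
    have := hu.ne_zero
    have := hv.ne_zero
    rw [map_mul]
    field_simp
    ring
  rw [e1]
  exact (h1.mul_memAt hb).add (h2.mul_memAt (memAt_const h𝔪 z))

theorem one (S : GaussSys K π t O e f) (m : ℕ) (i j : ι) (h𝔪 : 𝔪.IsPrime) :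
    Ratio S m 1 i j 𝔪 1 :=
  ⟨1, 1, Triv.one S m i, Triv.one S m j, by
    rw [div_one, map_one, sub_self]
    exact ⟨0, 1, 𝔪.zero_mem, fun h => h𝔪.ne_top ((Ideal.eq_top_iff_one _).2 h), by simp⟩⟩

theorem pow (hm : m ≠ 0) (hg : ∀ i, (O i).valuation (g - 1) < 1) (h𝔪 : 𝔪.IsPrime)
    (hi : S.p i ≤ 𝔪) {z : R} (h : Ratio S m g i j 𝔪 z) (n : ℕ) :
    Ratio S m (g ^ n) i j 𝔪 (z ^ n) := by
  induction n with
  | zero => simpa using Ratio.one S m i j h𝔪
  | succ n ih =>
    rw [pow_succ, pow_succ]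
    exact ih.mul hm hg h𝔪 hi h

theorem refl (hm : m ≠ 0) (hg : ∀ i, (O i).valuation (g - 1) < 1) (h𝔪 : 𝔪.IsPrime)
    (hi : S.p i ≤ 𝔪) {u : F} (hu : Triv S m g i u) : Ratio S m g i i 𝔪 1 :=
  ⟨u, u, hu, hu, by rw [map_one]; exact hu.zeroAt_div hm (hg i) h𝔪 hi hu⟩

theorem trans (hm : m ≠ 0) (hg : ∀ i, (O i).valuation (g - 1) < 1) (h𝔪 : 𝔪.IsPrime)
    (hj : S.p j ≤ 𝔪) (hl : S.p l ≤ 𝔪) {z z' : R} (h : Ratio S m g i j 𝔪 z)
    (h' : Ratio S m g j l 𝔪 z') : Ratio S m g i l 𝔪 (z * z') := by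
  obtain ⟨u, u', hu, hu', h1⟩ := h
  obtain ⟨v, v', hv, hv', -⟩ := id h'
  have h2 := h'.forall' hm hg h𝔪 hj hl hu' hv'
  refine ⟨u, v', hu, hv', ?_⟩
  have hb : MemAt (intCl R t) 𝔪 (v' / u') := hu'.memAt_div hm (hg j) h𝔪 hj hv'
  have e1 : v' / u - algebraMap R F (z * z') =
      (u' / u - algebraMap R F z) * (v' / u') + (v' / u' - algebraMap R F z') * algebraMap R F z := by
    have := hu.ne_zero
    have := hu'.ne_zero
    rw [map_mul]
    field_simp
    ring
  rw [e1]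
  exact (h1.mul_memAt hb).add (h2.mul_memAt (memAt_const h𝔪 z))

end Ratio

/-- **existence of the datum**: the ratio is a power of `ζ`. -/
theorem exists_ratio (hmR : IsUnit ((m : ℕ) : R)) {ζ : R} (hζ : IsPrimitiveRoot ζ m)
    (hg : ∀ i, (O i).valuation (g - 1) < 1) (h𝔪 : 𝔪.IsPrime) (hi : S.p i ≤ 𝔪) (hj : S.p j ≤ 𝔪)
    {u u' : F} (hu : Triv S m g i u) (hu' : Triv S m g j u') :
    ∃ a : ℕ, Ratio S m g i j 𝔪 (ζ ^ a) := by
  have hm : m ≠ 0 := by
    rintro rfl
    simp at hmR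
  have := NeZero.mk hm
  set y : F := u' / u with hy
  have hym : MemAt (intCl R t) 𝔪 y := hu.memAt_div hm (hg i) h𝔪 hi hu'
  have h1 : ZeroAt (intCl R t) 𝔪 (y ^ m - 1) := by
    have e1 : y ^ m = (u' ^ m * g) / (u ^ m * g) := by
      have hg0 : g ≠ 0 := by
        rintro rfl
        have := comp_aux_val_f (hg i)
        rw [map_zero] at this
        exact zero_ne_one this
      have := hu.ne_zero
      rw [hy, div_pow]
      field_simp
    rw [e1]
    exact one_div' (hu'.zeroAt (hg j) h𝔪 hj) (hu.zeroAt (hg i) h𝔪 hi)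
  have e2 : y ^ m - 1 = ∏ ξ ∈ nthRootsFinset m (1 : R), (y - algebraMap R F ξ) := by
    have := congrArg (aeval y) (X_pow_sub_one_eq_prod (Nat.pos_of_ne_zero hm) hζ)
    simpa [map_prod] using this
  rw [e2] at h1
  obtain ⟨ξ, hξ, h0⟩ := exists_zeroAt_of_prod _ _
    (fun ξ _ => MemAt.sub' hym (memAt_const h𝔪 ξ)) h1
  obtain ⟨a, -, rfl⟩ := hζ.eq_pow_of_pow_eq_one ((mem_nthRootsFinset (Nat.pos_of_ne_zero hm) _).1 hξ)
  exact ⟨a, u, u', hu, hu', h0⟩

/-- **a constant datum is glued.** -/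
theorem gluedK_of_ratio (hm : m ≠ 0) (hg : ∀ i, (O i).valuation (g - 1) < 1) (z : ι → R)
    (hz : ∀ i, z i ^ m = 1)
    (h : ∀ i j, i ≠ j → ∀ 𝔪 : Ideal (intCl R t), 𝔪.IsMaximal → S.p i ≤ 𝔪 → S.p j ≤ 𝔪 →
      ∃ w : R, w * z j = z i ∧ Ratio S m g i j 𝔪 w) : GluedK S m g z := by
  intro i j hij 𝔪 h𝔪 hi hj u u' hu hu' hui hu'j
  obtain ⟨w, hw, hr⟩ := h i j hij 𝔪 h𝔪 hi hj
  have hpr := h𝔪.isPrime
  have hvz : ∀ a b, (O a).valuation (algebraMap R F (z b)) = 1 := by
    intro a b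
    have h1 : (O a).valuation (algebraMap R F (z b)) ^ m = 1 := by
      rw [← map_pow, ← map_pow, hz, map_one, map_one]
    exact (pow_eq_one_iff_of_nonneg zero_le hm).1 h1
  have hz0 : ∀ b, algebraMap R F (z b) ≠ 0 := by
    intro b h0
    have := hvz i b
    rw [h0, map_zero] at this
    exact zero_ne_one this
  have key : ∀ (a : ι) (x : F), x ^ m * g ∈ intCl R t →
      (O a).valuation (x - algebraMap R F (z a)) < 1 → Triv S m g a (x / algebraMap R F (z a)) := by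
    intro a x hx hxa
    refine ⟨?_, ?_⟩
    · rw [div_pow, ← map_pow, hz, map_one, div_one]
      exact hx
    · have : x / algebraMap R F (z a) - 1 = (x - algebraMap R F (z a)) / algebraMap R F (z a) := by
        have := hz0 a
        field_simp
      rw [this, map_div₀, hvz, div_one]
      exact hxa
  have h1 := hr.forall' hm hg hpr hi hj (key i u hu hui) (key j u' hu' hu'j)
  have hu0 : u ≠ 0 := by
    intro h0
    have := (key i u hu hui).ne_zero
    rw [h0, zero_div] at this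
    exact this rfl
  have e1 : u' / u - 1 = (u' / algebraMap R F (z j) / (u / algebraMap R F (z i)) - algebraMap R F w) *
      (algebraMap R F (z j) * algebraMap R F (z i ^ (m - 1))) := by
    have hzi : algebraMap R F (z i) * algebraMap R F (z i ^ (m - 1)) = 1 := by
      rw [← map_mul, ← pow_succ', Nat.sub_add_cancel (Nat.one_le_iff_ne_zero.2 hm), hz, map_one]
    have hwz : algebraMap R F w * algebraMap R F (z j) = algebraMap R F (z i) := by
      rw [← map_mul, hw]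
    have h2 := hz0 i
    have h3 := hz0 j
    have e2 : u' / algebraMap R F (z j) / (u / algebraMap R F (z i)) *
        (algebraMap R F (z j) * algebraMap R F (z i ^ (m - 1))) =
        u' / u * (algebraMap R F (z i) * algebraMap R F (z i ^ (m - 1))) := by
      field_simp
    rw [sub_mul, e2, hzi, mul_one, ← mul_assoc, hwz, hzi]
  rw [e1]
  exact h1.mul_memAt ((memAt_const hpr _).mul (memAt_const hpr _))

/-! ### pull-back -/

section Pull

variable {F' : Type*} [Field F'] [CharZero F'] [Algebra R F'] [Algebra K F'] [IsScalarTower R K F']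
  {t' : F'} {ι' : Type*} [Fintype ι'] [Nonempty ι'] {O' : ι' → ValuationSubring F'}
  {e' f' : ι' → ℕ} {S' : GaussSys K π t' O' e' f'} (α : F' →ₐ[K] F)

theorem val_map_lt {i : ι} {i' : ι'} (hO : (O i).comap (α : F' →+* F) = O' i') {x : F'}
    (hx : (O' i').valuation x < 1) : (O i).valuation (α x) < 1 := by
  rw [← hO] at hx
  exact GaussAux.comap_lt_one.1 hx

theorem Triv.map (hα : ∀ x ∈ intCl R t', α x ∈ intCl R t) {i : ι} {i' : ι'}
    (hO : (O i).comap (α : F' →+* F) = O' i') {g' u : F'} (h : Triv S' m g' i' u) :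
    Triv S m (α g') i (α u) := by
  refine ⟨?_, ?_⟩
  · rw [← map_pow, ← map_mul]
    exact hα _ h.1
  · have := val_map_lt α hO h.2
    rwa [map_sub, map_one] at this

/-- the restriction of `α` to the charts -/
def chartMap (hα : ∀ x ∈ intCl R t', α x ∈ intCl R t) : intCl R t' →+* intCl R t where
  toFun x := ⟨α x, hα x x.2⟩
  map_one' := Subtype.ext (map_one α)
  map_mul' x y := Subtype.ext (map_mul α (x : F') (y : F'))
  map_zero' := Subtype.ext (map_zero α)
  map_add' x y := Subtype.ext (map_add α (x : F') (y : F'))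

theorem zeroAt_map (hα : ∀ x ∈ intCl R t', α x ∈ intCl R t) {x : F'}
    (h : ZeroAt (intCl R t') (𝔪.comap (chartMap α hα)) x) : ZeroAt (intCl R t) 𝔪 (α x) := by
  obtain ⟨s, d, hs, hd, e1⟩ := h
  exact ⟨chartMap α hα s, chartMap α hα d, hs, hd, by
    show α x * α d = α s
    rw [← map_mul, e1]⟩

theorem map_const (z : R) : α (algebraMap R F' z) = algebraMap R F z := by
  rw [IsScalarTower.algebraMap_apply R K F', IsScalarTower.algebraMap_apply R K F]
  exact α.commutes _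

/-- the datum of a pull-back. -/
theorem Ratio.map (hα : ∀ x ∈ intCl R t', α x ∈ intCl R t) {i j : ι} {i' j' : ι'}
    (hi : (O i).comap (α : F' →+* F) = O' i') (hj : (O j).comap (α : F' →+* F) = O' j')
    {g' : F'} {z : R} (h : Ratio S' m g' i' j' (𝔪.comap (chartMap α hα)) z) :
    Ratio S m (α g') i j 𝔪 z := by
  obtain ⟨u, u', hu, hu', h1⟩ := h
  refine ⟨α u, α u', hu.map α hα hi, hu'.map α hα hj, ?_⟩
  have := zeroAt_map α hα h1
  rwa [map_sub, map_div₀, map_const] at this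

/-- two components over the same component: the datum of a pull-back is trivial. -/
theorem Ratio.map_same (h𝔪 : 𝔪.IsPrime) (hα : ∀ x ∈ intCl R t', α x ∈ intCl R t) {i j : ι} {i' : ι'}
    (hi : (O i).comap (α : F' →+* F) = O' i') (hj : (O j).comap (α : F' →+* F) = O' i')
    {g' u : F'} (hu : Triv S' m g' i' u) : Ratio S m (α g') i j 𝔪 1 := by
  refine ⟨α u, α u, hu.map α hα hi, hu.map α hα hj, ?_⟩
  have h0 : α u ≠ 0 := (hu.map (S := S) α hα hi).ne_zero
  rw [div_self h0, map_one, sub_self]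
  exact ⟨0, 1, 𝔪.zero_mem, fun h => h𝔪.ne_top ((Ideal.eq_top_iff_one _).2 h), by simp⟩

end Pull

end Fermat.Agent.ML.Low
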