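import Fermat.Agent.ML.Low.Dat
import Fermat.Agent.ML.Low.Datum

/-!
# ML / LOWER : bridge between `Ratio` (`ML/Low/Datum.lean`) and `Dat.DatAt` (`ML/Low/Dat.lean`)
-/

set_option autoImplicit false
set_option linter.unusedSectionVars false

namespace Fermat.Agent.ML.Low

open Fermat.Agent.S36 Fermat.Agent.S45

variable {R : Type*} [CommRing R] [IsDomain R] [IsDiscreteValuationRing R]
  {K : Type*} [Field K] [Algebra R K] [IsFractionRing R K]
  {F : Type*} [Field F] [CharZero F] [Algebra R F] [Algebra K F] [IsScalarTower R K F]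
  {π : R} {t : F} {ι : Type*} [Fintype ι] [Nonempty ι] {O : ι → ValuationSubring F} {e f : ι → ℕ}
  {S : GaussSys K π t O e f} {m : ℕ} {g : F} {i j : ι} {𝔪 : Ideal (intCl R t)}

theorem triv_iff_dat {u : F} : Triv S m g i u ↔ Dat.Triv (intCl R t) m g (O i) u := Iff.rfl

/-- `Ratio` gives `Dat.DatAt`. -/
theorem Ratio.datAt (hm : m ≠ 0) (hg : ∀ i, (O i).valuation (g - 1) < 1) (h𝔪 : 𝔪.IsPrime)
    (hi : S.p i ≤ 𝔪) (hj : S.p j ≤ 𝔪) {z : R} (h : Ratio S m g i j 𝔪 z) :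
    Dat.DatAt (intCl R t) m g 𝔪 (O i) (O j) (algebraMap R F z) :=
  fun _ _ hu hu' => h.forall' hm hg h𝔪 hi hj hu hu'

/-- `Dat.DatAt` gives `Ratio` as soon as trivialisations exist. -/
theorem ratio_of_datAt {z : R} (ex : ∃ u, Triv S m g i u) (ex' : ∃ u, Triv S m g j u)
    (h : Dat.DatAt (intCl R t) m g 𝔪 (O i) (O j) (algebraMap R F z)) : Ratio S m g i j 𝔪 z := by
  obtain ⟨u, hu⟩ := ex
  obtain ⟨u', hu'⟩ := ex'
  exact ⟨u, u', hu, hu', h u u' hu hu'⟩

end Fermat.Agent.ML.Low
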