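import Fermat.Agent.ML.Low.Datum
import Fermat.Agent.S45.Abs.StepRAbs

/-!
# ML / LOWER(A) : `[LOW-DATA3]` part 2

* `ratio_of_trivial` : a toric function of the form `c h ^ m` has a CONSTANT datum (so the datum modulo constants only depends on the
  class of the divisor `(1/m) div g`);
* `expo S m ζ g i j 𝔪 : ZMod m` : the exponent of the ratio; `ratio_expo`, `expo_eq_of_ratio`, `expo_mul`, `expo_pow`, `expo_one`,
  `expo_trans`, `expo_of_trivial` (difference of two constants), `gluedK_of_expo`.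
-/

set_option autoImplicit false
set_option linter.unusedSectionVars false

open Polynomial

namespace Fermat.Agent.ML.Low

open Fermat.Agent.S36 Fermat.Agent.S36.GlueAux Fermat.Agent.S36.TrivialAux Fermat.Agent.S45

variable {R : Type*} [CommRing R] [IsDomain R] [IsDiscreteValuationRing R]
  {K : Type*} [Field K] [Algebra R K] [IsFractionRing R K]
  {F : Type*} [Field F] [CharZero F] [Algebra R F] [Algebra K F] [IsScalarTower R K F]
  {π : R} {t : F} {ι : Type*} [Fintype ι] [Nonempty ι] {O : ι → ValuationSubring F} {e f : ι → ℕ}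

/-- an element whose `m`-th power reduces to `1` reduces to an `m`-th root of unity of `R`. -/
theorem exists_root_of_val_pow {m : ℕ} (hm : m ≠ 0) {ζ : R} (hζ : IsPrimitiveRoot ζ m)
    {V : ValuationSubring F} (hV : ∀ r : R, algebraMap R F r ∈ V) {h : F}
    (hh : V.valuation (h ^ m - 1) < 1) :
    ∃ ξ : R, ξ ^ m = 1 ∧ V.valuation (h - algebraMap R F ξ) < 1 := by
  have hvh : V.valuation h = 1 := by
    have h1 : V.valuation (h ^ m) = 1 := comp_aux_val_f hh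
    rw [map_pow] at h1
    exact (pow_eq_one_iff_of_nonneg zero_le hm).1 h1
  have e2 : h ^ m - 1 = ∏ ξ ∈ nthRootsFinset m (1 : R), (h - algebraMap R F ξ) := by
    have := congrArg (aeval h) (X_pow_sub_one_eq_prod (Nat.pos_of_ne_zero hm) hζ)
    simpa [map_prod] using this
  by_contra hcon
  push Not at hcon
  have h1 : ∀ ξ ∈ nthRootsFinset m (1 : R), V.valuation (h - algebraMap R F ξ) = 1 := by
    intro ξ hξ
    refine le_antisymm ?_ (hcon ξ ((mem_nthRootsFinset (Nat.pos_of_ne_zero hm) _).1 hξ))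
    exact (V.valuation.map_sub _ _).trans
      (max_le hvh.le ((V.valuation_le_one_iff _).2 (hV ξ)))
  rw [e2, map_prod, Finset.prod_eq_one h1] at hh
  exact lt_irrefl _ hh

/-- **a trivial class has a constant datum.** -/
theorem ratio_of_trivial (hπ : Irreducible π) (S : GaussSys K π t O e f) {m : ℕ}
    (hmR : IsUnit ((m : ℕ) : R)) {ζ : R} (hζ : IsPrimitiveRoot ζ m)
    (hk : ∀ r : R, IsUnit r → ∃ s : R, r - s ^ m ∈ Ideal.span {π}) (i₀ : ι) (he : e i₀ = 1)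
    {c : K} {h : F} (hg : ∀ i, (O i).valuation (algebraMap K F c * h ^ m - 1) < 1) :
    ∃ ξ : ι → R, (∀ i, ξ i ^ m = 1) ∧ ∀ (i j : ι) (𝔪 : Ideal (intCl R t)), 𝔪.IsPrime →
      Ratio S m (algebraMap K F c * h ^ m) i j 𝔪 (ξ j * ξ i ^ (m - 1)) := by
  have hm : m ≠ 0 := by
    rintro rfl
    simp at hmR
  have hO : ∀ i (r : R), algebraMap R F r ∈ O i := fun i => (S.gauss i).const
  have hU : IsUnif (O i₀) (algebraMap R F π) :=
    (S.isUnif hπ i₀ (S.gauss i₀).lt_one (by rw [he, pow_one])).1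
  obtain ⟨c₁, h₁, hc₁, hh₁, e₁⟩ := normalise_auxK O hπ i₀ hU hO hm
    (fun i => comp_aux_val_f (hg i)) rfl
  obtain ⟨s, hs⟩ := hk c₁ hc₁
  obtain ⟨d, hd⟩ := Ideal.mem_span_singleton'.1 hs
  -- `s` is a unit
  have hsu : IsUnit s := by
    by_contra hns
    have h1 : π ∣ s := by
      have h0 := (IsDiscreteValuationRing.irreducible_iff_uniformizer π).1 hπ
      exact Ideal.mem_span_singleton.1 (h0 ▸ (IsLocalRing.mem_maximalIdeal s).2 hns)
    have h2 : π ∣ s ^ m := dvd_pow h1 hm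
    have h3 : π ∣ c₁ := by
      have : c₁ = d * π + s ^ m := by rw [hd]; ring
      rw [this]
      exact dvd_add (dvd_mul_left _ _) h2
    exact hπ.not_isUnit (isUnit_of_dvd_unit h3 hc₁)
  obtain ⟨h₂, hh₂⟩ : ∃ h₂ : F, h₂ = algebraMap R F s * h₁ := ⟨_, rfl⟩
  have hvs : ∀ i, (O i).valuation (algebraMap R F s) = 1 := fun i =>
    val_unit_eq_one (hO i) hsu.unit
  have hvc : ∀ i, (O i).valuation (algebraMap R F c₁) = 1 := fun i =>
    val_unit_eq_one (hO i) hc₁.unit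
  have hvh₂ : ∀ i, (O i).valuation h₂ = 1 := fun i => by rw [hh₂, map_mul, hvs, hh₁, one_mul]
  -- `h₂ ^ m ≡ 1`
  have key : ∀ i, (O i).valuation (h₂ ^ m - 1) < 1 := by
    intro i
    have e2 : h₂ ^ m - 1 = (algebraMap R F c₁ * h₁ ^ m - 1) - algebraMap R F (d * π) * h₁ ^ m := by
      rw [hd, hh₂, map_sub, map_pow]
      ring
    rw [e2]
    refine Valuation.map_sub_lt _ (by rw [← e₁]; exact hg i) ?_
    rw [map_mul, map_pow, hh₁, one_pow, mul_one, map_mul, map_mul]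
    calc (O i).valuation (algebraMap R F d) * (O i).valuation (algebraMap R F π)
        ≤ 1 * (O i).valuation (algebraMap R F π) := by
          gcongr
          exact ((O i).valuation_le_one_iff _).2 (hO i d)
      _ < 1 := by rw [one_mul]; exact (S.gauss i).lt_one
  choose ξ hξ hξv using fun i => exists_root_of_val_pow hm hζ (hO i) (key i)
  have hh₂0 : h₂ ≠ 0 := by
    intro h0
    have := hvh₂ i₀
    rw [h0, map_zero] at this
    exact zero_ne_one this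
  have hs0 : algebraMap R F s ≠ 0 := by
    intro h0
    have := hvs i₀
    rw [h0, map_zero] at this
    exact zero_ne_one this
  obtain ⟨s', hs'⟩ := hsu.exists_right_inv
  have htriv : ∀ i, Triv S m (algebraMap K F c * h ^ m) i (algebraMap R F (ξ i) / h₂) := by
    intro i
    refine ⟨?_, ?_⟩
    · have e3 : (algebraMap R F (ξ i) / h₂) ^ m * (algebraMap K F c * h ^ m) =
          algebraMap R F (c₁ * s' ^ m) := by
        have hss : algebraMap R F s * algebraMap R F s' = 1 := by rw [← map_mul, hs', map_one]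
        have hh₁0 : h₁ ≠ 0 := by
          intro h0
          rw [hh₂, h0, mul_zero] at hh₂0
          exact hh₂0 rfl
        have hh₁' : h₁ = algebraMap R F s' * h₂ := by
          rw [hh₂, ← mul_assoc, mul_comm (algebraMap R F s'), hss, one_mul]
        rw [e₁, div_pow, ← map_pow, hξ, map_one, map_mul, map_pow, hh₁', mul_pow]
        have := pow_ne_zero m hh₂0
        field_simp
      rw [e3]
      exact algebraMap_mem_intCl R t _
    · have e4 : algebraMap R F (ξ i) / h₂ - 1 = -(h₂ - algebraMap R F (ξ i)) / h₂ := by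
        field_simp
        ring
      rw [e4, map_div₀, Valuation.map_neg, hvh₂, div_one]
      exact hξv i
  refine ⟨ξ, hξ, fun i j 𝔪 h𝔪 => ⟨_, _, htriv i, htriv j, ?_⟩⟩
  have hξ0 : algebraMap R F (ξ i) * algebraMap R F (ξ i ^ (m - 1)) = 1 := by
    rw [← map_mul, ← pow_succ', Nat.sub_add_cancel (Nat.one_le_iff_ne_zero.2 hm), hξ, map_one]
  have hξi0 : algebraMap R F (ξ i) ≠ 0 := left_ne_zero_of_mul_eq_one hξ0
  have e5 : algebraMap R F (ξ j) / h₂ / (algebraMap R F (ξ i) / h₂) -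
      algebraMap R F (ξ j * ξ i ^ (m - 1)) = 0 := by
    have : algebraMap R F (ξ i ^ (m - 1)) = (algebraMap R F (ξ i))⁻¹ :=
      eq_inv_of_mul_eq_one_right hξ0
    rw [map_mul, this]
    field_simp
    ring
  rw [e5]
  exact ⟨0, 1, 𝔪.zero_mem, fun h => h𝔪.ne_top ((Ideal.eq_top_iff_one _).2 h), by simp⟩

/-! ### the exponent -/

open Classical in
/-- the exponent `a ∈ ℤ / m` of the ratio `ζ ^ a` (junk value `0` if there is no ratio). -/
noncomputable def expo (S : GaussSys K π t O e f) (m : ℕ) (ζ : R) (g : F) (i j : ι)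
    (𝔪 : Ideal (intCl R t)) : ZMod m :=
  if h : ∃ a : ℕ, Ratio S m g i j 𝔪 (ζ ^ a) then (h.choose : ZMod m) else 0

variable {S : GaussSys K π t O e f} {m : ℕ} {ζ : R} {g g' : F} {i j l : ι}
  {𝔪 : Ideal (intCl R t)}

theorem pow_eq_pow_iff' (hζ : IsPrimitiveRoot ζ m) (hm : m ≠ 0) {a b : ℕ} :
    ζ ^ a = ζ ^ b ↔ a ≡ b [MOD m] := by
  rw [pow_eq_pow_mod a hζ.pow_eq_one, pow_eq_pow_mod b hζ.pow_eq_one]
  constructor
  · intro h
    exact hζ.pow_inj (Nat.mod_lt _ (Nat.pos_of_ne_zero hm)) (Nat.mod_lt _ (Nat.pos_of_ne_zero hm)) h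
  · intro h
    rw [show a % m = b % m from h]

theorem pow_val_natCast (hζ : IsPrimitiveRoot ζ m) [NeZero m] (a : ℕ) :
    ζ ^ ((a : ZMod m).val) = ζ ^ a := by
  rw [ZMod.val_natCast]
  exact (pow_eq_pow_mod a hζ.pow_eq_one).symm

theorem ratio_expo (hζ : IsPrimitiveRoot ζ m) [NeZero m] (h : ∃ a : ℕ, Ratio S m g i j 𝔪 (ζ ^ a)) :
    Ratio S m g i j 𝔪 (ζ ^ (expo S m ζ g i j 𝔪).val) := by
  rw [expo, dif_pos h, pow_val_natCast hζ]
  exact h.choose_spec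

theorem expo_eq_of_ratio (hmR : IsUnit ((m : ℕ) : R)) (hζ : IsPrimitiveRoot ζ m)
    (hg : ∀ i, (O i).valuation (g - 1) < 1) (h𝔪 : 𝔪.IsPrime) (hi : S.p i ≤ 𝔪) (hj : S.p j ≤ 𝔪)
    {a : ℕ} (h : Ratio S m g i j 𝔪 (ζ ^ a)) : expo S m ζ g i j 𝔪 = (a : ZMod m) := by
  have hm : m ≠ 0 := by
    rintro rfl
    simp at hmR
  have := NeZero.mk hm
  have h1 := ratio_expo hζ ⟨a, h⟩
  have h2 : ζ ^ (expo S m ζ g i j 𝔪).val = ζ ^ a :=
    h1.unique hmR hg h𝔪 hi hj (by rw [← pow_mul, mul_comm, pow_mul, hζ.pow_eq_one, one_pow])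
      (by rw [← pow_mul, mul_comm, pow_mul, hζ.pow_eq_one, one_pow]) h
  have h3 : (expo S m ζ g i j 𝔪).val ≡ a [MOD m] := (pow_eq_pow_iff' hζ hm).1 h2
  have h4 := (ZMod.natCast_eq_natCast_iff _ _ _).2 h3
  rwa [ZMod.natCast_zmod_val] at h4

theorem expo_mul (hmR : IsUnit ((m : ℕ) : R)) (hζ : IsPrimitiveRoot ζ m)
    (hg : ∀ i, (O i).valuation (g - 1) < 1) (hg' : ∀ i, (O i).valuation (g' - 1) < 1)
    (h𝔪 : 𝔪.IsPrime) (hi : S.p i ≤ 𝔪) (hj : S.p j ≤ 𝔪)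
    (h : ∃ a : ℕ, Ratio S m g i j 𝔪 (ζ ^ a)) (h' : ∃ a : ℕ, Ratio S m g' i j 𝔪 (ζ ^ a)) :
    expo S m ζ (g * g') i j 𝔪 = expo S m ζ g i j 𝔪 + expo S m ζ g' i j 𝔪 := by
  have hm : m ≠ 0 := by
    rintro rfl
    simp at hmR
  obtain ⟨a, ha⟩ := h
  obtain ⟨b, hb⟩ := h'
  have h1 : Ratio S m (g * g') i j 𝔪 (ζ ^ (a + b)) := by
    rw [pow_add]
    exact ha.mul hm hg' h𝔪 hi hb
  rw [expo_eq_of_ratio hmR hζ (fun i => val_mul_sub_one (hg i) (hg' i)) h𝔪 hi hj h1,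
    expo_eq_of_ratio hmR hζ hg h𝔪 hi hj ha, expo_eq_of_ratio hmR hζ hg' h𝔪 hi hj hb, Nat.cast_add]

theorem expo_one (hmR : IsUnit ((m : ℕ) : R)) (hζ : IsPrimitiveRoot ζ m) (h𝔪 : 𝔪.IsPrime)
    (hi : S.p i ≤ 𝔪) (hj : S.p j ≤ 𝔪) : expo S m ζ (1 : F) i j 𝔪 = 0 := by
  have h1 : Ratio S m (1 : F) i j 𝔪 (ζ ^ 0) := by
    rw [pow_zero]
    exact Ratio.one S m i j h𝔪
  rw [expo_eq_of_ratio hmR hζ (fun i => by simp) h𝔪 hi hj h1, Nat.cast_zero]

theorem expo_pow (hmR : IsUnit ((m : ℕ) : R)) (hζ : IsPrimitiveRoot ζ m)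
    (hg : ∀ i, (O i).valuation (g - 1) < 1) (h𝔪 : 𝔪.IsPrime) (hi : S.p i ≤ 𝔪) (hj : S.p j ≤ 𝔪)
    (h : ∃ a : ℕ, Ratio S m g i j 𝔪 (ζ ^ a)) (n : ℕ) :
    expo S m ζ (g ^ n) i j 𝔪 = n * expo S m ζ g i j 𝔪 := by
  have hm : m ≠ 0 := by
    rintro rfl
    simp at hmR
  obtain ⟨a, ha⟩ := h
  have h1 : Ratio S m (g ^ n) i j 𝔪 (ζ ^ (a * n)) := by
    rw [pow_mul]
    exact ha.pow hm hg h𝔪 hi n
  rw [expo_eq_of_ratio hmR hζ (fun i => val_pow_sub_one (hg i) n) h𝔪 hi hj h1,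
    expo_eq_of_ratio hmR hζ hg h𝔪 hi hj ha, Nat.cast_mul, mul_comm]

theorem expo_trans (hmR : IsUnit ((m : ℕ) : R)) (hζ : IsPrimitiveRoot ζ m)
    (hg : ∀ i, (O i).valuation (g - 1) < 1) (h𝔪 : 𝔪.IsPrime) (hi : S.p i ≤ 𝔪) (hj : S.p j ≤ 𝔪)
    (hl : S.p l ≤ 𝔪) (h : ∃ a : ℕ, Ratio S m g i j 𝔪 (ζ ^ a))
    (h' : ∃ a : ℕ, Ratio S m g j l 𝔪 (ζ ^ a)) :
    expo S m ζ g i l 𝔪 = expo S m ζ g i j 𝔪 + expo S m ζ g j l 𝔪 := by
  have hm : m ≠ 0 := by
    rintro rfl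
    simp at hmR
  obtain ⟨a, ha⟩ := h
  obtain ⟨b, hb⟩ := h'
  have h1 : Ratio S m g i l 𝔪 (ζ ^ (a + b)) := by
    rw [pow_add]
    exact ha.trans hm hg h𝔪 hj hl hb
  rw [expo_eq_of_ratio hmR hζ hg h𝔪 hi hl h1, expo_eq_of_ratio hmR hζ hg h𝔪 hi hj ha,
    expo_eq_of_ratio hmR hζ hg h𝔪 hj hl hb, Nat.cast_add]

/-- the exponents of a trivial class: a coboundary of constants. -/
theorem expo_of_trivial (hπ : Irreducible π) (S : GaussSys K π t O e f)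
    (hmR : IsUnit ((m : ℕ) : R)) (hζ : IsPrimitiveRoot ζ m)
    (hk : ∀ r : R, IsUnit r → ∃ s : R, r - s ^ m ∈ Ideal.span {π}) (i₀ : ι) (he : e i₀ = 1)
    {c : K} {h : F} (hg : ∀ i, (O i).valuation (algebraMap K F c * h ^ m - 1) < 1) :
    ∃ b : ι → ZMod m, ∀ (i j : ι) (𝔪 : Ideal (intCl R t)), 𝔪.IsPrime → S.p i ≤ 𝔪 → S.p j ≤ 𝔪 →
      expo S m ζ (algebraMap K F c * h ^ m) i j 𝔪 = b j - b i := by
  have hm : m ≠ 0 := by
    rintro rfl
    simp at hmR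
  have := NeZero.mk hm
  obtain ⟨ξ, hξ, hr⟩ := ratio_of_trivial hπ S hmR hζ hk i₀ he hg
  choose a _ ha using fun i => hζ.eq_pow_of_pow_eq_one (hξ i)
  refine ⟨fun i => (a i : ZMod m), fun i j 𝔪 h𝔪 hi hj => ?_⟩
  have h1 := hr i j 𝔪 h𝔪
  rw [← ha i, ← ha j, ← pow_mul, ← pow_add] at h1
  rw [expo_eq_of_ratio hmR hζ hg h𝔪 hi hj h1]
  push_cast
  have h2 : ((m - 1 : ℕ) : ZMod m) = -1 := by
    rw [Nat.cast_sub (Nat.one_le_iff_ne_zero.2 hm), ZMod.natCast_self, Nat.cast_one, zero_sub]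
  rw [h2]
  ring

/-- exponents which form a coboundary of constants are glued. -/
theorem gluedK_of_expo (hmR : IsUnit ((m : ℕ) : R)) (hζ : IsPrimitiveRoot ζ m)
    (hg : ∀ i, (O i).valuation (g - 1) < 1)
    (hex : ∀ i j, ∀ 𝔪 : Ideal (intCl R t), 𝔪.IsMaximal → S.p i ≤ 𝔪 → S.p j ≤ 𝔪 →
      ∃ a : ℕ, Ratio S m g i j 𝔪 (ζ ^ a)) (b : ι → ZMod m)
    (h : ∀ i j, i ≠ j → ∀ 𝔪 : Ideal (intCl R t), 𝔪.IsMaximal → S.p i ≤ 𝔪 → S.p j ≤ 𝔪 →
      expo S m ζ g i j 𝔪 = b j - b i) :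
    GluedK S m g (fun i => ζ ^ (-(b i)).val) := by
  have hm : m ≠ 0 := by
    rintro rfl
    simp at hmR
  have := NeZero.mk hm
  refine gluedK_of_ratio hm hg _
    (fun i => by rw [← pow_mul, mul_comm, pow_mul, hζ.pow_eq_one, one_pow]) ?_
  intro i j hij 𝔪 h𝔪 hi hj
  refine ⟨_, ?_, ratio_expo hζ (hex i j 𝔪 h𝔪 hi hj)⟩
  rw [h i j hij 𝔪 h𝔪 hi hj, ← pow_add]
  apply (pow_eq_pow_iff' hζ hm).2
  rw [← ZMod.natCast_eq_natCast_iff]
  push_cast
  rw [ZMod.natCast_zmod_val, ZMod.natCast_zmod_val, ZMod.natCast_zmod_val]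
  ring

end Fermat.Agent.ML.Low
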