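import Fermat.Agent.ML.Low.Dict
import Fermat.Agent.SS.Abs.Main

/-!
# ML / LOWER(A) : `[DESC]`  norm descent from `ℚbar` to `K = ℚbar ^ I_A`

`u` an integral function of level `M q` over `ℚbar`.  The product `u'` of the (finitely many) conjugates of `u` under the inertia group is
`K`-rational, its reduction is `(red u) ^ d` (inertia acts trivially on the reductions) and its poles are bounded by `d E` if those of `u`
are bounded by the inertia-stable divisor `E`.

* `exists_norm`      : abstract form (`SS.TwoRed`, a subgroup of compatible semilinear automorphisms, finite orbit);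
* `finite_orbit_gal` : the orbits of `G_ℚ` on `FN N` are finite;
* `exists_norm_desc` : the modular form.
-/

set_option autoImplicit false
set_option linter.unusedSectionVars false

noncomputable section

open AlgebraicCurve ModularCurve IsLocalRing

namespace Fermat.Agent.ML.Low

open Fermat.Agent.S36 Fermat.Agent.S24 Fermat.Agent.RED.Gauss Fermat.Agent.SS
open Fermat.Agent.RED hiding Kb
open Fermat.Agent.RED (GQ)

section Abs

variable {K F k Fb : Type*} [Field K] [Field F] [Algebra K F] [Field k] [Field Fb] [Algebra k Fb]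
  [IsAlgClosed K] [IsAlgClosed k] {T : TwoRed K F k Fb}

theorem prod_mem_red (s : Finset F) (w : Fb × Fb) (E : Divisor K F)
    (h : ∀ v ∈ s, ∃ hv : v ∈ T.O, T.red ⟨v, hv⟩ = w ∧ v ∈ riemannRochSpace E) :
    ∃ hv : ∏ v ∈ s, v ∈ T.O, T.red ⟨_, hv⟩ = w ^ s.card ∧
      ∏ v ∈ s, v ∈ riemannRochSpace (s.card • E) := by
  classical
  induction s using Finset.induction_on with
  | empty =>
    refine ⟨by simp, ?_, ?_⟩
    · simp only [Finset.prod_empty, Finset.card_empty, pow_zero]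
      exact map_one T.red
    · simp only [Finset.prod_empty, Finset.card_empty, zero_smul]
      exact one_mem_L_zero
  | insert a s ha ih =>
    obtain ⟨h1, h2, h3⟩ := ih fun v hv => h v (Finset.mem_insert_of_mem hv)
    obtain ⟨g1, g2, g3⟩ := h a (Finset.mem_insert_self a s)
    rw [Finset.prod_insert ha, Finset.card_insert_of_notMem ha]
    refine ⟨T.O.mul_mem g1 h1, ?_, ?_⟩
    · have : (⟨a * ∏ v ∈ s, v, T.O.mul_mem g1 h1⟩ : T.O) = ⟨a, g1⟩ * ⟨_, h1⟩ := rfl
      rw [this, map_mul, g2, h2, pow_succ']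
    · have := mul_mem_L g3 h3
      rwa [show E + s.card • E = (s.card + 1) • E by rw [add_smul, one_smul, add_comm]] at this

/-- **the norm** over a finite orbit. -/
theorem exists_norm (𝒩 : NodalData T) (Hs : Subgroup (SemilinearAut K F))
    (hc : ∀ g ∈ Hs, IsCompat 𝒩 g 1) (u : T.O) (hfin : (MulAction.orbit Hs (u : F)).Finite)
    (E : Divisor K F) (hE : ∀ g ∈ Hs, g • E = E) (huE : (u : F) ∈ riemannRochSpace E) :
    ∃ (d : ℕ) (w : T.O), 0 < d ∧ (∀ g ∈ Hs, g • (w : F) = w) ∧ T.red w = T.red u ^ d ∧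
      (w : F) ∈ riemannRochSpace (d • E) := by
  classical
  set s : Finset F := hfin.toFinset with hs
  have hmem : ∀ v, v ∈ s ↔ ∃ g : Hs, g • (u : F) = v := fun v => by
    rw [hs, Set.Finite.mem_toFinset]; rfl
  obtain ⟨h1, h2, h3⟩ := prod_mem_red (T := T) s (T.red u) E (by
    intro v hv
    obtain ⟨g, rfl⟩ := (hmem v).1 hv
    have hg := hc g g.2
    refine ⟨hg.mem u, ?_, ?_⟩
    · have := hg.red u
      rw [one_smul, one_smul] at this
      exact this
    · have := NodalData.ws_smul_mem_L (g : SemilinearAut K F) huE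
      rwa [hE g g.2] at this)
  refine ⟨s.card, ⟨_, h1⟩, Finset.card_pos.2 ⟨(u : F), (hmem _).2 ⟨1, one_smul _ _⟩⟩, ?_, h2, h3⟩
  intro g hg
  show g • ∏ v ∈ s, v = ∏ v ∈ s, v
  rw [SemilinearAut.smul_def, map_prod]
  refine Finset.prod_bij (fun v _ => SemilinearAut.toRingAut g v) ?_ ?_ ?_ (fun _ _ => rfl)
  · intro v hv
    obtain ⟨g', rfl⟩ := (hmem v).1 hv
    refine (hmem _).2 ⟨⟨g, hg⟩ * g', ?_⟩
    rw [mul_smul]
    rfl
  · intro v _ v' _ h
    exact (SemilinearAut.toRingAut g).injective h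
  · intro v hv
    obtain ⟨g', rfl⟩ := (hmem v).1 hv
    refine ⟨(⟨g, hg⟩⁻¹ * g' : Hs) • (u : F), (hmem _).2 ⟨_, rfl⟩, ?_⟩
    rw [mul_smul]
    exact smul_inv_smul (⟨g, hg⟩ : Hs) (g' • (u : F))

end Abs

/-- the conjugates of an algebraic number -/
theorem finite_conj (c : Kb) : (Set.range fun σ : GQ => σ c).Finite := by
  have hc : IsIntegral ℚ c := Algebra.IsIntegral.isIntegral c
  refine ((minpoly ℚ c).rootSet_finite Kb).subset ?_
  rintro _ ⟨σ, rfl⟩
  rw [Polynomial.mem_rootSet]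
  refine ⟨minpoly.ne_zero hc, ?_⟩
  have := Polynomial.aeval_algHom_apply (σ : Kb →ₐ[ℚ] Kb) c (minpoly ℚ c)
  rw [minpoly.aeval, map_zero] at this
  exact this

/-- the image of the inertia group in the semilinear automorphisms of `FN N` -/
def inertiaAut (A : ValuationSubring Kb) (N : ℕ) : Subgroup (SemilinearAut Kb (FN N)) :=
  (A.inertiaSubgroupIn ℚ).map (arithmeticGalois (modularFunctionFieldFull N))

theorem mem_inertiaAut {A : ValuationSubring Kb} {N : ℕ} {g : SemilinearAut Kb (FN N)} :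
    g ∈ inertiaAut A N ↔ ∃ σ ∈ A.inertiaSubgroupIn ℚ, gal N σ = g := Iff.rfl

/-- the orbits of the inertia group on `FN N` are finite. -/
theorem finite_orbit_inertia (A : ValuationSubring Kb) (N : ℕ) [NeZero N] (u : FN N) :
    (MulAction.orbit (inertiaAut A N) u).Finite := by
  classical
  obtain ⟨ι, _, c, y, rfl⟩ := exists_sum_embF0 A N u
  have h1 : (Set.pi Set.univ fun i : ι => Set.range fun σ : GQ => σ (c i)).Finite :=
    Set.Finite.pi fun i => finite_conj (c i)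
  refine (h1.image fun d : ι → Kb => ∑ i, d i • embF0 A N (y i)).subset ?_
  rintro _ ⟨⟨g, hg⟩, rfl⟩
  obtain ⟨σ, hσ, rfl⟩ := mem_inertiaAut.1 hg
  refine ⟨fun i => σ (c i), fun i _ => ⟨σ, rfl⟩, ?_⟩
  show _ = gal N σ • ∑ i, c i • embF0 A N (y i)
  rw [Finset.smul_sum]
  refine Finset.sum_congr rfl fun i _ => ?_
  rw [Algebra.smul_def, Algebra.smul_def, smul_mul', gal_smul_algebraMap]
  congr 1
  exact (smul_embF0 A N hσ (y i)).symm

variable {C : S36.Ctx}

/-- **[DESC]** norm descent at the level `M q`. -/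
theorem exists_norm_desc (𝒩 : NodalData (TC C))
    (hc : ∀ σ ∈ C.A.inertiaSubgroupIn ℚ, IsCompat 𝒩 (gal (C.M * C.q) σ) 1) (u : (TC C).O)
    (E : Divisor Kb (FN (C.M * C.q)))
    (hE : ∀ σ ∈ C.A.inertiaSubgroupIn ℚ, gal (C.M * C.q) σ • E = E)
    (huE : (u : FN (C.M * C.q)) ∈ riemannRochSpace E) :
    ∃ (d : ℕ) (u' : C.F') (h : embF0 C.A (C.M * C.q) u' ∈ (TC C).O), 0 < d ∧
      (TC C).red ⟨_, h⟩ = (TC C).red u ^ d ∧
      embF0 C.A (C.M * C.q) u' ∈ riemannRochSpace (d • E) := by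
  obtain ⟨d, w, hd, hw, hr, hL⟩ := exists_norm 𝒩 (inertiaAut C.A (C.M * C.q))
    (by rintro g ⟨σ, hσ, rfl⟩; exact hc σ hσ) u (finite_orbit_inertia C.A _ _) E
    (by rintro g ⟨σ, hσ, rfl⟩; exact hE σ hσ) huE
  obtain ⟨u', hu'⟩ := (mem_range_embF0_iff C.A (C.M * C.q) (w : FN (C.M * C.q))).2
    (fun σ hσ => hw _ ⟨σ, hσ, rfl⟩)
  refine ⟨d, u', hu' ▸ w.2, hd, ?_, hu' ▸ hL⟩
  rw [← hr]
  congr 1
  exact Subtype.ext hu'

/-- `[DESC]` in `RedsTo` form. -/
theorem exists_norm_desc' (𝒩 : NodalData (TC C))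
    (hc : ∀ σ ∈ C.A.inertiaSubgroupIn ℚ, IsCompat 𝒩 (gal (C.M * C.q) σ) 1) (u : (TC C).O)
    (E : Divisor Kb (FN (C.M * C.q)))
    (hE : ∀ σ ∈ C.A.inertiaSubgroupIn ℚ, gal (C.M * C.q) σ • E = E)
    (huE : (u : FN (C.M * C.q)) ∈ riemannRochSpace E) :
    ∃ (d : ℕ) (u' : C.F'), 0 < d ∧
      RedsTo C.π (C.e2 0 u') ((((TC C).red u).1 ^ d : C.Fb) : LaurentSeries C.k) ∧
      RedsTo C.π (C.e2 1 u') ((((TC C).red u).2 ^ d : C.Fb) : LaurentSeries C.k) ∧
      embF0 C.A (C.M * C.q) u' ∈ riemannRochSpace (d • E) := by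
  obtain ⟨d, u', h, hd, hr, hL⟩ := exists_norm_desc 𝒩 hc u E hE huE
  refine ⟨d, u', hd, ?_, ?_, hL⟩
  · have h1 := redsTo_R₁ h.1
    have h2 : (TC C).R₁.red ⟨_, h.1⟩ = ((TC C).red u).1 ^ d := congrArg Prod.fst hr
    rw [h2] at h1
    exact h1
  · have h1 := redsTo_R₂ h.2
    have h2 : (TC C).R₂.red ⟨_, h.2⟩ = ((TC C).red u).2 ^ d := congrArg Prod.snd hr
    rw [h2] at h1
    exact h1

end Fermat.Agent.ML.Low
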