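import Fermat.Agent.RIB.Ctrl.Kap.Dict
import Fermat.Agent.S40.HK.Formal
import Fermat.Agent.SS.H1C.Nodal
import Fermat.Agent.SSP.Mod.Basic

/-!
# ML / LOWER(A) : `[LOW-DICT]`  dictionary between `SS.twoRed` (level `M q` over `ℚbar`) and `S36.Ctx` (`C.O2 j`, `C.e2 j`, over `K = ℚbar ^ I_A`)

`C : S36.Ctx`, `TC C := SS.twoRed C.hqM C.π residue_surjective` (`= SSP.TT C.hqM C.A`).

* `mem_R₁_iff`, `mem_R₂_iff`   : `y ∈ (TC C).R_i.O ↔ emb_i y ∈ bigO C.π`;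
* `redsTo_R₁`, `redsTo_R₂`     : `RedsTo C.π (emb_i y) (R_i.red y)`;   `red_R₁_eq`, `red_R₂_eq` (converse);
* `emb₁_embF0`, `emb₂_embF0`   : `emb_i (embF0 x) = C.e2 i x`;
* `embF0_mem_R₁_iff`, `embF0_mem_R₂_iff` : `embF0 x ∈ R_i.O ↔ x ∈ C.O2 i`;  `comap_R₁`, `comap_R₂`;
* `val_R₁_embF0_*` : valuations (`= 1`, `< 1`, `≤ 1`);
* `exists_joint` : **joint surjectivity over `K`** : every pair `(a, b) ∈ Fb × Fb` is the reduction of a `K`-rational function.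
-/

set_option autoImplicit false
set_option linter.unusedSectionVars false

noncomputable section

open AlgebraicCurve ModularCurve IsLocalRing

namespace Fermat.Agent.ML.Low

open Fermat.Agent.S36 Fermat.Agent.S24 Fermat.Agent.RED.Gauss Fermat.Agent.SS
open Fermat.Agent.RED (GQ)

variable (C : S36.Ctx)

/-- the two reductions of the function field of level `M q` over `ℚbar` -/
abbrev TC : TwoRed Kb (FN (C.M * C.q)) C.k C.Fb := twoRed C.hqM C.π residue_surjective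

variable {C}

theorem mem_R₁_iff {y : FN (C.M * C.q)} : y ∈ (TC C).R₁.O ↔ emb₁ C.M C.q y ∈ bigO C.π :=
  ⟨fun h => (emb₁_mem_of_mem_R₁ C.hqM C.π residue_surjective h).1,
    fun h => S40.HK.mem_R₁_of_emb₁ C.hqM C.π residue_surjective h⟩

theorem mem_R₂_iff {y : FN (C.M * C.q)} : y ∈ (TC C).R₂.O ↔ emb₂ C.M C.q C.hqM y ∈ bigO C.π :=
  ⟨fun h => (emb₂_mem_of_mem_R₂ C.hqM C.π residue_surjective h).1,
    fun h => S40.HK.mem_R₂_of_emb₂ C.hqM C.π residue_surjective h⟩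

theorem redsTo_R₁ {y : FN (C.M * C.q)} (hy : y ∈ (TC C).R₁.O) :
    RedsTo C.π (emb₁ C.M C.q y) (((TC C).R₁.red ⟨y, hy⟩ : C.Fb) : LaurentSeries C.k) := by
  obtain ⟨h, e⟩ := emb₁_mem_of_mem_R₁ C.hqM C.π residue_surjective hy
  exact ⟨h, e.symm⟩

theorem redsTo_R₂ {y : FN (C.M * C.q)} (hy : y ∈ (TC C).R₂.O) :
    RedsTo C.π (emb₂ C.M C.q C.hqM y) (((TC C).R₂.red ⟨y, hy⟩ : C.Fb) : LaurentSeries C.k) := by
  obtain ⟨h, e⟩ := emb₂_mem_of_mem_R₂ C.hqM C.π residue_surjective hy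
  exact ⟨h, e.symm⟩

theorem red_R₁_eq {y : FN (C.M * C.q)} {w : C.Fb}
    (h : RedsTo C.π (emb₁ C.M C.q y) (w : LaurentSeries C.k)) :
    ∃ hy : y ∈ (TC C).R₁.O, (TC C).R₁.red ⟨y, hy⟩ = w :=
  ⟨mem_R₁_iff.2 h.1, Subtype.ext ((redsTo_R₁ (mem_R₁_iff.2 h.1)).unique h)⟩

theorem red_R₂_eq {y : FN (C.M * C.q)} {w : C.Fb}
    (h : RedsTo C.π (emb₂ C.M C.q C.hqM y) (w : LaurentSeries C.k)) :
    ∃ hy : y ∈ (TC C).R₂.O, (TC C).R₂.red ⟨y, hy⟩ = w :=
  ⟨mem_R₂_iff.2 h.1, Subtype.ext ((redsTo_R₂ (mem_R₂_iff.2 h.1)).unique h)⟩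

theorem emb₁_embF0 (x : C.F') : emb₁ C.M C.q (embF0 C.A (C.M * C.q) x) = C.e2 0 x := rfl

theorem emb₂_embF0 (x : C.F') : emb₂ C.M C.q C.hqM (embF0 C.A (C.M * C.q) x) = C.e2 1 x := rfl

theorem embF0_mem_R₁_iff {x : C.F'} : embF0 C.A (C.M * C.q) x ∈ (TC C).R₁.O ↔ x ∈ C.O2 0 :=
  mem_R₁_iff

theorem embF0_mem_R₂_iff {x : C.F'} : embF0 C.A (C.M * C.q) x ∈ (TC C).R₂.O ↔ x ∈ C.O2 1 :=
  mem_R₂_iff

theorem comap_R₁ : (TC C).R₁.O.comap (embF0 C.A (C.M * C.q)) = C.O2 0 := by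
  ext x
  exact embF0_mem_R₁_iff

theorem comap_R₂ : (TC C).R₂.O.comap (embF0 C.A (C.M * C.q)) = C.O2 1 := by
  ext x
  exact embF0_mem_R₂_iff

/-- the reduction of a `K`-rational function lies in `Fb`. -/
theorem exists_redsTo_e2_zero {x : C.F'} (hx : x ∈ C.O2 0) :
    ∃ w : C.Fb, RedsTo C.π (C.e2 0 x) (w : LaurentSeries C.k) :=
  ⟨_, redsTo_R₁ (embF0_mem_R₁_iff.2 hx)⟩

theorem exists_redsTo_e2_one {x : C.F'} (hx : x ∈ C.O2 1) :
    ∃ w : C.Fb, RedsTo C.π (C.e2 1 x) (w : LaurentSeries C.k) :=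
  ⟨_, redsTo_R₂ (embF0_mem_R₂_iff.2 hx)⟩

/-! ### valuations -/

section Val

variable {E E' : Type*} [Field E] [Field E'] {V : ValuationSubring E} {V' : ValuationSubring E'}
  {φ : E' →+* E}

theorem dict_val_eq_one_iff (W : ValuationSubring E) (y : E) :
    W.valuation y = 1 ↔ y ∈ W ∧ ¬ W.valuation y < 1 := by
  rw [← W.valuation_le_one_iff, not_lt]
  exact ⟨fun h => ⟨h.le, h.ge⟩, fun h => le_antisymm h.1 h.2⟩

theorem dict_val_lt_one_comap (h : V.comap φ = V') (x : E') :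
    V'.valuation x < 1 ↔ V.valuation (φ x) < 1 := NG.val_comap h x

theorem dict_val_eq_one_comap (h : V.comap φ = V') (x : E') :
    V'.valuation x = 1 ↔ V.valuation (φ x) = 1 := by
  rw [dict_val_eq_one_iff, dict_val_eq_one_iff, NG.mem_comap' h, NG.val_comap h]

theorem dict_val_zpow_iff (W : ValuationSubring E) {x ϖ : E} (hϖ : ϖ ≠ 0) (n : ℤ) :
    W.valuation x = W.valuation ϖ ^ n ↔ W.valuation (x * ϖ ^ (-n)) = 1 := by
  have h0 : W.valuation ϖ ≠ 0 := (Valuation.ne_zero_iff _).2 hϖ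
  rw [map_mul, map_zpow₀, zpow_neg, mul_inv_eq_one₀ (zpow_ne_zero _ h0)]

theorem dict_val_zpow_comap (h : V.comap φ = V') {x ϖ : E'} (hϖ : ϖ ≠ 0) (n : ℤ) :
    V'.valuation x = V'.valuation ϖ ^ n ↔ V.valuation (φ x) = V.valuation (φ ϖ) ^ n := by
  rw [dict_val_zpow_iff V' hϖ, dict_val_zpow_iff V ((map_ne_zero φ).2 hϖ),
    dict_val_eq_one_comap h, map_mul, map_zpow₀]

end Val

theorem embF0_natCast (n : ℕ) : embF0 C.A (C.M * C.q) (n : C.F') = (n : FN (C.M * C.q)) :=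
  map_natCast _ n

/-- **[VAL]** an inertia-fixed function has integral valuations. -/
theorem exists_val_of_fixed {f : FN (C.M * C.q)} (hf0 : f ≠ 0)
    (hf : ∀ τ ∈ C.A.inertiaSubgroupIn ℚ, gal (C.M * C.q) τ • f = f) :
    ∃ n₁ n₂ : ℤ, (TC C).R₁.O.valuation f = (TC C).R₁.O.valuation (C.q : FN (C.M * C.q)) ^ n₁ ∧
      (TC C).R₂.O.valuation f = (TC C).R₂.O.valuation (C.q : FN (C.M * C.q)) ^ n₂ := by
  obtain ⟨x, rfl⟩ := (mem_range_embF0_iff C.A (C.M * C.q) f).2 hf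
  have hx0 : x ≠ 0 := fun h => hf0 (by rw [h, map_zero])
  obtain ⟨n₁, h₁⟩ := (C.unif2 0).disc x hx0
  obtain ⟨n₂, h₂⟩ := (C.unif2 1).disc x hx0
  refine ⟨n₁, n₂, ?_, ?_⟩
  · have := (dict_val_zpow_comap (comap_R₁ (C := C)) (C.unif2 0).ne_zero n₁).1 h₁
    rwa [embF0_natCast] at this
  · have := (dict_val_zpow_comap (comap_R₂ (C := C)) (C.unif2 1).ne_zero n₂).1 h₂
    rwa [embF0_natCast] at this

/-! ### joint surjectivity over `K` -/

theorem exists_lift_e1 (w : C.Fb) : ∃ u : C.FM, RedsTo C.π (C.e1 u) (w : LaurentSeries C.k) := by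
  obtain ⟨y, hy⟩ := C.exists_red1_eq w.2
  exact ⟨y, hy ▸ C.fm_redsTo_red1 y⟩

theorem redsTo_α' {u : C.FM} {w : LaurentSeries C.k} (h : RedsTo C.π (C.e1 u) w) :
    RedsTo C.π (C.e2 0 (C.α' u)) w ∧ RedsTo C.π (C.e2 1 (C.α' u)) (qExpand C.k C.q w) := by
  rw [C.e2_zero_α', C.e2_one_α']
  exact ⟨h, h.qExpand C.q⟩

theorem redsTo_β' {u : C.FM} {w : LaurentSeries C.k} (h : RedsTo C.π (C.e1 u) w) :
    RedsTo C.π (C.e2 0 (C.β' u)) (qExpand C.k C.q w) ∧ RedsTo C.π (C.e2 1 (C.β' u)) w := by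
  rw [C.e2_zero_β', C.e2_one_β']
  exact ⟨h.qExpand C.q, h⟩

/-- a `K`-rational function with reduction `(1, 0)` -/
theorem exists_idem : ∃ e : C.F', RedsTo C.π (C.e2 0 e) 1 ∧ RedsTo C.π (C.e2 1 e) 0 := by
  set J : C.Fb := RED.Cusp.jb C.k C.M with hJ
  obtain ⟨u₁, h₁⟩ := exists_lift_e1 J
  obtain ⟨u₂, h₂⟩ := exists_lift_e1 (FrB (q := C.q) J)
  have hne : J - FrB (q := C.q) (FrB (q := C.q) J) ≠ 0 := by
    intro h
    rw [sub_eq_zero, FrB_jb, FrB_pow, FrB_jb] at h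
    exact jqModC_ne_pow (q := C.q) (congrArg Subtype.val h)
  obtain ⟨u₃, h₃⟩ := exists_lift_e1 (J - FrB (q := C.q) (FrB (q := C.q) J))
  have a₁ := redsTo_α' h₁
  have a₂ := redsTo_β' h₂
  have a₃ := redsTo_α' h₃
  have hne' : ((J - FrB (q := C.q) (FrB (q := C.q) J) : C.Fb) : LaurentSeries C.k) ≠ 0 :=
    fun h => hne (Subtype.ext h)
  have hne'' : qExpand C.k C.q ((J - FrB (q := C.q) (FrB (q := C.q) J) : C.Fb) :
      LaurentSeries C.k) ≠ 0 := by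
    intro h
    exact hne' (qExpand_injective (R := C.k) C.q (h.trans (map_zero (qExpand C.k C.q)).symm))
  refine ⟨(C.α' u₁ - C.β' u₂) * (C.α' u₃)⁻¹, ?_, ?_⟩
  · have := (a₁.1.sub a₂.1).mul (a₃.1.inv hne')
    rw [← map_sub, ← map_inv₀, ← map_mul] at this
    convert this using 1
    exact (mul_inv_cancel₀ hne').symm
  · have := (a₁.2.sub a₂.2).mul (a₃.2.inv hne'')
    rw [← map_sub, ← map_inv₀, ← map_mul] at this
    convert this using 1
    have : qExpand C.k C.q (J : LaurentSeries C.k) - ((FrB (q := C.q) J : C.Fb) : LaurentSeries C.k)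
        = 0 := sub_self _
    rw [this, zero_mul]

/-- **joint surjectivity over `K`.** -/
theorem exists_joint (a b : C.Fb) : ∃ y : C.F', RedsTo C.π (C.e2 0 y) (a : LaurentSeries C.k) ∧
    RedsTo C.π (C.e2 1 y) (b : LaurentSeries C.k) := by
  obtain ⟨e, e₀, e₁⟩ := exists_idem (C := C)
  obtain ⟨ua, ha⟩ := exists_lift_e1 a
  obtain ⟨ub, hb⟩ := exists_lift_e1 b
  have a₁ := redsTo_α' ha
  have a₂ := redsTo_β' hb
  refine ⟨C.α' ua * e + C.β' ub * (1 - e), ?_, ?_⟩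
  · have := (a₁.1.mul e₀).add (a₂.1.mul (redsTo_one.sub e₀))
    rw [← map_one (C.e2 0), ← map_sub, ← map_mul, ← map_mul, ← map_add] at this
    simpa using this
  · have := (a₁.2.mul e₁).add (a₂.2.mul (redsTo_one.sub e₁))
    rw [← map_one (C.e2 1), ← map_sub, ← map_mul, ← map_mul, ← map_add] at this
    simpa using this

/-- joint surjectivity over `K`, in the language of `SS.TwoRed`. -/
theorem exists_joint_T (a b : C.Fb) : ∃ (y : C.F') (hy : embF0 C.A (C.M * C.q) y ∈ (TC C).O),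
    (TC C).red ⟨embF0 C.A (C.M * C.q) y, hy⟩ = (a, b) := by
  obtain ⟨y, h₀, h₁⟩ := exists_joint a b
  obtain ⟨m₁, r₁⟩ := red_R₁_eq (y := embF0 C.A (C.M * C.q) y) h₀
  obtain ⟨m₂, r₂⟩ := red_R₂_eq (y := embF0 C.A (C.M * C.q) y) h₁
  exact ⟨y, ⟨m₁, m₂⟩, Prod.ext r₁ r₂⟩

/-- a `K`-rational function which is a unit on the component `0` and a uniformiser on the component `1`. -/
theorem exists_unif_one : ∃ h : C.F', (C.O2 0).valuation h = 1 ∧
    (C.O2 1).valuation h = (C.O2 1).valuation (C.q : C.F') := by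
  obtain ⟨e, e₀, e₁⟩ := exists_idem (C := C)
  have hq0 : RedsTo C.π (C.e2 0 (C.q : C.F')) 0 :=
    (gv_valuation_lt_one_iff C.hπ (C.disc2 0)).1 (C.unif2 0).lt_one
  refine ⟨e ^ 2 + (C.q : C.F') * (1 - e), ?_, ?_⟩
  · have := (e₀.pow 2).add (hq0.mul (redsTo_one.sub e₀))
    rw [← map_one (C.e2 0), ← map_sub, ← map_mul, ← map_pow, ← map_add] at this
    exact this.valuation_eq_one C.hπ (C.disc2 0) (by simp)
  · have h1 : (C.O2 1).valuation (1 - e) = 1 := by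
      have := (redsTo_one (π := C.π)).sub e₁
      rw [← map_one (C.e2 1), ← map_sub] at this
      exact this.valuation_eq_one C.hπ (C.disc2 1) (by simp)
    have h2 : (C.O2 1).valuation e < 1 := e₁.valuation_lt_one C.hπ (C.disc2 1)
    have hqlt := (C.unif2 1).lt_one
    have hq0' : (C.O2 1).valuation (C.q : C.F') ≠ 0 :=
      (Valuation.ne_zero_iff _).2 (C.unif2 1).ne_zero
    have h3 : (C.O2 1).valuation (e ^ 2) < (C.O2 1).valuation ((C.q : C.F') * (1 - e)) := by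
      rw [map_mul, h1, mul_one, map_pow]
      rcases eq_or_ne e 0 with rfl | he
      · rw [map_zero, zero_pow two_ne_zero]
        exact zero_lt_iff.2 hq0'
      obtain ⟨n, hn⟩ := (C.unif2 1).disc e he
      have hn1 : 1 ≤ n := by
        by_contra hcon
        have hn0 : n ≤ 0 := by omega
        rw [hn] at h2
        have : (1 : _) ≤ (C.O2 1).valuation (C.q : C.F') ^ n := by
          obtain ⟨m, rfl⟩ : ∃ m : ℕ, n = -m := ⟨(-n).toNat, by omega⟩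
          rw [zpow_neg, zpow_natCast]
          exact (one_le_inv₀ (zero_lt_iff.2 (pow_ne_zero _ hq0'))).2 (pow_le_one' hqlt.le m)
        exact absurd h2 (not_lt.2 this)
      rw [hn, ← zpow_natCast, ← zpow_mul]
      calc (C.O2 1).valuation (C.q : C.F') ^ (n * ((2 : ℕ) : ℤ))
          ≤ (C.O2 1).valuation (C.q : C.F') ^ (2 : ℤ) :=
            zpow_le_zpow_right_of_le_one₀ (zero_lt_iff.2 hq0') hqlt.le (by push_cast; omega)
        _ < (C.O2 1).valuation (C.q : C.F') := by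
            rw [zpow_ofNat, sq]
            exact mul_lt_of_lt_one_left (zero_lt_iff.2 hq0') hqlt
    rw [add_comm, Valuation.map_add_eq_of_lt_left _ h3, map_mul, h1, mul_one]

end Fermat.Agent.ML.Low
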