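import Fermat.Agent.ML.Low.Loc2
import Fermat.Agent.ML.Low.Lower
import Fermat.Agent.ML.Rho.Flat
import Fermat.Agent.ML.Rbar.Hyp
import Fermat.Agent.Common.PlaceBridge

/-!
# ML / Low / Gen : the contract `GenStmtB` of LOWER-B is a theorem  (modulo the contract `AtpStmt` at `p`, case `p ∣ M`)

* `AtpStmt p T θ rbar0` : [LOW-ATP] the strict ordinary operator identity at `p` for `ρ` at a level `L₁ * p` with `W(L₁) = 0`
  (theorem `atp_strict` of `ML/Low/AtP.lean`);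
* `genHyp` : the hypotheses `GenHypMZ` of helper55's `MCtx.gen_stage` for `(R, π0, ρ, Φ)` with `IsRho`;
* `gen_outB` : `GenOutB` at the top level (`C₀ = 6`);
* `genStmtB` : `GenStmtB p T θ rbar0` (`p = 3, 5`).
-/

set_option autoImplicit false

noncomputable section

open AlgebraicCurve ModularCurve Module IsLocalRing ExtCitation

namespace Fermat.Agent.ML.Low

open Fermat.Agent.RIB Fermat.Agent.S56 Fermat.Agent.S56.Gen
open CFT (decomp levS)

local notation "M₂" => Matrix (Fin 2) (Fin 2)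

/-- **contract [LOW-ATP]**. -/
def AtpStmt (p : ℕ) [Fact p.Prime] (T : Finset ℕ) (θ : ℕ → ℤ) (rbar0 : GQ →* M₂ (ZMod p)) : Prop :=
  ∀ (S : Finset ℕ), T ⊆ S → ∀ (L L₁ : ℕ) [NeZero L] [NeZero L₁], L = L₁ * p → ¬ p ∣ L₁ → 4 ∣ L₁ →
    (∀ r : ℕ, r.Prime → r ∣ L * p → r ∈ S) → WS L₁ p (↑S : Set ℕ) θ = ⊥ →
    ∀ (R : Type) [CommRing R] [IsLocalRing R] [Algebra (ZMod p) R]
      [Module R ↥(WS L p (↑S : Set ℕ) θ)] [IsScalarTower (ZMod p) R ↥(WS L p (↑S : Set ℕ) θ)]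
      (π0 : R →ₐ[ZMod p] ZMod p) (ρ : GQ →* M₂ R)
      (Φ : M₂ R →ₐ[R] Module.End R ↥(WS L p (↑S : Set ℕ) θ)),
      IsRho L p (↑S : Set ℕ) θ rbar0 π0 ρ Φ →
      ∃ e : GQ → R, (∀ σ ∈ inert (pPrime p), e σ = 1) ∧
        ∀ σ ∈ decomp (pPrime p), ∀ τ ∈ decomp (pPrime p),
          (ρ σ - ((ρ σ).det * e σ) • (1 : M₂ R)) * (ρ τ - e τ • (1 : M₂ R)) = 0

variable {p : ℕ} [Fact p.Prime] {T : Finset ℕ} {θ : ℕ → ℤ} {rbar0 : GQ →* M₂ (ZMod p)}

/-- `Ram` at the distinguished place. -/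
theorem ram_place {v : Nat.Primes} (h : Ram rbar0 (v : ℕ)) : ∃ σ ∈ inert v, rbar0 σ ≠ 1 := by
  obtain ⟨A, hA, σ, hσ, h1⟩ := h
  obtain ⟨g, hg⟩ := Bridge.exists_smul_eq v.2 hA (liesOverPrime_primeLocalPlace v)
  refine ⟨g * σ * g⁻¹, ?_, fun h2 => h1 ?_⟩
  · show g * σ * g⁻¹ ∈ (primeLocalPlace v).inertiaSubgroupIn ℚ
    rw [← hg, Bridge.mem_inertia_smul_iff v.2 hA]
    have : g⁻¹ * (g * σ * g⁻¹) * g = σ := by group
    rwa [this]
  · have h3 : σ = g⁻¹ * (g * σ * g⁻¹) * g := by group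
    rw [h3, map_mul, map_mul, h2, mul_one, ← map_mul, inv_mul_cancel, map_one]

/-- an odd prime of a squarefree `M` divides the top level exactly once. -/
theorem not_sq_dvd_lvl {M t n : ℕ} {qv : Fin t → Nat.Primes} (TC : MTW p T θ (M * 4) t n qv)
    (hsq : Squarefree M) {v : ℕ} (hv : v.Prime) (hv2 : v ≠ 2) (hvM : v ∣ M) :
    ¬ v ^ 2 ∣ lvl (M * 4) (extP qv) t := by
  have hvT : v ∈ T := TC.lev v hv (Dvd.dvd.mul_right (Dvd.dvd.mul_right hvM 4) p)
  obtain ⟨M', rfl⟩ := hvM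
  have hcop : Nat.Coprime v M' := (Nat.squarefree_mul_iff.1 hsq).1
  have e : v * M' * 4 = M' * 4 * v := by ring
  rw [e, lvl_mul_right, pow_two]
  intro hd
  have hd' : v ∣ lvl (M' * 4) (extP qv) t := Nat.dvd_of_mul_dvd_mul_right hv.pos hd
  rcases dvd_lvl_cases t hv hd' with h | ⟨j, hj⟩
  · rcases (Nat.Prime.dvd_mul hv).1 h with h | h
    · exact hv.one_lt.ne' (Nat.Coprime.eq_one_of_dvd hcop h)
    · have h5 : v ∣ 2 ^ 2 := by norm_num; exact h
      exact hv2 ((Nat.prime_dvd_prime_iff_eq hv Nat.prime_two).1 (hv.dvd_of_dvd_pow h5))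
  · exact TC.notT j (hj ▸ hvT)

section hyp

variable {L : ℕ} [NeZero L] {S : Set ℕ}
  {R : Type} [CommRing R] [IsLocalRing R] [Algebra (ZMod p) R] [Module R ↥(WS L p S θ)]
  [IsScalarTower (ZMod p) R ↥(WS L p S θ)]
  {π0 : R →ₐ[ZMod p] ZMod p} {ρ : GQ →* M₂ R} {Φ : M₂ R →ₐ[R] Module.End R ↥(WS L p S θ)}

omit [IsLocalRing R] [IsScalarTower (ZMod p) R ↥(WS L p S θ)] in
theorem IsRho.rhoAct (H : IsRho L p S θ rbar0 π0 ρ Φ) : RhoAct ρ Φ :=
  ⟨H.act, H.eq_zero_of_phi⟩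

omit [IsLocalRing R] [Module R ↥(WS L p S θ)] [IsScalarTower (ZMod p) R ↥(WS L p S θ)] [NeZero L] in
theorem algebraMap_zmod_eq_intCast (c : ZMod p) :
    algebraMap (ZMod p) R c = (((c.val : ℕ) : ℤ) : R) := by
  conv_lhs => rw [← ZMod.natCast_zmod_val c]
  rw [map_natCast, Int.cast_natCast]

omit [IsLocalRing R] [Module R ↥(WS L p S θ)] [IsScalarTower (ZMod p) R ↥(WS L p S θ)] [NeZero L] in
/-- scalar modulo `J` ⟹ `ConjConst` with `M = 1`. -/
theorem conjConst_of_scalar {J : Ideal R} {X : M₂ R} {c : ZMod p}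
    (h : ∀ a b, (X - algebraMap (ZMod p) R c • (1 : M₂ R)) a b ∈ J) : ConjConst ℤ J 1 X := by
  refine ⟨((c.val : ℕ) : ℤ) • (1 : M₂ ℤ), fun i l => ?_⟩
  have e : ∀ z : ℤ, (z • (1 : M₂ ℤ)).map (algebraMap ℤ R) = (z : R) • (1 : M₂ R) := by
    intro z
    ext a b
    rw [Matrix.map_apply, Matrix.smul_apply, Matrix.smul_apply, smul_eq_mul, smul_eq_mul, map_mul]
    by_cases hab : a = b
    · rw [hab, Matrix.one_apply_eq, Matrix.one_apply_eq, map_one]
      simp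
    · rw [Matrix.one_apply_ne hab, Matrix.one_apply_ne hab, map_zero]
      simp
  rw [one_mul, mul_one, e, ← algebraMap_zmod_eq_intCast]
  exact h i l

/-- **the hypotheses of (GEN)** for `(R, π0, ρ, Φ)`. -/
theorem genHyp (EC : MCtx p T θ rbar0) (H : IsRho L p S θ rbar0 π0 ρ Φ) (Q : Finset Nat.Primes)
    (hlev : ∀ q : Nat.Primes, q ∉ toP T ∪ Q → ¬ (q : ℕ) ∣ L * p)
    (Jt : Ideal R) (hJt : Jt ≤ maximalIdeal R) (Rs' : Finset Nat.Primes)
    (hstrict : ∀ v ∈ Rs', ∃ M : M₂ R, IsUnit (M.map π0) ∧ ∀ σ ∈ decomp v, ConjConst ℤ Jt M (ρ σ))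
    (hatp : ¬ p ∣ L ∨ ∃ e : GQ → R, (∀ σ ∈ inert (pPrime p), e σ = 1) ∧
      ∀ σ ∈ decomp (pPrime p), ∀ τ ∈ decomp (pPrime p),
        (ρ σ - ((ρ σ).det * e σ) • (1 : M₂ R)) * (ρ τ - e τ • (1 : M₂ R)) = 0)
    (hmin2 : twoP ∉ Rs' → (∀ σ ∈ inert twoP, ∀ i l, (ρ σ - 1) i l ∈ Jt) ∨
      ((∃ σ ∈ inert twoP, rbar0 σ ≠ 1) ∧
        ∀ σ ∈ inert twoP, (ρ σ).trace - 2 ∈ Jt ∧ (ρ σ).det - 1 ∈ Jt))
    (hodd : ∀ v ∈ toP T, v ∉ Rs' → v ≠ pPrime p → v ≠ twoP →
      ¬ (v : ℕ) ∣ L ∨ (Ram rbar0 (v : ℕ) ∧ (v : ℕ) ∣ L ∧ ¬ (v : ℕ) ^ 2 ∣ L)) :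
    GenHypMZ p rbar0 (toP T) Q Rs' (π0 : R →+* ZMod p) ρ Jt where
  lift := H.lift
  det := fun σ => ⟨_, (H.det σ).trans (algebraMap_zmod_eq_intCast _)⟩
  tr := adjoin_int_eq_top_of_zmod H.tr
  lev := H.lev _ hlev
  J_le := fun a ha => (IsRho.mem_maximalIdeal_iff (π0 := π0)).1 (hJt ha)
  strict := hstrict
  atp := by
    rcases hatp with hpL | ⟨e, he, hs⟩
    · refine Or.inl fun φ _ => (IsRho.rhoAct H).hasFlat_mapRep
        (hasFlat_galAct_of_jac L hpL 1 (WS L p S θ).subtype Subtype.val_injective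
          (fun g x => coe_smul_WS g x) (fun x => ?_)) φ
      rw [pow_one]
      exact x.2.2
    · refine Or.inr ⟨e, fun σ hσ => ?_, fun σ hσ τ hτ i l => ?_⟩
      · rw [he σ hσ, sub_self]
        exact Ideal.zero_mem _
      · rw [hs σ hσ τ hτ]
        exact Ideal.zero_mem _
  min := by
    intro v hv hvR hvp
    have hp : p.Prime := Fact.out
    have hvp' : (v : ℕ) ≠ p := fun e => hvp (Subtype.ext e)
    have hA := liesOverPrime_primeLocalPlace v
    by_cases hv2 : v = twoP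
    · subst hv2
      exact hmin2 hvR
    rcases hodd v hv hvR hvp hv2 with hvL | ⟨hram, hvL, hvv⟩
    · refine Or.inl fun σ hσ i l => ?_
      rw [H.unram v.2 (fun hd => ?_) _ hA hσ, sub_self]
      · exact Ideal.zero_mem _
      · rcases (Nat.Prime.dvd_mul v.2).1 hd with h | h
        · exact hvL h
        · exact hvp' ((Nat.prime_dvd_prime_iff_eq v.2 hp).1 h)
    · refine Or.inr ⟨ram_place hram, fun σ hσ => ?_⟩
      have hun := SS.unip_of_cuspOrd (fun M q _ _ _ => SS.cuspOrd M q) v.2 hp hvp' hvL hvv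
      have hunV : ∀ x : ↥(WS L p S θ), σ • σ • x - 2 • σ • x + x = 0 := by
        intro x
        have h1 := hun (primeLocalPlace v) hA σ hσ x.1 ⟨1, by rw [pow_one]; exact x.2.2⟩
        apply Subtype.ext
        rw [AddSubgroup.coe_add, AddSubgroup.coe_sub, AddSubgroup.coe_nsmul, coe_smul_WS,
          coe_smul_WS, AddSubgroup.coe_zero]
        exact h1
      have hNN : (ρ σ - 1) * (ρ σ - 1) = 0 := Hard.sq_zero_of_unip Φ ρ H.act H.faithful σ hunV
      have hdet := det_inertia H v.2 hvp' hA hσ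
      have hu : IsUnit (ρ σ).trace := by
        rw [IsRho.isUnit_iff (π0 := π0), H.pi0_trace, EC.trace_inertia v.2 hvp' hA hσ]
        exact two_ne_zero_zmod EC.hp2
      rw [trace_eq_two_of_sq_zero hNN hdet hu, hdet, sub_self, sub_self]
      exact ⟨Ideal.zero_mem _, Ideal.zero_mem _⟩

end hyp

/-- **(GEN) in block form at the top level.** -/
theorem gen_outB (EC : MCtx p T θ rbar0) (hAtp : AtpStmt p T θ rbar0) {M : ℕ} [NeZero M]
    (hodd : Odd M) (hsq : Squarefree M)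
    (hmin : ∀ (M' : ℕ) [NeZero M'], M' ∣ M → M' ≠ M → WS (M' * 4) p (↑T : Set ℕ) θ = ⊥)
    (Rs : Finset Nat.Primes)
    (hRs : ∀ q : Nat.Primes, q ∈ Rs ↔ (q : ℕ) ∣ M ∧ (q : ℕ) ≠ p ∧ ¬ Ram rbar0 (q : ℕ))
    {t n : ℕ} {qv : Fin t → Nat.Primes} (TC : MTW p T θ (M * 4) t n qv)
    (G : TWGenL p (two_ne_zero_kM EC.hp2) (mapK (kM p) rbar0) (toP T) t qv) :
    GenOutB (lvl (M * 4) (extP qv) t) p (↑(cutS T qv) : Set ℕ) θ rbar0 t Rs 6 := by
  classical
  intro R _ _ _ _ _ π0 ρ Φ H J hJ hsc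
  have hp : p.Prime := Fact.out
  -- arithmetic of the level
  have hML : M ∣ lvl (M * 4) (extP qv) t := (Dvd.intro _ rfl : M ∣ M * 4).trans (dvd_lvl _ _ _)
  have hTmem : ∀ v : ℕ, v.Prime → v ∣ M → v ∈ T := fun v hv hvM =>
    TC.lev v hv (Dvd.dvd.mul_right (Dvd.dvd.mul_right hvM 4) p)
  have hdvdL : ∀ v : ℕ, v.Prime → v ∈ T → v ≠ 2 → v ∣ lvl (M * 4) (extP qv) t → v ∣ M := by
    intro v hv hvT hv2 hd
    rcases dvd_lvl_cases t hv hd with h | ⟨j, hj⟩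
    · rcases (Nat.Prime.dvd_mul hv).1 h with h | h
      · exact h
      · have h5 : v ∣ 2 ^ 2 := by norm_num; exact h
        exact absurd ((Nat.prime_dvd_prime_iff_eq hv Nat.prime_two).1 (hv.dvd_of_dvd_pow h5)) hv2
    · exact absurd (hj ▸ hvT) (TC.notT j)
  have hlev : ∀ q : Nat.Primes, q ∉ toP T ∪ Finset.univ.image qv →
      ¬ (q : ℕ) ∣ lvl (M * 4) (extP qv) t * p := by
    intro q hq hd
    have h1 := TC.mem_cutS t q.2 hd
    rcases Finset.mem_union.1 h1 with h | h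
    · exact hq (Finset.mem_union_left _ (mem_toP'.2 h))
    · obtain ⟨i, -, hi⟩ := Finset.mem_image.1 h
      exact hq (Finset.mem_union_right _ (Finset.mem_image.2 ⟨i, Finset.mem_univ i, Subtype.ext hi⟩))
  -- at `p`
  have hatp : ¬ p ∣ lvl (M * 4) (extP qv) t ∨ ∃ e : GQ → R, (∀ σ ∈ inert (pPrime p), e σ = 1) ∧
      ∀ σ ∈ decomp (pPrime p), ∀ τ ∈ decomp (pPrime p),
        (ρ σ - ((ρ σ).det * e σ) • (1 : M₂ R)) * (ρ τ - e τ • (1 : M₂ R)) = 0 := by
    by_cases hpM : p ∣ M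
    · right
      obtain ⟨M', hM'⟩ := hpM
      have hM'0 : M' ≠ 0 := by
        rintro rfl
        exact NeZero.ne M (by rw [hM', mul_zero])
      have : NeZero M' := ⟨hM'0⟩
      have hM'd : M' ∣ M := ⟨p, by rw [hM', mul_comm]⟩
      have hM'ne : M' ≠ M := by
        intro h
        have h1 : M' * 1 = M' * p := by rw [mul_one, mul_comm, ← hM', h]
        exact hp.one_lt.ne (Nat.eq_of_mul_eq_mul_left (Nat.pos_of_ne_zero hM'0) h1)
      have hcop : Nat.Coprime p M' := by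
        rw [hM'] at hsq
        exact (Nat.squarefree_mul_iff.1 hsq).1
      have hTC' : MTW p T θ (M' * 4) t n qv :=
        TC.of_dvd (Nat.mul_dvd_mul_right hM'd 4) (Dvd.intro_left _ rfl)
      have hbot : WS (M' * 4) p (↑(cutS T qv) : Set ℕ) θ = ⊥ := by
        rw [EC.WS_eq (subset_cutS T qv) hTC'.lev]
        exact hmin M' hM'd hM'ne
      have hvan := vanish' EC hTC' hbot
      have hLp : lvl (M * 4) (extP qv) t = lvl (M' * 4) (extP qv) t * p := by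
        rw [← lvl_mul_right, hM']
        congr 1
        ring
      refine hAtp (cutS T qv) (subset_cutS T qv) _ (lvl (M' * 4) (extP qv) t) hLp ?_
        ((Dvd.intro_left _ rfl : 4 ∣ M' * 4).trans (dvd_lvl _ _ _))
        (fun r hr hd => TC.mem_cutS t hr hd) hvan R π0 ρ Φ H
      intro hd
      rcases dvd_lvl_cases t hp hd with h | ⟨j, hj⟩
      · rcases (Nat.Prime.dvd_mul hp).1 h with h | h
        · exact hp.one_lt.ne' (Nat.Coprime.eq_one_of_dvd hcop h)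
        · have h5 : p ∣ 2 ^ 2 := by norm_num; exact h
          exact EC.hp2 ((Nat.prime_dvd_prime_iff_eq hp Nat.prime_two).1 (hp.dvd_of_dvd_pow h5))
      · exact TC.notT j (hj ▸ EC.p_mem)
    · left
      exact fun hd => hpM (hdvdL p hp EC.p_mem EC.hp2 hd)
  -- the primes of `Rs`
  have h2Rs : twoP ∉ Rs := by
    intro h
    have h1 : (2 : ℕ) ∣ M := ((hRs twoP).1 h).1
    exact (Nat.not_even_iff_odd.2 hodd) (even_iff_two_dvd.2 h1)
  have hRsT : Rs ⊆ toP T := fun v hv => mem_toP'.2 (hTmem v v.2 ((hRs v).1 hv).1)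
  have hpRs : pPrime p ∉ Rs := fun h => ((hRs _).1 h).2.1 rfl
  have hw3 : ∀ v ∈ Rs, Nat.card ↥(B1loc (adRep (mapK (kM p) rbar0)) v) * Nat.card (kM p) ^ 3 ≤
      Nat.card (kM p) ^ 3 := by
    intro v hv
    have hA := liesOverPrime_primeLocalPlace v
    obtain ⟨φ, hφ⟩ := S54.exists_isFrobeniusAt_of_liesOverPrime v.2 _ hA
    obtain ⟨c, hc⟩ := hsc v hv φ hφ.mem_decompositionSubgroup
    refine EC.weight_three v (fun σ hσ => unram_of_not_ram ((hRs v).1 hv).2.2 _ hA σ hσ) hφ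
      (c := c) ?_
    rw [← H.lift φ]
    ext a b
    have h6 : π0 ((ρ φ - algebraMap (ZMod p) R c • (1 : M₂ R)) a b) = 0 :=
      (IsRho.mem_maximalIdeal_iff (π0 := π0)).1 (hJ (hc a b))
    rw [Matrix.sub_apply, map_sub, sub_eq_zero, Matrix.smul_apply, smul_eq_mul, map_mul,
      AlgHom.commutes] at h6
    rw [Matrix.map_apply, h6, Matrix.smul_apply, smul_eq_mul]
    by_cases hab : a = b
    · rw [hab, Matrix.one_apply_eq, Matrix.one_apply_eq, map_one]; rfl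
    · rw [Matrix.one_apply_ne hab, Matrix.one_apply_ne hab, map_zero]; rfl
  have hone : IsUnit ((1 : M₂ R).map π0) := by
    have e1 : (1 : M₂ R).map π0 = (π0 : R →+* ZMod p).mapMatrix 1 := rfl
    rw [e1, map_one]
    exact isUnit_one
  have hoddv : ∀ Rs' : Finset Nat.Primes, Rs ⊆ Rs' → ∀ v ∈ toP T, v ∉ Rs' → v ≠ pPrime p →
      v ≠ twoP → ¬ (v : ℕ) ∣ lvl (M * 4) (extP qv) t ∨ (Ram rbar0 (v : ℕ) ∧
        (v : ℕ) ∣ lvl (M * 4) (extP qv) t ∧ ¬ (v : ℕ) ^ 2 ∣ lvl (M * 4) (extP qv) t) := by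
    intro Rs' hsub v hv hvR hvp hv2
    have hv2' : (v : ℕ) ≠ 2 := fun e => hv2 (Subtype.ext e)
    have hvp' : (v : ℕ) ≠ p := fun e => hvp (Subtype.ext e)
    by_cases hvM : (v : ℕ) ∣ M
    · right
      refine ⟨?_, hvM.trans hML, not_sq_dvd_lvl TC hsq v.2 hv2' hvM⟩
      by_contra hnr
      exact hvR (hsub ((hRs v).2 ⟨hvM, hvp', hnr⟩))
    · left
      exact fun hd => hvM (hdvdL v v.2 (mem_toP'.1 hv) hv2' hd)
  have hker : RingHom.ker (π0 : R →+* ZMod p) = maximalIdeal R := IsRho.ker_eq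
  have hpbot : Ideal.span {((p : ℕ) : R)} = ⊥ := by
    rw [IsRho.natCast_p_eq_zero, Ideal.span_singleton_eq_bot]
  -- the block at `2`
  obtain ⟨J₂, hJ₂, hcase⟩ := loc2 EC H
  have hJt : J ⊔ J₂ ≤ maximalIdeal R := sup_le hJ hJ₂
  have hstrictRs : ∀ v ∈ Rs, ∃ M : M₂ R, IsUnit (M.map π0) ∧
      ∀ σ ∈ decomp v, ConjConst ℤ (J ⊔ J₂) M (ρ σ) := by
    intro v hv
    refine ⟨1, hone, fun σ hσ => ?_⟩
    obtain ⟨c, hc⟩ := hsc v hv σ hσ
    exact conjConst_of_scalar (c := c) fun a b => Ideal.mem_sup_left (hc a b)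
  rcases hcase with ⟨hSl, hm2⟩ | ⟨hSl, hur2, ⟨φ₂, hφ₂, hns⟩, M₂', hM₂', hconj⟩
  · -- `J₂` free of charge
    have Hyp := genHyp EC H (Finset.univ.image qv) hlev (J ⊔ J₂) hJt Rs hstrictRs hatp
      (fun _ => by
        rcases hm2 with h | ⟨hr, h⟩
        · exact Or.inl fun σ hσ i l => Ideal.mem_sup_right (h σ hσ i l)
        · exact Or.inr ⟨hr, fun σ hσ => ⟨Ideal.mem_sup_right (h σ hσ).1,
            Ideal.mem_sup_right (h σ hσ).2⟩⟩)
      (hoddv Rs (Finset.Subset.refl _))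
    obtain ⟨hle, x, hx, hgen, -⟩ := EC.gen_stage G hRsT hpRs (fun _ => 3) hw3 Hyp
    rw [Finset.sum_const, smul_eq_mul, mul_comm] at hle
    refine ⟨J₂ ⊔ Ideal.span (Set.range x), 0 + (t - ∑ v ∈ Rs, 3), ?_, ?_, ?_⟩
    · have h1 := slice_range (k := ZMod p)
        (V := ↥(WS (lvl (M * 4) (extP qv) t) p (↑(cutS T qv) : Set ℕ) θ)) x
        (fun i => (IsRho.mem_maximalIdeal_iff (π0 := π0)).2 (hx i))
      rw [Fintype.card_fin] at h1
      exact hSl.sup h1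
    · rw [Finset.sum_const, smul_eq_mul, mul_comm]
      omega
    · rw [hker, hpbot, sup_bot_eq, sup_assoc J J₂] at hgen
      exact hgen
  · -- `J₂` costs one variable, weight one at `2`
    have Hyp := genHyp EC H (Finset.univ.image qv) hlev (J ⊔ J₂) hJt (insert twoP Rs)
      (fun v hv => by
        rcases Finset.mem_insert.1 hv with rfl | hv
        · refine ⟨M₂', hM₂', fun σ hσ => ?_⟩
          obtain ⟨C, hC⟩ := hconj σ hσ
          exact ⟨C, fun i l => Ideal.mem_sup_right (hC i l)⟩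
        · exact hstrictRs v hv) hatp
      (fun h => absurd (Finset.mem_insert_self _ _) h)
      (hoddv _ (Finset.subset_insert _ _))
    have hsum : ∑ v ∈ insert twoP Rs, (if v = twoP then 1 else 3) = 1 + 3 * Rs.card := by
      rw [Finset.sum_insert h2Rs, if_pos rfl]
      congr 1
      have h3 : ∀ v ∈ Rs, (if v = twoP then 1 else 3) = 3 := fun v hv =>
        if_neg (fun e : v = twoP => h2Rs (e ▸ hv))
      rw [Finset.sum_congr rfl h3, Finset.sum_const, smul_eq_mul, mul_comm]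
    obtain ⟨hle, x, hx, hgen, -⟩ := EC.gen_stage G
      (Finset.insert_subset (mem_toP'.2 EC.two_mem) hRsT)
      (fun h => by
        rcases Finset.mem_insert.1 h with h | h
        · exact EC.hp2 (congrArg (fun v : Nat.Primes => (v : ℕ)) h)
        · exact hpRs h)
      (fun v => if v = twoP then 1 else 3)
      (fun v hv => by
        by_cases hv2 : v = twoP
        · subst hv2
          simp only [if_true]
          exact EC.weight_one twoP hur2 hφ₂ hns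
        · simp only [if_neg hv2]
          exact hw3 v ((Finset.mem_insert.1 hv).resolve_left hv2)) Hyp
    refine ⟨J₂ ⊔ Ideal.span (Set.range x),
      1 + (t - ∑ v ∈ insert twoP Rs, (if v = twoP then 1 else 3)), ?_, ?_, ?_⟩
    · have h1 := slice_range (k := ZMod p)
        (V := ↥(WS (lvl (M * 4) (extP qv) t) p (↑(cutS T qv) : Set ℕ) θ)) x
        (fun i => (IsRho.mem_maximalIdeal_iff (π0 := π0)).2 (hx i))
      rw [Fintype.card_fin] at h1
      exact hSl.sup h1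
    · rw [hsum] at hle ⊢
      omega
    · rw [hker, hpbot, sup_bot_eq, sup_assoc J J₂] at hgen
      exact hgen

/-- **the contract (GEN) of LOWER-B is a theorem** (`p = 3, 5`). -/
theorem genStmtB (EC : MCtx p T θ rbar0) (hp35 : p = 3 ∨ p = 5) (hAtp : AtpStmt p T θ rbar0) :
    GenStmtB p T θ rbar0 := by
  obtain ⟨t, ht⟩ := EC.exists_tw (EC.irr2 hp35)
  intro M _ hodd hsq hlev _ hmin Rs hRs
  refine ⟨t, 6, fun n => ?_⟩
  obtain ⟨qv, -, hTW, G⟩ := ht n ∅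
  have TC := hTW (M * 4) hlev (Dvd.intro_left _ rfl)
  exact ⟨qv, TC, gen_outB EC hAtp hodd hsq hmin Rs hRs TC G⟩

end Fermat.Agent.ML.Low
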