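import Fermat.Agent.ML.Low.Gen
import Fermat.Agent.ML.Low.AtP
import Fermat.Agent.ML.Main.Asm2

/-!
# ML / Low / GenAll : the contract `GenBAll` of `ML/Main/Asm2.lean` is a theorem

* `atpStmt` : `AtpStmt` from helper68's `atp_strict`;
* `genStmtB'` : `GenStmtB p T θ rbar0` from `MCtx` alone (`p = 3, 5`);
* `genBAll : GenBAll`.
-/

set_option autoImplicit false

noncomputable section

namespace Fermat.Agent.ML.Low

open Fermat.Agent.RIB

local notation "GQ" => (AlgebraicClosure ℚ ≃ₐ[ℚ] AlgebraicClosure ℚ)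
local notation "M₂" => Matrix (Fin 2) (Fin 2)

variable {p : ℕ} [Fact p.Prime] {T : Finset ℕ} {θ : ℕ → ℤ} {rbar0 : GQ →* M₂ (ZMod p)}

theorem atpStmt (EC : MCtx p T θ rbar0) : AtpStmt p T θ rbar0 := by
  intro S hTS L L₁ _ _ hL hpL₁ h4 hS hvan R _ _ _ _ _ π0 ρ Φ H
  exact atp_strict EC S hTS L L₁ hL hpL₁ h4 hS hvan H

theorem genStmtB' (EC : MCtx p T θ rbar0) (hp35 : p = 3 ∨ p = 5) : GenStmtB p T θ rbar0 :=
  genStmtB EC hp35 (atpStmt EC)

end Fermat.Agent.ML.Low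

namespace Fermat.Agent.ML

/-- **the contract (GEN) of LOWER-B, for all contexts.** -/
theorem genBAll : GenBAll :=
  fun _ _ hp35 _ _ _ C => Low.genStmtB' C hp35

end Fermat.Agent.ML
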