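import Fermat.Agent.RIB.Ctrl.Kap.Defs

/-!
# ML / LOWER(A) : the `K0`-rational toric classes at level `M q`

`tor1 C m` : the classes `x ∈ J₀(M q)` which have a Kummer function `g ∈ C.F'` (rational over `K0 = ℚbar ^ I_A`), `m D = div g`,
`x = [D]`, with `g ≡ 1` on the two components of the special fibre.
-/

set_option autoImplicit false
set_option linter.unusedSectionVars false

noncomputable section

open AlgebraicCurve ModularCurve

namespace Fermat.Agent.ML.Low

open Fermat.Agent.RIB Fermat.Agent.S36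

/-- `a ≡ 1` ⟹ `a⁻¹ ≡ 1`. -/
theorem val_inv_sub_one {F : Type*} [Field F] {V : ValuationSubring F} {a : F}
    (ha : V.valuation (a - 1) < 1) : V.valuation (a⁻¹ - 1) < 1 := by
  have ha1 : V.valuation a = 1 := comp_aux_val_f ha
  have ha0 : a ≠ 0 := by
    rintro rfl
    simp at ha1
  have : a⁻¹ - 1 = -((a - 1) * a⁻¹) := by
    field_simp
    ring
  rw [this, Valuation.map_neg, map_mul, map_inv₀, ha1, inv_one, mul_one]
  exact ha

/-- the `K0`-rational toric classes at level `M q`. -/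
def tor1 (C : S36.Ctx) (m : ℕ) : AddSubgroup (JZero (C.M * C.q)) where
  carrier := {x | ∃ g : C.F', Kum m x (embF0 C.A (C.M * C.q) g) ∧
    ∀ j, (C.O2 j).valuation (g - 1) < 1}
  zero_mem' := ⟨1, by rw [map_one]; exact Kum.zero, fun j => by simp⟩
  add_mem' := by
    rintro a b ⟨g, hg, hg1⟩ ⟨h, hh, hh1⟩
    exact ⟨g * h, by rw [map_mul]; exact hg.add hh,
      fun j => TrivialAux.val_mul_sub_one (hg1 j) (hh1 j)⟩
  neg_mem' := by
    rintro a ⟨g, hg, hg1⟩
    exact ⟨g⁻¹, by rw [map_inv₀]; exact hg.neg, fun j => val_inv_sub_one (hg1 j)⟩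

theorem mem_tor1 {C : S36.Ctx} {m : ℕ} {x : JZero (C.M * C.q)} :
    x ∈ tor1 C m ↔ ∃ g : C.F', Kum m x (embF0 C.A (C.M * C.q) g) ∧
      ∀ j, (C.O2 j).valuation (g - 1) < 1 := Iff.rfl

theorem nsmul_eq_zero_of_mem_tor1 {C : S36.Ctx} {m : ℕ} {x : JZero (C.M * C.q)}
    (hx : x ∈ tor1 C m) : m • x = 0 := by
  obtain ⟨g, hg, -⟩ := hx
  exact hg.nsmul_eq_zero

end Fermat.Agent.ML.Low
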