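import Fermat.Agent.ML.Low.Real
import Fermat.Agent.ML.Low.Dict
import Fermat.Agent.ML.Low.Tor1

/-!
# ML / LOWER(A) : `[REAL-K0]` from `[GR0]`

`real_k0_of_gr0` : if every `SS`-toric class of level `M q` is `K0`-rationally toric (`[GR0]`), then `p ^ (n - 1) ≤ # tor1 C p`,
`n = g(M q) - 2 gbar(M) + 1`.
-/

set_option autoImplicit false
set_option linter.style.haveILetI false
set_option linter.unusedSectionVars false
set_option synthInstance.maxHeartbeats 400000

noncomputable section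

open AlgebraicCurve ModularCurve IsLocalRing

namespace Fermat.Agent.ML.Low

open Fermat.Agent.RED hiding Kb
open Fermat.Agent.S24 Fermat.Agent.SS Fermat.Agent.RIB
open Fermat.Agent.RED.Cusp (Fb)

theorem four_or_nine_of_aux {q M : ℕ} (h : RED.aux q ∣ M) : 4 ∣ M ∨ 9 ∣ M := by
  unfold RED.aux at h
  split_ifs at h
  · exact Or.inr h
  · exact Or.inl h

/-- **[GR0]** as a `Prop`. -/
def Gr0Stmt (C : S36.Ctx) (p : ℕ) : Prop :=
  ∀ x : JZero (C.M * C.q), IsToric (TC C) p x → x ∈ tor1 C p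

theorem finite_tor1 (C : S36.Ctx) {p : ℕ} (hp : p.Prime) : Finite (tor1 C p) := by
  have hfin : Finite (WA.tor (JZero (C.M * C.q)) p) := by
    have := WA.finite_tor_JZero (C.M * C.q) hp.pos 1
    rwa [pow_one] at this
  exact Finite.of_injective
    (fun x : tor1 C p => (⟨x.1, WA.mem_tor.2 (nsmul_eq_zero_of_mem_tor1 x.2)⟩ :
      WA.tor (JZero (C.M * C.q)) p))
    (fun a b hab =>
      Subtype.ext (congrArg (fun z : WA.tor (JZero (C.M * C.q)) p => (z : JZero (C.M * C.q))) hab))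

/-- **[REAL-K0]** from **[GR0]**. -/
theorem real_k0_of_gr0 (C : S36.Ctx) (h49 : RED.aux C.q ∣ C.M) {p : ℕ} (hp : p.Prime)
    (hpq : p ≠ C.q) (H : Gr0Stmt C p) (n : ℕ)
    (hn : (n : ℤ) = gR Kb (FN (C.M * C.q)) - 2 * gR C.k (Fb C.k C.M) + 1) :
    p ^ (n - 1) ≤ Nat.card (tor1 C p) := by
  haveI := finite_tor1 C hp
  refine (real_toric C.hqM C.A C.hA (four_or_nine_of_aux h49) hp hpq n hn).trans ?_
  exact Nat.card_le_card_of_injective
    (fun x : S33.toricSub (TC C) p => (⟨x.1, H x.1 x.2⟩ : tor1 C p))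
    (fun a b hab => Subtype.ext (congrArg (fun z : tor1 C p => (z : JZero (C.M * C.q))) hab))

theorem exists_n_ctx (C : S36.Ctx) (h49 : RED.aux C.q ∣ C.M) :
    ∃ n : ℕ, (n : ℤ) = gR Kb (FN (C.M * C.q)) - 2 * gR C.k (Fb C.k C.M) + 1 :=
  exists_n C.hqM C.A C.hA (four_or_nine_of_aux h49)

end Fermat.Agent.ML.Low
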