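import Fermat.Agent.ML.Low.Dat
import Fermat.Agent.S36.Abs.Datum

/-!
# ML / LOWER : `[LOW-U1]`  the pull-back of a toric function has trivial datum between the two components over the same component

`D : S36.GeomDatum`, `N : S36.NormDatum D F'`.  `α` maps the components `0, 1` of the upper curve to the component `0` of the lower curve, `β` maps
the components `1, 2` to the component `1`.  For `g' ≡ 1` on that component, the datum of `α g'` between `O 0` and `O 1` (of `β g'` between `O 1` and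
`O 2`) is `1`.  No trivialisation downstairs is used : norm trick (board, topic ML, #2660 (U1), (U2)).

* `pullOne` : the abstract statement (two valuation rings over the same valuation ring);
* `datAt_alpha`, `datAt_beta` : the two instances.
-/

set_option autoImplicit false
set_option linter.unusedSectionVars false

namespace Fermat.Agent.ML.Low.Dat

open Fermat.Agent.S36 Fermat.Agent.S36.GlueAux Fermat.Agent.S36.TrivialAux Fermat.Agent.S45
open Fermat.Agent.S36.NG (Cg)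

section Aux

variable {F : Type*} [Field F] {B : Subring F} {𝔪 : Ideal B} [h𝔪 : 𝔪.IsPrime]
  {V : ValuationSubring F}

omit h𝔪 in
theorem pullOne_val_of_notMem (hBV : B ≤ V.toSubring) (hV : centre B V hBV ≤ 𝔪) {t : B}
    (ht : t ∉ 𝔪) : V.valuation (t : F) = 1 := by
  have h1 : V.valuation (t : F) ≤ 1 := (V.valuation_le_one_iff _).2 (hBV t.2)
  exact le_antisymm h1 (not_lt.1 fun h => ht (hV ((mem_centre hBV).2 h)))

omit h𝔪 in
theorem pullOne_mem_of_memAt (hBV : B ≤ V.toSubring) (hV : centre B V hBV ≤ 𝔪) {x : F}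
    (hx : MemAt B 𝔪 x) : x ∈ V := by
  obtain ⟨s, t, ht, e⟩ := hx
  have h1 := pullOne_val_of_notMem hBV hV ht
  rw [← V.valuation_le_one_iff]
  have : V.valuation x = V.valuation (s : F) := by rw [← e, map_mul, h1, mul_one]
  rw [this]
  exact (V.valuation_le_one_iff _).2 (hBV s.2)

omit h𝔪 in
theorem pullOne_val_of_unitAt (hBV : B ≤ V.toSubring) (hV : centre B V hBV ≤ 𝔪) {x : F}
    (hx : UnitAt B 𝔪 x) : V.valuation x = 1 := by
  obtain ⟨s, t, hs, ht, e⟩ := hx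
  have h1 := pullOne_val_of_notMem hBV hV ht
  have h2 := pullOne_val_of_notMem hBV hV hs
  rw [← h2, ← e, map_mul, h1, mul_one]

theorem pullOne_pow_sub_one {a : F} (h : ZeroAt B 𝔪 (a - 1)) (n : ℕ) :
    ZeroAt B 𝔪 (a ^ n - 1) := by
  induction n with
  | zero =>
    rw [pow_zero, sub_self]
    exact ⟨0, 1, 𝔪.zero_mem, fun h => h𝔪.ne_top ((Ideal.eq_top_iff_one _).2 h), by simp⟩
  | succ n ih =>
    rw [pow_succ]
    exact one_mul' ih h

/-- `x ^ m ≡ 1`, `x ^ q ≡ 1`, `(m, q) = 1`  ⟹  `x ≡ 1`. -/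
theorem pullOne_of_coprime {m q : ℕ} (hmq : m.Coprime q) (hq : 1 < q) {x : F}
    (h1 : ZeroAt B 𝔪 (x ^ m - 1)) (h2 : ZeroAt B 𝔪 (x ^ q - 1)) : ZeroAt B 𝔪 (x - 1) := by
  obtain ⟨a, -, ha⟩ := Nat.exists_mul_mod_eq_one_of_coprime hmq hq
  have hx0 : x ≠ 0 := by
    rintro rfl
    have := (unitAt_of_one h2).ne_zero
    rw [zero_pow (by omega)] at this
    exact this rfl
  obtain ⟨b, hb⟩ : ∃ b, b = m * a / q := ⟨_, rfl⟩
  have e : m * a = q * b + 1 := by
    have := Nat.div_add_mod (m * a) q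
    rw [ha, ← hb] at this
    exact this.symm
  have h3 := pullOne_pow_sub_one h1 a
  have h4 := pullOne_pow_sub_one h2 b
  rw [← pow_mul] at h3 h4
  have h5 := one_div' h3 h4
  rw [e, pow_succ, mul_div_cancel_left₀ _ (pow_ne_zero _ hx0)] at h5
  exact h5

end Aux

section Main

variable {F F' : Type*} [Field F] [Field F'] {B : Subring F} {B' : Subring F'} {m q : ℕ}

/-- **(U1)/(U2), abstract form.**  `V₀`, `V₁` lie over the same valuation ring `W` of `F'`, residue degree one along `V₁`, and the norm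
of `u ≡ 1` on `V₀`, `u ≡ φ c` on `V₁`, is `≡ c ^ (q - 1)` on `W`. -/
theorem pullOne (hm : m ≠ 0) (hmq : m.Coprime q) (hq : 1 < q) (hB : RootClosed B m)
    {V₀ V₁ : ValuationSubring F} {W : ValuationSubring F'} (φ : F' →+* F)
    (hφ : ∀ x ∈ B', φ x ∈ B) (Nm : F →* F') (hNm : ∀ x ∈ B, Nm x ∈ B')
    (hN : ∀ y, Nm (φ y) = y ^ q) (c₀ : V₀.comap φ = W) (c₁ : V₁.comap φ = W)
    (approx : ∀ x ∈ B, ∃ x' ∈ B', V₁.valuation (x - φ x') < 1)
    (red : ∀ (u : F) (c : F'), c ∈ W → V₀.valuation (u - 1) < 1 → V₁.valuation (u - φ c) < 1 →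
      W.valuation (Nm u - c ^ (q - 1)) < 1)
    {𝔪 : Ideal B} [h𝔪 : 𝔪.IsPrime] (hBV₀ : B ≤ V₀.toSubring) (hV₀ : centre B V₀ hBV₀ ≤ 𝔪)
    (hBV₁ : B ≤ V₁.toSubring) (hV₁ : centre B V₁ hBV₁ ≤ 𝔪) {g' : F'}
    (hg' : W.valuation (g' - 1) < 1) : DatAt B m (φ g') 𝔪 V₀ V₁ 1 := by
  intro u u' hu hu'
  have hg0 : V₀.valuation (φ g' - 1) < 1 := val_map_sub_one c₀ hg'
  have hg1 : V₁.valuation (φ g' - 1) < 1 := val_map_sub_one c₁ hg'
  have hgne : φ g' ≠ 0 := by
    intro h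
    have := comp_aux_val_f hg0
    rw [h, map_zero] at this
    exact zero_ne_one this
  have hu0 := hu.ne_zero
  have hu0' := hu'.ne_zero
  have hb1 := hu.zeroAt hBV₀ hV₀ hg0
  have hb1' := hu'.zeroAt hBV₁ hV₁ hg1
  -- the ratio is a unit at `𝔪`
  have er : (u' / u) ^ m = (u' ^ m * φ g') / (u ^ m * φ g') := by
    rw [div_pow, mul_div_mul_right _ _ hgne]
  have hr1 : ZeroAt B 𝔪 ((u' / u) ^ m - 1) := by
    rw [er]
    exact one_div' hb1' hb1
  have hrU : UnitAt B 𝔪 (u' / u) := UnitAt.of_pow hm hB (unitAt_of_one hr1)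
  obtain ⟨s, t, hs, ht, est⟩ := hrU
  obtain ⟨s', hs', hss⟩ := approx s s.2
  obtain ⟨t', ht', htt⟩ := approx t t.2
  have hsv := pullOne_val_of_notMem hBV₁ hV₁ hs
  have htv := pullOne_val_of_notMem hBV₁ hV₁ ht
  have hs𝔪 : (⟨φ s', hφ s' hs'⟩ : B) ∉ 𝔪 := by
    intro h
    apply hs
    have h1 : s - ⟨φ s', hφ s' hs'⟩ ∈ 𝔪 := hV₁ ((mem_centre hBV₁).2 hss)
    have := 𝔪.add_mem h1 h
    simpa using this
  have ht𝔪 : (⟨φ t', hφ t' ht'⟩ : B) ∉ 𝔪 := by
    intro h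
    apply ht
    have h1 : t - ⟨φ t', hφ t' ht'⟩ ∈ 𝔪 := hV₁ ((mem_centre hBV₁).2 htt)
    have := 𝔪.add_mem h1 h
    simpa using this
  have hs0 : φ s' ≠ 0 := by
    intro h
    exact hs𝔪 (by
      have : (⟨φ s', hφ s' hs'⟩ : B) = 0 := Subtype.ext h
      rw [this]; exact 𝔪.zero_mem)
  obtain ⟨x, hx⟩ : ∃ x, x = φ (t' / s') := ⟨_, rfl⟩
  have hxU : UnitAt B 𝔪 x := by
    refine ⟨⟨φ t', hφ t' ht'⟩, ⟨φ s', hφ s' hs'⟩, ht𝔪, hs𝔪, ?_⟩
    show x * φ s' = φ t'
    rw [hx, map_div₀, div_mul_cancel₀ _ hs0]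
  have hx0 : x ≠ 0 := hxU.ne_zero
  have hxM := hxU.memAt
  have hxV₀ : x ∈ V₀ := pullOne_mem_of_memAt hBV₀ hV₀ hxM
  have hxV₁ : x ∈ V₁ := pullOne_mem_of_memAt hBV₁ hV₁ hxM
  have hxv₁ : V₁.valuation x = 1 := pullOne_val_of_unitAt hBV₁ hV₁ hxU
  have hcW : t' / s' ∈ W := by
    rw [NG.mem_comap' c₁, ← hx]
    exact hxV₁
  -- `u ≡ x` along `V₁`
  have hs0' : (s : F) ≠ 0 := by
    intro h
    rw [h, map_zero] at hsv
    exact zero_ne_one hsv
  have eu : u * (s : F) = u' * (t : F) := by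
    have := est
    field_simp at this
    linear_combination -this
  have ex : x * φ s' = φ t' := by rw [hx, map_div₀, div_mul_cancel₀ _ hs0]
  have hux : Cg V₁ u x := by
    have key : (u - x) * (s : F) = (u' - 1) * (t : F) + ((t : F) - φ t') - ((s : F) - φ s') * x := by
      linear_combination eu - ex
    have h1 : V₁.valuation ((u - x) * (s : F)) < 1 := by
      rw [key]
      exact Valuation.map_sub_lt _ (Valuation.map_add_lt _ (NG.lt_one_mul_mem hu'.2 (hBV₁ t.2)) htt)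
        (NG.lt_one_mul_mem hss hxV₁)
    rwa [map_mul, hsv, mul_one] at h1
  have huV₁ : u ∈ V₁ := hux.mem hxV₁
  have huv₁ : V₁.valuation u = 1 := diff_val_eq_one_of_sub_lt hxv₁ hux
  -- the norm
  have hred := red u (t' / s') hcW hu.2 (by rw [← hx]; exact hux)
  obtain ⟨y, hy⟩ : ∃ y, y = φ (Nm u) := ⟨_, rfl⟩
  have hred₀ : Cg V₀ y (x ^ (q - 1)) := by
    have := (NG.val_comap c₀ _).1 hred
    rwa [map_sub, map_pow, ← hx, ← hy] at this
  have hred₁ : Cg V₁ y (x ^ (q - 1)) := by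
    have := (NG.val_comap c₁ _).1 hred
    rwa [map_sub, map_pow, ← hx, ← hy] at this
  obtain ⟨w, hw⟩ : ∃ w, w = y / u ^ q := ⟨_, rfl⟩
  have hwu : w * u ^ q = y := by rw [hw, div_mul_cancel₀ _ (pow_ne_zero _ hu0)]
  have ew : w ^ m = φ (Nm (u ^ m * φ g')) / (u ^ m * φ g') ^ q := by
    rw [map_mul, map_pow, hN, map_mul, map_pow, map_pow, ← hy, hw, div_pow, mul_pow, ← pow_mul,
      ← pow_mul, mul_comm q m, mul_div_mul_right _ _ (pow_ne_zero _ hgne)]
  have hwM : MemAt B 𝔪 w := by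
    apply MemAt.of_pow hm hB
    rw [ew, div_eq_mul_inv]
    exact (memAt_of_mem (hφ _ (hNm _ hu.1)) h𝔪.ne_top).mul ((unitAt_of_one hb1).pow q).inv.memAt
  have hwV₀ : w ∈ V₀ := pullOne_mem_of_memAt hBV₀ hV₀ hwM
  have hwV₁ : w ∈ V₁ := pullOne_mem_of_memAt hBV₁ hV₁ hwM
  -- (A)
  have hA : ZeroAt B 𝔪 (w - x ^ (q - 1)) := by
    refine zeroAt_of_valuation_lt hBV₀ hV₀ ?_ ?_
    · rw [sub_eq_add_neg]
      exact hwM.add (hxM.pow _).neg
    · have e : w - x ^ (q - 1) = (y - x ^ (q - 1)) - (u ^ q - 1) * w := by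
        linear_combination hwu
      rw [e]
      exact Valuation.map_sub_lt _ hred₀ (NG.lt_one_mul_mem (val_pow_sub_one hu.2 q) hwV₀)
  -- (B)
  have hBz : ZeroAt B 𝔪 (w * x ^ q - x ^ (q - 1)) := by
    refine zeroAt_of_valuation_lt hBV₁ hV₁ ?_ ?_
    · rw [sub_eq_add_neg]
      exact (hwM.mul (hxM.pow _)).add (hxM.pow _).neg
    · have e : w * x ^ q - x ^ (q - 1) = (y - x ^ (q - 1)) - (u ^ q - x ^ q) * w := by
        linear_combination hwu
      rw [e]
      exact Valuation.map_sub_lt _ hred₁ (NG.lt_one_mul_mem (hux.pow hxV₁ q) hwV₁)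
  -- (C)
  have hC : ZeroAt B 𝔪 (x ^ m - 1) := by
    have h1 : ZeroAt B 𝔪 (x ^ m - u ^ m * φ g') := by
      refine zeroAt_of_valuation_lt hBV₁ hV₁ ?_ ?_
      · rw [sub_eq_add_neg]
        exact (hxM.pow _).add (memAt_of_mem hu.1 h𝔪.ne_top).neg
      · have e : x ^ m - u ^ m * φ g' = (x ^ m - u ^ m) - (φ g' - 1) * u ^ m := by ring
        rw [e]
        exact Valuation.map_sub_lt _ (hux.symm.pow huV₁ m)
          (NG.lt_one_mul_mem hg1 (V₁.pow_mem huV₁ m))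
    have e : x ^ m - 1 = (x ^ m - u ^ m * φ g') + (u ^ m * φ g' - 1) := by ring
    rw [e]
    exact h1.add hb1
  -- (D)
  have hD : ZeroAt B 𝔪 (x ^ q - 1) := by
    have h1 : ZeroAt B 𝔪 (x ^ (q - 1) * (x ^ q - 1)) := by
      have e : x ^ (q - 1) * (x ^ q - 1) =
          (w * x ^ q - x ^ (q - 1)) + (w - x ^ (q - 1)) * (-(x ^ q)) := by ring
      rw [e]
      exact hBz.add (hA.mul_memAt (hxM.pow q).neg)
    have h2 := h1.mul_memAt ((hxU.pow (q - 1)).inv.memAt)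
    have e : x ^ (q - 1) * (x ^ q - 1) * (x ^ (q - 1))⁻¹ = x ^ q - 1 := by
      field_simp
    rwa [e] at h2
  have hE := pullOne_of_coprime hmq hq hC hD
  -- (F)
  have hF : ZeroAt B 𝔪 (u' / u * x - 1) := by
    refine zeroAt_of_valuation_lt hBV₁ hV₁ ?_ ?_
    · rw [sub_eq_add_neg]
      exact (MemAt.mul ⟨s, t, ht, est⟩ hxM).add memAt_one.neg
    · have e : (u' / u * x - 1) * u = (u' - 1) * x + (x - u) := by
        field_simp
        ring
      have h1 : V₁.valuation ((u' / u * x - 1) * u) < 1 := by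
        rw [e]
        exact Valuation.map_add_lt _ (NG.lt_one_mul_mem hu'.2 hxV₁) hux.symm
      rwa [map_mul, huv₁, mul_one] at h1
  have hG := one_div' hF hE
  rwa [mul_div_cancel_right₀ _ hx0] at hG

theorem DatAt.symm_one {V V' : ValuationSubring F} {𝔪 : Ideal B} [𝔪.IsPrime] {g : F}
    (h : DatAt B m g 𝔪 V V' 1) : DatAt B m g 𝔪 V' V 1 := by
  intro u u' hu hu'
  have := one_inv (h u' u hu' hu)
  rwa [inv_div] at this

end Main

section Inst

variable {R K F : Type*} [CommRing R] [IsDomain R] [IsDiscreteValuationRing R]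
  [Field K] [Algebra R K] [IsFractionRing R K]
  [Field F] [CharZero F] [Algebra R F] [Algebra K F] [IsScalarTower R K F]
  {D : GeomDatum R K F} {F' : Type*} [Field F'] [Algebra R F'] [Algebra K F']
  [IsScalarTower R K F']

/-- a number which is invertible in `R` is prime to `q`. -/
theorem coprime_q_of_isUnit (D : GeomDatum R K F) {m : ℕ} (hm : IsUnit ((m : ℕ) : R)) :
    m.Coprime D.q := by
  refine Nat.Coprime.symm ((Nat.Prime.coprime_iff_not_dvd D.hq).2 ?_)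
  rintro ⟨c, rfl⟩
  rw [Nat.cast_mul] at hm
  exact D.irr.not_isUnit (isUnit_of_mul_isUnit_left hm)

/-- **(U1)** : the datum of `α g'` between the components `0` and `1` is trivial. -/
theorem datAt_alpha (N : NormDatum D F') (hNa : ∀ y, N.Nα (N.α y) = y ^ D.q) {m : ℕ}
    (hm : IsUnit ((m : ℕ) : R)) {𝔪 : Ideal (intCl R D.t)} [𝔪.IsPrime] (h0 : D.sys.p 0 ≤ 𝔪)
    (h1 : D.sys.p 1 ≤ 𝔪) {g' : F'} (hg' : (N.O' 0).valuation (g' - 1) < 1) :
    DatAt (intCl R D.t) m (N.α g') 𝔪 (D.O 0) (D.O 1) 1 := by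
  have hm0 : m ≠ 0 := by
    rintro rfl
    simp at hm
  exact pullOne (B' := N.B') hm0 (coprime_q_of_isUnit D hm) D.hq.one_lt
    (rootClosed_intCl R D.t hm0) (N.α : F' →+* F) N.α_mem N.Nα N.Nα_mem hNa (N.comap_α 0)
    (N.comap_α 1) (N.approxα 1 (by decide))
    (fun u c hc hu0 hu1 => by
      have := N.redα₁ u 1 c (N.O' 0).one_mem hc (by rwa [map_one]) hu1
      rwa [one_mul] at this)
    (intCl_le (D.sys.gauss 0)) h0 (intCl_le (D.sys.gauss 1)) h1 hg'

/-- **(U2)** : the datum of `β g'` between the components `1` and `2` is trivial. -/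
theorem datAt_beta (N : NormDatum D F') (hNb : ∀ y, N.Nβ (N.β y) = y ^ D.q) {m : ℕ}
    (hm : IsUnit ((m : ℕ) : R)) {𝔪 : Ideal (intCl R D.t)} [𝔪.IsPrime] (h1 : D.sys.p 1 ≤ 𝔪)
    (h2 : D.sys.p 2 ≤ 𝔪) {g' : F'} (hg' : (N.O' 1).valuation (g' - 1) < 1) :
    DatAt (intCl R D.t) m (N.β g') 𝔪 (D.O 1) (D.O 2) 1 := by
  have hm0 : m ≠ 0 := by
    rintro rfl
    simp at hm
  refine DatAt.symm_one ?_
  exact pullOne (B' := N.B') hm0 (coprime_q_of_isUnit D hm) D.hq.one_lt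
    (rootClosed_intCl R D.t hm0) (N.β : F' →+* F) N.β_mem N.Nβ N.Nβ_mem hNb (N.comap_β 2)
    (N.comap_β 1) (N.approxβ 1 (by decide))
    (fun u c hc hu2 hu1 => by
      have := N.redβ₂ u c 1 hc (N.O' 1).one_mem hu1 (by rwa [map_one])
      rwa [mul_one] at this)
    (intCl_le (D.sys.gauss 2)) h2 (intCl_le (D.sys.gauss 1)) h1 hg'

end Inst

end Fermat.Agent.ML.Low.Dat
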