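import Fermat.Agent.ML.Low.Up
import Fermat.Agent.ML.Low.PullOne
import Fermat.Agent.ML.Low.Tor1
import Fermat.Agent.RIB.Ctrl.Kap.Ker
import Fermat.Agent.RIB.Grow.Tau

/-!
# ML / LOWER(A) : `[TORIC-OLD]` on the modular context

`C : S36.Ctx` (level `M q²`, `aux q ∣ M`), `p ≠ q`.  If the number of triple points of the special fibre is `≤ n` and there are at least `p ^ (n - 1)`
`K0`-rational toric classes at level `M q`, every toric class of level `M q²` (`Kap C p x 0`) is `pullA x' + pullB x''` with `x'`, `x''` toric of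
level `M q`.

* `Nα_α`, `Nβ_β` : `N_α (α y) = y ^ q`;
* `exists_tor_of_kap` : `Kap C m x 0` ⟹ `x` has a Kummer function `≡ 1` on the three components;
* `toric_old_ctx`.
-/

set_option autoImplicit false
set_option linter.unusedSectionVars false

noncomputable section

open AlgebraicCurve ModularCurve

namespace Fermat.Agent.ML.Low

open Fermat.Agent.RIB Fermat.Agent.S36 Fermat.Agent.S24 Fermat.Agent.RED.Gauss
open Fermat.Agent.RED (GQ)

variable {C : S36.Ctx} {m : ℕ}

theorem Nα_α (C : S36.Ctx) (y : C.F') : C.Nα (C.α y) = y ^ C.q := by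
  rw [C.Nα_apply, normAlong_apply, C.finrank_α]

theorem Nβ_β (C : S36.Ctx) (y : C.F') : C.Nβ (C.β y) = y ^ C.q := by
  rw [C.Nβ_apply, normAlong_apply, C.finrank_β]

/-- a toric class of level `M q²` has a Kummer function which is `≡ 1` on the three components (first half of `RIB.kap_ker`). -/
theorem exists_tor_of_kap (h49 : Fermat.Agent.RED.aux C.q ∣ C.M) (hm0 : m ≠ 0)
    {x : JZero (C.M * C.q * C.q)} (h : Kap C m x 0) :
    ∃ g : C.F, Kum m x (embF0 C.A (C.M * C.q * C.q) g) ∧ ∀ l, (C.O3 l).valuation (g - 1) < 1 := by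
  obtain ⟨g, hg, hl⟩ := h
  have key : ∀ l : Fin 3, ∃ (u : C.Fb) (U : C.F), u ≠ 0 ∧
      RedsTo C.π (C.e3 l g) ((u : LaurentSeries C.k) ^ m) ∧
      RedsTo C.π (C.e3 l U) (u : LaurentSeries C.k) := by
    intro l
    obtain ⟨w, hw, hk⟩ := hl l
    obtain ⟨u, hu0, rfl⟩ := KRel.exists_pow hm0 hk
    obtain ⟨U, hU⟩ := exists_lift_e3 C l u
    exact ⟨u, U, hu0, hw, hU⟩
  choose u U hu0 hgu hU using key
  obtain ⟨V, hV⟩ := (C.geom h49).approx3 U (fun l => (hU l).1)
  have hV' : ∀ l, RedsTo C.π (C.e3 l V) (u l : LaurentSeries C.k) := by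
    intro l
    have h1 := (redsTo_zero_of_val_lt C l (hV l)).add (hU l)
    rwa [← map_add, sub_add_cancel, zero_add] at h1
  have hu0' : ∀ l, (u l : LaurentSeries C.k) ≠ 0 := fun l h0 => hu0 l (Subtype.ext h0)
  have hV0 : V ≠ 0 := by
    rintro rfl
    have := (hV' 0).unique (by rw [map_zero]; exact redsTo_zero)
    exact hu0' 0 this
  refine ⟨g * (V⁻¹) ^ m, ?_, ?_⟩
  · have := hg.of_eq_mul_pow (g' := g * (V⁻¹) ^ m) (y := V⁻¹) (c := 1) (a := 1) one_ne_zero
      (inv_ne_zero hV0) (by rw [map_one, one_mul, pow_one])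
    rwa [one_smul] at this
  · intro l
    have h1 : RedsTo C.π (C.e3 l (g * (V⁻¹) ^ m - 1)) 0 := by
      have h2 := ((hgu l).mul (((hV' l).inv (hu0' l)).pow m)).sub (redsTo_one (π := C.π))
      rw [← mul_pow, mul_inv_cancel₀ (hu0' l), one_pow, sub_self] at h2
      rw [map_sub, map_mul, map_pow, map_inv₀, map_one]
      exact h2
    exact RedsTo.valuation_lt_one C.hπ (C.disc3 l) h1

/-- `p x = 0`, `q x = 0`, `(p, q) = 1` ⟹ `x = 0`. -/
theorem eq_zero_of_nsmul_coprime_low {J : Type*} [AddCommGroup J] {a b : ℕ} (hab : a.Coprime b) {x : J}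
    (ha : a • x = 0) (hb : b • x = 0) : x = 0 := by
  obtain ⟨u, v, huv⟩ := Nat.isCoprime_iff_coprime.mpr hab
  have ha' : (a : ℤ) • x = 0 := by rw [natCast_zsmul]; exact ha
  have hb' : (b : ℤ) • x = 0 := by rw [natCast_zsmul]; exact hb
  calc x = (1 : ℤ) • x := (one_smul _ _).symm
    _ = (u * (a : ℤ) + v * (b : ℤ)) • x := by rw [huv]
    _ = u • ((a : ℤ) • x) + v • ((b : ℤ) • x) := by rw [add_smul, mul_smul, mul_smul]
    _ = 0 := by rw [ha', hb', smul_zero, smul_zero, add_zero]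

/-- a class of level `M q` whose Kummer function becomes a constant times an `m`-th power after a norm-compatible map of degree `q`
is trivial. -/
theorem eq_zero_of_norm (hmq : m.Coprime C.q) (hm0 : m ≠ 0) {x : JZero (C.M * C.q)} {g : C.F'}
    (hx : Kum m x (embF0 C.A (C.M * C.q) g)) (Nm : C.F →* C.F') {φg : C.F}
    (hN : Nm φg = g ^ C.q) (hNc : ∀ c : C.K, Nm (algebraMap C.K C.F c) = algebraMap C.K C.F' c ^ C.q)
    (h : ∃ (c : C.K) (w : C.F), c ≠ 0 ∧ w ≠ 0 ∧ φg = algebraMap C.K C.F c * w ^ m) : x = 0 := by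
  obtain ⟨c, w, hc, -, e⟩ := h
  have hg0 : g ≠ 0 := fun h0 => hx.ne_zero (by rw [h0, map_zero])
  have e1 : g ^ C.q = algebraMap C.K C.F' (c ^ C.q) * (1 : C.F') ^ 1 * (Nm w) ^ m := by
    rw [← hN, e, map_mul, map_pow, hNc, map_pow, one_pow, mul_one]
  have hw0 : Nm w ≠ 0 := by
    intro h0
    rw [h0, zero_pow hm0, mul_zero] at e1
    exact pow_ne_zero _ hg0 e1
  have k0 : Kum m (0 : JZero (C.M * C.q)) (embF0 C.A (C.M * C.q) (1 : C.F')) := by
    rw [map_one]
    exact Kum.zero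
  have k1 := k0.of_eq_mul_pow (pow_ne_zero C.q hc) hw0 e1
  have k2 : Kum m (C.q • x) (embF0 C.A (C.M * C.q) (g ^ C.q)) := by
    rw [map_pow]
    exact hx.nsmul C.q
  have h3 : C.q • x = 0 := by
    rw [k2.eq hm0 k1, smul_zero]
  exact eq_zero_of_nsmul_coprime_low hmq hx.nsmul_eq_zero h3

/-- **[TORIC-OLD]** on the modular context. -/
theorem toric_old_ctx (C : S36.Ctx) (h49 : Fermat.Agent.RED.aux C.q ∣ C.M) {p : ℕ} (hp : p.Prime)
    (hpq : p ≠ C.q) (n : ℕ)
    (hfin : Finite {𝔪 : Ideal (intCl C.R (C.geom h49).t) //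
      𝔪.IsMaximal ∧ ∀ l, (C.geom h49).sys.p l ≤ 𝔪})
    (hn : Nat.card {𝔪 : Ideal (intCl C.R (C.geom h49).t) //
      𝔪.IsMaximal ∧ ∀ l, (C.geom h49).sys.p l ≤ 𝔪} ≤ n)
    (hcard : p ^ (n - 1) ≤ Nat.card (tor1 C p))
    {x : JZero (C.M * C.q * C.q)} (h : Kap C p x 0) :
    ∃ x' ∈ tor1 C p, ∃ x'' ∈ tor1 C p,
      x = pullA (C.M * C.q) C.q x' + pullB (C.M * C.q) C.q x'' := by
  have hcop : p.Coprime C.q := (Nat.coprime_primes hp C.hq).2 hpq
  have hp0 : p ≠ 0 := hp.ne_zero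
  obtain ⟨g, hg, hg1⟩ := exists_tor_of_kap h49 hp0 h
  obtain ⟨ζ, hζ⟩ := S36.Kum.exists_primitiveRoot_R0 C.hq C.hA hcop
  have hpR := S36.Kum.isUnit_natCast_R0 C.hq C.hA hcop
  have hF : Finite (tor1 C p) := by
    have h1 := finite_torsion_JZero (C.M * C.q) p hp0
    exact (h1.subset fun x hx => nsmul_eq_zero_of_mem_tor1 hx).to_subtype
  obtain ⟨x', x'', g', g'', c, w, h1, h2, -, -, -, -, hc, hw, e⟩ :=
    Up.toric_old_core (D := C.geom h49) (C.norm h49) hp hpR hζ
      (fun r _ => S36.Kum.exists_pow_sub_mem_R0 C.hq C.hA hp0 r)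
      (fun g' hg' _ mm hmm hall => by
        have := hmm.isPrime
        exact Dat.datAt_alpha (C.norm h49) (Nα_α C) hpR (hall 0) (hall 1) (hg' 0))
      (fun g' hg' _ mm hmm hall => by
        have := hmm.isPrime
        exact Dat.datAt_beta (C.norm h49) (Nβ_β C) hpR (hall 1) (hall 2) (hg' 1))
      n hfin hn (tor1 C p)
      (fun x g => Kum p (x : JZero (C.M * C.q)) (embF0 C.A (C.M * C.q) g))
      (by
        show Kum p (0 : JZero (C.M * C.q)) (embF0 C.A (C.M * C.q) (1 : C.F'))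
        rw [map_one]
        exact Kum.zero)
      (fun x => by
        obtain ⟨g, hg, hg1⟩ := x.2
        exact ⟨g, hg, hg1, hor_of_kum hg⟩)
      (fun x y g h hx hy => by
        show Kum p ((x : JZero (C.M * C.q)) + (y : JZero (C.M * C.q)))
          (embF0 C.A (C.M * C.q) (g * h))
        rw [map_mul]
        exact hx.add hy)
      (fun x g h hx hy => by
        have hh0 : h ≠ 0 := fun h0 => hy.ne_zero (by rw [h0, map_zero])
        have k := hx.sub hy
        rw [sub_self, ← map_div₀] at k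
        obtain ⟨c, y, hc, hy0, e⟩ := exists_root_of_kum_zero hp0 k
        refine ⟨c, y, hc, hy0, ?_⟩
        rw [div_eq_iff hh0] at e
        rw [e]
        ring)
      (fun x g hx hh => Subtype.ext
        (eq_zero_of_norm hcop hp0 hx C.Nα (Nα_α C g) C.Nα_const hh))
      (fun x g hx hh => Subtype.ext
        (eq_zero_of_norm hcop hp0 hx C.Nβ (Nβ_β C g) C.Nβ_const hh))
      hcard hg1 (hor_of_kum hg)
  refine ⟨x', x'.2, x'', x''.2, ?_⟩
  have kA : Kum p (pullA (C.M * C.q) C.q x') (embF0 C.A (C.M * C.q * C.q) (C.α g')) := by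
    rw [embF0_alpha]
    exact Kum.pull h1 _ _ _
  have kB : Kum p (pullB (C.M * C.q) C.q x'') (embF0 C.A (C.M * C.q * C.q) (C.β g'')) := by
    rw [embF0_beta]
    exact Kum.pull h2 _ _ _
  have kAB := kA.add kB
  rw [← map_mul] at kAB
  have k := kAB.of_eq_mul_pow (g' := g) (a := 1) hc hw (by
    rw [pow_one, ← mul_assoc]
    exact e)
  rw [one_smul] at k
  exact hg.eq hp0 k

end Fermat.Agent.ML.Low
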