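import Fermat.Agent.ML.Low.Sq
import Fermat.Agent.ML.Low.ToricWire
import Fermat.Agent.ML.Low.RealMain

/-!
# ML / LOWER(A) : `[SQ]` from the two last leaves `[NODES]` and `[GR0]`
-/

set_option autoImplicit false
set_option linter.unusedSectionVars false

noncomputable section

open AlgebraicCurve ModularCurve

namespace Fermat.Agent.ML.Low

open Fermat.Agent.RIB Fermat.Agent.S36
open Fermat.Agent.RED hiding Kb
open Fermat.Agent.S24
open Fermat.Agent.RED.Cusp (Fb)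

/-- **[NODES]** as a `Prop`. -/
def NodesStmt : Prop :=
  ∀ (C : S36.Ctx) (h49 : Fermat.Agent.RED.aux C.q ∣ C.M) (n : ℕ),
    (n : ℤ) = gR Kb (FN (C.M * C.q)) - 2 * gR C.k (Fb C.k C.M) + 1 →
    Finite {𝔪 : Ideal (intCl C.R (C.geom h49).t) //
      𝔪.IsMaximal ∧ ∀ l, (C.geom h49).sys.p l ≤ 𝔪} ∧
    Nat.card {𝔪 : Ideal (intCl C.R (C.geom h49).t) //
      𝔪.IsMaximal ∧ ∀ l, (C.geom h49).sys.p l ≤ 𝔪} ≤ n

/-- **[GR0]** for all contexts. -/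
def Gr0All : Prop :=
  ∀ (C : S36.Ctx), Fermat.Agent.RED.aux C.q ∣ C.M → ∀ p : ℕ, p.Prime → p ≠ C.q → Gr0Stmt C p

theorem toricOld_of (HN : NodesStmt) (HG : Gr0All) : ToricOldStmt := by
  intro C h49 p hp hpq x hx
  obtain ⟨n, hn⟩ := exists_n_ctx C h49
  obtain ⟨hfin, hcard⟩ := HN C h49 n hn
  obtain ⟨x', hx', x'', hx'', e⟩ := toric_old_ctx C h49 hp hpq n hfin hcard
    (real_k0_of_gr0 C h49 hp hpq (HG C h49 p hp hpq) n hn) hx
  exact ⟨x', x'', nsmul_eq_zero_of_mem_tor1 hx', nsmul_eq_zero_of_mem_tor1 hx'', e⟩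

theorem sq_of {p : ℕ} [Fact p.Prime] {T : Finset ℕ} {θ : ℕ → ℤ}
    {rbar0 : (AlgebraicClosure ℚ ≃ₐ[ℚ] AlgebraicClosure ℚ) →* Matrix (Fin 2) (Fin 2) (ZMod p)}
    (EC : MCtx p T θ rbar0) (HN : NodesStmt) (HG : Gr0All) : SqStmt p T θ :=
  sq_of_toricOld EC (toricOld_of HN HG)

end Fermat.Agent.ML.Low
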