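import Fermat.Agent.ML.Low.RealAbs
import Fermat.Agent.RIB.WeilJ
import Fermat.Agent.S36.Top.CardJ
import Fermat.Agent.SS.Mod.Lift

/-!
# ML / LOWER(A) : `[LOW-REAL-ABS]` (two-step form) and its instance on `J₀(M q)[p]`

* `real_count_amb'` : the count with the hypothesis `#X[p]^H ≤ p^(1 + 4 g') * #T`;
* `weil_inertia` : the Weil pairing on `J₀(N)[p]` is invariant under the inertia groups at `q ≠ p`;
* `card_tor_JZero` : `#J₀(N)[p] = p^(2 g)`, `g = gR Kb (FN N)`;
* `real_of_fixed` : **the count at level `M q`** : `T ≤ J₀(M q)[p]` with `(I - 1) J₀(M q)[p] ≤ T` and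
  `#J₀(M q)[p]^I ≤ p * #J₀(M)[p]^2 * #T`  ⟹  `p^(n - 1) ≤ #T`, `n = g(M q) - 2 gbar(M) + 1`.
-/

set_option autoImplicit false
set_option linter.unusedSectionVars false
set_option linter.style.haveILetI false
set_option synthInstance.maxHeartbeats 400000

noncomputable section

open AlgebraicCurve ModularCurve

namespace Fermat.Agent.ML.Low

open Fermat.Agent.RIB.WA Fermat.Agent.S24
open Fermat.Agent.RED hiding Kb
open Fermat.Agent.RED.Cusp (Fb)

section Abs

variable {A K : Type*} [AddCommGroup A] [Field K] {e : A → A → K}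
variable [Finite A] [IsAlgClosed K] [CharZero K] {ι : Type*} (σ : ι → A ≃+ A)

/-- **[LOW-REAL-ABS]**, two-step form. -/
theorem real_count' (h : PerfPair e) (hinv : ∀ i x y, e (σ i x) (σ i y) = e x y) {p g g' : ℕ}
    (hp : p.Prime) (hA : Nat.card A = p ^ (2 * g)) (T : AddSubgroup A)
    (hT : ∀ i x, σ i x - x ∈ T)
    (hfix : Nat.card {a : A // ∀ i, σ i a = a} ≤ p ^ (1 + 4 * g') * Nat.card T) :
    p ^ (g - 2 * g') ≤ Nat.card T := by
  have h1 := card_le_aug_mul_fixed σ h hinv T hT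
  have h3 : Nat.card T ∣ p ^ (2 * g) := hA ▸ AddSubgroup.card_addSubgroup_dvd_card T
  obtain ⟨t, -, ht⟩ := (Nat.dvd_prime_pow hp).1 h3
  rw [ht] at h1 hfix ⊢
  have h4 : p ^ (2 * g) ≤ p ^ (t + ((1 + 4 * g') + t)) := by
    rw [pow_add, pow_add, ← hA]
    exact h1.trans (Nat.mul_le_mul_left _ hfix)
  have h5 := (Nat.pow_le_pow_iff_right hp.one_lt).1 h4
  exact Nat.pow_le_pow_right hp.pos (by omega)

end Abs

section Ambient

variable {X K : Type*} [AddCommGroup X] [Field K] [IsAlgClosed K] [CharZero K] {e : X → X → K}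
variable {G : Type*} [Group G] [DistribMulAction G X]

theorem real_count_amb' {p g g' : ℕ} (hp : p.Prime) (h : TorsPair p e) (hfin : Finite (tor X p))
    (H : Subgroup G)
    (hinv : ∀ s ∈ H, ∀ x y : X, p • x = 0 → p • y = 0 → e (s • x) (s • y) = e x y)
    (hX : Nat.card (tor X p) = p ^ (2 * g)) (T : AddSubgroup X) (hTp : ∀ x ∈ T, p • x = 0)
    (hT : ∀ s ∈ H, ∀ x : X, p • x = 0 → s • x - x ∈ T)
    (hfix : Nat.card {x : X // p • x = 0 ∧ ∀ s ∈ H, s • x = x} ≤ p ^ (1 + 4 * g') * Nat.card T) :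
    p ^ (g - 2 * g') ≤ Nat.card T := by
  have eT : Nat.card (T.comap (tor X p).subtype) = Nat.card T :=
    Nat.card_congr
      { toFun := fun x => ⟨x.1.1, x.2⟩
        invFun := fun x => ⟨⟨x.1, hTp x.1 x.2⟩, x.2⟩
        left_inv := fun x => rfl
        right_inv := fun x => rfl }
  have eF : Nat.card {a : tor X p // ∀ s : H, torAct p (s : G) a = a} =
      Nat.card {x : X // p • x = 0 ∧ ∀ s ∈ H, s • x = x} :=
    Nat.card_congr
      { toFun := fun x => ⟨x.1.1, x.1.2, fun s hs => congrArg Subtype.val (x.2 ⟨s, hs⟩)⟩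
        invFun := fun x => ⟨⟨x.1, x.2.1⟩, fun s => Subtype.ext (x.2.2 s s.2)⟩
        left_inv := fun x => rfl
        right_inv := fun x => rfl }
  have key := real_count' (A := tor X p) (e := fun a a' : tor X p => e a a')
    (fun s : H => torAct p (s : G)) h.perfPair
    (fun s x y => hinv s s.2 x y x.2 y.2) (g' := g') hp hX (T.comap (tor X p).subtype)
    (fun s x => hT s s.2 x x.2) (by rw [eF, eT]; exact hfix)
  rwa [eT] at key

end Ambient

section Modular

local notation "GQ" => (AlgebraicClosure ℚ ≃ₐ[ℚ] AlgebraicClosure ℚ)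

/-- the Weil pairing on `J₀(N)[p]` is invariant under the inertia groups at `q ≠ p`. -/
theorem weil_inertia (N : ℕ) [NeZero N] {p q : ℕ} (hp : p.Prime) (hq : q.Prime) (hqp : q ≠ p)
    {A : ValuationSubring Kb} (hA : A.LiesOverPrime q) {τ : GQ} (hτ : τ ∈ A.inertiaSubgroupIn ℚ)
    {x y : JZero N} (hx : p • x = 0) (hy : p • y = 0) :
    S19.weil p (τ • x) (τ • y) = S19.weil p x y := by
  haveI : Fact p.Prime := ⟨hp⟩
  haveI : Fact (1 < p) := ⟨hp.one_lt⟩
  rw [weil_galois N τ hx hy, GAL.cycloChar_spec p τ (S19.weil_pow_eq_one hx hy),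
    GAL.cycloChar_of_mem_inertia hq hqp hA hτ, Units.val_one, ZMod.val_one, pow_one]

theorem card_tor_JZero (N : ℕ) [NeZero N] {p : ℕ} (hp : p.Prime) :
    Nat.card (tor (JZero N) p) = p ^ (2 * genusFF Kb (FN N)) := by
  rw [S36.Top.genusFF_eq_finrank, ← S36.Top.card_torsion_JZero N p hp.pos]
  refine Nat.card_congr (Equiv.subtypeEquivRight fun x => ?_)
  rw [Pic0.mem_torsion, natCast_zsmul]
  exact mem_tor

theorem card_tor_JZero' (N : ℕ) [NeZero N] {p : ℕ} (hp : p.Prime) :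
    Nat.card {x : JZero N // p • x = 0} = p ^ (2 * genusFF Kb (FN N)) :=
  card_tor_JZero N hp

theorem gR_FN_eq (N : ℕ) [NeZero N] : gR Kb (FN N) = (genusFF Kb (FN N) : ℤ) :=
  (RR.isSepParam_jF N).gR_eq_genusFF

/-- **the count at level `M q`.** -/
theorem real_of_fixed {M q p : ℕ} [NeZero M] [hq : Fact q.Prime] (hqM : ¬ q ∣ M)
    (h49 : 4 ∣ M ∨ 9 ∣ M) (hp : p.Prime) (hqp : q ≠ p) {A : ValuationSubring Kb}
    (hA : A.LiesOverPrime q) (k : Type) [Field k] [CharP k q] [IsAlgClosed k]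
    (T : AddSubgroup (JZero (M * q))) (hTp : ∀ x ∈ T, p • x = 0)
    (hT : ∀ τ ∈ A.inertiaSubgroupIn ℚ, ∀ x : JZero (M * q), p • x = 0 → τ • x - x ∈ T)
    (hfix : Nat.card {x : JZero (M * q) // p • x = 0 ∧ ∀ τ ∈ A.inertiaSubgroupIn ℚ, τ • x = x} ≤
      p * Nat.card {y : JZero M // p • y = 0} ^ 2 * Nat.card T)
    (n : ℕ) (hn : (n : ℤ) = gR Kb (FN (M * q)) - 2 * gR k (Fb k M) + 1) :
    p ^ (n - 1) ≤ Nat.card T := by
  have hgen : gR Kb (FN M) ≤ gR k (Fb k M) :=
    gen_of_rhRel M (fun _ _ _ _ _ _ _ _ _ _ _ _ h1 h2 => Fermat.Agent.RR.rhRel h1 h2) h49 k hqM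
  have hfin : Finite (tor (JZero (M * q)) p) := by
    have := finite_tor_JZero (M * q) hp.pos 1
    rwa [pow_one] at this
  have hpair : TorsPair p (fun x y : JZero (M * q) => S19.weil p x y) := by
    have := torsPair_weil (M * q) hp 1
    rwa [pow_one] at this
  have key := real_count_amb' (g := genusFF Kb (FN (M * q))) (g' := genusFF Kb (FN M)) hp hpair hfin
    (A.inertiaSubgroupIn ℚ) (fun τ hτ x y hx hy => weil_inertia (M * q) hp hq.out hqp hA hτ hx hy)
    (card_tor_JZero (M * q) hp) T hTp hT (by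
      refine hfix.trans (le_of_eq ?_)
      rw [card_tor_JZero' M hp, ← pow_mul, pow_add, pow_one]
      congr 2
      ring)
  refine le_trans (Nat.pow_le_pow_right hp.pos ?_) key
  rw [gR_FN_eq] at hn hgen
  omega

end Modular

end Fermat.Agent.ML.Low
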