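import Fermat.Agent.RIB.Key.Main
import Fermat.Agent.RIB.Ctrl.Kap.Dict
import Fermat.Agent.S33.Geo.Toric
import Fermat.Agent.ML.Low.RealInst

/-!
# ML / LOWER(A) : `[LOW-REAL-K0]`, the geometric inputs of the count `p ^ (g - 2 g') ≤ # toric part`   (SS language)

Level `M q`, `M` rigid (`4 ∣ M` or `9 ∣ M`), `q ∤ M`, `A ∣ q`, `T = SS.twoRed` = the two Gauss valuations of `F = F_{M q}`, `I = I_A`,
`m ≠ 0` prime to `q`.  `T' := S33.toricSub T m = {x | SS.IsToric T m x}`.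

* `smul_sub_toric` : `(τ - 1) J[m] ⊆ T'` for `τ ∈ I`;
* `Gr m x a` : `x` has an `I`-fixed Kummer function `f` with `v₁ f = |q| ^ n₁`, `v₂ f = |q| ^ n₂`, `n₁ - n₂ = a` in `ℤ / m`;
* `exists_gr` : every `I`-fixed `x ∈ J[m]` has such an `a`;
* `exists_tri_of_gr` : `Gr m x a`, `Gr m y a`  ⟹  `Tri (x - y) y₁ y₂` for some `y₁ y₂ ∈ J₀(M)[m]`;
* `RelK`, `relK_tot`, `relK_ker` : the relation between `J₀(M q)[m] ^ I` and `ℤ / m × J₀(M)[m] × J₀(M)[m]`, in the shape of the hypotheses `Rel`, `htot`, `hker` of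
  `real_count_amb` (`ML/Low/RealAbs.lean`).
-/

set_option autoImplicit false
set_option linter.style.haveILetI false
set_option linter.unusedSectionVars false
set_option synthInstance.maxHeartbeats 400000

noncomputable section

open AlgebraicCurve ModularCurve IsLocalRing

namespace Fermat.Agent.ML.Low

open Fermat.Agent.RED hiding Kb
open Fermat.Agent.S24 Fermat.Agent.RED.TorsES Fermat.Agent.SS Fermat.Agent.SSP Fermat.Agent.HK
open Fermat.Agent.S40.HK Fermat.Agent.RIB Fermat.Agent.RIB.Key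
open Fermat.Agent.RED.Cusp (Fb)

variable {M q : ℕ} [NeZero M] [hq : Fact q.Prime] (hqM : ¬ q ∣ M)
variable (A : ValuationSubring Kb) [CharP (ResidueField A) q] [IsAlgClosed (ResidueField A)]

local notation "kA" => ResidueField A
local notation "TT" => twoRed hqM (residue A) residue_surjective
local notation "QQ" => algebraMap Kb (FN (M * q)) (q : Kb)

/-- `(τ - 1) J[m]` is toric. -/
theorem smul_sub_toric (h49 : 4 ∣ M ∨ 9 ∣ M) (hA : A.LiesOverPrime q) {m : ℕ} (hm : m ≠ 0)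
    {τ : GQ} (hτ : τ ∈ A.inertiaSubgroupIn ℚ) {x : JZero (M * q)} (hx : m • x = 0) :
    IsToric (TT) m (τ • x - x) := by
  obtain ⟨-, 𝒩, -, -, -, -, -, -, -, -, hcompat, -⟩ := exists_nodalData_fixed hqM A h49 hA
  exact isToric_smul_sub 𝒩 (RB.isSepParam_jF (M * q)) hm (hcompat τ hτ) hx

/-- `x` has an inertia-fixed Kummer function with `v₁ - v₂ = a` in `ℤ / m`. -/
def Gr (m : ℕ) (x : JZero (M * q)) (a : ZMod m) : Prop :=
  ∃ (f : FN (M * q)) (n₁ n₂ : ℤ), Kum m x f ∧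
    (∀ τ ∈ A.inertiaSubgroupIn ℚ, gal (M * q) τ • f = f) ∧
    (TT).R₁.O.valuation (f * (QQ ^ n₁)⁻¹) = 1 ∧ (TT).R₂.O.valuation (f * (QQ ^ n₂)⁻¹) = 1 ∧
    ((n₁ - n₂ : ℤ) : ZMod m) = a

theorem exists_gr (h49 : 4 ∣ M ∨ 9 ∣ M) (hA : A.LiesOverPrime q) {m : ℕ} (hm : m ≠ 0)
    {x : JZero (M * q)} (hx : m • x = 0) (hI : ∀ τ ∈ A.inertiaSubgroupIn ℚ, τ • x = x) :
    ∃ a, Gr hqM A m x a := by
  obtain ⟨D, f, hD, hf, hfix, -⟩ := exists_fixed_isDiv (M * q) (A.inertiaSubgroupIn ℚ) hm x hx hI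
  have hsc : (∀ u ∈ ratH (M * q) (A.inertiaSubgroupIn ℚ), u ≠ 0 → ∃ n : ℤ,
      (TT).R₁.O.valuation (u * (QQ ^ n)⁻¹) = 1) ∧
      (∀ u ∈ ratH (M * q) (A.inertiaSubgroupIn ℚ), u ≠ 0 → ∃ n : ℤ,
      (TT).R₂.O.valuation (u * (QQ ^ n)⁻¹) = 1) := by
    rcases h49 with h | h
    · exact scale0_mod hqM A S36.wt1Four h hA
    · exact scale0_mod hqM A S36.wt1Nine h hA
  obtain ⟨n₁, h₁⟩ := hsc.1 f hfix hf.1
  obtain ⟨n₂, h₂⟩ := hsc.2 f hfix hf.1
  exact ⟨_, f, n₁, n₂, ⟨D, hD, hf⟩, hfix, h₁, h₂, rfl⟩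

/-- `v f = v c ^ n` from `v (f * (c ^ n)⁻¹) = 1`. -/
theorem val_eq_zpow_of_mul_inv {F : Type*} [Field F] (O : ValuationSubring F) {f c : F}
    (hc : c ≠ 0) {n : ℤ} (h : O.valuation (f * (c ^ n)⁻¹) = 1) :
    O.valuation f = O.valuation c ^ n := by
  have hv0 : O.valuation c ≠ 0 := (Valuation.ne_zero_iff _).2 hc
  rw [map_mul, map_inv₀, map_zpow₀] at h
  exact (mul_inv_eq_one₀ (zpow_ne_zero _ hv0)).1 h

theorem QQ_ne_zero : QQ ≠ 0 := by
  simpa using (p_ne_zero_Kb (p := q))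

section Tri

variable (hA : A.LiesOverPrime q) (h49 : 4 ∣ M ∨ 9 ∣ M) (h : ReductionInputsModL A M)
variable {m : ℕ} (hm : m ≠ 0) (S : Set ℕ) (hS : ∀ r : Nat.Primes, (r : ℕ) ∉ S → ¬ (r : ℕ) ∣ M * q)

include hA h49 in
/-- the slope function -/
theorem exists_slope : ∃ s : FN (M * q), s ≠ 0 ∧
    (∀ τ ∈ A.inertiaSubgroupIn ℚ, gal (M * q) τ • s = s) ∧ (TT).R₁.O.valuation s = 1 ∧
    (TT).R₂.O.valuation s = (TT).R₂.O.valuation QQ := by
  have key : ∀ {M₀ : ℕ} [NeZero M₀] (D : S36.Wt1 M₀) (hM : M₀ ∣ M), ∃ s : FN (M * q), s ≠ 0 ∧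
      (∀ τ ∈ A.inertiaSubgroupIn ℚ, gal (M * q) τ • s = s) ∧ (TT).R₁.O.valuation s = 1 ∧
      (TT).R₂.O.valuation s = (TT).R₂.O.valuation QQ := by
    intro M₀ _ D hM
    refine ⟨sF D hM, sF_ne_zero D hM, fun τ _ => gal_smul_sF D hM τ, val₁_sF hqM D hM A, ?_⟩
    have h2 := val₂_sF hqM D hM A
    rw [natCast_eq_algebraMap] at h2
    have h3 := val_eq_zpow_of_mul_inv (n := 1) _ (QQ_ne_zero (M := M) (q := q))
      (by rw [zpow_one]; exact h2)
    rwa [zpow_one] at h3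
  rcases h49 with h | h
  · exact key S36.wt1Four h
  · exact key S36.wt1Nine h

include hA h49 h hm hS in
/-- two classes with the same `Gr` differ by a class with two reductions in `J₀(M)[m]`. -/
theorem exists_tri_of_gr (hqm : ¬ q ∣ m) {x y : JZero (M * q)} {a : ZMod m}
    (hx : Gr hqM A m x a) (hy : Gr hqM A m y a) :
    ∃ y₁ y₂ : JZero M, m • y₁ = 0 ∧ m • y₂ = 0 ∧
      (triData hqM A hA h49 h hm S hS).Tri (x - y) y₁ y₂ := by
  obtain ⟨f, n₁, n₂, hk, hfix, h₁, h₂, ha⟩ := hx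
  obtain ⟨f', n₁', n₂', hk', hfix', h₁', h₂', ha'⟩ := hy
  obtain ⟨s, hs0, hsfix, hs₁, hs₂⟩ := exists_slope hqM A hA h49
  have hQ0 : QQ ≠ 0 := QQ_ne_zero
  have hq0 : (q : Kb) ≠ 0 := p_ne_zero_Kb
  obtain ⟨k, hk0⟩ : (m : ℤ) ∣ (n₁ - n₁') - (n₂ - n₂') := by
    rw [← ZMod.intCast_zmod_eq_zero_iff_dvd]
    have : (n₁ - n₁') - (n₂ - n₂') = (n₁ - n₂) - (n₁' - n₂') := by ring
    rw [this, Int.cast_sub, ha, ha', sub_self]
  set c : Kb := (q : Kb) ^ (-(n₁ - n₁')) with hc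
  have hc0 : c ≠ 0 := zpow_ne_zero _ hq0
  set u : FN (M * q) := s ^ k with hu
  have hu0 : u ≠ 0 := zpow_ne_zero _ hs0
  set F : FN (M * q) := algebraMap Kb (FN (M * q)) c * (f / f') * u ^ m with hF
  have hkF : Kum m (x - y) F := (hk.sub hk').const_mul_mul_pow hc0 hu0
  have hcQ : algebraMap Kb (FN (M * q)) c = QQ ^ (-(n₁ - n₁')) := by rw [hc, map_zpow₀]
  have v₁ := val_eq_zpow_of_mul_inv _ hQ0 h₁
  have v₂ := val_eq_zpow_of_mul_inv _ hQ0 h₂
  have v₁' := val_eq_zpow_of_mul_inv _ hQ0 h₁'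
  have v₂' := val_eq_zpow_of_mul_inv _ hQ0 h₂'
  have w₁ : (TT).R₁.O.valuation QQ ≠ 0 := (Valuation.ne_zero_iff _).2 hQ0
  have w₂ : (TT).R₂.O.valuation QQ ≠ 0 := (Valuation.ne_zero_iff _).2 hQ0
  have hU : IsU hqM A F := by
    constructor
    · have e1 : (TT).R₁.O.valuation u = 1 := by rw [hu, map_zpow₀, hs₁, one_zpow]
      rw [hF, map_mul, map_mul, map_div₀, map_pow, e1, one_pow, mul_one,
        hcQ, map_zpow₀, v₁, v₁', ← zpow_sub₀ w₁, ← zpow_add₀ w₁, neg_add_cancel, zpow_zero]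
    · have e1 : (TT).R₂.O.valuation u = (TT).R₂.O.valuation QQ ^ k := by
        rw [hu, map_zpow₀, hs₂]
      rw [hF, map_mul, map_mul, map_div₀, map_pow, e1, hcQ, map_zpow₀, v₂, v₂',
        ← zpow_sub₀ w₂, ← zpow_add₀ w₂, ← zpow_natCast, ← zpow_mul, ← zpow_add₀ w₂]
      have : -(n₁ - n₁') + (n₂ - n₂') + k * (m : ℤ) = 0 := by linarith
      rw [this, zpow_zero]
  have hfixF : ∀ τ ∈ A.inertiaSubgroupIn ℚ, gal (M * q) τ • F = F := by
    have hs' : s ∈ ratH (M * q) (A.inertiaSubgroupIn ℚ) := hsfix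
    have hf' : f ∈ ratH (M * q) (A.inertiaSubgroupIn ℚ) := hfix
    have hf'' : f' ∈ ratH (M * q) (A.inertiaSubgroupIn ℚ) := hfix'
    have hmem : F ∈ ratH (M * q) (A.inertiaSubgroupIn ℚ) := by
      refine mul_mem (mul_mem (algebraMap_mem_ratH fun σ _ => ?_) (div_mem hf' hf''))
        (pow_mem (zpow_mem hs' k) m)
      rw [hc, map_zpow₀, map_natCast]
    exact hmem
  obtain ⟨D₂, -, hD₂⟩ := hkF
  obtain ⟨hd1, hd2⟩ := fd0Hyp_mod hqM A h49 hA hm D₂ F hD₂ hfixF hU.1 hU.2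
  obtain ⟨y₁, hy₁, hR₁⟩ := exists_rel_torsion hqM A hA h49 h hm hqm (rd_ne_zero_of_val hU.1) hd1
  obtain ⟨y₂, hy₂, hR₂⟩ := exists_rel_torsion hqM A hA h49 h hm hqm (rd_ne_zero_of_val hU.2) hd2
  exact ⟨y₁, y₂, hy₁, hy₂, F, (hk.sub hk').const_mul_mul_pow hc0 hu0, hU, hR₁, hR₂⟩

/-- two classes with the same reductions differ by a toric class. -/
theorem isToric_sub_of_tri {u v : JZero (M * q)} {y₁ y₂ : JZero M}
    (hu : (triData hqM A hA h49 h hm S hS).Tri u y₁ y₂)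
    (hv : (triData hqM A hA h49 h hm S hS).Tri v y₁ y₂) : IsToric (TT) m (u - v) := by
  have := (triData hqM A hA h49 h hm S hS).isAddRel.sub hu hv
  rw [sub_self, sub_self] at this
  exact isToric_of_tri hqM A hA h49 h hm S hS this

end Tri

/-! ### the count -/

/-- a subset which is related to `C` with fibres "inside" `T` (`card_le_of_fibres` in an ambient group). -/
theorem card_le_of_fibres_amb {X C : Type*} [AddCommGroup X] [Finite C] (T : AddSubgroup X)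
    [Finite T] (P : X → Prop) (Rel : X → C → Prop) (htot : ∀ x, P x → ∃ c, Rel x c)
    (hker : ∀ x y c, P x → P y → Rel x c → Rel y c → x - y ∈ T) :
    Nat.card {a : X // P a} ≤ Nat.card C * Nat.card T := by
  classical
  by_cases hne : Nonempty C
  swap
  · have : IsEmpty {a : X // P a} := ⟨fun a => hne ⟨(htot a.1 a.2).choose⟩⟩
    simp
  obtain ⟨c₀⟩ := hne
  let ψ : X → C := fun x => if hx : P x then (htot x hx).choose else c₀
  have hψ : ∀ x, P x → Rel x (ψ x) := by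
    intro x hx
    simp only [ψ, dif_pos hx]
    exact (htot x hx).choose_spec
  let base : C → X := fun c => if hc : ∃ x, P x ∧ ψ x = c then hc.choose else 0
  have hbase : ∀ x, P x → P (base (ψ x)) ∧ ψ (base (ψ x)) = ψ x := by
    intro x hx
    have hc : ∃ y, P y ∧ ψ y = ψ x := ⟨x, hx, rfl⟩
    simp only [base, dif_pos hc]
    exact hc.choose_spec
  rw [← Nat.card_prod]
  refine Nat.card_le_card_of_injective
    (fun a : {a : X // P a} => ((ψ a.1, ⟨a.1 - base (ψ a.1), ?_⟩) : C × T)) ?_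
  · obtain ⟨h1, h2⟩ := hbase a.1 a.2
    refine hker _ _ (ψ a.1) a.2 h1 (hψ _ a.2) ?_
    have := hψ _ h1
    rwa [h2] at this
  · intro a b hab
    have h1 : ψ a.1 = ψ b.1 := congrArg Prod.fst hab
    have h2 : a.1 - base (ψ a.1) = b.1 - base (ψ b.1) :=
      congrArg (fun z : C × T => (z.2 : X)) hab
    rw [h1] at h2
    exact Subtype.ext (sub_left_injective h2)

section Count

variable (hA : A.LiesOverPrime q) (h49 : 4 ∣ M ∨ 9 ∣ M) {p : ℕ} (hp : p.Prime) (hpq : p ≠ q)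

/-- a base point in each fibre of `Gr`. -/
def baseK (m : ℕ) (a : ZMod m) : JZero (M * q) := by
  classical exact if h : ∃ x, Gr hqM A m x a then h.choose else 0

theorem gr_baseK {m : ℕ} {x : JZero (M * q)} {a : ZMod m} (h : Gr hqM A m x a) :
    Gr hqM A m (baseK hqM A m a) a := by
  have h' : ∃ x, Gr hqM A m x a := ⟨x, h⟩
  rw [baseK, dif_pos h']
  exact h'.choose_spec

theorem finite_toricSub (hp : p.Prime) : Finite (S33.toricSub (TT) p) := by
  have hfin : Finite (WA.tor (JZero (M * q)) p) := by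
    have := WA.finite_tor_JZero (M * q) hp.pos 1
    rwa [pow_one] at this
  exact Finite.of_injective
    (fun x : S33.toricSub (TT) p => (⟨x.1, WA.mem_tor.2 (S33.IsToric.nsmul_eq_zero x.2)⟩ :
      WA.tor (JZero (M * q)) p))
    (fun a b hab => Subtype.ext (congrArg (fun z : WA.tor (JZero (M * q)) p => (z : JZero (M * q))) hab))

include hA h49 hp hpq in
/-- **the fixed points modulo the toric part** : `# J₀(M q)[p] ^ I ≤ p * (# J₀(M)[p]) ^ 2 * # T'`. -/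
theorem card_fixed_le :
    Nat.card {x : JZero (M * q) // p • x = 0 ∧ ∀ τ ∈ A.inertiaSubgroupIn ℚ, τ • x = x} ≤
      p * Nat.card {y : JZero M // p • y = 0} ^ 2 * Nat.card (S33.toricSub (TT) p) := by
  have h : ReductionInputsModL A M :=
    reductionInputsModL_of_genus_le M A hA hqM
      (gen_of_rhRel M (fun _ _ _ _ _ _ _ _ _ _ _ _ h1 h2 => Fermat.Agent.RR.rhRel h1 h2) h49 _ hqM)
  have hm : p ≠ 0 := hp.ne_zero
  have hqm : ¬ q ∣ p := fun hd => hpq ((Nat.prime_dvd_prime_iff_eq hq.out hp).1 hd).symm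
  set S : Set ℕ := {r | r ∣ M * q} with hS0
  have hS : ∀ r : Nat.Primes, (r : ℕ) ∉ S → ¬ (r : ℕ) ∣ M * q := fun r hr => hr
  haveI : NeZero p := ⟨hm⟩
  haveI : Finite {y : JZero M // p • y = 0} := by
    have := WA.finite_tor_JZero M hp.pos 1
    rwa [pow_one] at this
  haveI := finite_toricSub hqM A hp
  have key := card_le_of_fibres_amb
    (C := ZMod p × {y : JZero M // p • y = 0} × {y : JZero M // p • y = 0})
    (S33.toricSub (TT) p)
    (fun x : JZero (M * q) => p • x = 0 ∧ ∀ τ ∈ A.inertiaSubgroupIn ℚ, τ • x = x)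
    (fun x c => Gr hqM A p x c.1 ∧
      (triData hqM A hA h49 h hm S hS).Tri (x - baseK hqM A p c.1) c.2.1.1 c.2.2.1)
    (fun x hx => by
      obtain ⟨a, ha⟩ := exists_gr hqM A h49 hA hm hx.1 hx.2
      obtain ⟨y₁, y₂, hy₁, hy₂, hT⟩ :=
        exists_tri_of_gr hqM A hA h49 h hm S hS hqm ha (gr_baseK hqM A ha)
      exact ⟨(a, ⟨y₁, hy₁⟩, ⟨y₂, hy₂⟩), ha, hT⟩)
    (fun x y c _ _ hx hy => by
      have := isToric_sub_of_tri hqM A hA h49 h hm S hS hx.2 hy.2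
      rwa [sub_sub_sub_cancel_right] at this)
  refine key.trans (le_of_eq ?_)
  rw [Nat.card_prod, Nat.card_prod, Nat.card_zmod, sq]

include hA h49 hp hpq in
/-- **[LOW-REAL-K0], SS form** : `p ^ (n - 1) ≤ # T'`, `n = g(M q) - 2 gbar(M) + 1` = the number of nodes. -/
theorem real_toric (n : ℕ)
    (hn : (n : ℤ) = gR Kb (FN (M * q)) - 2 * gR kA (Fb kA M) + 1) :
    p ^ (n - 1) ≤ Nat.card (S33.toricSub (TT) p) :=
  real_of_fixed hqM h49 hp hpq.symm hA kA (S33.toricSub (TT) p)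
    (fun _ hx => S33.IsToric.nsmul_eq_zero hx)
    (fun _ hτ _ hx => smul_sub_toric hqM A h49 hA hp.ne_zero hτ hx)
    (card_fixed_le hqM A hA h49 hp hpq) n hn

include hqM hA h49 in
/-- the number `n` exists : it is the number of nodes. -/
theorem exists_n : ∃ n : ℕ, (n : ℤ) = gR Kb (FN (M * q)) - 2 * gR kA (Fb kA M) + 1 := by
  obtain ⟨-, 𝒩, -⟩ := exists_nodalData_fixed hqM A h49 hA
  exact ⟨Fintype.card 𝒩.S, 𝒩.card⟩

end Count

end Fermat.Agent.ML.Low
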