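import Fermat.Agent.ML.Low.SqOf
import Fermat.Agent.ML.Low.Gr0.Main

/-!
# ML / LOWER(A) : `[GR0]` for all contexts, `[REAL-K0]` unconditional

`gr0All_bis : Gr0All` (second source of `ML/Low/Gr0/All.lean`; names disjoint) (from `isToric_mem_tor1`; the hypothesis "at least one node" is `NodalData.nonempty_S`), `real_k0`.
-/

set_option autoImplicit false
set_option linter.style.haveILetI false
set_option linter.unusedSectionVars false
set_option synthInstance.maxHeartbeats 400000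

noncomputable section

open AlgebraicCurve ModularCurve IsLocalRing

namespace Fermat.Agent.ML.Low

open Fermat.Agent.RED hiding Kb
open Fermat.Agent.S24 Fermat.Agent.SS Fermat.Agent.RIB
open Fermat.Agent.RED.Cusp (Fb)

/-- there is at least one node. -/
theorem nodes_ne_zero_bis (C : S36.Ctx) (h49 : 4 ∣ C.M ∨ 9 ∣ C.M) :
    gR Kb (FN (C.M * C.q)) - 2 * gR C.k C.Fb + 1 ≠ 0 := by
  obtain ⟨-, 𝒩, -⟩ := exists_nodalData_fixed C.hqM C.A h49 C.hA
  obtain ⟨s⟩ := 𝒩.nonempty_S (RB.isSepParam_jF (C.M * C.q))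
    (Cusp.isSepParam_jb C.M C.k C.q C.hqM)
  have h1 : 0 < Fintype.card 𝒩.S := Fintype.card_pos_iff.2 ⟨s⟩
  have h2 := 𝒩.card
  intro h0
  rw [h0] at h2
  have : Fintype.card 𝒩.S = 0 := by exact_mod_cast h2
  omega

/-- **[GR0]** -/
theorem gr0All_bis : Gr0All := fun C h49 _ hp hpq _ hx =>
  isToric_mem_tor1 (four_or_nine_of_aux h49) hp hpq (nodes_ne_zero_bis C (four_or_nine_of_aux h49)) hx

/-- **[REAL-K0]** -/
theorem real_k0_bis (C : S36.Ctx) (h49 : RED.aux C.q ∣ C.M) {p : ℕ} (hp : p.Prime) (hpq : p ≠ C.q)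
    (n : ℕ) (hn : (n : ℤ) = gR Kb (FN (C.M * C.q)) - 2 * gR C.k (Fb C.k C.M) + 1) :
    p ^ (n - 1) ≤ Nat.card (tor1 C p) :=
  real_k0_of_gr0 C h49 hp hpq (gr0All_bis C h49 p hp hpq) n hn

end Fermat.Agent.ML.Low
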