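import Fermat.Agent.ML.Low.K3.Val
import Fermat.Agent.RIB.Ctrl.Kap.Tot

/-!
# ML / LOWER(A) : `[LOW-K3EIS]`  `Kap` is defined on `(T_r - (r + 1)) X`

`x ∈ J₀(M q²)[m]` fixed by the inertia group at `q`, `r ∤ M q` a prime : the class `T_r x - (r + 1) x` has a Kummer generator
`T_r^× g / g ^ (r + 1)` which is a unit for the three Gauss valuations (`val_TXF`); the end of the proof is the end of
`RIB.kap_tot`.
-/

set_option autoImplicit false
set_option linter.unusedSectionVars false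
set_option linter.style.haveILetI false

noncomputable section

open AlgebraicCurve ModularCurve

namespace Fermat.Agent.ML.Low

open Fermat.Agent.S36 Fermat.Agent.S24 Fermat.Agent.RED.Gauss Fermat.Agent.RIB
open Fermat.Agent.S40.HK
open Fermat.Agent.RED (GQ)

variable {C : S36.Ctx} {m : ℕ}

/-- **[LOW-K3EIS]**, conditional on the formula at the cusp `1/q`. -/
theorem kap_eis_of_sigTX (r : Nat.Primes)
    (hS : haveI : NeZero (r : ℕ) := ⟨r.2.ne_zero⟩; SigTX C (r : ℕ))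
    (h49 : Fermat.Agent.RED.aux C.q ∣ C.M) (hL : LiftTors C m) (hm : m ≠ 0)
    (hrN : ¬ (r : ℕ) ∣ C.M * C.q * C.q)
    (x : JZero (C.M * C.q * C.q)) (hx : m • x = 0)
    (hI : ∀ τ ∈ C.A.inertiaSubgroupIn ℚ, τ • x = x) :
    ∃ y : Fin 3 → JZero C.M,
      Kap C m (heckeOperatorBar (C.M * C.q * C.q) r x - ((r : ℕ) + 1) • x) y := by
  haveI : NeZero (r : ℕ) := ⟨r.2.ne_zero⟩
  obtain ⟨g, hg⟩ := exists_kum_F0 C.A (C.M * C.q * C.q) hm x hx hI
  have hg0 : g ≠ 0 := by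
    rintro rfl
    exact hg.ne_zero (map_zero _)
  obtain ⟨g', hg'⟩ := exists_TXF C (r : ℕ) r.2 hrN g
  set g₁ : C.F := g' / g ^ ((r : ℕ) + 1) with hg₁
  have hk : Kum m (heckeOperatorBar (C.M * C.q * C.q) r x - ((r : ℕ) + 1) • x)
      (embF0 C.A (C.M * C.q * C.q) g₁) := by
    rw [hg₁, map_div₀, map_pow, hg']
    exact (Key.kum_hecke (C.M * C.q * C.q) (r : ℕ) r.2 hg).sub (hg.nsmul _)
  have hv : ∀ i, (C.O3 i).valuation g₁ = 1 := fun i => val_TXF hS r.2 hrN hg0 hg' i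
  have hhor : Hor C.K m g₁ := hor_of_kum hk
  have key : ∀ l : Fin 3, ∃ y : JZero C.M, ∃ w : C.Fb,
      RedsTo C.π (C.e3 l g₁) (w : LaurentSeries C.k) ∧ KRel C m w y := by
    intro l
    obtain ⟨w, hw⟩ := exists_redsTo_Fb C l (((C.O3 l).valuation_le_one_iff _).1 (hv l).le)
    have hw0 : w ≠ 0 := by
      rintro rfl
      have := RedsTo.valuation_lt_one C.hπ (C.disc3 l) hw
      exact absurd (hv l) this.ne
    obtain ⟨y, hy⟩ := exists_kRel_of_dvd hL hm hw0 (dvd_ord_red C h49 hm hv hhor l hw)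
    exact ⟨y, w, hw, hy⟩
  choose y hy using key
  exact ⟨y, g₁, hk, hy⟩

end Fermat.Agent.ML.Low
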