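import Fermat.Agent.ML.Low.K3Eis
import Fermat.Agent.ML.Low.K3.SigTX

/-!
# ML / LOWER(A) : `[LOW-K3EIS]`, unconditional

`x ∈ J₀(M q²)[m]` fixed by the inertia group at `q`, `r ∤ M q` a prime : `Kap C m (T_r x - (r + 1) x) y` for some `y`.
-/

set_option autoImplicit false
set_option linter.unusedSectionVars false
set_option linter.style.haveILetI false

noncomputable section

open AlgebraicCurve ModularCurve

namespace Fermat.Agent.ML.Low

open Fermat.Agent.S36 Fermat.Agent.S24 Fermat.Agent.RIB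

variable {C : S36.Ctx} {m : ℕ}

/-- **[LOW-K3EIS]** -/
theorem kap_eis (r : Nat.Primes) (h49 : Fermat.Agent.RED.aux C.q ∣ C.M) (hL : LiftTors C m)
    (hm : m ≠ 0) (hrN : ¬ (r : ℕ) ∣ C.M * C.q * C.q)
    (x : JZero (C.M * C.q * C.q)) (hx : m • x = 0)
    (hI : ∀ τ ∈ C.A.inertiaSubgroupIn ℚ, τ • x = x) :
    ∃ y : Fin 3 → JZero C.M,
      Kap C m (heckeOperatorBar (C.M * C.q * C.q) r x - ((r : ℕ) + 1) • x) y := by
  haveI : NeZero (r : ℕ) := ⟨r.2.ne_zero⟩
  exact kap_eis_of_sigTX r (sigTX r.2 hrN) h49 hL hm hrN x hx hI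

end Fermat.Agent.ML.Low
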