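import Fermat.Agent.RIB.Ctrl.Main
import Fermat.Agent.RIB.Main.Defs

/-!
# ML / LOWER(A) : `[LOW-KEY2]`

Level `M q²` (`C : S36.Ctx`, `aux q ∣ M`), `p ≠ q`.  `RIB.Kap C p x y` = the relation between the `I_q`-fixed `p`-torsion of `J₀(M q²)` and
`J₀(M)[p]³` (reductions of a Kummer function on the three components).  `Toric2 x := Kap C p x 0`.

The two geometric inputs are `Prop`s:

* `K3Eis C p`      : `x` fixed by `I_q`, `p x = 0`, `r ∤ M q²`  ⟹  `∃ y, Kap (T_r x - (r + 1) x) y`         (`[LOW-K3EIS]`);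
* `K3Hecke C p S`  : `r ∉ S`, `Kap x y`  ⟹  `Kap (T_r x) (T_r y)`                                              (`[LOW-K3HECKE]`).

`key2` : if `W(M) = 0` and `ℓ₀ ∉ S` is a non Eisenstein prime (`p ∤ θ(ℓ₀) - ℓ₀ - 1`), every `I_q`-fixed `x ∈ W(M q²)` is toric.
-/

set_option autoImplicit false
set_option linter.unusedSectionVars false

noncomputable section

open AlgebraicCurve ModularCurve

namespace Fermat.Agent.ML.Low

open Fermat.Agent.RIB Fermat.Agent.S36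

/-- **[LOW-K3EIS]** as a `Prop`. -/
def K3Eis (C : S36.Ctx) (m : ℕ) : Prop :=
  ∀ r : Nat.Primes, ¬ (r : ℕ) ∣ C.M * C.q * C.q → ∀ x : JZero (C.M * C.q * C.q), m • x = 0 →
    (∀ τ ∈ C.A.inertiaSubgroupIn ℚ, τ • x = x) →
    ∃ y : Fin 3 → JZero C.M,
      Kap C m (heckeOperatorBar (C.M * C.q * C.q) r x - ((r : ℕ) + 1) • x) y

/-- **[LOW-K3HECKE]** as a `Prop`. -/
def K3Hecke (C : S36.Ctx) (m : ℕ) (S : Set ℕ) : Prop :=
  ∀ r : Nat.Primes, (r : ℕ) ∉ S → ∀ (x : JZero (C.M * C.q * C.q)) (y : Fin 3 → JZero C.M),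
    Kap C m x y → Kap C m (heckeOperatorBar (C.M * C.q * C.q) r x)
      (fun i => heckeOperatorBar C.M r (y i))

/-- abstract step: `h` nilpotent on `z`, `c` prime to `p`, `(h + c) z ∈ 𝒦`, `𝒦` stable under `h`  ⟹  `z ∈ 𝒦`. -/
theorem mem_of_add_smul_mem {J : Type*} [AddCommGroup J] (𝒦 : AddSubgroup J) (h : Module.End ℤ J)
    (h𝒦 : ∀ z ∈ 𝒦, h z ∈ 𝒦) (p : ℕ) (c : ℤ) (hc : IsCoprime (p : ℤ) c) :
    ∀ (m : ℕ) (z : J), p • z = 0 → (h ^ m) z = 0 → h z + c • z ∈ 𝒦 → z ∈ 𝒦 := by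
  intro m
  induction m with
  | zero =>
    intro z _ h0 _
    have : z = 0 := by simpa using h0
    rw [this]
    exact 𝒦.zero_mem
  | succ m ih =>
    intro z hp h0 hz
    have h1 : h z ∈ 𝒦 := by
      refine ih (h z) (by rw [← map_nsmul, hp, map_zero]) ?_ ?_
      · rw [← Module.End.mul_apply, ← pow_succ]
        exact h0
      · have := h𝒦 _ hz
        rwa [map_add, map_zsmul] at this
    have h2 : c • z ∈ 𝒦 := by
      have := 𝒦.sub_mem hz h1
      rwa [add_sub_cancel_left] at this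
    obtain ⟨a, b, hab⟩ := hc
    have h3 : z = b • (c • z) := by
      have hpz : (p : ℤ) • z = 0 := by rw [natCast_zsmul]; exact hp
      calc z = (1 : ℤ) • z := (one_smul _ _).symm
        _ = (a * (p : ℤ) + b * c) • z := by rw [hab]
        _ = a • ((p : ℤ) • z) + b • (c • z) := by rw [add_smul, mul_smul, mul_smul]
        _ = b • (c • z) := by rw [hpz, smul_zero, zero_add]
    rw [h3]
    exact 𝒦.zsmul_mem h2 b

variable {C : S36.Ctx} {m : ℕ}

theorem kap_zsmul {x : JZero (C.M * C.q * C.q)} {y : Fin 3 → JZero C.M} (h : Kap C m x y)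
    (n : ℤ) : Kap C m (n • x) (n • y) := by
  induction n using Int.induction_on with
  | zero => simpa using Kap.zero C m
  | succ n ih =>
    rw [add_zsmul, add_zsmul, one_zsmul, one_zsmul]
    exact ih.add h
  | pred n ih =>
    rw [sub_zsmul, sub_zsmul, one_zsmul, one_zsmul]
    exact ih.add h.neg

/-- `Kap` is compatible with `T_r - θ(r)`. -/
theorem kap_hk {S : Set ℕ} (H : K3Hecke C m S) (θ : ℕ → ℤ) (r : Nat.Primes) (hr : (r : ℕ) ∉ S)
    {x : JZero (C.M * C.q * C.q)} {y : Fin 3 → JZero C.M} (h : Kap C m x y) :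
    Kap C m (hk (C.M * C.q * C.q) θ r x) (fun i => hk C.M θ r (y i)) := by
  have h1 := (H r hr x y h).sub (kap_zsmul h (θ r))
  rw [hk_apply]
  convert h1 using 1
  funext i
  rw [hk_apply]
  rfl

theorem kap_hk_pow {S : Set ℕ} (H : K3Hecke C m S) (θ : ℕ → ℤ) (r : Nat.Primes)
    (hr : (r : ℕ) ∉ S) (n : ℕ) {x : JZero (C.M * C.q * C.q)} {y : Fin 3 → JZero C.M}
    (h : Kap C m x y) :
    Kap C m ((hk (C.M * C.q * C.q) θ r ^ n) x) (fun i => (hk C.M θ r ^ n) (y i)) := by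
  induction n with
  | zero => simpa using h
  | succ n ih =>
    have := kap_hk H θ r hr ih
    simpa only [pow_succ', Module.End.mul_apply] using this

/-- the toric classes -/
def toric2 (C : S36.Ctx) (m : ℕ) : AddSubgroup (JZero (C.M * C.q * C.q)) where
  carrier := {x | Kap C m x 0}
  zero_mem' := Kap.zero C m
  add_mem' := fun {a b} ha hb => by
    have := Kap.add ha hb
    rwa [add_zero] at this
  neg_mem' := fun {a} ha => by
    have := Kap.neg ha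
    rwa [neg_zero] at this

theorem mem_toric2 {x : JZero (C.M * C.q * C.q)} : x ∈ toric2 C m ↔ Kap C m x 0 := Iff.rfl

theorem hk_mem_toric2 {S : Set ℕ} (H : K3Hecke C m S) (θ : ℕ → ℤ) (r : Nat.Primes)
    (hr : (r : ℕ) ∉ S) {x : JZero (C.M * C.q * C.q)} (h : x ∈ toric2 C m) :
    hk (C.M * C.q * C.q) θ r x ∈ toric2 C m := by
  have := kap_hk H θ r hr h
  rw [mem_toric2]
  convert this using 1
  funext i
  simp

/-- **[LOW-KEY2]** -/
theorem key2 (h49 : Fermat.Agent.RED.aux C.q ∣ C.M) {p : ℕ} (hp : p.Prime) (hpq : p ≠ C.q)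
    (S : Set ℕ) (θ : ℕ → ℤ) (hE : K3Eis C p) (hH : K3Hecke C p S)
    (l₀ : Nat.Primes) (hl₀S : (l₀ : ℕ) ∉ S) (hl₀N : ¬ (l₀ : ℕ) ∣ C.M * C.q * C.q)
    (hl₀ : ¬ (p : ℤ) ∣ θ l₀ - ((l₀ : ℕ) + 1))
    (hM : WS C.M p S θ = ⊥)
    {x : JZero (C.M * C.q * C.q)} (hx : x ∈ WS (C.M * C.q * C.q) p S θ)
    (hI : ∀ τ ∈ C.A.inertiaSubgroupIn ℚ, τ • x = x) : Kap C p x 0 := by
  have hm : p.Coprime C.q := (Nat.coprime_primes hp C.hq).2 hpq
  have hR : ReductionInputsModL C.A C.M := ctx_reductionInputs C (rigid_of_aux_dvd h49)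
  obtain ⟨hpx, hnil⟩ := mem_WS_iff.1 hx
  obtain ⟨y, hy⟩ := hE l₀ hl₀N x hpx hI
  set ex : JZero (C.M * C.q * C.q) :=
    heckeOperatorBar (C.M * C.q * C.q) l₀ x - ((l₀ : ℕ) + 1) • x with hex
  have hexW : ex ∈ WS (C.M * C.q * C.q) p S θ :=
    (WS _ p S θ).sub_mem (hecke_mem_WS l₀ hx) ((WS _ p S θ).nsmul_mem hx _)
  -- `y = 0`
  have hy0 : y = 0 := by
    funext i
    have hyi : y i ∈ WS C.M p S θ := by
      rw [mem_WS_iff]
      refine ⟨hy.nsmul_right i, fun r hr => ?_⟩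
      obtain ⟨n, hn⟩ := (mem_WS_iff.1 hexW).2 r hr
      refine ⟨n, ?_⟩
      have h1 := kap_hk_pow hH θ r hr n hy
      rw [hn] at h1
      exact congrFun (kap_inj h49 hR hm h1) i
    rw [hM] at hyi
    exact (AddSubgroup.mem_bot.1 hyi)
  rw [hy0] at hy
  -- from `e x` to `x`
  obtain ⟨n, hn⟩ := hnil l₀ hl₀S
  have hc : IsCoprime (p : ℤ) (θ l₀ - ((l₀ : ℕ) + 1)) :=
    ((Nat.prime_iff_prime_int.1 hp).coprime_iff_not_dvd).2 hl₀
  refine mem_of_add_smul_mem (toric2 C p) (hk (C.M * C.q * C.q) θ l₀)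
    (fun z hz => hk_mem_toric2 hH θ l₀ hl₀S hz) p _ hc n x hpx hn ?_
  rw [mem_toric2]
  convert hy using 1
  rw [hex, hk_apply, sub_smul]
  have : (((l₀ : ℕ) : ℤ) + 1) • x = ((l₀ : ℕ) + 1) • x := by
    rw [← natCast_zsmul]; push_cast; rfl
  rw [this]
  abel

end Fermat.Agent.ML.Low
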