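import Fermat.Agent.ML.Low.Loc2Abs
import Fermat.Agent.ML.Rho.TameK
import Fermat.Agent.ML.Gen.Stage
import Fermat.Agent.RIB.TWLoc.Rho
import Fermat.Agent.RIB.Main.GenOut

/-!
# ML / Low / Loc2 : the local block at the prime `2` for `ρ` at a level `L` with `4 ∣ L`  (Galois wrapper of `Loc2Abs`)

At the levels `M * 4` nothing is known on the restriction of `ρ` to `I_2` (the level is not squarefree at `2`).
`loc2` : for every `(R, π0, ρ, Φ)` with `IsRho` there is an ideal `J₂ ≤ m` with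
* either `Slice J₂ 6 0` (`J₂` is free of charge) and the alternative `min` of `GenHypMZ` holds at `2` modulo `J₂`;
* or `Slice J₂ 6 1` (`J₂` costs one variable), `rbar0` is unramified at `2` with NON scalar Frobenius (weight `1` in `gen_stage`), and
  `ρ | D_2` is conjugate modulo `J₂` to a representation with integer entries (`strict` of `GenHypMZ`).
-/

set_option autoImplicit false

noncomputable section

open AlgebraicCurve ModularCurve Module IsLocalRing ExtCitation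

namespace Fermat.Agent.ML.Low

open Fermat.Agent.RIB Fermat.Agent.S56 Fermat.Agent.S56.Gen
open CFT (decomp)

local notation "M₂" => Matrix (Fin 2) (Fin 2)

section abs

variable {R : Type*} [CommRing R]

/-- `tr (g ^ n) - 2 ∈ (tr g - 2)` if `det g = 1`. -/
theorem trace_pow_sub_two_mem (g : M₂ R) (hdet : g.det = 1) (n : ℕ) :
    (g ^ n).trace - 2 ∈ Ideal.span {g.trace - 2} ∧
      (g ^ (n + 1)).trace - 2 ∈ Ideal.span {g.trace - 2} := by
  induction n with
  | zero =>
    refine ⟨?_, ?_⟩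
    · rw [pow_zero, Matrix.trace_one, Fintype.card_fin]
      norm_num
    · rw [zero_add, pow_one]
      exact Ideal.subset_span rfl
  | succ n ih =>
    refine ⟨ih.2, ?_⟩
    have h1 : g ^ (n + 1 + 1) = g.trace • g ^ (n + 1) - g ^ n := by
      rw [pow_succ, pow_succ, mul_assoc, ch_two, hdet, one_smul, mul_sub, mul_one, mul_smul_comm,
        ← pow_succ]
    have h2 : (g ^ (n + 1 + 1)).trace - 2 = g.trace * ((g ^ (n + 1)).trace - 2) -
        ((g ^ n).trace - 2) + 2 * (g.trace - 2) := by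
      rw [h1, Matrix.trace_sub, Matrix.trace_smul, smul_eq_mul]
      ring
    rw [h2]
    exact Ideal.add_mem _ (Ideal.sub_mem _ (Ideal.mul_mem_left _ _ ih.2) ih.1)
      (Ideal.mul_mem_left _ _ (Ideal.subset_span rfl))

/-- a matrix with entries in `J` times any matrix has entries in `J`. -/
theorem ent_mul_right {J : Ideal R} {X : M₂ R} (hX : ∀ i j, X i j ∈ J) (Y : M₂ R) (i j : Fin 2) :
    (X * Y) i j ∈ J := by
  rw [Matrix.mul_apply]
  exact Ideal.sum_mem _ fun l _ => Ideal.mul_mem_right _ _ (hX i l)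

end abs

variable {L p : ℕ} [NeZero L] [Fact p.Prime] {S : Set ℕ} {T : Finset ℕ} {θ : ℕ → ℤ}
  {rbar0 : GQ →* M₂ (ZMod p)}

theorem _root_.Fermat.Agent.ML.MCtx.pow_p_eq_one (EC : MCtx p T θ rbar0) {q : ℕ} (hq : q.Prime) (hqp : q ≠ p)
    {A : ValuationSubring (AlgebraicClosure ℚ)} (hA : A.LiesOverPrime q) {σ : GQ}
    (hσ : σ ∈ A.inertiaSubgroupIn ℚ) : rbar0 (σ ^ p) = 1 := by
  have h1 := EC.unipI q hq hqp A hA σ hσ σ hσ
  have h2 := S56.one_add_pow_of_sq_zero (rbar0 σ - 1) h1 p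
  rw [add_sub_cancel] at h2
  rw [map_pow, h2, ← Nat.cast_smul_eq_nsmul (ZMod p), ZMod.natCast_self, zero_smul, add_zero]

theorem _root_.Fermat.Agent.ML.MCtx.trace_inertia (EC : MCtx p T θ rbar0) {q : ℕ} (hq : q.Prime) (hqp : q ≠ p)
    {A : ValuationSubring (AlgebraicClosure ℚ)} (hA : A.LiesOverPrime q) {σ : GQ}
    (hσ : σ ∈ A.inertiaSubgroupIn ℚ) : (rbar0 σ).trace = 2 := by
  have h1 := EC.unipI q hq hqp A hA σ hσ σ hσ
  have h2 : IsNilpotent (rbar0 σ - 1) := ⟨2, by rw [pow_two, h1]⟩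
  have h3 : (rbar0 σ - 1).trace = 0 := (Matrix.isNilpotent_trace_of_isNilpotent h2).eq_zero
  rw [Matrix.trace_sub, Matrix.trace_one, Fintype.card_fin, sub_eq_zero] at h3
  rw [h3]
  norm_num

variable {R : Type} [CommRing R] [IsLocalRing R] [Algebra (ZMod p) R] [Module R ↥(WS L p S θ)]
  [IsScalarTower (ZMod p) R ↥(WS L p S θ)]
  {π0 : R →ₐ[ZMod p] ZMod p} {ρ : GQ →* M₂ R} {Φ : M₂ R →ₐ[R] Module.End R ↥(WS L p S θ)}

omit [IsScalarTower (ZMod p) R ↥(WS L p S θ)] in
theorem hun_of_ctx (EC : MCtx p T θ rbar0) (H : IsRho L p S θ rbar0 π0 ρ Φ) {q : ℕ} (hq : q.Prime)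
    (hqp : q ≠ p) {A : ValuationSubring (AlgebraicClosure ℚ)} (hA : A.LiesOverPrime q) :
    ∀ σ ∈ A.inertiaSubgroupIn ℚ, ∀ i j, (ρ σ ^ (p ^ 1) - 1) i j ∈ maximalIdeal R := by
  intro σ hσ i j
  rw [pow_one, ← map_pow]
  exact H.ent (EC.pow_p_eq_one hq hqp hA hσ) i j

omit [IsLocalRing R] [IsScalarTower (ZMod p) R ↥(WS L p S θ)] in
theorem det_inertia (H : IsRho L p S θ rbar0 π0 ρ Φ) {q : ℕ} (hq : q.Prime)
    (hqp : q ≠ p) {A : ValuationSubring (AlgebraicClosure ℚ)} (hA : A.LiesOverPrime q) {σ : GQ}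
    (hσ : σ ∈ A.inertiaSubgroupIn ℚ) : (ρ σ).det = 1 := by
  rw [H.det, show cycloChar p σ = 1 from GAL.cycloChar_of_mem_inertia hq hqp hA hσ,
    Units.val_one, map_one]

omit [IsLocalRing R] [IsScalarTower (ZMod p) R ↥(WS L p S θ)] in
theorem det_frob (H : IsRho L p S θ rbar0 π0 ρ Φ) {q : ℕ} (hq : q.Prime)
    (hqp : q ≠ p) {A : ValuationSubring (AlgebraicClosure ℚ)} (hA : A.LiesOverPrime q) {φ : GQ}
    (hφ : A.IsFrobeniusAt φ q) : (ρ φ).det = (q : R) := by
  rw [H.det, show ((cycloChar p φ : (ZMod p)ˣ) : ZMod p) = (q : ZMod p) from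
    GAL.cycloChar_of_isFrobeniusAt hq hqp hA hφ, map_natCast]

/-- **the local block at `2`.** -/
theorem loc2 (EC : MCtx p T θ rbar0) (H : IsRho L p S θ rbar0 π0 ρ Φ) :
    ∃ J₂ : Ideal R, J₂ ≤ maximalIdeal R ∧
      ((Slice (ZMod p) ↥(WS L p S θ) J₂ 6 0 ∧
        ((∀ σ ∈ inert twoP, ∀ i l, (ρ σ - 1) i l ∈ J₂) ∨
          ((∃ σ ∈ inert twoP, rbar0 σ ≠ 1) ∧
            ∀ σ ∈ inert twoP, (ρ σ).trace - 2 ∈ J₂ ∧ (ρ σ).det - 1 ∈ J₂))) ∨
      (Slice (ZMod p) ↥(WS L p S θ) J₂ 6 1 ∧ (∀ σ ∈ inert twoP, rbar0 σ = 1) ∧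
        (∃ φ : GQ, (primeLocalPlace twoP).IsFrobeniusAt φ 2 ∧
          ∀ c : ZMod p, rbar0 φ ≠ c • (1 : M₂ (ZMod p))) ∧
        ∃ M : M₂ R, IsUnit (M.map π0) ∧ ∀ σ ∈ decomp twoP, ConjConst ℤ J₂ M (ρ σ))) := by
  classical
  have hp : p.Prime := Fact.out
  have h2p : (2 : ℕ) ≠ p := fun h => EC.hp2 h.symm
  have hA : (primeLocalPlace twoP).LiesOverPrime 2 := liesOverPrime_primeLocalPlace twoP
  obtain ⟨N, hN⟩ := H.exists_pow_eq_bot
  have hpI : ((p : ℕ) : R) ∈ maximalIdeal R := by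
    rw [IsRho.natCast_p_eq_zero]; exact Ideal.zero_mem _
  have hun := hun_of_ctx EC H Nat.prime_two h2p hA
  obtain ⟨τ, hτ, hgen⟩ := exists_tame_gen hp Nat.prime_two h2p hA H.cont hN hpI 1 hun
  obtain ⟨φ, hφ⟩ := S54.exists_isFrobeniusAt_of_liesOverPrime Nat.prime_two _ hA
  have hrel := tame_conj hp Nat.prime_two h2p hA H.cont hN hpI 1 hun hφ hτ
  have hdetg := det_inertia H Nat.prime_two h2p hA hτ
  have hdetF : (ρ φ).det = 2 := by
    rw [det_frob H Nat.prime_two h2p hA hφ]; norm_num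
  have hz : (ρ τ).trace - 2 ∈ maximalIdeal R := by
    rw [IsRho.mem_maximalIdeal_iff (π0 := π0), map_sub, H.pi0_trace,
      EC.trace_inertia Nat.prime_two h2p hA hτ, map_ofNat, sub_self]
  have h2Z : (2 : ZMod p) ≠ 0 := by
    have : ((2 : ℕ) : ZMod p) ≠ 0 := by
      intro h0
      rw [ZMod.natCast_eq_zero_iff] at h0
      exact EC.hp2 ((Nat.prime_dvd_prime_iff_eq hp Nat.prime_two).1 h0)
    exact_mod_cast this
  have h2 : IsUnit (2 : R) := by
    have := (isUnit_iff_ne_zero.2 h2Z).map (algebraMap (ZMod p) R)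
    rwa [map_ofNat] at this
  have h3 : (3 : R) = 0 ∨ IsUnit (3 : R) := by
    by_cases h : (3 : ZMod p) = 0
    · left
      have := congrArg (algebraMap (ZMod p) R) h
      rwa [map_ofNat, map_zero] at this
    · right
      have := (isUnit_iff_ne_zero.2 h).map (algebraMap (ZMod p) R)
      rwa [map_ofNat] at this
  by_cases hram : ∃ σ ∈ inert twoP, rbar0 σ ≠ 1
  · -- (A) `rbar0` ramified at `2`
    have hzz := loc2_zz h2 h3 (ρ φ) (ρ τ) hdetg hdetF hrel hz
    refine ⟨Ideal.span {(ρ τ).trace - 2}, ?_, Or.inl ⟨?_, Or.inr ⟨hram, fun σ hσ => ⟨?_, ?_⟩⟩⟩⟩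
    · rw [Ideal.span_le]
      rintro _ rfl
      exact hz
    · refine (slice_single_pow (k := ZMod p) (V := ↥(WS L p S θ)) ((ρ τ).trace - 2) 2
        fun v => ?_).mono (by norm_num) le_rfl
      rw [pow_two, hzz]
      exact zero_smul R v
    · obtain ⟨n, hn⟩ := hgen σ hσ
      rw [hn]
      exact (trace_pow_sub_two_mem (ρ τ) hdetg n).1
    · rw [det_inertia H Nat.prime_two h2p hA hσ, sub_self]
      exact Ideal.zero_mem _
  · -- (B) `rbar0` unramified at `2`
    have hur : ∀ σ ∈ inert twoP, rbar0 σ = 1 := by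
      intro σ hσ
      by_contra h
      exact hram ⟨σ, hσ, h⟩
    by_cases hgood : IsUnit (9 - (ρ φ).trace ^ 2)
    · -- (B1)
      have hg1 := loc2_good h2 (ρ φ) (ρ τ) hdetg hdetF hrel hz hgood
      refine ⟨⊥, bot_le, Or.inl ⟨(slice_bot (k := ZMod p) (V := ↥(WS L p S θ))).mono
        (by norm_num) le_rfl, Or.inl fun σ hσ i l => ?_⟩⟩
      obtain ⟨n, hn⟩ := hgen σ hσ
      rw [hn, hg1, one_pow, sub_self]
      exact Ideal.zero_mem _
    · -- (B2)
      have h9 : (rbar0 φ).trace ^ 2 = 9 := by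
        rw [IsRho.isUnit_iff (π0 := π0), not_not, map_sub, map_pow, H.pi0_trace, map_ofNat,
          sub_eq_zero] at hgood
        exact hgood.symm
      have hdetb : (rbar0 φ).det = 2 := by
        rw [← H.pi0_det, hdetF, map_ofNat]
      have hns : ∀ c : ZMod p, rbar0 φ ≠ c • (1 : M₂ (ZMod p)) := by
        intro c hc
        rw [hc] at h9 hdetb
        simp only [Matrix.trace_smul, Matrix.trace_one, Fintype.card_fin, Matrix.det_smul,
          Matrix.det_one, smul_eq_mul, mul_one] at h9 hdetb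
        have : (1 : ZMod p) = 0 := by
          push_cast at h9
          linear_combination 4 * hdetb - h9
        exact one_ne_zero this
      obtain ⟨e, he, hte⟩ : ∃ e : ℤ, e * e = 1 ∧ (rbar0 φ).trace = 3 * (e : ZMod p) := by
        have h : ((rbar0 φ).trace - 3) * ((rbar0 φ).trace + 3) = 0 := by
          linear_combination h9
        rcases mul_eq_zero.1 h with h | h
        · exact ⟨1, by norm_num, by push_cast; linear_combination h⟩
        · exact ⟨-1, by norm_num, by push_cast; linear_combination h⟩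
      obtain ⟨Q, Q', J, hQQ', hQ'Q, hJ, hSl, hF, hg⟩ :=
        loc2_special (k := ZMod p) (V := ↥(WS L p S θ)) (fun z hz => H.isNilpotent_of_mem hz)
          h2 h3 (ρ φ) (ρ τ) hdetg hdetF hrel (H.ent (hur τ hτ)) (e : R)
          (by exact_mod_cast congrArg (Int.cast : ℤ → R) he)
          (by
            rw [IsRho.mem_maximalIdeal_iff (π0 := π0), map_sub, H.pi0_trace, hte, map_mul,
              map_ofNat, map_intCast, sub_self])
      refine ⟨J, hJ, Or.inr ⟨hSl, hur, ⟨φ, hφ, hns⟩, Q', ?_, ?_⟩⟩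
      · have e1 : Q'.map π0 = (π0 : R →+* ZMod p).mapMatrix Q' := rfl
        rw [e1]
        exact (IsUnit.of_mul_eq_one Q hQ'Q).map _
      · have hconj : ∀ (X : M₂ R) (C : M₂ ℤ),
            (∀ i j, (Q' * X * Q - C.map (algebraMap ℤ R)) i j ∈ J) → ConjConst ℤ J Q' X := by
          intro X C h
          refine ⟨C, fun i l => ?_⟩
          have e1 : Q' * X - C.map (algebraMap ℤ R) * Q' =
              (Q' * X * Q - C.map (algebraMap ℤ R)) * Q' := by
            rw [sub_mul, mul_assoc (Q' * X), hQQ', mul_one]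
          rw [e1]
          exact ent_mul_right h Q' i l
        have hτc : ConjConst ℤ J Q' (ρ τ) := hconj _ 1 (by
          have : (1 : M₂ ℤ).map (algebraMap ℤ R) = 1 := map_one (algebraMap ℤ R).mapMatrix
          rw [this]
          exact hg)
        refine conjConst_of_gens H.cont twoP (p ^ (1 + N))
          (Nat.Coprime.pow_left _ ((Nat.coprime_primes hp Nat.prime_two).2 (Ne.symm h2p)))
          (fun σ hσ => pow_inertia_eq_one hN hpI 1 hun hσ) (fun σ hσ => ?_) hφ ?_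
        · obtain ⟨n, hn⟩ := hgen σ hσ
          rw [hn]
          exact hτc.pow n
        · refine hconj _ !![2 * e, 0; 0, e] ?_
          have : (!![2 * e, 0; 0, e] : M₂ ℤ).map (algebraMap ℤ R) = !![2 * (e : R), 0; 0, (e : R)] := by
            ext i j
            fin_cases i <;> fin_cases j <;> simp
          rw [this]
          exact hF

end Fermat.Agent.ML.Low
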