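import Mathlib

/-!
# ML / LOWER(A) / [NODES] : the abstract half

`card_max_le` : a set `TT` of maximal ideals of `B` is finite of cardinality `≤ finrank k V` as soon as
* every `e : B` is approximated modulo all `𝔪 ∈ TT` by some `al e'`, `e' : B'`  (`happ`);
* `rho : B' → V` is `pi`-semilinear and `rho b = 0` forces `al b ∈ 𝔪` for all `𝔪 ∈ TT`  (`hkey`);
* `𝔪 ∩ R ≤ ker pi`  (`hres`).

Proof: Chinese remainder theorem, linear independence of the `rho e'_i`.
-/

set_option autoImplicit false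

namespace Fermat.Agent.ML.Low.NodesAbs

open Module

/-- a set all of whose finite subsets have at most `n` elements is finite with at most `n` elements. -/
theorem finite_of_finset_card_le {α : Type*} (s : Set α) (n : ℕ)
    (h : ∀ t : Finset α, (↑t : Set α) ⊆ s → t.card ≤ n) : s.Finite ∧ s.ncard ≤ n := by
  have hfin : s.Finite := by
    by_contra hinf
    obtain ⟨t, hts, htc⟩ := Set.Infinite.exists_subset_card_eq hinf (n + 1)
    have := h t hts
    omega
  refine ⟨hfin, ?_⟩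
  rw [Set.ncard_eq_toFinset_card s hfin]
  exact h _ (by simp)

variable {R B B' k V : Type*} [CommRing R] [CommRing B] [CommRing B'] [Field k]
  [AddCommGroup V] [Module k V] [Algebra R B] [Algebra R B']

/-- Chinese remainder theorem for finitely many distinct maximal ideals. -/
theorem exists_delta (t : Finset (Ideal B)) (hmax : ∀ 𝔪 ∈ t, 𝔪.IsMaximal) :
    ∃ e : t → B, ∀ i l : t, e i - (if i = l then 1 else 0) ∈ (l : Ideal B) := by
  classical
  have hcop : Pairwise fun i j : t => IsCoprime (i : Ideal B) (j : Ideal B) := by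
    intro i j hij
    rw [Ideal.isCoprime_iff_sup_eq]
    exact Ideal.IsMaximal.coprime_of_ne (hmax _ i.2) (hmax _ j.2) (fun h => hij (Subtype.ext h))
  have := fun i : t => Ideal.exists_forall_sub_mem_ideal hcop (fun l : t => if i = l then (1 : B) else 0)
  choose e he using this
  exact ⟨e, he⟩

theorem card_le_of_finset [Module.Finite k V] (al : B' →ₐ[R] B) (pi : R →+* k)
    (hpi : Function.Surjective pi) (rho : B' →+ V) (hrho : ∀ (r : R) (b : B'), rho (r • b) = pi r • rho b)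
    (TT : Set (Ideal B)) (hmax : ∀ 𝔪 ∈ TT, 𝔪.IsMaximal)
    (happ : ∀ e : B, ∃ e' : B', ∀ 𝔪 ∈ TT, e - al e' ∈ 𝔪)
    (hkey : ∀ b : B', rho b = 0 → ∀ 𝔪 ∈ TT, al b ∈ 𝔪)
    (hres : ∀ 𝔪 ∈ TT, ∀ r : R, algebraMap R B r ∈ 𝔪 → pi r = 0)
    (t : Finset (Ideal B)) (ht : (↑t : Set (Ideal B)) ⊆ TT) : t.card ≤ finrank k V := by
  classical
  obtain ⟨e, he⟩ := exists_delta t (fun 𝔪 h𝔪 => hmax 𝔪 (ht h𝔪))
  choose e' he' using fun i : t => happ (e i)
  have hli : LinearIndependent k (fun i : t => rho (e' i)) := by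
    rw [Fintype.linearIndependent_iff]
    intro g hg l
    choose r hr using fun i : t => hpi (g i)
    have hb : rho (∑ i, r i • e' i) = 0 := by
      rw [map_sum, ← hg]
      exact Finset.sum_congr rfl (fun i _ => by rw [hrho, hr])
    have hl : (l : Ideal B) ∈ TT := ht l.2
    have h1 := hkey _ hb _ hl
    have h2 : algebraMap R B (r l) =
        al (∑ i, r i • e' i) + ∑ i, r i • ((e i - al (e' i)) - (e i - (if i = l then 1 else 0))) := by
      rw [map_sum, ← Finset.sum_add_distrib]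
      have : ∀ i : t, al (r i • e' i) + r i • ((e i - al (e' i)) - (e i - (if i = l then 1 else 0)))
          = if i = l then algebraMap R B (r i) else 0 := by
        intro i
        rw [map_smul]
        by_cases hil : i = l
        · simp only [hil, if_true, Algebra.smul_def]
          ring
        · simp only [hil, if_false, Algebra.smul_def]
          ring
      rw [Finset.sum_congr rfl (fun i _ => this i)]
      simp
    rw [← hr l]
    apply hres _ hl
    rw [h2]
    refine Ideal.add_mem _ h1 (Ideal.sum_mem _ (fun i _ => ?_))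
    rw [Algebra.smul_def]
    exact Ideal.mul_mem_left _ _ (Ideal.sub_mem _ (he' i _ hl) (he i l))
  have := hli.fintype_card_le_finrank
  simpa using this

/-- **[NODES], abstract half.** -/
theorem card_max_le [Module.Finite k V] (al : B' →ₐ[R] B) (pi : R →+* k)
    (hpi : Function.Surjective pi) (rho : B' →+ V) (hrho : ∀ (r : R) (b : B'), rho (r • b) = pi r • rho b)
    (TT : Set (Ideal B)) (hmax : ∀ 𝔪 ∈ TT, 𝔪.IsMaximal)
    (happ : ∀ e : B, ∃ e' : B', ∀ 𝔪 ∈ TT, e - al e' ∈ 𝔪)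
    (hkey : ∀ b : B', rho b = 0 → ∀ 𝔪 ∈ TT, al b ∈ 𝔪)
    (hres : ∀ 𝔪 ∈ TT, ∀ r : R, algebraMap R B r ∈ 𝔪 → pi r = 0) :
    TT.Finite ∧ TT.ncard ≤ finrank k V :=
  finite_of_finset_card_le TT _
    (fun t ht => card_le_of_finset al pi hpi rho hrho TT hmax happ hkey hres t ht)

/-- subtype form. -/
theorem card_subtype_le [Module.Finite k V] (al : B' →ₐ[R] B) (pi : R →+* k)
    (hpi : Function.Surjective pi) (rho : B' →+ V) (hrho : ∀ (r : R) (b : B'), rho (r • b) = pi r • rho b)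
    (P : Ideal B → Prop) (hmax : ∀ 𝔪, P 𝔪 → 𝔪.IsMaximal)
    (happ : ∀ e : B, ∃ e' : B', ∀ 𝔪, P 𝔪 → e - al e' ∈ 𝔪)
    (hkey : ∀ b : B', rho b = 0 → ∀ 𝔪, P 𝔪 → al b ∈ 𝔪)
    (hres : ∀ 𝔪, P 𝔪 → ∀ r : R, algebraMap R B r ∈ 𝔪 → pi r = 0) (n : ℕ) (hn : finrank k V ≤ n) :
    Finite {𝔪 : Ideal B // P 𝔪} ∧ Nat.card {𝔪 : Ideal B // P 𝔪} ≤ n := by
  obtain ⟨h1, h2⟩ := card_max_le al pi hpi rho hrho {𝔪 | P 𝔪} hmax happ hkey hres
  refine ⟨h1.to_subtype, ?_⟩
  have : Nat.card {𝔪 : Ideal B // P 𝔪} = Set.ncard {𝔪 | P 𝔪} := rfl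
  rw [this]
  exact h2.trans hn

end Fermat.Agent.ML.Low.NodesAbs
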