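import Fermat.Agent.ML.Low.Nodes
import Fermat.Agent.S36.Abs.Datum

/-!
# ML / LOWER(A) / [NODES] : the abstract half, on `S36.GeomDatum` / `S36.NormDatum`

`nodes_of_datum` : the set of triple points of `D` is finite of cardinality `≤ n`, from a `pi`-semilinear map `rho : N.B' → V`,
`finrank k V ≤ n`, such that `rho b = 0` forces `α b ∈ 𝔪` at all triple points `𝔪`.
-/

set_option autoImplicit false
set_option linter.style.haveILetI false

namespace Fermat.Agent.ML.Low.NodesAbs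

open Module Fermat.Agent.S36

variable {R K F F' : Type*} [CommRing R] [IsDomain R] [IsDiscreteValuationRing R]
  [Field K] [Algebra R K] [IsFractionRing R K]
  [Field F] [CharZero F] [Algebra R F] [Algebra K F] [IsScalarTower R K F]
  [Field F'] [Algebra R F'] [Algebra K F'] [IsScalarTower R K F']

theorem nodes_of_datum (D : GeomDatum R K F) (N : NormDatum D F') {k V : Type*} [Field k]
    [AddCommGroup V] [Module k V] [Module.Finite k V] (pi : R →+* k)
    (hpi : Function.Surjective pi) (hunit : ∀ r : R, pi r ≠ 0 → IsUnit r) (rho : N.B' →+ V)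
    (hrho : ∀ (r : R) (b : N.B'), rho (⟨algebraMap R F' r, N.B'_const r⟩ * b) = pi r • rho b)
    (hkey : ∀ b : N.B', rho b = 0 → ∀ 𝔪 : Ideal (intCl R D.t), 𝔪.IsMaximal →
      (∀ l, D.sys.p l ≤ 𝔪) → (⟨N.α b, N.α_mem b b.2⟩ : intCl R D.t) ∈ 𝔪)
    (n : ℕ) (hn : finrank k V ≤ n) :
    Finite {𝔪 : Ideal (intCl R D.t) // 𝔪.IsMaximal ∧ ∀ l, D.sys.p l ≤ 𝔪} ∧
      Nat.card {𝔪 : Ideal (intCl R D.t) // 𝔪.IsMaximal ∧ ∀ l, D.sys.p l ≤ 𝔪} ≤ n := by
  let iB : R →+* intCl R D.t :=
    (algebraMap R F).codRestrict (intCl R D.t) (fun r => algebraMap_mem_intCl R D.t r)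
  let iB' : R →+* N.B' := (algebraMap R F').codRestrict N.B' (fun r => N.B'_const r)
  letI : Algebra R (intCl R D.t) := iB.toAlgebra
  letI : Algebra R N.B' := iB'.toAlgebra
  let al0 : N.B' →+* intCl R D.t :=
    ((N.α : F' →+* F).comp N.B'.subtype).codRestrict (intCl R D.t) (fun b => N.α_mem b b.2)
  let al : N.B' →ₐ[R] intCl R D.t :=
    { al0 with
      commutes' := by
        intro r
        apply Subtype.ext
        change N.α (algebraMap R F' r) = algebraMap R F r
        rw [IsScalarTower.algebraMap_apply R K F', AlgHom.commutes,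
          ← IsScalarTower.algebraMap_apply R K F] }
  refine card_subtype_le al pi hpi rho (fun r b => ?_)
    (fun 𝔪 => 𝔪.IsMaximal ∧ ∀ l, D.sys.p l ≤ 𝔪) (fun 𝔪 h => h.1) (fun e => ?_)
    (fun b hb 𝔪 h => hkey b hb 𝔪 h.1 h.2) (fun 𝔪 h r hr => ?_) n hn
  · exact hrho r b
  · obtain ⟨x', hx', hv⟩ := N.approxα 0 (by decide) e e.2
    refine ⟨⟨x', hx'⟩, fun 𝔪 h => h.2 0 ?_⟩
    rw [GaussSys.mem_p]
    exact hv
  · by_contra hne
    have hu : IsUnit (algebraMap R (intCl R D.t) r) := (hunit r hne).map _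
    exact h.1.ne_top (Ideal.eq_top_of_isUnit_mem _ hr hu)

end Fermat.Agent.ML.Low.NodesAbs
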