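import Fermat.Agent.ML.Low.NodesRho
import Fermat.Agent.ML.Low.Gr0.All

/-!
# ML / LOWER(A) : `[NODES]` and `[SQ]` closed

`nodesStmt : NodesStmt`, `sqStmt EC : SqStmt p T θ`.
-/

set_option autoImplicit false

namespace Fermat.Agent.ML.Low

/-- **[NODES]** -/
theorem nodesStmt : NodesStmt := fun C h49 n hn => NodesAbs.nodes_card' C h49 n hn

/-- **[SQ]** = LOWER(A), unconditional. -/
theorem sqStmt {p : ℕ} [Fact p.Prime] {T : Finset ℕ} {θ : ℕ → ℤ}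
    {rbar0 : (AlgebraicClosure ℚ ≃ₐ[ℚ] AlgebraicClosure ℚ) →* Matrix (Fin 2) (Fin 2) (ZMod p)}
    (EC : MCtx p T θ rbar0) : SqStmt p T θ :=
  sq_of_nodes EC nodesStmt

end Fermat.Agent.ML.Low
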