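import Fermat.Agent.ML.Low.RK.Approx
import Fermat.Agent.ML.Low.Desc
import Fermat.Agent.S36.Theta.IntClear
import Fermat.Agent.S36.F0.FFInt
import Fermat.Agent.S36.F0.IntDesc
import Fermat.Agent.S36.F0.Basic
import Fermat.Agent.S36.Haupt.ValCtx

/-!
# ML / LOWER(A) / [NODES] : the end of the modular core

`b ∈ B' = intCl R j'` (level `M q`), `u' ∈ C.F'` with poles only at the cusps, `red₀ u' = (red₀ b) ^ d`, `red₁ u' = 0`.  Then `α b` lies in every prime
of the chart `intCl R t` (level `M q²`) which contains the components `0` and `2`.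

* `alpha_mem_intCl` : `u' ∈ O2 0 ∩ O2 1`, integral over `K[j']`  ⟹  `α u' ∈ intCl R t`  (`krull3_intCl` upstairs);
* `alpha_mem_prime` : the statement above;
* `isIntegral_of_poles` : descent of integrality from `ℚbar` (poles only where `j` has poles).
-/

set_option autoImplicit false
set_option linter.unusedSectionVars false

noncomputable section

open AlgebraicCurve ModularCurve

namespace Fermat.Agent.ML.Low

open Fermat.Agent.S36 Fermat.Agent.S24 Fermat.Agent.RED.Gauss Fermat.Agent.SS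

variable (C : S36.Ctx)

/-- `u'` integral on the two components and on the generic fibre away from the cusps ⟹ `α u'` lies in the chart upstairs. -/
theorem alpha_mem_intCl {u' : C.F'} (h0 : u' ∈ C.O2 0) (h1 : u' ∈ C.O2 1)
    (hint : IsIntegral (Algebra.adjoin C.K {C.j'}) u') : C.α u' ∈ intCl C.R C.t := by
  obtain ⟨n, hn⟩ := exists_pow_mul_mem_intCl (R := C.R) (K := C.K) C.irr hint
  have hmem : ∀ i, C.α u' ∈ C.O3 i := by
    intro i
    have := (NG.mem_comap' (C.comap_α i) u').1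
    fin_cases i
    · exact this h0
    · exact this h0
    · exact this h1
  refine krull3_intCl (K := C.K) C.irr C.sys.gauss (C.sys.semi C.irr) hmem n ?_
  have h2 := C.α_mem _ hn
  rw [map_mul, map_pow] at h2
  have e : C.α (algebraMap C.R C.F' ((C.q : ℕ) : C.R)) = algebraMap C.R C.F ((C.q : ℕ) : C.R) := by
    rw [IsScalarTower.algebraMap_apply C.R C.K C.F', IsScalarTower.algebraMap_apply C.R C.K C.F]
    exact C.α.commutes _
  rwa [e] at h2

/-- **the end of the modular core of [NODES]**. -/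
theorem alpha_mem_prime (h49 : Fermat.Agent.RED.aux C.q ∣ C.M) {b u' : C.F'}
    (hb : b ∈ intCl C.R C.j') {d : ℕ} {w : LaurentSeries C.k}
    (hbw : RedsTo C.π (C.e2 0 b) w) (h0 : RedsTo C.π (C.e2 0 u') (w ^ d))
    (h1 : RedsTo C.π (C.e2 1 u') 0) (hint : IsIntegral (Algebra.adjoin C.K {C.j'}) u')
    {mm : Ideal (intCl C.R (C.geom h49).t)} [hmm : mm.IsPrime]
    (hp0 : (C.geom h49).sys.p 0 ≤ mm) (hp2 : (C.geom h49).sys.p 2 ≤ mm) :
    (⟨C.α b, C.α_mem b hb⟩ : intCl C.R (C.geom h49).t) ∈ mm := by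
  have hu : C.α u' ∈ intCl C.R C.t := alpha_mem_intCl C h0.1 h1.1 hint
  -- `α u' ∈ p 2`
  have e2 : (⟨C.α u', hu⟩ : intCl C.R (C.geom h49).t) ∈ mm := by
    apply hp2
    rw [GaussSys.mem_p]
    exact (NG.val_comap (C.comap_α 2) u').1 (val2_lt_one_of_redsTo C 1 h1)
  -- `α u' - (α b) ^ d ∈ p 0`
  have e0 : (⟨C.α u', hu⟩ - ⟨C.α b, C.α_mem b hb⟩ ^ d : intCl C.R (C.geom h49).t) ∈ mm := by
    apply hp0
    rw [GaussSys.mem_p]
    have h3 : RedsTo C.π (C.e2 0 (u' - b ^ d)) 0 := by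
      have := h0.sub (hbw.pow d)
      rwa [sub_self, ← map_pow, ← map_sub] at this
    have h4 := (NG.val_comap (C.comap_α 0) (u' - b ^ d)).1 (val2_lt_one_of_redsTo C 0 h3)
    rw [map_sub, map_pow] at h4
    exact h4
  have e3 : (⟨C.α b, C.α_mem b hb⟩ ^ d : intCl C.R (C.geom h49).t) ∈ mm := by
    have := mm.sub_mem e2 e0
    rwa [sub_sub_cancel] at this
  exact hmm.mem_of_pow_mem d e3

theorem embF0_j' : embF0 C.A (C.M * C.q) C.j' = jF (C.M * C.q) := by
  show embF0 C.A (C.M * C.q) (C.α' C.jM) = _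
  rw [embF0_alpha, C.embF0_jM]
  exact Fermat.Agent.SS.alpha_jF C.M C.q

/-- poles only at the poles of `j` (over `ℚbar`) ⟹ integral over `K[j']`. -/
theorem isIntegral_of_poles {u' : C.F'}
    (h : ∀ v : Place Kb (FN (C.M * C.q)), jF (C.M * C.q) ∈ v.toValuationSubring →
      embF0 C.A (C.M * C.q) u' ∈ v.toValuationSubring) :
    IsIntegral (Algebra.adjoin C.K {C.j'}) u' := by
  refine isIntegral_adjoin_of_map (K₀ := C.K) (K₁ := Kb) (embF0 C.A (C.M * C.q))
    (fun c => embF0_algebraMap C.A (C.M * C.q) c) C.j' u' ?_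
  rw [embF0_j']
  exact isIntegral_adjoin_of_forall_place (Fermat.Agent.RED.isSepParam_jF_galEq (C.M * C.q)) _ _ h

/-- Riemann-Roch form : `embF0 u' ∈ L(E)`, `E ≤ 0` away from the poles of `j`. -/
theorem isIntegral_of_mem_L {u' : C.F'} {E : Divisor Kb (FN (C.M * C.q))}
    (hu : embF0 C.A (C.M * C.q) u' ∈ riemannRochSpace E)
    (hE : ∀ v : Place Kb (FN (C.M * C.q)), jF (C.M * C.q) ∈ v.toValuationSubring → E v ≤ 0) :
    IsIntegral (Algebra.adjoin C.K {C.j'}) u' := by
  refine isIntegral_of_poles C fun v hv => ?_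
  rcases (Fermat.Agent.RED.mem_L_iff.1 hu) with h0 | h
  · rw [h0]
    exact v.toValuationSubring.zero_mem
  · by_cases h0 : embF0 C.A (C.M * C.q) u' = 0
    · rw [h0]
      exact v.toValuationSubring.zero_mem
    · rw [Place.mem_iff_ord_nonneg v h0]
      have := h v
      have := hE v hv
      linarith

/-- **the modular core of [NODES]** : `b ∈ B'`; if `(red₀ b, 0)` is the reduction of an integral function `u` over `ℚbar` with poles only at
the cusps, then `α b` lies in every prime of the chart upstairs containing the components `0` and `2`. -/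
theorem alpha_mem_of_red (h49 : Fermat.Agent.RED.aux C.q ∣ C.M) (𝒩 : NodalData (TC C))
    (hc : ∀ σ ∈ C.A.inertiaSubgroupIn ℚ, IsCompat 𝒩 (gal (C.M * C.q) σ) 1) {b : C.F'}
    (hb : b ∈ intCl C.R C.j') (u : (TC C).O) (E : Divisor Kb (FN (C.M * C.q)))
    (hE : ∀ σ ∈ C.A.inertiaSubgroupIn ℚ, gal (C.M * C.q) σ • E = E)
    (huE : (u : FN (C.M * C.q)) ∈ riemannRochSpace E)
    (hEj : ∀ v : Place Kb (FN (C.M * C.q)), jF (C.M * C.q) ∈ v.toValuationSubring → E v ≤ 0)
    (h1 : RedsTo C.π (C.e2 0 b) ((((TC C).red u).1 : C.Fb) : LaurentSeries C.k))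
    (h2 : ((TC C).red u).2 = 0)
    {mm : Ideal (intCl C.R (C.geom h49).t)} [hmm : mm.IsPrime]
    (hp0 : (C.geom h49).sys.p 0 ≤ mm) (hp2 : (C.geom h49).sys.p 2 ≤ mm) :
    (⟨C.α b, C.α_mem b hb⟩ : intCl C.R (C.geom h49).t) ∈ mm := by
  obtain ⟨d, u', hd, r0, r1, hL⟩ := exists_norm_desc' 𝒩 hc u E hE huE
  rw [h2, zero_pow hd.ne'] at r1
  refine alpha_mem_prime C h49 hb (d := d) h1 r0 r1 (isIntegral_of_mem_L C hL fun v hv => ?_) hp0 hp2
  have := hEj v hv
  rw [Finsupp.smul_apply]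
  exact smul_nonpos_of_nonneg_of_nonpos (Nat.zero_le d) this

end Fermat.Agent.ML.Low
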