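import Fermat.Agent.ML.Low.NodesKey
import Fermat.Agent.SS.Z1.KronInst
import Fermat.Agent.S36.Abs.SepCusp

/-!
# ML / LOWER(A) / [NODES] [W1] : the reduction of the chart `B' = intCl R j'` lies in the affine ring `Ob`
-/

set_option autoImplicit false
set_option linter.unusedSectionVars false

noncomputable section

open AlgebraicCurve ModularCurve

namespace Fermat.Agent.ML.Low

open Fermat.Agent.S36 Fermat.Agent.S24 Fermat.Agent.RED.Gauss Fermat.Agent.SS
open Fermat.Agent.RED hiding Kb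

section Abs

variable {K F : Type*} [Field K] [Field F] [Algebra K F] {x : F}

/-- poles of `u` among the poles of `y` ⟹ `(u)_∞ ≤ n (y)_∞`. -/
theorem exists_polarDiv_le (hx : IsSepParam K x) {u y : F}
    (h : ∀ v : Place K F, 0 ≤ v.ord y → 0 ≤ v.ord u) : ∃ n : ℕ, polarDiv K u ≤ n • polarDiv K y := by
  classical
  refine ⟨∑ v ∈ (polarDiv K u).support, (polarDiv K u v).toNat, fun v => ?_⟩
  set n := ∑ v ∈ (polarDiv K u).support, (polarDiv K u v).toNat with hn
  have hy0 : 0 ≤ polarDiv K y v := polarDiv_nonneg y v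
  rw [Finsupp.smul_apply]
  by_cases hv : polarDiv K u v = 0
  · rw [hv]
    exact smul_nonneg (Nat.zero_le n) hy0
  · have hmem : v ∈ (polarDiv K u).support := Finsupp.mem_support_iff.2 hv
    have h1 : (polarDiv K u v).toNat ≤ n :=
      Finset.single_le_sum (f := fun v => (polarDiv K u v).toNat) (fun _ _ => Nat.zero_le _) hmem
    have h2 : polarDiv K u v ≤ (n : ℤ) := by
      have := Int.self_le_toNat (polarDiv K u v)
      exact this.trans (by exact_mod_cast h1)
    have h3 : v.ord u < 0 := by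
      by_contra hcon
      rw [not_lt] at hcon
      apply hv
      rw [hx.polarDiv_apply]
      exact max_eq_right (by linarith)
    have h4 : v.ord y < 0 := by
      by_contra hcon
      rw [not_lt] at hcon
      exact absurd (h v hcon) (not_le.2 h3)
    have h5 : 1 ≤ polarDiv K y v := by
      rw [hx.polarDiv_apply]
      exact le_max_of_le_left (by linarith)
    rw [nsmul_eq_mul]
    nlinarith

end Abs

variable (C : S36.Ctx)

theorem mem_O2_of_mem_intCl {b : C.F'} (hb : b ∈ intCl C.R C.j') (j : Fin 2) : b ∈ C.O2 j := by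
  have h1 : C.α b ∈ intCl C.R C.t := C.α_mem b hb
  have h2 : ∀ i, C.α b ∈ C.O3 i := fun i => intCl_le (C.sys.gauss i) h1
  fin_cases j
  · exact (NG.mem_comap' (C.comap_α 0) b).2 (h2 0)
  · exact (NG.mem_comap' (C.comap_α 2) b).2 (h2 2)

theorem embF0_mem_O_of_mem_intCl {b : C.F'} (hb : b ∈ intCl C.R C.j') :
    embF0 C.A (C.M * C.q) b ∈ (TC C).O :=
  ⟨embF0_mem_R₁_iff.2 (mem_O2_of_mem_intCl C hb 0), embF0_mem_R₂_iff.2 (mem_O2_of_mem_intCl C hb 1)⟩

theorem embF0_mem_place_of_mem_intCl {b : C.F'} (hb : b ∈ intCl C.R C.j')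
    (v : Place Kb (FN (C.M * C.q))) (hv : jF (C.M * C.q) ∈ v.toValuationSubring) :
    embF0 C.A (C.M * C.q) b ∈ v.toValuationSubring := by
  have h := intCl_le_of_mem (R := C.R) (s := C.j')
    (V := v.toValuationSubring.comap (embF0 C.A (C.M * C.q))) (fun r => ?_) ?_ hb
  · exact h
  · rw [ValuationSubring.mem_comap, IsScalarTower.algebraMap_apply C.R C.K C.F']
    have e := embF0_algebraMap C.A (C.M * C.q) (algebraMap C.R C.K r)
    rw [show embF0 C.A (C.M * C.q) (algebraMap C.K C.F' (algebraMap C.R C.K r)) = _ from e]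
    exact v.algebraMap_mem' _
  · rw [ValuationSubring.mem_comap, embF0_j']
    exact hv

theorem exists_embF0_mem_L {b : C.F'} (hb : b ∈ intCl C.R C.j') :
    ∃ a : ℕ, embF0 C.A (C.M * C.q) b ∈ riemannRochSpace (a • polarDiv Kb (jF (C.M * C.q))) := by
  have hs := RED.RB.isSepParam_jF (C.M * C.q)
  obtain ⟨a, ha⟩ := exists_polarDiv_le hs (u := embF0 C.A (C.M * C.q) b) (y := jF (C.M * C.q))
    (fun v hv => by
      by_cases h0 : embF0 C.A (C.M * C.q) b = 0
      · rw [h0]; simp
      · rw [← Place.mem_iff_ord_nonneg v h0]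
        exact embF0_mem_place_of_mem_intCl C hb v ((Place.mem_iff_ord_nonneg v hs.ne_zero).2 hv))
  exact ⟨a, L_mono ha (hs.mem_L_polarDiv _)⟩

/-- `B' → O₁ ∩ O₂`. -/
def toO : intCl C.R C.j' →+* (TC C).O :=
  ((embF0 C.A (C.M * C.q)).comp (intCl C.R C.j').subtype).codRestrict (TC C).O
    (fun b => embF0_mem_O_of_mem_intCl C b.2)

@[simp] theorem coe_toO (b : intCl C.R C.j') :
    ((toO C b : (TC C).O) : FN (C.M * C.q)) = embF0 C.A (C.M * C.q) (b : C.F') := rfl

/-- **[W1]** -/
theorem red_toO_mem_affRing (b : intCl C.R C.j') :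
    ((TC C).red (toO C b)).1 ∈ affRing C.k (RED.Cusp.jb C.k C.M) := by
  obtain ⟨a, ha⟩ := exists_embF0_mem_L C b.2
  have h := (pole_twoRed C.hqM C.π IsLocalRing.residue_surjective 0 a 0 (toO C b) (by
    rw [zero_smul, add_zero]
    exact ha)).1
  rw [zero_smul, add_zero] at h
  exact ⟨a, h⟩

theorem redsTo_toO (b : intCl C.R C.j') :
    RedsTo C.π (C.e2 0 (b : C.F')) ((((TC C).red (toO C b)).1 : C.Fb) : LaurentSeries C.k) :=
  redsTo_R₁ (toO C b).2.1

/-- the reduction on the first component, `B' → Ob`. -/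
def redOb : intCl C.R C.j' →+* affRing C.k (RED.Cusp.jb C.k C.M) :=
  ((RingHom.fst C.Fb C.Fb).comp ((TC C).red.comp (toO C))).codRestrict
    (affRing C.k (RED.Cusp.jb C.k C.M)) (fun b => red_toO_mem_affRing C b)

@[simp] theorem coe_redOb (b : intCl C.R C.j') :
    ((redOb C b : affRing C.k (RED.Cusp.jb C.k C.M)) : C.Fb) = ((TC C).red (toO C b)).1 := rfl

/-- the residue map of `R`. -/
def piR : C.R →+* C.k := (IsLocalRing.residue C.A).comp (inclR0 C.A)

theorem piR_surjective : Function.Surjective (piR C) := residue_inclR0_surjective C.hq C.hA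

theorem isUnit_of_piR_ne_zero (r : C.R) (h : piR C r ≠ 0) : IsUnit r := by
  have h1 : IsUnit (inclR0 C.A r) := by
    by_contra hcon
    exact h ((IsLocalRing.residue_eq_zero_iff _).2 hcon)
  have h2 := (C.A.valuation_eq_one_iff _).1 h1
  exact (isUnit_R0_iff (A := C.A) r).2 h2

theorem redOb_const (r : C.R) :
    redOb C ⟨algebraMap C.R C.F' r, algebraMap_mem_intCl C.R C.j' r⟩ =
      algebraMap C.k (affRing C.k (RED.Cusp.jb C.k C.M)) (piR C r) := by
  apply Subtype.ext
  rw [coe_redOb]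
  have e : toO C ⟨algebraMap C.R C.F' r, algebraMap_mem_intCl C.R C.j' r⟩ =
      ⟨algebraMap Kb (FN (C.M * C.q)) ((inclR0 C.A r : C.A) : Kb), by
        have := (toO C ⟨algebraMap C.R C.F' r, algebraMap_mem_intCl C.R C.j' r⟩).2
        rw [coe_toO] at this
        have e2 := embF0_algebraMap C.A (C.M * C.q) (algebraMap C.R C.K r)
        exact e2 ▸ this⟩ := by
    apply Subtype.ext
    exact embF0_algebraMap C.A (C.M * C.q) (algebraMap C.R C.K r)
  rw [e]
  exact congrArg Prod.fst (red_const C.hqM C.π IsLocalRing.residue_surjective (inclR0 C.A r) _)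

end Fermat.Agent.ML.Low
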