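import Fermat.Agent.ML.Low.NodesDat
import Fermat.Agent.ML.Low.Desc
import Fermat.Agent.ML.Low.NodesKey
import Fermat.Agent.SS.Swap.Mod
import Fermat.Agent.S36.Mod.Inst
import Fermat.Agent.SS.Nodal.Card
import Fermat.Agent.SS.Mod.CuspOrdC
import Fermat.Agent.S36.F0.FFInt
import Fermat.Agent.S36.F0.Gauss
import Fermat.Agent.S36.Theta.IntDesc
import Fermat.Agent.RIB.Lift.Ctx

/-!
# ML / LOWER(A) : `[NODES]`, the modular half

`nodes_card'` : the number of maximal ideals of the first chart of `X₀(M q²)` lying on all three components is at most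
`g(X₀(M q)) - 2 g(X₀(M)) + 1`.
-/

set_option autoImplicit false
set_option linter.unusedSectionVars false

noncomputable section

open AlgebraicCurve ModularCurve IsLocalRing

namespace Fermat.Agent.ML.Low.NodesAbs

open Fermat.Agent.S36 Fermat.Agent.S24 Fermat.Agent.RED.Gauss Fermat.Agent.SS
open Fermat.Agent.RED hiding Kb
open Fermat.Agent.RED (GQ)
open Fermat.Agent.ML.Low

section FF

variable {K F : Type*} [Field K] [Field F] [Algebra K F]

theorem exists_mem_L_of_isIntegral {x : F} (hx : IsSepParam K x) {T u : F}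
    (h : IsIntegral (Algebra.adjoin K {T}) u) :
    ∃ n : ℕ, u ∈ riemannRochSpace (n • polarDiv K T) := by
  obtain ⟨n₀, hn⟩ := S36.exists_mem_LS_polD_of_isIntegral hx h
  refine ⟨n₀, ?_⟩
  have := hn n₀ le_rfl
  rw [LS_eq_riemannRochSpace] at this
  exact this

theorem isIntegral_of_mem_L {x : F} (hx : IsSepParam K x) {T u : F} {E : Divisor K F}
    (hE : ∀ v : Place K F, 0 ≤ v.ord T → E v ≤ 0) (hT : T ≠ 0) (hu : u ∈ riemannRochSpace E) :
    IsIntegral (Algebra.adjoin K {T}) u := by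
  refine S36.isIntegral_adjoin_of_forall_place hx T u fun v hv => ?_
  rcases eq_or_ne u 0 with rfl | hu0
  · exact v.toValuationSubring.zero_mem
  rw [Place.mem_iff_ord_nonneg v hu0]
  have h1 := (mem_L_iff_of_ne_zero hu0).1 hu v
  have h2 := hE v ((Place.mem_iff_ord_nonneg v hT).1 hv)
  linarith

end FF

theorem mkQ_inl_smul {k V : Type*} [Field k] [AddCommGroup V] [Module k V]
    (S : Submodule k (V × V)) (c : k) (x : V) : S.mkQ (c • x, 0) = c • S.mkQ (x, 0) := by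
  rw [← map_smul, Prod.smul_mk, smul_zero]

variable (C : S36.Ctx)

theorem embF0_j' : embF0 C.A (C.M * C.q) C.j' = jF (C.M * C.q) := by
  have h : embF0 C.A C.M C.jM = jF C.M := embF0_jF0 C.A C.M 1 (one_dvd _)
  show embF0 C.A _ (C.α' C.jM) = _
  rw [embF0_alpha, h, alpha_jF]

theorem j'_mem_O2_idx (i : Fin 3) : C.j' ∈ C.O2 (idxα i) := by
  rw [← C.comap_α i, ValuationSubring.mem_comap]
  have h := C.j_mem_O3 i 0
  rw [C.j_zero] at h
  exact h

theorem j'_mem_O2 (j : Fin 2) : C.j' ∈ C.O2 j := by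
  have e0 : idxα 0 = 0 := rfl
  have e2 : idxα 2 = 1 := rfl
  have h0 := j'_mem_O2_idx C 0
  have h2 := j'_mem_O2_idx C 2
  rw [e0] at h0
  rw [e2] at h2
  revert j
  rw [Fin.forall_fin_two]
  exact ⟨h0, h2⟩

theorem mem_O2_of_mem_B' {b : C.F'} (hb : b ∈ intCl C.R C.j') (j : Fin 2) : b ∈ C.O2 j :=
  S36.intCl_le_of_mem (C.const2 j) (j'_mem_O2 C j) hb

theorem embF0_mem_O {b : C.F'} (hb : ∀ j, b ∈ C.O2 j) : embF0 C.A (C.M * C.q) b ∈ (TC C).O :=
  ⟨embF0_mem_R₁_iff.2 (hb 0), embF0_mem_R₂_iff.2 (hb 1)⟩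

/-- the inclusion of the chart into the unit ball -/
def iotaO : intCl C.R C.j' →+* (TC C).O :=
  ((embF0 C.A (C.M * C.q) : C.F' →+* FN (C.M * C.q)).comp (intCl C.R C.j').subtype).codRestrict
    (TC C).O fun b => embF0_mem_O C (mem_O2_of_mem_B' C b.2)

/-- the Kronecker datum -/
def KD (h49 : 4 ∣ C.M ∨ 9 ∣ C.M) : KronData (TC C) C.q :=
  kronData C.hqM C.π residue_surjective (cuspOrd C.M C.q)
    (exists_lift_twoRed C.hqM C.π residue_surjective h49).choose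
    (exists_lift_twoRed C.hqM C.π residue_surjective h49).choose_spec

theorem isIntegral_embF0 {b : C.F'} (hb : b ∈ intCl C.R C.j') :
    IsIntegral (Algebra.adjoin Kb {jF (C.M * C.q)}) (embF0 C.A (C.M * C.q) b) := by
  refine S36.mem_intCl_of_forall_valuationSubring (R := Kb) fun V hK ht => ?_
  have h1 : intCl C.R C.j' ≤ (V.comap (embF0 C.A (C.M * C.q) : C.F' →+* FN (C.M * C.q))).toSubring := by
    refine S36.intCl_le_of_mem (fun r => ?_) ?_
    · rw [ValuationSubring.mem_comap, algebraMap_RK_F0]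
      have := embF0_algebraMap C.A (C.M * C.q) (r : C.K)
      rw [this]
      exact hK _
    · rw [ValuationSubring.mem_comap, embF0_j']
      exact ht
  exact h1 hb

theorem red_fst_mem_Ob (h49 : 4 ∣ C.M ∨ 9 ∣ C.M) (b : intCl C.R C.j') :
    ((TC C).red (iotaO C b)).1 ∈ (KD C h49).Ob := by
  obtain ⟨n, hn⟩ := exists_mem_L_of_isIntegral (RB.isSepParam_jF (C.M * C.q))
    (isIntegral_embF0 C b.2)
  have h := ((KD C h49).pole n 0 (iotaO C b) (by
    rw [zero_smul, add_zero]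
    exact hn)).1
  rw [zero_smul, add_zero] at h
  exact ⟨n, h⟩

/-- the target of `rho` -/
abbrev VV (h49 : 4 ∣ C.M ∨ 9 ∣ C.M) : Type :=
  ((KD C h49).Ob × (KD C h49).Ob) ⧸ Subalgebra.toSubmodule (KD C h49).S1

/-- the reduction on the first component -/
def r1 (h49 : 4 ∣ C.M ∨ 9 ∣ C.M) : intCl C.R C.j' →+ (KD C h49).Ob :=
  AddMonoidHom.codRestrict
    (((RingHom.fst C.Fb C.Fb).comp ((TC C).red.comp (iotaO C))).toAddMonoidHom) (KD C h49).Ob
    (red_fst_mem_Ob C h49)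

theorem coe_r1 (h49 : 4 ∣ C.M ∨ 9 ∣ C.M) (b : intCl C.R C.j') :
    ((r1 C h49 b : (KD C h49).Ob) : C.Fb) = ((TC C).red (iotaO C b)).1 := rfl

/-- `b ↦ class of (red₁ b, 0)` -/
def rho (h49 : 4 ∣ C.M ∨ 9 ∣ C.M) : intCl C.R C.j' →+ VV C h49 :=
  ((Subalgebra.toSubmodule (KD C h49).S1).mkQ.toAddMonoidHom).comp
    ((AddMonoidHom.inl (KD C h49).Ob (KD C h49).Ob).comp (r1 C h49))

theorem rho_apply (h49 : 4 ∣ C.M ∨ 9 ∣ C.M) (b : intCl C.R C.j') :
    rho C h49 b = (Subalgebra.toSubmodule (KD C h49).S1).mkQ (r1 C h49 b, 0) := rfl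

theorem r1_const_mul (h49 : 4 ∣ C.M ∨ 9 ∣ C.M) (r : C.R) (b : intCl C.R C.j') :
    r1 C h49 (⟨algebraMap C.R C.F' r, algebraMap_mem_intCl C.R C.j' r⟩ * b) =
      pi0 C.A r • r1 C h49 b := by
  apply Subtype.ext
  have h1 : ((TC C).red (iotaO C ⟨algebraMap C.R C.F' r, algebraMap_mem_intCl C.R C.j' r⟩)) =
      (algebraMap C.k C.Fb (pi0 C.A r), algebraMap C.k C.Fb (pi0 C.A r)) := by
    have e : ((iotaO C ⟨algebraMap C.R C.F' r, algebraMap_mem_intCl C.R C.j' r⟩ : (TC C).O) :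
        FN (C.M * C.q)) = algebraMap Kb (FN (C.M * C.q)) ((inclRK C.A r : C.A) : Kb) :=
      embF0_algebraMap C.A (C.M * C.q) (r : C.K)
    have h2 := red_const C.hqM C.π residue_surjective (inclRK C.A r) (e ▸ (iotaO C _).2)
    refine Eq.trans ?_ h2
    congr 1
    exact Subtype.ext e
  rw [coe_r1, map_mul, map_mul, h1]
  show algebraMap C.k C.Fb (pi0 C.A r) * ((TC C).red (iotaO C b)).1 = _
  rw [← Algebra.smul_def]
  rfl

theorem rho_const_mul (h49 : 4 ∣ C.M ∨ 9 ∣ C.M) (r : C.R) (b : intCl C.R C.j') :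
    rho C h49 (⟨algebraMap C.R C.F' r, algebraMap_mem_intCl C.R C.j' r⟩ * b) =
      pi0 C.A r • rho C h49 b := by
  have e1 := rho_apply C h49 (⟨algebraMap C.R C.F' r, algebraMap_mem_intCl C.R C.j' r⟩ * b)
  have e2 := rho_apply C h49 b
  have e3 := congrArg (fun z => (Subalgebra.toSubmodule (KD C h49).S1).mkQ (z, 0))
    (r1_const_mul C h49 r b)
  exact e1.trans (e3.trans ((mkQ_inl_smul _ _ _).trans
    (congrArg (fun z => pi0 C.A r • z) e2.symm)))

theorem isUnit_of_pi0_ne_zero (r : C.R) (h : pi0 C.A r ≠ 0) : IsUnit r := by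
  have h1 : ¬ C.A.valuation ((inclRK C.A r : C.A) : Kb) < 1 := by
    intro hlt
    apply h
    show residue C.A (inclRK C.A r) = 0
    rw [residue_eq_zero_iff]
    exact (C.A.valuation_lt_one_iff _).2 hlt
  have h2 : C.A.valuation (algebraMap C.K Kb (r : C.K)) = 1 :=
    le_antisymm (mem_RK.1 r.2) (not_lt.1 h1)
  have hr0 : (r : C.K) ≠ 0 := by
    intro h0
    rw [h0, map_zero, map_zero] at h2
    exact zero_ne_one h2
  have h3 : (r : C.K)⁻¹ ∈ C.R := by
    rw [mem_RK, map_inv₀, map_inv₀, h2, inv_one]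
  exact IsUnit.of_mul_eq_one ⟨(r : C.K)⁻¹, h3⟩ (Subtype.ext (mul_inv_cancel₀ hr0))

/-- the divisor `a ((j)_∞ + (j')_∞)` -/
def EE (a : ℕ) : Divisor Kb (FN (C.M * C.q)) :=
  a • (polarDiv Kb (jF (C.M * C.q)) + polarDiv Kb (jF' C.M C.q))

theorem gal_smul_EE (a : ℕ) (σ : GQ) : gal (C.M * C.q) σ • EE C a = EE C a := by
  have h1 := smul_polarDiv_of_smul_eq (RB.isSepParam_jF (C.M * C.q)) (gal (C.M * C.q) σ)
    (gal_smul_jF (C.M * C.q) σ)
  have h2 := smul_polarDiv_of_smul_eq (RB.isSepParam_jF (C.M * C.q)) (gal (C.M * C.q) σ)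
    (gal_smul_jF' C.hqM σ)
  ext v
  have e1 := DFunLike.congr_fun h1 v
  have e2 := DFunLike.congr_fun h2 v
  rw [SemilinearAut.divisor_smul_apply] at e1 e2 ⊢
  rw [EE, Finsupp.smul_apply, Finsupp.smul_apply, Finsupp.add_apply, Finsupp.add_apply, e1, e2]

theorem EE_le (a : ℕ) (v : Place Kb (FN (C.M * C.q)))
    (hv : jF (C.M * C.q) ∈ v.toValuationSubring) : EE C a v ≤ 0 := by
  have hs := RB.isSepParam_jF (C.M * C.q)
  have h0 : polarDiv Kb (jF (C.M * C.q)) v = 0 := by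
    rw [hs.polarDiv_apply]
    have := (Place.mem_iff_ord_nonneg v hs.ne_zero).1 hv
    exact max_eq_right (by omega)
  have h1 := (cuspOrd C.M C.q).1 v
  rw [Finsupp.smul_apply, h0, smul_zero] at h1
  rw [EE, Finsupp.smul_apply, Finsupp.add_apply, h0, zero_add]
  exact smul_nonpos_of_nonneg_of_nonpos (Nat.zero_le a) h1

theorem key (h49 : RED.aux C.q ∣ C.M) (b : intCl C.R C.j')
    (hb : rho C (RIB.rigid_of_aux_dvd h49) b = 0)
    (𝔪 : Ideal (intCl C.R (C.geom h49).t)) (h𝔪 : 𝔪.IsMaximal)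
    (hp : ∀ l, (C.geom h49).sys.p l ≤ 𝔪) :
    (⟨C.α b, C.α_mem b b.2⟩ : intCl C.R (C.geom h49).t) ∈ 𝔪 := by
  have h49' := RIB.rigid_of_aux_dvd h49
  rw [rho_apply, Submodule.mkQ_apply, Submodule.Quotient.mk_eq_zero] at hb
  obtain ⟨a, u, hu, hred⟩ := hb
  obtain ⟨c, 𝒩, -, -, -, -, -, -, -, -, hc, -⟩ := exists_nodalData_fixed C.hqM C.A h49' C.hA
  have := h𝔪.isPrime
  refine alpha_mem_of_red C h49 𝒩 hc b.2 u (EE C a) (fun σ _ => gal_smul_EE C a σ) hu
    (EE_le C a) ?_ ?_ (hp 0) (hp 2)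
  · have h1 : ((TC C).red u).1 = ((TC C).red (iotaO C b)).1 :=
      (congrArg Prod.fst hred).trans (coe_r1 C h49' b)
    rw [h1]
    exact redsTo_R₁ (iotaO C b).2.1
  · exact congrArg Prod.snd hred

/-- **[NODES]** -/
theorem nodes_card' (C : S36.Ctx) (h49 : RED.aux C.q ∣ C.M) (n : ℕ)
    (hn : (n : ℤ) = gR Kb (FN (C.M * C.q)) - 2 * gR C.k (RED.Cusp.Fb C.k C.M) + 1) :
    Finite {mm : Ideal (intCl C.R (C.geom h49).t) // mm.IsMaximal ∧ ∀ l, (C.geom h49).sys.p l ≤ mm} ∧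
      Nat.card {mm : Ideal (intCl C.R (C.geom h49).t) //
        mm.IsMaximal ∧ ∀ l, (C.geom h49).sys.p l ≤ mm} ≤ n := by
  have h49' := RIB.rigid_of_aux_dvd h49
  obtain ⟨hfd, hfr⟩ := (KD C h49').finrank_quot_S1
  have : Module.Finite C.k (VV C h49') := hfd
  refine nodes_of_datum (C.geom h49) (C.norm h49) (V := VV C h49') (pi0 C.A)
    (pi0_surjective C.A C.hA) (isUnit_of_pi0_ne_zero C) (rho C h49') (rho_const_mul C h49')
    (fun b hb 𝔪 h𝔪 hp => key C h49 b hb 𝔪 h𝔪 hp) n ?_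
  have : (Module.finrank C.k (VV C h49') : ℤ) = n := by rw [hn]; exact hfr
  exact le_of_eq (by exact_mod_cast this)

end Fermat.Agent.ML.Low.NodesAbs
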