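import Fermat.Agent.ML.Low.Dict
import Fermat.Agent.SS.Nodal.Card
import Fermat.Agent.SS.Swap.Mod

/-!
# ML / LOWER(A) / [NODES] : `[W0]`, `[W2]`, `[W3]`  the space `V = (Ob × Ob) / S1` at level `M q`

`kronC C h49 : KronData (TC C) C.q` (the Kronecker datum of `SS/Z1/KronInst`), `Ob = affRing k jb` the affine ring of the special fibre of level `M`,
`S1` = the reduction of the affine ring of level `M q`.

* `VS1 C h49 := (Ob × Ob) ⧸ S1`, `finite_VS1`, `finrank_VS1` (`= g(M q) - 2 gbar(M) + 1`), `finrank_VS1_le`;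
* `exists_of_mkS1_eq_zero` : `mk (w, 0) = 0` ⟹ `(w, 0) = red u`, `u ∈ L(a (Pj + Pq))`;
* `gal_smul_ES1` : the divisor `ES1 C a = a (Pj + Pq)` is fixed by `G_ℚ`;
* `ES1_nonpos` : `ES1 C a` is `≤ 0` at the places where `j` is regular.
-/

set_option autoImplicit false
set_option linter.style.haveILetI false
set_option linter.unusedSectionVars false
set_option synthInstance.maxHeartbeats 400000

noncomputable section

open AlgebraicCurve ModularCurve IsLocalRing

namespace Fermat.Agent.ML.Low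

open Fermat.Agent.RED hiding Kb
open Fermat.Agent.S24 Fermat.Agent.SS
open Fermat.Agent.RED.Cusp (Fb jb)

variable (C : S36.Ctx) (h49 : 4 ∣ C.M ∨ 9 ∣ C.M)

/-- the Kronecker datum at level `M q`. -/
def kronC : KronData (TC C) C.q :=
  kronData C.hqM C.π residue_surjective (cuspOrd C.M C.q)
    (exists_lift_twoRed C.hqM C.π residue_surjective h49).choose
    (exists_lift_twoRed C.hqM C.π residue_surjective h49).choose_spec

theorem kronC_t : (kronC C h49).t = jb C.k C.M := rfl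

theorem kronC_Ob : (kronC C h49).Ob = affRing C.k (jb C.k C.M) := rfl

theorem kronC_Pj : (kronC C h49).Pj = polarDiv Kb (jF (C.M * C.q)) := rfl

theorem kronC_Pq : (kronC C h49).Pq = polarDiv Kb (jF' C.M C.q) := rfl

/-- `(Ob × Ob) / S1` -/
abbrev VS1 : Type :=
  ((kronC C h49).Ob × (kronC C h49).Ob) ⧸ Subalgebra.toSubmodule (kronC C h49).S1

/-- the class of a pair. -/
def mkS1 : ((kronC C h49).Ob × (kronC C h49).Ob) →ₗ[C.k] VS1 C h49 :=
  (Subalgebra.toSubmodule (kronC C h49).S1).mkQ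

theorem finite_VS1 : Module.Finite C.k (VS1 C h49) := (kronC C h49).finrank_quot_S1.1

theorem finrank_VS1 : (Module.finrank C.k (VS1 C h49) : ℤ) =
    gR Kb (FN (C.M * C.q)) - 2 * gR C.k (Fb C.k C.M) + 1 := (kronC C h49).finrank_quot_S1.2

theorem finrank_VS1_le (n : ℕ)
    (hn : (n : ℤ) = gR Kb (FN (C.M * C.q)) - 2 * gR C.k (Fb C.k C.M) + 1) :
    Module.finrank C.k (VS1 C h49) ≤ n := by
  have := finrank_VS1 C h49
  rw [← hn] at this
  exact le_of_eq (by exact_mod_cast this)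

/-- the divisor `a (Pj + Pq)`. -/
def ES1 (a : ℕ) : Divisor Kb (FN (C.M * C.q)) :=
  a • (polarDiv Kb (jF (C.M * C.q)) + polarDiv Kb (jF' C.M C.q))

/-- **[W0]** -/
theorem exists_of_mkS1_eq_zero {w : (kronC C h49).Ob × (kronC C h49).Ob}
    (h : mkS1 C h49 w = 0) :
    ∃ (a : ℕ) (u : (TC C).O), (u : FN (C.M * C.q)) ∈ riemannRochSpace (ES1 C a) ∧
      (TC C).red u = ((w.1 : Fb C.k C.M), (w.2 : Fb C.k C.M)) := by
  have h1 : w ∈ Subalgebra.toSubmodule (kronC C h49).S1 :=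
    (Submodule.Quotient.mk_eq_zero _).1 h
  obtain ⟨a, u, hu, hred⟩ := h1
  exact ⟨a, u, hu, hred⟩

/-- **[W2]** -/
theorem gal_smul_ES1 (a : ℕ) (σ : GQ) : gal (C.M * C.q) σ • ES1 C a = ES1 C a := by
  have h1 := smul_polarDiv_of_smul_eq (RB.isSepParam_jF (C.M * C.q)) (gal (C.M * C.q) σ)
    (gal_smul_jF (C.M * C.q) σ)
  have h2 := smul_polarDiv_of_smul_eq (RB.isSepParam_jF (C.M * C.q)) (gal (C.M * C.q) σ)
    (gal_smul_jF' C.hqM σ)
  rw [ES1, smul_comm, smul_add, h1, h2]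

/-- **[W3]** -/
theorem ES1_nonpos (a : ℕ) (v : Place Kb (FN (C.M * C.q)))
    (hv : jF (C.M * C.q) ∈ v.toValuationSubring) : ES1 C a v ≤ 0 := by
  have hs := RB.isSepParam_jF (C.M * C.q)
  have h0 : 0 ≤ v.ord (jF (C.M * C.q)) := Place.ord_nonneg_of_mem v hv
  have h1 : polarDiv Kb (jF (C.M * C.q)) v = 0 := by
    rw [hs.polarDiv_apply]
    exact max_eq_right (by omega)
  have h2 : polarDiv Kb (jF' C.M C.q) v ≤ 0 := by
    have := (cuspOrd C.M C.q).1 v
    rw [Finsupp.smul_apply, h1, smul_zero] at this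
    exact this
  rw [ES1, Finsupp.smul_apply, Finsupp.add_apply, h1, zero_add]
  exact smul_nonpos_of_nonneg_of_nonpos (Nat.zero_le a) h2

end Fermat.Agent.ML.Low
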