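import Fermat.Agent.RIB.WeilDual

/-!
# ML / LOWER(A) : `[LOW-REAL-ABS]` the abstract count behind `[REAL-K0]`

`A` a finite abelian group with a perfect pairing `e` (values in an algebraically closed field of characteristic `0`), invariant under
a family `σ` of automorphisms.

* `card_le_card_mul_perp` : `#A ≤ #I * #I^⊥`;
* `card_le_aug_mul_fixed` : `#A ≤ #T * #A^σ` if `(σ - 1) A ⊆ T`;
* `real_count` : if moreover `#A = p^(2g)` and `A^σ / T` "embeds" in a set with at most `p^(1 + 4 g')` elements then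
  `p^(g - 2 g') ≤ #T`;
* `real_count_amb` : the same for the `p`-torsion of an ambient group with an action of a group `G` and a subgroup `H ≤ G`.
-/

set_option autoImplicit false
set_option linter.unusedSectionVars false
set_option linter.style.haveILetI false

noncomputable section

namespace Fermat.Agent.ML.Low

open Fermat.Agent.RIB.WA

section Perp

variable {A K : Type*} [AddCommGroup A] [Field K] {e : A → A → K}
variable [Finite A] [IsAlgClosed K] [CharZero K]

/-- the restriction of the character `e a` to a subgroup. -/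
def resChar (h : PerfPair e) (I : AddSubgroup A) :
    Multiplicative A →* (Multiplicative I →* Kˣ) where
  toFun a := (h.char a.toAdd).comp (AddMonoidHom.toMultiplicative I.subtype)
  map_one' := MonoidHom.ext fun _ => Units.ext (h.zero_left _)
  map_mul' x x' := MonoidHom.ext fun _ => Units.ext (h.add_left x.toAdd x'.toAdd _)

theorem card_le_card_mul_perp (h : PerfPair e) (I : AddSubgroup A) :
    Nat.card A ≤ Nat.card I * Nat.card {a : A // ∀ y ∈ I, e a y = 1} := by
  haveI : NeZero (Monoid.exponent (Multiplicative I)) := ⟨Monoid.exponent_ne_zero_of_finite⟩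
  haveI : NeZero ((Monoid.exponent (Multiplicative I) : ℕ) : K) :=
    ⟨Nat.cast_ne_zero.2 (NeZero.ne _)⟩
  have hcard := CommGroup.card_monoidHom_of_hasEnoughRootsOfUnity (Multiplicative I) K
  haveI : Finite (Multiplicative I →* Kˣ) := by
    apply Nat.finite_of_card_ne_zero
    rw [hcard]
    exact Nat.card_pos.ne'
  set f := resChar h I with hf
  have h1 : Nat.card (Multiplicative A) = Nat.card f.ker * Nat.card f.range := by
    rw [← Subgroup.index_ker f, mul_comm]
    exact (Subgroup.index_mul_card f.ker).symm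
  have h2 : Nat.card f.range ≤ Nat.card I := by
    have := Nat.card_le_card_of_injective (Subtype.val : f.range → _) Subtype.val_injective
    rw [hcard] at this
    exact this
  have h3 : Nat.card f.ker ≤ Nat.card {a : A // ∀ y ∈ I, e a y = 1} := by
    refine Nat.card_le_card_of_injective
      (fun a : f.ker => (⟨(a : Multiplicative A).toAdd, fun y hy => ?_⟩ :
        {a : A // ∀ y ∈ I, e a y = 1})) ?_
    · have := MonoidHom.mem_ker.1 a.2
      have h4 := congrArg (fun φ : Multiplicative I →* Kˣ =>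
        ((φ (Multiplicative.ofAdd (⟨y, hy⟩ : I)) : Kˣ) : K)) this
      exact h4
    · intro a b hab
      apply Subtype.ext
      exact congrArg (fun z : {a : A // ∀ y ∈ I, e a y = 1} => Multiplicative.ofAdd z.1) hab
  calc Nat.card A = Nat.card (Multiplicative A) := rfl
    _ = Nat.card f.ker * Nat.card f.range := h1
    _ ≤ Nat.card {a : A // ∀ y ∈ I, e a y = 1} * Nat.card I := Nat.mul_le_mul h3 h2
    _ = _ := mul_comm _ _

variable {ι : Type*} (σ : ι → A ≃+ A)

theorem card_le_aug_mul_fixed (h : PerfPair e) (hinv : ∀ i x y, e (σ i x) (σ i y) = e x y)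
    (T : AddSubgroup A) (hT : ∀ i x, σ i x - x ∈ T) :
    Nat.card A ≤ Nat.card T * Nat.card {a : A // ∀ i, σ i a = a} := by
  refine (card_le_card_mul_perp h T).trans (Nat.mul_le_mul_left _ ?_)
  refine Nat.card_le_card_of_injective
    (fun a : {a : A // ∀ y ∈ T, e a y = 1} => (⟨a.1, fun i => ?_⟩ : {a : A // ∀ i, σ i a = a})) ?_
  · have key : (σ i).symm a.1 - a.1 = 0 := by
      apply h.nondeg
      intro y
      have h1 := a.2 _ (hT i y)
      rw [h.sub_right, div_eq_one_iff_eq (h.ne_zero _ _)] at h1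
      have h2 := hinv i ((σ i).symm a.1) y
      rw [AddEquiv.apply_symm_apply] at h2
      rw [h.sub_left, div_eq_one_iff_eq (h.ne_zero _ _), ← h2, h1]
    have h3 : (σ i).symm a.1 = a.1 := sub_eq_zero.1 key
    conv_lhs => rw [← h3]
    exact (σ i).apply_symm_apply _
  · intro a b hab
    apply Subtype.ext
    exact congrArg (fun z : {a : A // ∀ i, σ i a = a} => z.1) hab

/-- a set which maps to `C` with fibres "inside" `T`. -/
theorem card_le_of_fibres {C : Type*} [Finite C] (T : AddSubgroup A) (P : A → Prop)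
    (Rel : A → C → Prop) (htot : ∀ x, P x → ∃ c, Rel x c)
    (hker : ∀ x y c, P x → P y → Rel x c → Rel y c → x - y ∈ T) :
    Nat.card {a : A // P a} ≤ Nat.card C * Nat.card T := by
  classical
  by_cases hne : Nonempty C
  swap
  · have : IsEmpty {a : A // P a} := ⟨fun a => hne ⟨(htot a.1 a.2).choose⟩⟩
    simp
  obtain ⟨c₀⟩ := hne
  let ψ : A → C := fun x => if hx : P x then (htot x hx).choose else c₀
  have hψ : ∀ x, P x → Rel x (ψ x) := by
    intro x hx
    simp only [ψ, dif_pos hx]
    exact (htot x hx).choose_spec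
  -- a base point in each fibre
  let base : C → A := fun c => if hc : ∃ x, P x ∧ ψ x = c then hc.choose else 0
  have hbase : ∀ x, P x → P (base (ψ x)) ∧ ψ (base (ψ x)) = ψ x := by
    intro x hx
    have hc : ∃ y, P y ∧ ψ y = ψ x := ⟨x, hx, rfl⟩
    simp only [base, dif_pos hc]
    exact hc.choose_spec
  rw [← Nat.card_prod]
  refine Nat.card_le_card_of_injective
    (fun a : {a : A // P a} => ((ψ a.1, ⟨a.1 - base (ψ a.1), ?_⟩) : C × T)) ?_
  · obtain ⟨h1, h2⟩ := hbase a.1 a.2
    refine hker _ _ (ψ a.1) a.2 h1 (hψ _ a.2) ?_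
    have := hψ _ h1
    rwa [h2] at this
  · intro a b hab
    have h1 : ψ a.1 = ψ b.1 := congrArg Prod.fst hab
    have h2 : a.1 - base (ψ a.1) = b.1 - base (ψ b.1) :=
      congrArg (fun z : C × T => (z.2 : A)) hab
    rw [h1] at h2
    exact Subtype.ext (sub_left_injective h2)

/-- **[LOW-REAL-ABS]** -/
theorem real_count (h : PerfPair e) (hinv : ∀ i x y, e (σ i x) (σ i y) = e x y) {p g g' : ℕ}
    (hp : p.Prime) (hA : Nat.card A = p ^ (2 * g)) (T : AddSubgroup A)
    (hT : ∀ i x, σ i x - x ∈ T) {C : Type*} [Finite C] (hC : Nat.card C ≤ p ^ (1 + 4 * g'))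
    (Rel : A → C → Prop) (htot : ∀ x, (∀ i, σ i x = x) → ∃ c, Rel x c)
    (hker : ∀ x y c, (∀ i, σ i x = x) → (∀ i, σ i y = y) → Rel x c → Rel y c → x - y ∈ T) :
    p ^ (g - 2 * g') ≤ Nat.card T := by
  have h1 := card_le_aug_mul_fixed σ h hinv T hT
  have h2 := card_le_of_fibres T (fun a => ∀ i, σ i a = a) Rel htot hker
  have h3 : Nat.card T ∣ p ^ (2 * g) := hA ▸ AddSubgroup.card_addSubgroup_dvd_card T
  obtain ⟨t, -, ht⟩ := (Nat.dvd_prime_pow hp).1 h3
  rw [ht] at h1 h2 ⊢
  have h4 : p ^ (2 * g) ≤ p ^ (t + ((1 + 4 * g') + t)) := by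
    rw [pow_add, pow_add, ← hA]
    exact h1.trans (Nat.mul_le_mul_left _ (h2.trans (Nat.mul_le_mul_right _ hC)))
  have h5 := (Nat.pow_le_pow_iff_right hp.one_lt).1 h4
  exact Nat.pow_le_pow_right hp.pos (by omega)

end Perp

section Ambient

variable {X K : Type*} [AddCommGroup X] [Field K] [IsAlgClosed K] [CharZero K] {e : X → X → K}
variable {G : Type*} [Group G] [DistribMulAction G X]

/-- the action of `s` on the `m`-torsion. -/
def torAct (m : ℕ) (s : G) : tor X m ≃+ tor X m where
  toFun x := ⟨s • (x : X), by rw [mem_tor, smul_comm, mem_tor.1 x.2, smul_zero]⟩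
  invFun x := ⟨s⁻¹ • (x : X), by rw [mem_tor, smul_comm, mem_tor.1 x.2, smul_zero]⟩
  left_inv x := Subtype.ext (inv_smul_smul s (x : X))
  right_inv x := Subtype.ext (smul_inv_smul s (x : X))
  map_add' x y := Subtype.ext (smul_add s (x : X) y)

/-- **[LOW-REAL-ABS]**, ambient form. -/
theorem real_count_amb {p g g' : ℕ} (hp : p.Prime) (h : TorsPair p e) (hfin : Finite (tor X p))
    (H : Subgroup G)
    (hinv : ∀ s ∈ H, ∀ x y : X, p • x = 0 → p • y = 0 → e (s • x) (s • y) = e x y)
    (hX : Nat.card (tor X p) = p ^ (2 * g)) (T : AddSubgroup X) (hTp : ∀ x ∈ T, p • x = 0)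
    (hT : ∀ s ∈ H, ∀ x : X, p • x = 0 → s • x - x ∈ T) {C : Type*} [Finite C]
    (hC : Nat.card C ≤ p ^ (1 + 4 * g')) (Rel : X → C → Prop)
    (htot : ∀ x : X, p • x = 0 → (∀ s ∈ H, s • x = x) → ∃ c, Rel x c)
    (hker : ∀ (x y : X) (c : C), p • x = 0 → p • y = 0 → (∀ s ∈ H, s • x = x) →
      (∀ s ∈ H, s • y = y) → Rel x c → Rel y c → x - y ∈ T) :
    p ^ (g - 2 * g') ≤ Nat.card T := by
  have key := real_count (A := tor X p) (e := fun a a' : tor X p => e a a')
    (fun s : H => torAct p (s : G)) h.perfPair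
    (fun s x y => hinv s s.2 x y x.2 y.2) hp hX (T.comap (tor X p).subtype)
    (fun s x => hT s s.2 x x.2) hC (fun x c => Rel x c)
    (fun x hx => htot x x.2 fun s hs => congrArg Subtype.val (hx ⟨s, hs⟩))
    (fun x y c hx hy => hker x y c x.2 y.2 (fun s hs => congrArg Subtype.val (hx ⟨s, hs⟩))
      (fun s hs => congrArg Subtype.val (hy ⟨s, hs⟩)))
  refine key.trans (le_of_eq ?_)
  refine Nat.card_congr
    { toFun := fun x => ⟨x.1.1, x.2⟩
      invFun := fun x => ⟨⟨x.1, hTp x.1 x.2⟩, x.2⟩
      left_inv := fun x => rfl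
      right_inv := fun x => rfl }

end Ambient

end Fermat.Agent.ML.Low
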