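import Fermat.Agent.ML.Low.Key2
import Fermat.Agent.ML.Low.K3EisMain
import Fermat.Agent.ML.Low.K3.Hecke
import Fermat.Agent.ML.Low.Lower
import Fermat.Agent.RIB.Up.Vanish
import Fermat.Agent.RIB.ThetaAbs

/-!
# ML / LOWER(A) : `[SQ]`    `W(L') = 0`, `W(L' q) = 0`  ⟹  `W(L' q²) = 0`

The only contract is `ToricOldStmt` (`[TORIC-OLD]`) : a toric class of `J₀(M q²)[p]` (`Kap C p x 0`) is `α^* x' + β^* x''` with
`x', x'' ∈ J₀(M q)[p]`.

* `[FIX]`   : inertia at `q` is unipotent on `W(L' q²)` (`tr rbar0 (τ) = 2`), so there is a non zero fixed vector;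
* `[KEY2]`  : it is toric (`key2`, `kap_eis`, `kap_hecke`);
* `[PROJ]`  : `x', x''` can be chosen in `W(L' q)` (`Fit.exists_lift_family`).
-/

set_option autoImplicit false
set_option linter.unusedSectionVars false

noncomputable section

open AlgebraicCurve ModularCurve

namespace Fermat.Agent.ML.Low

open Fermat.Agent.RIB Fermat.Agent.S36

local notation "Qbar" => AlgebraicClosure ℚ
local notation "GQ" => (AlgebraicClosure ℚ ≃ₐ[ℚ] AlgebraicClosure ℚ)
local notation "M₂" => Matrix (Fin 2) (Fin 2)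

/-- **[TORIC-OLD]** as a `Prop`. -/
def ToricOldStmt : Prop :=
  ∀ (C : S36.Ctx), Fermat.Agent.RED.aux C.q ∣ C.M → ∀ p : ℕ, p.Prime → p ≠ C.q →
    ∀ x : JZero (C.M * C.q * C.q), Kap C p x 0 →
      ∃ x' x'' : JZero (C.M * C.q), p • x' = 0 ∧ p • x'' = 0 ∧
        x = pullA (C.M * C.q) C.q x' + pullB (C.M * C.q) C.q x''

/-- a `2 × 2` matrix over a field with square zero has trace zero. -/
theorem trace_eq_zero_of_sq_zero {k : Type*} [Field k] (N : M₂ k) (h : N * N = 0) :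
    N.trace = 0 := by
  have h00 := congrFun (congrFun h 0) 0
  have h01 := congrFun (congrFun h 0) 1
  have h10 := congrFun (congrFun h 1) 0
  have h11 := congrFun (congrFun h 1) 1
  simp only [Matrix.mul_apply, Fin.sum_univ_two, Matrix.zero_apply] at h00 h01 h10 h11
  rw [Matrix.trace_fin_two]
  by_contra hne
  have hb : N 0 1 = 0 := by
    have : N 0 1 * (N 0 0 + N 1 1) = 0 := by linear_combination h01
    exact (mul_eq_zero.1 this).resolve_right hne
  have ha : N 0 0 = 0 := by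
    have : N 0 0 * N 0 0 = 0 := by rw [hb] at h00; simpa using h00
    exact mul_self_eq_zero.1 this
  have hd : N 1 1 = 0 := by
    have : N 1 1 * N 1 1 = 0 := by rw [hb] at h11; simpa using h11
    exact mul_self_eq_zero.1 this
  exact hne (by rw [ha, hd, add_zero])

/-- a locally unipotent endomorphism of a finite `𝔽_p`-vector space has `p`-power order. -/
theorem exists_pow_eq_one_of_unip {p : ℕ} [Fact p.Prime] {V : Type*} [AddCommGroup V]
    [Module (ZMod p) V] [Finite V] (a : Module.End (ZMod p) V)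
    (h : ∀ x : V, ∃ N : ℕ, ((a - 1) ^ N) x = 0) : ∃ n : ℕ, a ^ (p ^ n) = 1 := by
  classical
  have hp : p.Prime := Fact.out
  rcases subsingleton_or_nontrivial V with hV | hV
  · exact ⟨0, LinearMap.ext fun x => Subsingleton.elim _ _⟩
  have hchar : CharP (Module.End (ZMod p) V) p := by
    obtain ⟨x, hx⟩ := exists_ne (0 : V)
    refine Module.charP_end ⟨x, ?_⟩
    rw [eq_bot_iff]
    intro r hr
    exact (smul_eq_zero.1 ((Ideal.mem_torsionOf_iff x r).1 hr)).resolve_right hx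
  choose N hN using h
  have : Fintype V := Fintype.ofFinite _
  set n := ∑ x : V, N x with hn
  have hle : ∀ x : V, N x ≤ p ^ n := fun x =>
    (Finset.single_le_sum (f := fun x : V => N x) (fun _ _ => Nat.zero_le _)
      (Finset.mem_univ x)).trans (Nat.lt_pow_self hp.one_lt).le
  have hz : (a - 1) ^ (p ^ n) = 0 := by
    apply LinearMap.ext
    intro x
    rw [← Nat.sub_add_cancel (hle x), pow_add, Module.End.mul_apply, hN x, map_zero,
      LinearMap.zero_apply]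
  refine ⟨n, ?_⟩
  have h1 := sub_pow_char_pow_of_commute (R := Module.End (ZMod p) V) (p := p)
    (n := n) (Commute.one_right a)
  rw [hz, one_pow] at h1
  exact (sub_eq_zero.1 h1.symm)

section Unip

variable {p : ℕ} [Fact p.Prime] {L : ℕ} [NeZero L] {S : Set ℕ} {θ : ℕ → ℤ}

theorem coe_galWS_sub_one_pow (τ : GQ) (N : ℕ) (x : ↥(WS L p S θ)) :
    ((((galWS L p S θ τ - 1) ^ N) x : ↥(WS L p S θ)) : JZero L) =
      ((actEnd (JZero L) τ - 1) ^ N) (x : JZero L) := by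
  induction N generalizing x with
  | zero => rfl
  | succ N ih =>
    have e1 : ((galWS L p S θ τ - 1) ^ (N + 1)) x =
        ((galWS L p S θ τ - 1) ^ N) ((galWS L p S θ τ - 1) x) := by
      rw [pow_succ]; rfl
    have e2 : ((actEnd (JZero L) τ - 1) ^ (N + 1)) (x : JZero L) =
        ((actEnd (JZero L) τ - 1) ^ N) ((actEnd (JZero L) τ - 1) (x : JZero L)) := by
      rw [pow_succ]; rfl
    rw [e1, e2, ih]
    rfl

/-- a locally unipotent automorphism of `W(L)` has `p`-power order. -/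
theorem exists_pow_smul_eq (τ : GQ)
    (h : ∀ x ∈ WS L p S θ, ∃ N : ℕ, ((actEnd (JZero L) τ - 1) ^ N) x = 0) :
    ∃ n : ℕ, ∀ x ∈ WS L p S θ, τ ^ (p ^ n) • x = x := by
  have : NeZero p := ⟨(Fact.out : p.Prime).ne_zero⟩
  obtain ⟨n, hn⟩ := exists_pow_eq_one_of_unip (galWS L p S θ τ) (fun x => by
    obtain ⟨N, hN⟩ := h x.1 x.2
    exact ⟨N, Subtype.ext (by rw [coe_galWS_sub_one_pow, hN]; rfl)⟩)
  refine ⟨n, fun x hx => ?_⟩
  rw [← map_pow] at hn
  have h2 : galWS L p S θ (τ ^ p ^ n) ⟨x, hx⟩ = ⟨x, hx⟩ := by rw [hn, Module.End.one_apply]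
  rw [galWS_apply] at h2
  exact congrArg Subtype.val h2

end Unip

variable {p : ℕ} [Fact p.Prime] {T : Finset ℕ} {θ : ℕ → ℤ} {rbar0 : GQ →* M₂ (ZMod p)}

/-- inertia at `q ≠ p` is unipotent on the `θ`-part. -/
theorem inertia_unip_M (EC : MCtx p T θ rbar0) {L : ℕ} [NeZero L]
    (hS : ∀ r : ℕ, r.Prime → r ∣ L * p → r ∈ T) {q : ℕ} (hq : q.Prime) (hqp : q ≠ p)
    {A : ValuationSubring Qbar} (hA : A.LiesOverPrime q) {τ : GQ}
    (hτ : τ ∈ A.inertiaSubgroupIn ℚ) {x : JZero L} (hx : x ∈ thetaPart L p (↑T : Set ℕ) θ) :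
    ∃ N : ℕ, ((actEnd (JZero L) τ - 1) ^ N) x = 0 := by
  have hp : p.Prime := Fact.out
  obtain ⟨j, hj⟩ := hx.1
  have : NeZero (p ^ j) := ⟨pow_ne_zero _ hp.ne_zero⟩
  have htr : (rbar0 τ).trace = ((2 : ℤ) : ZMod p) := by
    have h0 := trace_eq_zero_of_sq_zero (rbar0 τ - 1) (EC.unipI q hq hqp A hA τ hτ τ hτ)
    rw [Matrix.trace_sub, Matrix.trace_one, sub_eq_zero] at h0
    rw [h0]
    simp
  obtain ⟨N, hN⟩ := TrNil.trOp_sub_pow_eq_zero hp T hS θ rbar0 EC.cont EC.frob τ 2 htr hx j hj 1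
    (TrNil.inertia_root_pow hq (Nat.Coprime.pow_right _ ((Nat.coprime_primes hq hp).2 hqp)) hA hτ)
  refine ⟨2 * N, TrNil.sub_one_pow_eq_zero_of_trOp τ N x ?_⟩
  simpa using hN

/-- **[PROJ]** -/
theorem proj_old {M q : ℕ} [NeZero M] [NeZero q] (S : Set ℕ)
    (hS : ∀ r : ℕ, r.Prime → r ∉ S → ¬ r ∣ M * q * p)
    {x : JZero (M * q)} (hx : x ∈ WS (M * q) p S θ) {x' x'' : JZero M} (h' : p • x' = 0)
    (h'' : p • x'' = 0) (e : x = pullA M q x' + pullB M q x'') :
    ∃ y' ∈ WS M p S θ, ∃ y'' ∈ WS M p S θ, x = pullA M q y' + pullB M q y'' := by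
  have hp : p.Prime := Fact.out
  let Z : AddSubgroup (JZero M) := TrNil.torsJ M p
  have hZfin : Finite Z := Set.Finite.to_subtype (finite_torsion_JZero M p hp.ne_zero)
  have hcomm : ∀ (N : ℕ) [NeZero N] (i j : {r : Nat.Primes // (r : ℕ) ∉ S}),
      hk N θ i.1 * hk N θ j.1 = hk N θ j.1 * hk N θ i.1 := by
    intro N _ i j
    have h := GAL.HeckeComm.heckeOperatorsCommuteBar N i.1 j.1
    have h1 : Commute (heckeOperatorBar N i.1) (heckeOperatorBar N j.1) := h
    have h2 : Commute (hk N θ i.1) (hk N θ j.1) := by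
      unfold hk
      exact (h1.sub_right (Int.cast_commute _ _).symm).sub_left
        ((Int.cast_commute _ _).sub_right (Int.cast_commute _ _).symm |>.symm.symm)
    exact h2
  have hpt : ∀ z ∈ Z, z ∈ GAL.PC.ptors (JZero M) p := fun z hz => ⟨1, by rw [pow_one]; exact hz⟩
  have hr1 : ∀ i : {r : Nat.Primes // (r : ℕ) ∉ S}, ¬ ((i.1 : Nat.Primes) : ℕ) ∣ M * p := by
    intro i hd
    refine hS _ i.1.2 i.2 ?_
    rcases (Nat.Prime.dvd_mul i.1.2).1 hd with h | h
    · exact (h.mul_right q).mul_right p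
    · exact h.mul_left _
  obtain ⟨v', hv'Z, hv'n, hv'e⟩ := Fit.exists_lift_family
    (fun i : {r : Nat.Primes // (r : ℕ) ∉ S} => hk M θ i.1)
    (fun i : {r : Nat.Primes // (r : ℕ) ∉ S} => hk (M * q) θ i.1)
    (hcomm M) (hcomm (M * q)) Z (fun i z hz => TrNil.end_mem_torsJ _ hz)
    (![pullA M q, pullB M q] : Fin 2 → JZero M →+ JZero (M * q))
    (fun k i z hz => by
      fin_cases k
      · show pullA M q (hk M θ i.1 z) = hk (M * q) θ i.1 (pullA M q z)
        rw [hk_apply, hk_apply, map_sub, map_zsmul,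
          SS.map_hecke_of_equivariant (SS.es_all M p).2 (SS.es_all (M * q) p).2 (pullA M q)
            (fun σ y => pullA_smul M q σ y) i.1 (hr1 i) (hS _ i.1.2 i.2) z (hpt z hz)]
      · show pullB M q (hk M θ i.1 z) = hk (M * q) θ i.1 (pullB M q z)
        rw [hk_apply, hk_apply, map_sub, map_zsmul,
          SS.map_hecke_of_equivariant (SS.es_all M p).2 (SS.es_all (M * q) p).2 (pullB M q)
            (fun σ y => pullB_smul M q σ y) i.1 (hr1 i) (hS _ i.1.2 i.2) z (hpt z hz)])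
    ![x', x''] (fun k => by fin_cases k <;> assumption)
    (fun i => by
      obtain ⟨m, hm⟩ := (mem_WS_iff.1 hx).2 i.1 i.2
      refine ⟨m, ?_⟩
      rw [Fin.sum_univ_two]
      show (hk (M * q) θ i.1 ^ m) (pullA M q x' + pullB M q x'') = 0
      rw [← e]
      exact hm)
  rw [Fin.sum_univ_two, Fin.sum_univ_two] at hv'e
  refine ⟨v' 0, mem_WS_iff.2 ⟨hv'Z 0, fun r hr => hv'n 0 ⟨r, hr⟩⟩, v' 1,
    mem_WS_iff.2 ⟨hv'Z 1, fun r hr => hv'n 1 ⟨r, hr⟩⟩, ?_⟩
  rw [e]
  exact hv'e.symm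

/-- **[SQ]** from **[TORIC-OLD]**. -/
theorem sq_of_toricOld (EC : MCtx p T θ rbar0) (H : ToricOldStmt) : SqStmt p T θ := by
  intro L' q _ _ hq hqp h4 hqL hT h0 h1
  have hp : p.Prime := Fact.out
  by_contra hne
  obtain ⟨A, hA⟩ := Fermat.Agent.S54.exists_liesOverPrime hq
  have hq2 : q ≠ 2 := by
    rintro rfl
    exact hqL (dvd_trans (by norm_num) h4)
  have h49 : Fermat.Agent.RED.aux q ∣ L' := by
    unfold Fermat.Agent.RED.aux
    rw [if_neg hq2]
    exact h4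
  have hT2 : ∀ r : ℕ, r.Prime → r ∣ L' * q * q * p → r ∈ T := by
    intro r hr hd
    refine hT r hr ?_
    rcases (Nat.Prime.dvd_mul hr).1 hd with h | h
    · rcases (Nat.Prime.dvd_mul hr).1 h with h | h
      · exact h.mul_right p
      · exact ((h.mul_left L')).mul_right p
    · exact h.mul_left _
  -- [FIX]
  obtain ⟨x, hx, hx0, hI⟩ := exists_fixed_ne_zero_WS (A.inertiaSubgroupIn ℚ)
    (fun τ hτ => exists_pow_smul_eq τ fun x hx =>
      inertia_unip_M EC hT2 hq hqp hA hτ hx.1) hne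
  -- [KEY2]
  let C : S36.Ctx := ctrlCtx L' q (NeZero.ne L') hq hqL A hA
  have hm : p.Coprime q := (Nat.coprime_primes hp hq).2 (Ne.symm hqp)
  obtain ⟨l₀, -, hl₀T, hl₀⟩ := EC.nonEis T 1 one_pos
  have hnd : ∀ r : Nat.Primes, (r : ℕ) ∉ (↑T : Set ℕ) → ¬ (r : ℕ) ∣ L' * q * q := fun r hr hd =>
    hr (by exact_mod_cast hT2 r r.2 (hd.mul_right p))
  have hkap : Kap C p x 0 := key2 (C := C) h49 hp (Ne.symm hqp) (↑T : Set ℕ) θ
    (fun r hrN y hy hyI => kap_eis (C := C) r h49 (liftTors C (rigid_of_aux_dvd h49) hm)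
      hp.ne_zero hrN y hy hyI)
    (fun r hr y z hyz => kap_hecke (C := C) h49 r (hnd r hr) hyz)
    l₀ hl₀T (hnd l₀ hl₀T) hl₀ h0 hx hI
  -- [TORIC-OLD], [PROJ]
  obtain ⟨x', x'', hx', hx'', e⟩ := H C h49 p hp (Ne.symm hqp) x hkap
  obtain ⟨y', hy', y'', hy'', e'⟩ := proj_old (M := L' * q) (q := q) (↑T : Set ℕ)
    (fun r hr hrT hd => hrT (by exact_mod_cast hT2 r hr hd)) hx hx' hx'' e
  rw [h1, AddSubgroup.mem_bot] at hy' hy''
  rw [hy', hy'', map_zero, map_zero, add_zero] at e'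
  exact hx0 e'

end Fermat.Agent.ML.Low
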