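import Fermat.Agent.ML.Low.NodesRho
import Fermat.Agent.ML.Low.Gr0.All

/-!
# ML / LOWER(A) : `[NODES]`, `[TORIC-OLD]` and `[SQ]`, unconditional

Self-contained; the names are disjoint from those of `ML/Low/NodesFin.lean` (`nodesStmt`, `sqStmt`).
-/

set_option autoImplicit false
set_option linter.unusedSectionVars false

noncomputable section

namespace Fermat.Agent.ML.Low

/-- **[NODES]** -/
theorem nodesStmtSq : NodesStmt := fun C h49 n hn => NodesAbs.nodes_card' C h49 n hn

/-- **[TORIC-OLD]** -/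
theorem toricOldStmt : ToricOldStmt := toricOld_of nodesStmtSq gr0All

/-- **[SQ]** = LOWER(A). -/
theorem sq {p : ℕ} [Fact p.Prime] {T : Finset ℕ} {θ : ℕ → ℤ}
    {rbar0 : (AlgebraicClosure ℚ ≃ₐ[ℚ] AlgebraicClosure ℚ) →* Matrix (Fin 2) (Fin 2) (ZMod p)}
    (EC : MCtx p T θ rbar0) : SqStmt p T θ :=
  sq_of_nodes EC nodesStmtSq

end Fermat.Agent.ML.Low
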