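import Fermat.Agent.ML.Low.Datum2
import Fermat.Agent.ML.Low.DatBridge
import Fermat.Agent.S36.Abs.Steps

/-!
# ML / LOWER(A) : `[LOW-UP]`  toric functions at level `M q²` are old ("upstairs only" form)

`D : S36.GeomDatum R K F` (three components, all the intersection points are triple points), `N : S36.NormDatum D F'`.
`TT D` = the triple points of the first chart.  A function `a ∈ F` is toric (`Tor D p a`) if `a ≡ 1` on the three components and
`p ∣ div a` on the generic fibre.  Its data `E a i j : TT D → ℤ/p` (helper88's `expo`) are additive in `a`, constant if `a = c w ^ p`, and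
`a = c w ^ p` if `E a 0 1` and `E a 1 2` are constant.

`toric_old_core`: if the group `X'` of toric classes downstairs has at least `p ^ (n - 1)` elements, `#TT ≤ n`, the two pull-backs are
injective on `X'` and the datum `(0,1)` of `α g'`, resp. `(1,2)` of `β g'`, is trivial, then every toric function upstairs is
`c * α g' * β g'' * w ^ p`.
-/

set_option autoImplicit false
set_option linter.unusedSectionVars false

namespace Fermat.Agent.ML.Low.Up

open Fermat.Agent.S36 Fermat.Agent.S36.GlueAux Fermat.Agent.S36.TrivialAux Fermat.Agent.S45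

/-- the counting argument -/
theorem count_surj {p : ℕ} (hp : p.Prime) {T : Type*} [Finite T] [Nonempty T] {X : Type*}
    [AddCommGroup X] [Finite X] {n : ℕ} (hn : Nat.card T ≤ n) (hcard : p ^ (n - 1) ≤ Nat.card X)
    (d : X → T → ZMod p)
    (hadd : ∀ x y, ∃ c : ZMod p, d (x + y) = d x + d y + fun _ => c)
    (hinj : ∀ x (c : ZMod p), (d x = fun _ => c) → x = 0) (f : T → ZMod p) :
    ∃ (x : X) (c : ZMod p), d x + (fun _ => c) = f := by
  have : NeZero p := ⟨hp.ne_zero⟩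
  set Φ : X × ZMod p → (T → ZMod p) := fun a => d a.1 + fun _ => a.2 with hΦdef
  have hΦ : Function.Injective Φ := by
    rintro ⟨x, c⟩ ⟨y, c'⟩ h
    obtain ⟨c₀, h₀⟩ := hadd (x - y) y
    rw [sub_add_cancel] at h₀
    have hz : x - y = 0 := hinj (x - y) (c' - c - c₀) (by
      funext τ
      have h1 := congrFun h τ
      have h2 := congrFun h₀ τ
      simp only [hΦdef, Pi.add_apply] at h1 h2
      linear_combination h1 - h2)
    have hxy : x = y := sub_eq_zero.1 hz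
    subst hxy
    have h1 := congrFun h (Classical.arbitrary T)
    simp only [hΦdef, Pi.add_apply] at h1
    rw [add_left_cancel h1]
  have hn1 : 1 ≤ n := le_trans (Nat.succ_le_of_lt Nat.card_pos) hn
  have hc : Nat.card (T → ZMod p) ≤ Nat.card (X × ZMod p) := by
    rw [Nat.card_fun, Nat.card_prod, Nat.card_zmod]
    calc p ^ Nat.card T ≤ p ^ n := Nat.pow_le_pow_right hp.pos hn
      _ = p ^ (n - 1) * p := by rw [← pow_succ, Nat.sub_add_cancel hn1]
      _ ≤ Nat.card X * p := Nat.mul_le_mul_right _ hcard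
  obtain ⟨⟨x, c⟩, hx⟩ := (hΦ.bijective_of_nat_card_le hc).2 f
  exact ⟨x, c, hx⟩

theorem hor_inv {K F : Type*} [Field K] [Field F] [Algebra K F] {p : ℕ} {a : F}
    (ha : Hor K p a) : Hor K p a⁻¹ := by
  intro W hW
  obtain ⟨x, hx0, hx⟩ := ha W hW
  refine ⟨x⁻¹, inv_ne_zero hx0, ?_⟩
  have : x⁻¹ ^ p * a⁻¹ = (x ^ p * a)⁻¹ := by rw [mul_inv, inv_pow]
  rw [this, map_inv₀, hx, inv_one]

theorem hor_one {K F : Type*} [Field K] [Field F] [Algebra K F] (p : ℕ) : Hor K p (1 : F) :=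
  fun W _ => ⟨1, one_ne_zero, by simp⟩

variable {R K F : Type*} [CommRing R] [IsDomain R] [IsDiscreteValuationRing R]
    [Field K] [Algebra R K] [IsFractionRing R K]
    [Field F] [CharZero F] [Algebra R F] [Algebra K F] [IsScalarTower R K F]

/-- the triple points of the first chart -/
abbrev TT (D : GeomDatum R K F) : Type _ :=
  {mm : Ideal (intCl R D.t) // mm.IsMaximal ∧ ∀ l, D.sys.p l ≤ mm}

/-- toric functions -/
def Tor (D : GeomDatum R K F) (p : ℕ) (a : F) : Prop :=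
  (∀ i, (D.O i).valuation (a - 1) < 1) ∧ Hor K p a

variable {D : GeomDatum R K F} {p : ℕ} {a b : F}

namespace Tor

theorem one : Tor D p 1 := ⟨fun i => by simp, hor_one p⟩

theorem mul (ha : Tor D p a) (hb : Tor D p b) : Tor D p (a * b) :=
  ⟨fun i => val_mul_sub_one (ha.1 i) (hb.1 i), Dat.hor_mul ha.2 hb.2⟩

theorem inv (ha : Tor D p a) : Tor D p a⁻¹ := by
  refine ⟨fun i => ?_, hor_inv ha.2⟩
  have h1 : (D.O i).valuation (1 - a) < 1 := by
    rw [← Valuation.map_neg, neg_sub]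
    exact ha.1 i
  have := diff_val_div_sub_one (comp_aux_val_f (ha.1 i)) h1
  rwa [one_div] at this

theorem ne_zero (ha : Tor D p a) : a ≠ 0 := by
  rintro rfl
  have := comp_aux_val_f (ha.1 0)
  rw [map_zero] at this
  exact zero_ne_one this

theorem exists_triv (hp0 : p ≠ 0) (ha : Tor D p a) (i : Fin 3) : ∃ u, Triv D.sys p a i u :=
  D.exists_comp hp0 ha.1 ha.2 i

theorem exists_ratio (hpR : IsUnit ((p : ℕ) : R)) {ζ : R} (hζ : IsPrimitiveRoot ζ p)
    (ha : Tor D p a) (i j : Fin 3) (𝔪 : Ideal (intCl R D.t)) (h𝔪 : 𝔪.IsPrime)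
    (hi : D.sys.p i ≤ 𝔪) (hj : D.sys.p j ≤ 𝔪) : ∃ k : ℕ, Ratio D.sys p a i j 𝔪 (ζ ^ k) := by
  have hp0 : p ≠ 0 := by
    rintro rfl
    simp at hpR
  obtain ⟨u, hu⟩ := ha.exists_triv hp0 i
  obtain ⟨u', hu'⟩ := ha.exists_triv hp0 j
  exact Low.exists_ratio hpR hζ ha.1 h𝔪 hi hj hu hu'

end Tor

/-- the datum of `a` between the components `i` and `j`, as a function on the triple points -/
noncomputable def E (D : GeomDatum R K F) (p : ℕ) (ζ : R) (a : F) (i j : Fin 3) : TT D → ZMod p :=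
  fun mm => expo D.sys p ζ a i j mm.1

variable {ζ : R}

theorem E_mul (hpR : IsUnit ((p : ℕ) : R)) (hζ : IsPrimitiveRoot ζ p) (ha : Tor D p a)
    (hb : Tor D p b) (i j : Fin 3) : E D p ζ (a * b) i j = E D p ζ a i j + E D p ζ b i j := by
  funext mm
  have hpr := mm.2.1.isPrime
  exact expo_mul hpR hζ ha.1 hb.1 hpr (mm.2.2 i) (mm.2.2 j)
    (ha.exists_ratio hpR hζ i j _ hpr (mm.2.2 i) (mm.2.2 j))
    (hb.exists_ratio hpR hζ i j _ hpr (mm.2.2 i) (mm.2.2 j))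

theorem E_one (hpR : IsUnit ((p : ℕ) : R)) (hζ : IsPrimitiveRoot ζ p) (i j : Fin 3) :
    E D p ζ 1 i j = 0 := by
  funext mm
  exact expo_one hpR hζ mm.2.1.isPrime (mm.2.2 i) (mm.2.2 j)

theorem E_inv (hpR : IsUnit ((p : ℕ) : R)) (hζ : IsPrimitiveRoot ζ p) (ha : Tor D p a)
    (i j : Fin 3) : E D p ζ a⁻¹ i j = - E D p ζ a i j := by
  have h1 := E_mul hpR hζ ha ha.inv i j
  rw [mul_inv_cancel₀ ha.ne_zero, E_one hpR hζ] at h1
  exact (neg_eq_of_add_eq_zero_right h1.symm).symm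

/-- a trivial class has constant data -/
theorem E_trivial (hpR : IsUnit ((p : ℕ) : R)) (hζ : IsPrimitiveRoot ζ p)
    (hk : ∀ r : R, IsUnit r → ∃ s : R, r - s ^ p ∈ Ideal.span {((D.q : ℕ) : R)})
    {c : K} {w : F} (h : Tor D p (algebraMap K F c * w ^ p)) :
    ∃ b : Fin 3 → ZMod p, ∀ i j, E D p ζ (algebraMap K F c * w ^ p) i j = fun _ => b j - b i := by
  obtain ⟨b, hb⟩ := expo_of_trivial D.irr D.sys hpR hζ hk 0 rfl h.1
  exact ⟨b, fun i j => funext fun mm => hb i j mm.1 mm.2.1.isPrime (mm.2.2 i) (mm.2.2 j)⟩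

/-- constant data ⟹ trivial class -/
theorem trivial_of_E (hpR : IsUnit ((p : ℕ) : R)) (hζ : IsPrimitiveRoot ζ p) (ha : Tor D p a)
    (c01 c12 : ZMod p) (h01 : E D p ζ a 0 1 = fun _ => c01) (h12 : E D p ζ a 1 2 = fun _ => c12) :
    ∃ (c : K) (w : F), c ≠ 0 ∧ w ≠ 0 ∧ a = algebraMap K F c * w ^ p := by
  have hp0 : p ≠ 0 := by
    rintro rfl
    simp at hpR
  have hv : ∀ i, (D.O i).valuation a = 1 := fun i => comp_aux_val_f (ha.1 i)
  set b : Fin 3 → ZMod p := ![0, c01, c01 + c12] with hb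
  have hglue : GluedK D.sys p a (fun i => ζ ^ (-(b i)).val) := by
    refine gluedK_of_expo hpR hζ ha.1
      (fun i j 𝔪 h𝔪 hi hj => ha.exists_ratio hpR hζ i j 𝔪 h𝔪.isPrime hi hj) b ?_
    intro i j hij 𝔪 h𝔪 hi hj
    have hall := D.triple 𝔪 h𝔪 i j hij hi hj
    have hpr := h𝔪.isPrime
    have e01 : expo D.sys p ζ a 0 1 𝔪 = c01 := congrFun h01 ⟨𝔪, h𝔪, hall⟩
    have e12 : expo D.sys p ζ a 1 2 𝔪 = c12 := congrFun h12 ⟨𝔪, h𝔪, hall⟩
    have tr : ∀ i j l : Fin 3, expo D.sys p ζ a i l 𝔪 =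
        expo D.sys p ζ a i j 𝔪 + expo D.sys p ζ a j l 𝔪 := fun i j l =>
      expo_trans hpR hζ ha.1 hpr (hall i) (hall j) (hall l)
        (ha.exists_ratio hpR hζ i j 𝔪 hpr (hall i) (hall j))
        (ha.exists_ratio hpR hζ j l 𝔪 hpr (hall j) (hall l))
    have hy : ∀ l, expo D.sys p ζ a 0 l 𝔪 = b l := by
      intro l
      fin_cases l
      · have := tr 0 0 0
        simpa [hb] using this
      · simpa [hb] using e01
      · have := tr 0 1 2
        rw [e01, e12] at this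
        simpa [hb] using this
    rw [← hy j, ← hy i, tr 0 i j]
    ring
  obtain ⟨c, w, hc, hw, e⟩ := trivial_of_gluedK D.irr D.sys D.glob D.ded₁ D.ded₂ hpR ζ hζ ha.1
    (D.ld₁ hp0 hv ha.2) (D.ld₂ hp0 hv ha.2) _
    (fun i => by rw [← pow_mul, mul_comm, pow_mul, hζ.pow_eq_one, one_pow]) hglue
    (fun i j hij 𝔪 h𝔪 hi hj _ _ _ _ _ _ => (D.disj₂ 𝔪 h𝔪 i j hij hi hj).elim)
  refine ⟨algebraMap R K c, w, ?_, hw, ?_⟩
  · rw [Ne, map_eq_zero_iff _ (IsFractionRing.injective R K)]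
    exact hc
  · rw [← IsScalarTower.algebraMap_apply R K F]
    exact e

/-- a trivial datum in the sense of `Dat.DatAt` -/
theorem E_eq_zero_of_datAt (hpR : IsUnit ((p : ℕ) : R)) (hζ : IsPrimitiveRoot ζ p)
    (ha : Tor D p a) (i j : Fin 3)
    (h : ∀ mm : Ideal (intCl R D.t), mm.IsMaximal → (∀ l, D.sys.p l ≤ mm) →
      Dat.DatAt (intCl R D.t) p a mm (D.O i) (D.O j) 1) : E D p ζ a i j = 0 := by
  have hp0 : p ≠ 0 := by
    rintro rfl
    simp at hpR
  funext mm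
  have h1 : Ratio D.sys p a i j mm.1 (ζ ^ 0) := by
    rw [pow_zero]
    refine ratio_of_datAt (ha.exists_triv hp0 i) (ha.exists_triv hp0 j) ?_
    rw [map_one]
    exact h mm.1 mm.2.1 mm.2.2
  have := expo_eq_of_ratio hpR hζ ha.1 mm.2.1.isPrime (mm.2.2 i) (mm.2.2 j) h1
  rw [Nat.cast_zero] at this
  exact this

section Main

variable {F' : Type*} [Field F'] [Algebra R F'] [Algebra K F'] [IsScalarTower R K F']

/-- toric functions downstairs -/
def Tor' (N : NormDatum D F') (p : ℕ) (g : F') : Prop :=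
  (∀ j, (N.O' j).valuation (g - 1) < 1) ∧ Hor K p g

theorem Tor'.α {N : NormDatum D F'} {g : F'} (h : Tor' N p g) : Tor D p (N.α g) :=
  ⟨fun i => Dat.val_map_sub_one (N.comap_α i) (h.1 _), Dat.hor_map N.α h.2⟩

theorem Tor'.β {N : NormDatum D F'} {g : F'} (h : Tor' N p g) : Tor D p (N.β g) :=
  ⟨fun i => Dat.val_map_sub_one (N.comap_β i) (h.1 _), Dat.hor_map N.β h.2⟩

/-- the data of the pull-backs are additive modulo constants -/
theorem quasi_add (hpR : IsUnit ((p : ℕ) : R)) (hζ : IsPrimitiveRoot ζ p)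
    (hk : ∀ r : R, IsUnit r → ∃ s : R, r - s ^ p ∈ Ideal.span {((D.q : ℕ) : R)})
    (γ : F' →ₐ[K] F) {g₁ g₂ g₃ : F'} (h₁ : Tor D p (γ g₁)) (h₂ : Tor D p (γ g₂))
    (h₃ : Tor D p (γ g₃)) {c : K} {w : F'} (e : g₃ = algebraMap K F' c * (g₁ * g₂) * w ^ p)
    (i j : Fin 3) :
    ∃ c' : ZMod p, E D p ζ (γ g₃) i j = E D p ζ (γ g₁) i j + E D p ζ (γ g₂) i j + fun _ => c' := by
  have e1 : γ g₃ = algebraMap K F c * γ w ^ p * (γ g₁ * γ g₂) := by
    rw [e, map_mul, map_mul, map_mul, map_pow, AlgHom.commutes]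
    ring
  have h12 : Tor D p (γ g₁ * γ g₂) := h₁.mul h₂
  have e2 : algebraMap K F c * γ w ^ p = γ g₃ * (γ g₁ * γ g₂)⁻¹ := by
    rw [e1, mul_assoc, mul_inv_cancel₀ h12.ne_zero, mul_one]
  have h0 : Tor D p (algebraMap K F c * γ w ^ p) := by
    rw [e2]
    exact h₃.mul h12.inv
  obtain ⟨b, hb⟩ := E_trivial (ζ := ζ) hpR hζ hk h0
  refine ⟨b j - b i, ?_⟩
  rw [e1, E_mul hpR hζ h0 h12, E_mul hpR hζ h₁ h₂, hb i j]
  abel

/-- **[LOW-UP]**, core: every toric function upstairs is old. -/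
theorem toric_old_core (N : NormDatum D F') (hp : p.Prime) (hpR : IsUnit ((p : ℕ) : R))
    (hζ : IsPrimitiveRoot ζ p)
    (hk : ∀ r : R, IsUnit r → ∃ s : R, r - s ^ p ∈ Ideal.span {((D.q : ℕ) : R)})
    (hU1 : ∀ g' : F', (∀ j, (N.O' j).valuation (g' - 1) < 1) → Hor K p g' →
      ∀ mm : Ideal (intCl R D.t), mm.IsMaximal → (∀ l, D.sys.p l ≤ mm) →
        Dat.DatAt (intCl R D.t) p (N.α g') mm (D.O 0) (D.O 1) 1)
    (hU2 : ∀ g' : F', (∀ j, (N.O' j).valuation (g' - 1) < 1) → Hor K p g' →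
      ∀ mm : Ideal (intCl R D.t), mm.IsMaximal → (∀ l, D.sys.p l ≤ mm) →
        Dat.DatAt (intCl R D.t) p (N.β g') mm (D.O 1) (D.O 2) 1)
    (n : ℕ) (hfin : Finite {mm : Ideal (intCl R D.t) // mm.IsMaximal ∧ ∀ l, D.sys.p l ≤ mm})
    (hn : Nat.card {mm : Ideal (intCl R D.t) // mm.IsMaximal ∧ ∀ l, D.sys.p l ≤ mm} ≤ n)
    (X' : Type*) [AddCommGroup X'] [Finite X'] (Rel : X' → F' → Prop) (hzero : Rel 0 1)
    (hex : ∀ x, ∃ g, Rel x g ∧ (∀ j, (N.O' j).valuation (g - 1) < 1) ∧ Hor K p g)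
    (hadd : ∀ x y g h, Rel x g → Rel y h → Rel (x + y) (g * h))
    (huniq : ∀ x g h, Rel x g → Rel x h →
      ∃ (c : K) (w : F'), c ≠ 0 ∧ w ≠ 0 ∧ g = algebraMap K F' c * h * w ^ p)
    (hinja : ∀ x g, Rel x g →
      (∃ (c : K) (w : F), c ≠ 0 ∧ w ≠ 0 ∧ N.α g = algebraMap K F c * w ^ p) → x = 0)
    (hinjb : ∀ x g, Rel x g →
      (∃ (c : K) (w : F), c ≠ 0 ∧ w ≠ 0 ∧ N.β g = algebraMap K F c * w ^ p) → x = 0)
    (hcard : p ^ (n - 1) ≤ Nat.card X')
    {g : F} (hg : ∀ i, (D.O i).valuation (g - 1) < 1) (hhor : Hor K p g) :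
    ∃ (x' x'' : X') (g' g'' : F') (c : K) (w : F), Rel x' g' ∧ Rel x'' g'' ∧
      (∀ j, (N.O' j).valuation (g' - 1) < 1) ∧ Hor K p g' ∧
      (∀ j, (N.O' j).valuation (g'' - 1) < 1) ∧ Hor K p g'' ∧ c ≠ 0 ∧ w ≠ 0 ∧
      g = algebraMap K F c * N.α g' * N.β g'' * w ^ p := by
  have hgT : Tor D p g := ⟨hg, hhor⟩
  choose G hG1 hG2 hG3 using hex
  have hGT : ∀ x, Tor' N p (G x) := fun x => ⟨hG2 x, hG3 x⟩
  have hA01 : ∀ x, E D p ζ (N.α (G x)) 0 1 = 0 := fun x =>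
    E_eq_zero_of_datAt hpR hζ (hGT x).α 0 1 (hU1 _ (hG2 x) (hG3 x))
  have hB12 : ∀ x, E D p ζ (N.β (G x)) 1 2 = 0 := fun x =>
    E_eq_zero_of_datAt hpR hζ (hGT x).β 1 2 (hU2 _ (hG2 x) (hG3 x))
  rcases isEmpty_or_nonempty (TT D) with hE | hNE
  · obtain ⟨c, w, hc, hw, e⟩ := trivial_of_E (ζ := ζ) hpR hζ hgT 0 0
      (funext fun mm => (hE.false mm).elim) (funext fun mm => (hE.false mm).elim)
    refine ⟨0, 0, 1, 1, c, w, hzero, hzero, fun j => by simp, hor_one p, fun j => by simp,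
      hor_one p, hc, hw, ?_⟩
    rw [map_one, map_one, mul_one, mul_one]
    exact e
  · have : Finite (TT D) := hfin
    obtain ⟨x', c₁, h₁⟩ := count_surj hp hn hcard (fun x => E D p ζ (N.α (G x)) 1 2)
      (fun x y => by
        obtain ⟨c, w, -, -, e⟩ := huniq _ _ _ (hG1 (x + y)) (hadd _ _ _ _ (hG1 x) (hG1 y))
        exact quasi_add hpR hζ hk N.α (hGT x).α (hGT y).α (hGT (x + y)).α e 1 2)
      (fun x c hx => hinja x _ (hG1 x)
        (trivial_of_E hpR hζ (hGT x).α 0 c (hA01 x) hx)) (E D p ζ g 1 2)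
    obtain ⟨x'', c₂, h₂⟩ := count_surj hp hn hcard (fun x => E D p ζ (N.β (G x)) 0 1)
      (fun x y => by
        obtain ⟨c, w, -, -, e⟩ := huniq _ _ _ (hG1 (x + y)) (hadd _ _ _ _ (hG1 x) (hG1 y))
        exact quasi_add hpR hζ hk N.β (hGT x).β (hGT y).β (hGT (x + y)).β e 0 1)
      (fun x c hx => hinjb x _ (hG1 x)
        (trivial_of_E hpR hζ (hGT x).β c 0 hx (hB12 x))) (E D p ζ g 0 1)
    have hα := (hGT x').α
    have hβ := (hGT x'').β
    have hT1 : Tor D p (g * (N.α (G x'))⁻¹) := hgT.mul hα.inv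
    have hT : Tor D p (g * (N.α (G x'))⁻¹ * (N.β (G x''))⁻¹) := hT1.mul hβ.inv
    obtain ⟨c, w, hc, hw, e⟩ := trivial_of_E (ζ := ζ) hpR hζ hT c₂ c₁
      (by
        rw [E_mul hpR hζ hT1 hβ.inv, E_mul hpR hζ hgT hα.inv, E_inv hpR hζ hα, E_inv hpR hζ hβ,
          hA01, ← h₂]
        simp)
      (by
        rw [E_mul hpR hζ hT1 hβ.inv, E_mul hpR hζ hgT hα.inv, E_inv hpR hζ hα, E_inv hpR hζ hβ,
          hB12, ← h₁]
        simp)
    refine ⟨x', x'', G x', G x'', c, w, hG1 x', hG1 x'', hG2 x', hG3 x', hG2 x'', hG3 x'', hc, hw,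
      ?_⟩
    have h1 := hα.ne_zero
    have h2 := hβ.ne_zero
    field_simp at e
    rw [e]
    ring

end Main

end Fermat.Agent.ML.Low.Up
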