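import Fermat.Agent.ML.Low.Up
import Fermat.Agent.ML.Low.PullOne

/-!
# ML / LOWER(A) : `[LOW-UP]`  `toric_old_up` = `Up.toric_old_core` + `Dat.datAt_alpha` + `Dat.datAt_beta`
-/

set_option autoImplicit false
set_option linter.unusedSectionVars false

namespace Fermat.Agent.ML.Low.Up

open Fermat.Agent.S36 Fermat.Agent.S45

variable {R K F : Type*} [CommRing R] [IsDomain R] [IsDiscreteValuationRing R]
    [Field K] [Algebra R K] [IsFractionRing R K]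
    [Field F] [CharZero F] [Algebra R F] [Algebra K F] [IsScalarTower R K F]
    {D : GeomDatum R K F} {F' : Type*} [Field F'] [Algebra R F'] [Algebra K F']
    [IsScalarTower R K F']

/-- **[TORIC-OLD]**, "upstairs only" form. -/
theorem toric_old_up (N : NormDatum D F') (hNa : ∀ y, N.Nα (N.α y) = y ^ D.q)
    (hNb : ∀ y, N.Nβ (N.β y) = y ^ D.q) {p : ℕ} (hp : p.Prime) (hpR : IsUnit ((p : ℕ) : R))
    {ζ : R} (hζ : IsPrimitiveRoot ζ p)
    (hk : ∀ r : R, IsUnit r → ∃ s : R, r - s ^ p ∈ Ideal.span {((D.q : ℕ) : R)})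
    (n : ℕ) (hfin : Finite {mm : Ideal (intCl R D.t) // mm.IsMaximal ∧ ∀ l, D.sys.p l ≤ mm})
    (hn : Nat.card {mm : Ideal (intCl R D.t) // mm.IsMaximal ∧ ∀ l, D.sys.p l ≤ mm} ≤ n)
    (X' : Type*) [AddCommGroup X'] [Finite X'] (Rel : X' → F' → Prop) (hzero : Rel 0 1)
    (hex : ∀ x, ∃ g, Rel x g ∧ (∀ j, (N.O' j).valuation (g - 1) < 1) ∧ Hor K p g)
    (hadd : ∀ x y g h, Rel x g → Rel y h → Rel (x + y) (g * h))
    (huniq : ∀ x g h, Rel x g → Rel x h →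
      ∃ (c : K) (w : F'), c ≠ 0 ∧ w ≠ 0 ∧ g = algebraMap K F' c * h * w ^ p)
    (hinja : ∀ x g, Rel x g →
      (∃ (c : K) (w : F), c ≠ 0 ∧ w ≠ 0 ∧ N.α g = algebraMap K F c * w ^ p) → x = 0)
    (hinjb : ∀ x g, Rel x g →
      (∃ (c : K) (w : F), c ≠ 0 ∧ w ≠ 0 ∧ N.β g = algebraMap K F c * w ^ p) → x = 0)
    (hcard : p ^ (n - 1) ≤ Nat.card X')
    {g : F} (hg : ∀ i, (D.O i).valuation (g - 1) < 1) (hhor : Hor K p g) :
    ∃ (x' x'' : X') (g' g'' : F') (c : K) (w : F), Rel x' g' ∧ Rel x'' g'' ∧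
      (∀ j, (N.O' j).valuation (g' - 1) < 1) ∧ Hor K p g' ∧
      (∀ j, (N.O' j).valuation (g'' - 1) < 1) ∧ Hor K p g'' ∧ c ≠ 0 ∧ w ≠ 0 ∧
      g = algebraMap K F c * N.α g' * N.β g'' * w ^ p :=
  toric_old_core N hp hpR hζ hk
    (fun _ hg' _ mm hmm hall =>
      have := hmm.isPrime
      Dat.datAt_alpha N hNa hpR (hall 0) (hall 1) (hg' 0))
    (fun _ hg' _ mm hmm hall =>
      have := hmm.isPrime
      Dat.datAt_beta N hNb hpR (hall 1) (hall 2) (hg' 1))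
    n hfin hn X' Rel hzero hex hadd huniq hinja hinjb hcard hg hhor

end Fermat.Agent.ML.Low.Up
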